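import Mathlib

set_option autoImplicit false
set_option linter.style.haveILetI false

noncomputable section

open IntermediateField

namespace RH24

section A0

universe u v

variable {K : Type u} {F : Type v} [Field K] [Field F] [Algebra K F]

open IntermediateField.algebraAdjoinAdjoin in
/-- `F` is algebraic over the subalgebra `K[y]` when `F` is finite over `K(y)`. -/
theorem h5a_isAlgebraic_adjoin (y : F) [FiniteDimensional K⟮y⟯ F] :
    Algebra.IsAlgebraic (Algebra.adjoin K {y}) F := by
  have h1 : Algebra.IsAlgebraic K⟮y⟯ F := Algebra.IsAlgebraic.of_finite _ _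
  exact (IsFractionRing.comap_isAlgebraic_iff (A := Algebra.adjoin K {y}) (K := K⟮y⟯)).mpr h1

/-- transcendence degree of `F/K` is at most one. -/
theorem h5a_trdeg_le_one (y : F) [FiniteDimensional K⟮y⟯ F] :
    Algebra.trdeg K F ≤ 1 := by
  have := h5a_isAlgebraic_adjoin (K := K) y
  have := Algebra.IsAlgebraic.trdeg_le_cardinalMk K ({y} : Set F)
  simpa using this

/-- `F` is algebraic over `K(f)` for any transcendental `f`. -/
theorem h5a_isAlgebraic_of_transcendental (y : F) [FiniteDimensional K⟮y⟯ F]
    (f : F) (hf : Transcendental K f) : Algebra.IsAlgebraic K⟮f⟯ F := by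
  have hind : AlgebraicIndependent K (fun _ : PUnit.{v+1} => f) :=
    (algebraicIndependent_unique_type_iff (ι := PUnit.{v+1}) (x := fun _ => f)).mpr hf
  have hle : Algebra.trdeg K F ≤ Cardinal.mk PUnit.{v+1} := by
    simpa using h5a_trdeg_le_one (K := K) y
  have hb : IsTranscendenceBasis K (fun _ : PUnit.{v+1} => f) :=
    hind.isTranscendenceBasis_of_trdeg_le_of_finite hle
  have := hb.isAlgebraic_field
  have hr : Set.range (fun _ : PUnit.{v+1} => f) = {f} := by
    ext x; simp [eq_comm]
  rwa [hr] at this

/-- A0 (exchange): if `F` is finite over `K(y)` and `f` is transcendental over `K`,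
then `F` is finite over `K(f)`. -/
theorem h5a_finiteDimensional (y : F) [FiniteDimensional K⟮y⟯ F]
    (f : F) (hf : Transcendental K f) : FiniteDimensional K⟮f⟯ F := by
  have halg : Algebra.IsAlgebraic K⟮f⟯ F := h5a_isAlgebraic_of_transcendental y f hf
  -- M = K(f)(y)
  let M : IntermediateField K⟮f⟯ F := K⟮f⟯⟮y⟯
  have hyM : IsIntegral K⟮f⟯ y := (halg.isAlgebraic y).isIntegral
  have hM : FiniteDimensional K⟮f⟯ M := IntermediateField.adjoin.finiteDimensional hyM
  -- K(y) ≤ M
  have hle : K⟮y⟯ ≤ M.restrictScalars K := by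
    rw [IntermediateField.adjoin_le_iff]
    rintro x hx
    rw [Set.mem_singleton_iff] at hx
    subst hx
    exact IntermediateField.mem_adjoin_simple_self K⟮f⟯ x
  letI : Algebra K⟮y⟯ M := (IntermediateField.inclusion hle).toRingHom.toAlgebra
  haveI : IsScalarTower K⟮y⟯ M F := IsScalarTower.of_algebraMap_eq (fun _ => rfl)
  have hF : FiniteDimensional M F := FiniteDimensional.right K⟮y⟯ M F
  exact FiniteDimensional.trans K⟮f⟯ M F

end A0

section A0'

variable {K F : Type*} [Field K] [Field F] [Algebra K F]

/-- A0 (small; exchange: y is algebraic over K(f)) -/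
theorem finiteDimensional_adjoin_of_transcendental (y : F) [FiniteDimensional K⟮y⟯ F]
    (f : F) (hf : Transcendental K f) : FiniteDimensional K⟮f⟯ F :=
  h5a_finiteDimensional y f hf

end A0'

end RH24
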