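/-
T-RH (S24), helper20: the CONTRACT between Layer A (algebra: places, Riemann-Hurwitz) and
Layer B (analysis on the upper half plane).  Definitions only.
-/
import Mathlib
import Fermat.Prelude.Def_ModularCurve_ArithmeticGalois
import Fermat.Prelude.Def_ModularCurve_GenusNumerics
import Fermat.Prelude.Def_AlgebraicCurve_CanonicalDivisor

set_option autoImplicit false

noncomputable section

open scoped WithZero

namespace RH24

/-- Local uniformisation data at the zero of `z : F`: a valued field `E`, a family of
embeddings `σ x : F →+* E` indexed by `X`, pairwise distinct, all agreeing on `K` and at `z`,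
with `w (σ x z) < 1`, and an equivalence relation `r` on `X` such that
(H1) equivalent indices induce the same valuation on `F`,
(H2) `(size of the class of x) * ord (σ x f)` is a multiple of `ord (σ x z)`. -/
def HasLocalData (K : Type*) {F : Type*} [Field K] [Field F] [Algebra K F] (z : F)
    {X : Type*} (r : Setoid X) : Prop :=
  ∃ (E : Type) (_ : Field E) (w : Valuation E ℤᵐ⁰) (σ : X → F →+* E),
    Function.Injective σ ∧
    (∀ x x' (c : K), σ x (algebraMap K F c) = σ x' (algebraMap K F c)) ∧
    (∀ x (c : K), w (σ x (algebraMap K F c)) ≤ 1) ∧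
    (∀ x x', σ x z = σ x' z) ∧
    (∀ x, w (σ x z) < 1) ∧
    (∀ x x', r x x' → ∀ f, w (σ x f) = w (σ x' f)) ∧
    (∀ x (f : F), f ≠ 0 → ∃ m : ℤ,
      w (σ x f) ^ Nat.card {x' // r x' x} = w (σ x z) ^ m)

/-- `K = ℚ̄` -/
abbrev Kbar : Type := AlgebraicClosure ℚ

/-- the generator `j` of the function field `modularFunctionFieldBar N` -/
def Jbar (N : ℕ) [NeZero N] : ModularCurve.modularFunctionFieldBar N :=
  ⟨ModularCurve.coeffEmb (AlgebraicClosure ℚ) ModularCurve.jq,
    ModularCurve.coeffEmb_mem_laurentBaseChange _ (by
      have h := ModularCurve.jqd_mem_full N (one_dvd N)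
      rwa [ModularCurve.qExpand_one_apply] at h)⟩

theorem coe_Jbar (N : ℕ) [NeZero N] :
    ((Jbar N : ModularCurve.modularFunctionFieldBar N) : LaurentSeries (AlgebraicClosure ℚ))
      = ModularCurve.coeffEmb (AlgebraicClosure ℚ) ModularCurve.jq := rfl

end RH24

end
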