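/-
T-RH (S24), helper20: basic lemmas on places (`AlgebraicCurve.Place`): `ord` versus membership,
ultrametric inequality, the place of a `ℤᵐ⁰`-valued valuation.
-/
import Mathlib
import Fermat.Agent.S24.Contract

set_option autoImplicit false
noncomputable section
open AlgebraicCurve IntermediateField
open scoped WithZero

namespace RH24

section basic
variable {K F : Type*} [Field K] [Field F] [Algebra K F] (v : Place K F)

theorem h20_adicValuation_eq {f : F} (hf : f ≠ 0) :
    v.adicValuation f = WithZero.exp (-(v.ord f)) := by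
  rw [Place.ord, neg_neg, WithZero.exp_log (v.adicValuation_ne_zero hf)]

theorem h20_ord_eq_iff {f : F} (hf : f ≠ 0) (n : ℤ) :
    v.ord f = n ↔ v.adicValuation f = WithZero.exp (-n) := by
  rw [h20_adicValuation_eq v hf]
  constructor
  · rintro rfl; rfl
  · intro h
    have := WithZero.exp_injective h
    omega

theorem h20_adicValuation_le_one_iff {f : F} (hf : f ≠ 0) :
    v.adicValuation f ≤ 1 ↔ 0 ≤ v.ord f := by
  rw [h20_adicValuation_eq v hf, ← WithZero.exp_zero, WithZero.exp_le_exp]
  omega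

theorem h20_adicValuation_lt_one_iff {f : F} (hf : f ≠ 0) :
    v.adicValuation f < 1 ↔ 0 < v.ord f := by
  rw [h20_adicValuation_eq v hf, ← WithZero.exp_zero, WithZero.exp_lt_exp]
  omega

theorem h20_mem_iff_adicValuation_le_one (f : F) :
    f ∈ v.toValuationSubring ↔ v.adicValuation f ≤ 1 := by
  constructor
  · intro h
    have := v.heightOneSpectrum.valuation_le_one (K := F) (⟨f, h⟩ : v.toValuationSubring)
    exact this
  · intro h
    obtain ⟨a, ha⟩ := IsDiscreteValuationRing.exists_lift_of_le_one (A := v.toValuationSubring)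
      (K := F) (x := f) h
    rw [← ha]
    exact a.2

theorem h20_mem_iff_ord_nonneg {f : F} (hf : f ≠ 0) :
    f ∈ v.toValuationSubring ↔ 0 ≤ v.ord f := by
  rw [h20_mem_iff_adicValuation_le_one, h20_adicValuation_le_one_iff v hf]

theorem h20_ord_nonneg_of_mem {f : F} (h : f ∈ v.toValuationSubring) : 0 ≤ v.ord f := by
  rcases eq_or_ne f 0 with rfl | hf
  · simp
  · exact (h20_mem_iff_ord_nonneg v hf).mp h

theorem h20_ord_add {f g : F} (hf : f ≠ 0) (hg : g ≠ 0) (hfg : f + g ≠ 0) :
    min (v.ord f) (v.ord g) ≤ v.ord (f + g) := by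
  have h := v.adicValuation.map_add f g
  rw [h20_adicValuation_eq v hf, h20_adicValuation_eq v hg, h20_adicValuation_eq v hfg] at h
  rcases le_max_iff.mp h with h1 | h1
  · rw [WithZero.exp_le_exp] at h1
    exact (min_le_left _ _).trans (by omega)
  · rw [WithZero.exp_le_exp] at h1
    exact (min_le_right _ _).trans (by omega)

theorem h20_ord_algebraMap (c : K) : v.ord (algebraMap K F c) = 0 := by
  rcases eq_or_ne c 0 with rfl | hc
  · simp
  have hc' : algebraMap K F c ≠ 0 := by simpa using hc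
  have h1 := h20_ord_nonneg_of_mem v (v.algebraMap_mem' c)
  have h2 := h20_ord_nonneg_of_mem v (v.algebraMap_mem' c⁻¹)
  rw [map_inv₀, v.ord_inv] at h2
  omega

/-- strict triangle inequality -/
theorem h20_ord_add_eq_of_lt {f g : F} (hf : f ≠ 0) (hg : g ≠ 0) (h : v.ord f < v.ord g) :
    v.ord (f + g) = v.ord f := by
  have hfg : f + g ≠ 0 := by
    intro h0
    have : g = -f := by linear_combination h0
    rw [this] at h
    have h1 : v.ord (-f) = v.ord f := by
      rw [Place.ord, Place.ord, Valuation.map_neg]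
    omega
  have h1 := h20_ord_add v hf hg hfg
  rw [min_eq_left h.le] at h1
  by_contra hne
  have h2 : v.ord f < v.ord (f + g) := lt_of_le_of_ne h1 (Ne.symm hne)
  have hng : -g ≠ 0 := neg_ne_zero.mpr hg
  have h3 := h20_ord_add v hfg hng (by simpa using hf)
  have h4 : v.ord (-g) = v.ord g := by
    rw [Place.ord, Place.ord, Valuation.map_neg]
  rw [h4] at h3
  have h5 : f + g + -g = f := by ring
  rw [h5] at h3
  have := lt_min h2 h
  omega

end basic

section placeOfVal
variable {K F : Type*} [Field K] [Field F] [Algebra K F]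

theorem h20_nontrivial_valueGroup (w : Valuation F ℤᵐ⁰) (hnt : ∃ f : F, w f ≠ 0 ∧ w f ≠ 1) :
    Nontrivial (MonoidWithZeroHom.valueGroup (.ofClass w)) := by
  obtain ⟨f, hf0, hf1⟩ := hnt
  refine ⟨⟨⟨Units.mk0 (w f) hf0, MonoidWithZeroHom.mem_valueGroup _ ⟨f, rfl⟩⟩, 1, ?_⟩⟩
  intro h
  apply hf1
  have := congrArg (fun x : MonoidWithZeroHom.valueGroup (.ofClass w) => ((x : (ℤᵐ⁰)ˣ) : ℤᵐ⁰)) h
  simpa using this

/-- the place attached to a nontrivial `ℤᵐ⁰`-valued valuation which is trivial on `K` -/
def h20_placeOfVal (w : Valuation F ℤᵐ⁰) (hK : ∀ c : K, w (algebraMap K F c) ≤ 1)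
    (hnt : ∃ f : F, w f ≠ 0 ∧ w f ≠ 1) : Place K F where
  toValuationSubring := w.valuationSubring
  algebraMap_mem' := fun c => (Valuation.mem_valuationSubring_iff _ _).mpr (hK c)
  ne_top' := by
    obtain ⟨f, hf0, hf1⟩ := hnt
    intro htop
    have h1 : f ∈ w.valuationSubring := htop ▸ ValuationSubring.mem_top f
    have h2 : f⁻¹ ∈ w.valuationSubring := htop ▸ ValuationSubring.mem_top _
    rw [Valuation.mem_valuationSubring_iff] at h1 h2
    rw [map_inv₀] at h2
    apply hf1
    apply le_antisymm h1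
    exact (inv_le_one₀ (zero_lt_iff.mpr hf0)).mp h2
  isPrincipalIdealRing' :=
    haveI := h20_nontrivial_valueGroup w hnt
    Valuation.valuationSubring_isPrincipalIdealRing w

@[simp]
theorem h20_placeOfVal_toValuationSubring (w : Valuation F ℤᵐ⁰)
    (hK : ∀ c : K, w (algebraMap K F c) ≤ 1) (hnt : ∃ f : F, w f ≠ 0 ∧ w f ≠ 1) :
    (h20_placeOfVal w hK hnt).toValuationSubring = w.valuationSubring := rfl

/-- a valuation with the same valuation ring as a place is a power of the normalised one -/
theorem h20_val_eq_pow_ord (v : Place K F) (w : Valuation F ℤᵐ⁰)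
    (h : v.toValuationSubring = w.valuationSubring) :
    ∃ e : ℕ, 0 < e ∧ ∀ f : F, f ≠ 0 → w f = WithZero.exp (-(e * v.ord f : ℤ)) := by
  obtain ⟨π, hπ⟩ := IsDiscreteValuationRing.exists_irreducible v.toValuationSubring
  have hπ0 : (π : F) ≠ 0 := by
    simpa [ne_eq, ZeroMemClass.coe_eq_zero] using hπ.ne_zero
  have hunit : ∀ u : v.toValuationSubringˣ, w ((u : v.toValuationSubring) : F) = 1 := by
    intro u
    have h1 : w ((u : v.toValuationSubring) : F) ≤ 1 := by
      rw [← Valuation.mem_valuationSubring_iff, ← h]; exact (u : v.toValuationSubring).2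
    have h2 : w (((u⁻¹ : v.toValuationSubringˣ) : v.toValuationSubring) : F) ≤ 1 := by
      rw [← Valuation.mem_valuationSubring_iff, ← h]
      exact ((u⁻¹ : v.toValuationSubringˣ) : v.toValuationSubring).2
    have h3 : ((u : v.toValuationSubring) : F) *
        (((u⁻¹ : v.toValuationSubringˣ) : v.toValuationSubring) : F) = 1 := by
      rw [← MulMemClass.coe_mul, ← Units.val_mul, mul_inv_cancel]; rfl
    have h4 := congrArg w h3
    rw [map_mul, map_one] at h4
    by_contra hne
    have h5 : w ((u : v.toValuationSubring) : F) < 1 := lt_of_le_of_ne h1 hne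
    have : w ((u : v.toValuationSubring) : F) *
        w (((u⁻¹ : v.toValuationSubringˣ) : v.toValuationSubring) : F) < 1 := by
      calc _ ≤ w ((u : v.toValuationSubring) : F) * 1 := by gcongr
        _ = w ((u : v.toValuationSubring) : F) := mul_one _
        _ < 1 := h5
    rw [h4] at this
    exact lt_irrefl _ this
  have hwπ0 : w (π : F) ≠ 0 := (Valuation.ne_zero_iff _).mpr hπ0
  have hwπ1 : w (π : F) < 1 := by
    have h1 : w (π : F) ≤ 1 := by
      rw [← Valuation.mem_valuationSubring_iff, ← h]; exact π.2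
    refine lt_of_le_of_ne h1 ?_
    intro h1'
    -- then π⁻¹ ∈ O, so π is a unit
    have h2 : (π : F)⁻¹ ∈ v.toValuationSubring := by
      have : (π : F)⁻¹ ∈ w.valuationSubring := by
        rw [Valuation.mem_valuationSubring_iff, map_inv₀, h1', inv_one]
      rw [← h] at this
      exact this
    apply hπ.not_isUnit
    exact ⟨⟨π, ⟨(π : F)⁻¹, h2⟩, Subtype.ext (mul_inv_cancel₀ hπ0),
      Subtype.ext (inv_mul_cancel₀ hπ0)⟩, rfl⟩
  obtain ⟨k, hk⟩ : ∃ k : ℤ, w (π : F) = WithZero.exp k :=
    ⟨WithZero.log (w (π : F)), (WithZero.exp_log hwπ0).symm⟩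
  have hk0 : k < 0 := by
    rw [hk, ← WithZero.exp_zero, WithZero.exp_lt_exp] at hwπ1
    exact hwπ1
  refine ⟨(-k).toNat, by omega, fun f hf => ?_⟩
  obtain ⟨u, hu⟩ := v.exists_unit_mul_zpow hf hπ
  conv_lhs => rw [hu]
  rw [map_mul, hunit u, one_mul, map_zpow₀, hk, ← WithZero.exp_zsmul]
  congr 1
  have : ((-k).toNat : ℤ) = -k := Int.toNat_of_nonneg (by omega)
  rw [this, smul_eq_mul]
  ring

end placeOfVal

end RH24

end
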