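/-
T-RH (S24), helper20: Layer A core.  `z : F` transcendental over `K`, `R = K[z] = Algebra.adjoin K {z}`,
`B = integralClosure R F` (Dedekind).  Places of `F/K` over `z = 0`  <->  primes of `B` containing `z`;
the residue field of `B` at such a prime is `K`.
-/
import Mathlib
import Fermat.Agent.S24.PlaceBasic

set_option autoImplicit false
noncomputable section
open AlgebraicCurve IntermediateField Polynomial IsDedekindDomain
open scoped WithZero IntermediateField.algebraAdjoinAdjoin

namespace RH24

section sum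
variable {K F : Type*} [Field K] [Field F] [Algebra K F]
variable (z : F)

abbrev h20_B : Subalgebra (Algebra.adjoin K {z}) F := integralClosure (Algebra.adjoin K {z}) F

/-- `K[z] ≃ Algebra.adjoin K {z}` for transcendental `z` -/
def h20_polyEquiv (z : F) (hz : Transcendental K z) : K[X] ≃ₐ[K] Algebra.adjoin K {z} :=
  (AlgEquiv.ofInjective (aeval z) (transcendental_iff_injective.mp hz)).trans
    (Subalgebra.equivOfEq _ _ (Algebra.adjoin_singleton_eq_range_aeval K z).symm)

theorem h20_polyEquiv_apply (z : F) (hz : Transcendental K z) (p : K[X]) :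
    ((h20_polyEquiv z hz p : Algebra.adjoin K {z}) : F) = aeval z p := rfl

theorem h20_isPrincipalIdealRing (z : F) (hz : Transcendental K z) :
    IsPrincipalIdealRing (Algebra.adjoin K {z}) :=
  IsPrincipalIdealRing.of_surjective (h20_polyEquiv z hz).toRingEquiv.toRingHom
    (h20_polyEquiv z hz).surjective

/-- `z` as an element of `K[z]` -/
def h20_zR : Algebra.adjoin K {z} := ⟨z, Algebra.self_mem_adjoin_singleton K z⟩

/-- `z` as an element of `B` -/
def h20_zB : h20_B (K := K) z := algebraMap (Algebra.adjoin K {z}) (h20_B (K := K) z) (h20_zR z)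

theorem h20_zB_coe : ((h20_zB (K := K) z : h20_B (K := K) z) : F) = z := rfl

/-- constants as elements of `B` -/
def h20_cB : K →+* h20_B (K := K) z :=
  (algebraMap (Algebra.adjoin K {z}) (h20_B (K := K) z)).comp (algebraMap K (Algebra.adjoin K {z}))

theorem h20_cB_coe (c : K) : ((h20_cB (K := K) z c : h20_B (K := K) z) : F) = algebraMap K F c := rfl

theorem h20_polyEquiv_X (hz : Transcendental K z) : h20_polyEquiv z hz X = h20_zR z := by
  apply Subtype.ext
  rw [h20_polyEquiv_apply]
  simp [h20_zR]

theorem h20_irreducible_zR (hz : Transcendental K z) : Irreducible (h20_zR (K := K) z) := by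
  rw [← h20_polyEquiv_X z hz]
  exact (MulEquiv.irreducible_iff (h20_polyEquiv z hz).toMulEquiv).mpr Polynomial.irreducible_X

theorem h20_isMaximal_span (hz : Transcendental K z) :
    (Ideal.span {h20_zR (K := K) z}).IsMaximal := by
  have := h20_isPrincipalIdealRing z hz
  exact PrincipalIdealRing.isMaximal_of_irreducible (h20_irreducible_zR z hz)

theorem h20_span_ne_bot (hz : Transcendental K z) :
    (Ideal.span {h20_zR (K := K) z}) ≠ ⊥ := by
  rw [Ne, Ideal.span_singleton_eq_bot]
  exact (h20_irreducible_zR z hz).ne_zero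

/-- evaluation at `z = 0` on `K[z]` -/
def h20_ev0 (hz : Transcendental K z) : Algebra.adjoin K {z} →+* K :=
  (Polynomial.evalRingHom (0 : K)).comp (h20_polyEquiv z hz).symm.toRingEquiv.toRingHom

theorem h20_ev0_apply (hz : Transcendental K z) (p : K[X]) :
    h20_ev0 z hz (h20_polyEquiv z hz p) = p.eval 0 := by
  simp [h20_ev0]

/-- every element of `K[z]` is its constant term plus a multiple of `z` -/
theorem h20_exists_const (hz : Transcendental K z) (r : Algebra.adjoin K {z}) :
    ∃ (r' : Algebra.adjoin K {z}), r = algebraMap K _ (h20_ev0 z hz r) + h20_zR z * r' := by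
  obtain ⟨p, rfl⟩ := (h20_polyEquiv z hz).surjective r
  obtain ⟨g, hg⟩ := Polynomial.X_dvd_sub_C (p := p)
  refine ⟨h20_polyEquiv z hz g, ?_⟩
  have : p = C (p.coeff 0) + X * g := by rw [← hg]; ring
  rw [h20_ev0_apply]
  conv_lhs => rw [this]
  rw [map_add, map_mul, h20_polyEquiv_X, ← Polynomial.coeff_zero_eq_eval_zero]
  congr 1
  exact (h20_polyEquiv z hz).commutes _

theorem h20_mk_comp (hz : Transcendental K z)
    (P : Ideal (h20_B (K := K) z)) (hP : h20_zB (K := K) z ∈ P) :
    ((Ideal.Quotient.mk P).comp (h20_cB z)).comp (h20_ev0 z hz) =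
      (Ideal.Quotient.mk P).comp (algebraMap (Algebra.adjoin K {z}) (h20_B (K := K) z)) := by
  ext r
  obtain ⟨r', hr'⟩ := h20_exists_const z hz r
  simp only [RingHom.comp_apply]
  conv_rhs => rw [hr']
  rw [RingHom.map_add, RingHom.map_mul, RingHom.map_add, RingHom.map_mul]
  have : Ideal.Quotient.mk P (algebraMap _ (h20_B (K := K) z) (h20_zR z)) = 0 :=
    Ideal.Quotient.eq_zero_iff_mem.mpr hP
  rw [this, zero_mul, add_zero]
  rfl

/-- the residue field of `B` at a prime containing `z` is `K` -/
theorem h20_exists_residue_B [IsAlgClosed K] (hz : Transcendental K z)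
    (P : Ideal (h20_B (K := K) z)) [P.IsPrime] (hP : h20_zB (K := K) z ∈ P)
    (b : h20_B (K := K) z) : ∃ c : K, b - h20_cB z c ∈ P := by
  have hint : ((Ideal.Quotient.mk P).comp (h20_cB z)).IsIntegral := by
    intro x
    obtain ⟨b, rfl⟩ := Ideal.Quotient.mk_surjective x
    obtain ⟨q, hq, hqb⟩ := b.2
    refine ⟨q.map (h20_ev0 z hz), hq.map _, ?_⟩
    rw [Polynomial.eval₂_map, h20_mk_comp z hz P hP, ← Polynomial.hom_eval₂]
    have h0 : Polynomial.eval₂ (algebraMap (Algebra.adjoin K {z}) (h20_B (K := K) z)) b q = 0 := by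
      apply Subtype.ext
      have := Polynomial.hom_eval₂ q (algebraMap (Algebra.adjoin K {z}) (h20_B (K := K) z))
        (h20_B (K := K) z).val.toRingHom b
      exact this.trans hqb
    rw [h0, RingHom.map_zero]
  obtain ⟨c, hc⟩ := (IsAlgClosed.ringHom_bijective_of_isIntegral _ hint).2 (Ideal.Quotient.mk P b)
  refine ⟨c, ?_⟩
  rw [← Ideal.Quotient.eq_zero_iff_mem, RingHom.map_sub, sub_eq_zero]
  exact hc.symm

end sum

section setup
variable {K F : Type*} [Field K] [Field F] [Algebra K F]

theorem h20_isDedekind (z : F) (hz : Transcendental K z) [CharZero K] [FiniteDimensional K⟮z⟯ F] :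
    IsDedekindDomain (integralClosure (Algebra.adjoin K {z}) F) := by
  have := h20_isPrincipalIdealRing z hz
  exact integralClosure.isDedekindDomain (Algebra.adjoin K {z}) K⟮z⟯ F

theorem h20_isFractionRing (z : F) [CharZero K] [FiniteDimensional K⟮z⟯ F] :
    IsFractionRing (integralClosure (Algebra.adjoin K {z}) F) F :=
  integralClosure.isFractionRing_of_finite_extension K⟮z⟯ F

theorem h20_finite (z : F) (hz : Transcendental K z) [CharZero K] [FiniteDimensional K⟮z⟯ F] :
    Module.Finite (Algebra.adjoin K {z}) (integralClosure (Algebra.adjoin K {z}) F) := by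
  have := h20_isPrincipalIdealRing z hz
  exact IsIntegralClosure.finite (Algebra.adjoin K {z}) K⟮z⟯ F _

/-- `K[z] ⊆ O_v` if `z ∈ O_v` -/
theorem h20_adjoin_le (v : Place K F) (z : F) (hz : z ∈ v.toValuationSubring) :
    ∀ r : Algebra.adjoin K {z}, (r : F) ∈ v.toValuationSubring := by
  intro r
  have h : Algebra.adjoin K {z} ≤
      { v.toValuationSubring.toSubring with algebraMap_mem' := v.algebraMap_mem' } := by
    apply Algebra.adjoin_le
    intro x hx
    rw [Set.mem_singleton_iff] at hx
    subst hx
    exact hz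
  exact h r.2

/-- integral elements over `K[z]` lie in `O_v` if `z ∈ O_v` -/
theorem h20_integral_mem (v : Place K F) (z : F) (hz : z ∈ v.toValuationSubring)
    (b : F) (hb : IsIntegral (Algebra.adjoin K {z}) b) : b ∈ v.toValuationSubring := by
  letI : Algebra (Algebra.adjoin K {z}) v.toValuationSubring :=
    ((algebraMap (Algebra.adjoin K {z}) F).codRestrict v.toValuationSubring.toSubring
      (h20_adjoin_le v z hz)).toAlgebra
  haveI : IsScalarTower (Algebra.adjoin K {z}) v.toValuationSubring F :=
    IsScalarTower.of_algebraMap_eq fun _ => rfl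
  have hx : IsIntegral v.toValuationSubring b := hb.tower_top
  obtain ⟨y, hy⟩ := IsIntegrallyClosed.isIntegral_iff.mp hx
  exact hy ▸ y.2

end setup

section corr
variable {K F : Type*} [Field K] [Field F] [Algebra K F]
variable (z : F)

/-- the inclusion `B → O_v` -/
def h20_toLocal (v : Place K F) (hv : z ∈ v.toValuationSubring) :
    h20_B (K := K) z →+* v.toValuationSubring :=
  (algebraMap (h20_B (K := K) z) F).codRestrict v.toValuationSubring.toSubring
    (fun b => h20_integral_mem v z hv b b.2)

@[simp]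
theorem h20_toLocal_coe (v : Place K F) (hv : z ∈ v.toValuationSubring) (b : h20_B (K := K) z) :
    ((h20_toLocal z v hv b : v.toValuationSubring) : F) = (b : F) := rfl

theorem h20_mem_maximalIdeal_iff (v : Place K F) (a : v.toValuationSubring) :
    a ∈ IsLocalRing.maximalIdeal v.toValuationSubring ↔ v.adicValuation (a : F) < 1 := by
  rw [IsLocalRing.mem_maximalIdeal, mem_nonunits_iff, ← v.adicValuation_coe_eq_one_iff]
  have h1 : v.adicValuation (a : F) ≤ 1 := (h20_mem_iff_adicValuation_le_one v _).mp a.2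
  exact ⟨fun h => lt_of_le_of_ne h1 h, fun h => h.ne⟩

theorem h20_ne_zero_of_ord_pos (v : Place K F) {f : F} (h : 0 < v.ord f) : f ≠ 0 := by
  rintro rfl
  simp at h

theorem h20_mem_of_ord_pos (v : Place K F) {f : F} (h : 0 < v.ord f) :
    f ∈ v.toValuationSubring :=
  (h20_mem_iff_ord_nonneg v (h20_ne_zero_of_ord_pos v h)).mpr h.le

/-- the prime of `B` below a place over `z = 0` -/
def h20_primeOf (v : Place K F) (hv : 0 < v.ord z) : HeightOneSpectrum (h20_B (K := K) z) where
  asIdeal := (IsLocalRing.maximalIdeal v.toValuationSubring).comap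
    (h20_toLocal z v (h20_mem_of_ord_pos v hv))
  isPrime := Ideal.comap_isPrime _ _
  ne_bot := by
    intro h
    have hz0 : z ≠ 0 := h20_ne_zero_of_ord_pos v hv
    have hmem : h20_zB (K := K) z ∈ (IsLocalRing.maximalIdeal v.toValuationSubring).comap
        (h20_toLocal z v (h20_mem_of_ord_pos v hv)) := by
      rw [Ideal.mem_comap, h20_mem_maximalIdeal_iff]
      exact (h20_adicValuation_lt_one_iff v hz0).mpr hv
    rw [h, Ideal.mem_bot] at hmem
    exact hz0 (congrArg Subtype.val hmem)

theorem h20_mem_primeOf (v : Place K F) (hv : 0 < v.ord z) (b : h20_B (K := K) z) :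
    b ∈ (h20_primeOf z v hv).asIdeal ↔ v.adicValuation (b : F) < 1 := by
  show b ∈ (IsLocalRing.maximalIdeal v.toValuationSubring).comap _ ↔ _
  rw [Ideal.mem_comap, h20_mem_maximalIdeal_iff]
  rfl

theorem h20_zB_mem_primeOf (v : Place K F) (hv : 0 < v.ord z) :
    h20_zB (K := K) z ∈ (h20_primeOf z v hv).asIdeal := by
  rw [h20_mem_primeOf]
  exact (h20_adicValuation_lt_one_iff v (h20_ne_zero_of_ord_pos v hv)).mpr hv

section dedekind
variable [IsDedekindDomain (h20_B (K := K) z)] [IsFractionRing (h20_B (K := K) z) F]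

theorem h20_val_const_le (P : HeightOneSpectrum (h20_B (K := K) z)) (c : K) :
    P.valuation F (algebraMap K F c) ≤ 1 :=
  P.valuation_le_one (K := F) (h20_cB z c)

theorem h20_val_nontriv (P : HeightOneSpectrum (h20_B (K := K) z)) :
    ∃ f : F, P.valuation F f ≠ 0 ∧ P.valuation F f ≠ 1 := by
  obtain ⟨π, hπ⟩ := P.valuation_exists_uniformizer F
  refine ⟨π, ?_, ?_⟩
  · rw [hπ]; exact WithZero.exp_ne_zero
  · rw [hπ, ← WithZero.exp_zero]
    intro h
    have := WithZero.exp_injective h
    omega

/-- the place of a prime of `B` -/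
def h20_placeOf (P : HeightOneSpectrum (h20_B (K := K) z)) : Place K F :=
  h20_placeOfVal (P.valuation F) (h20_val_const_le z P) (h20_val_nontriv z P)

theorem h20_placeOf_adicValuation (P : HeightOneSpectrum (h20_B (K := K) z)) (f : F) :
    (h20_placeOf z P).adicValuation f = P.valuation F f := by
  rcases eq_or_ne f 0 with rfl | hf
  · simp
  obtain ⟨e, he, h⟩ := h20_val_eq_pow_ord (h20_placeOf z P) (P.valuation F) rfl
  obtain ⟨π, hπ⟩ := P.valuation_exists_uniformizer F
  have hπ0 : π ≠ 0 := by
    rintro rfl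
    rw [map_zero] at hπ
    exact WithZero.exp_ne_zero hπ.symm
  have h1 := h π hπ0
  rw [hπ] at h1
  have h2 := WithZero.exp_injective h1
  have he1 : e = 1 := by
    have h3 : (e : ℤ) * (h20_placeOf z P).ord π = 1 := by omega
    have h4 : (e : ℤ) ∣ 1 := Dvd.intro _ h3
    have h5 : (e : ℤ) = 1 := Int.eq_one_of_dvd_one (by positivity) h4
    exact_mod_cast h5
  subst he1
  rw [h f hf, h20_adicValuation_eq _ hf]
  simp

theorem h20_placeOf_ord (P : HeightOneSpectrum (h20_B (K := K) z)) (f : F) :
    (h20_placeOf z P).ord f = -(WithZero.log (P.valuation F f)) := by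
  rw [Place.ord, h20_placeOf_adicValuation]

theorem h20_placeOf_ord_pos (hz0 : z ≠ 0) (P : HeightOneSpectrum (h20_B (K := K) z))
    (hP : h20_zB (K := K) z ∈ P.asIdeal) : 0 < (h20_placeOf z P).ord z := by
  rw [← h20_adicValuation_lt_one_iff _ hz0, h20_placeOf_adicValuation]
  exact (P.valuation_lt_one_iff_mem (K := F) (h20_zB z)).mpr hP

theorem h20_primeOf_placeOf (hz0 : z ≠ 0) (P : HeightOneSpectrum (h20_B (K := K) z))
    (hP : h20_zB (K := K) z ∈ P.asIdeal) :
    h20_primeOf z (h20_placeOf z P) (h20_placeOf_ord_pos z hz0 P hP) = P := by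
  ext b
  rw [h20_mem_primeOf, h20_placeOf_adicValuation]
  exact P.valuation_lt_one_iff_mem (K := F) b

theorem h20_placeOf_primeOf (v : Place K F) (hv : 0 < v.ord z) :
    h20_placeOf z (h20_primeOf z v hv) = v := by
  apply Place.ext
  show (((h20_primeOf z v hv).valuation F).valuationSubring) = v.toValuationSubring
  rw [← HeightOneSpectrum.valuationSubringAtPrime_eq_valuationSubring]
  refine ValuationSubring.eq_of_le_of_ne_top _ ?_ v.ne_top'
  intro x hx
  rw [HeightOneSpectrum.valuationSubringAtPrime_eq_valuationSubring,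
    Valuation.mem_valuationSubring_iff] at hx
  obtain ⟨n, d, hnd⟩ := (h20_primeOf z v hv).exists_primeCompl_mul_eq_of_integer x hx
  have hd : ((d : h20_B (K := K) z) : F) ≠ 0 := by
    intro h0
    apply d.2
    have : (d : h20_B (K := K) z) = 0 := Subtype.ext h0
    rw [this]
    exact Ideal.zero_mem _
  have hd1 : v.adicValuation ((d : h20_B (K := K) z) : F) = 1 := by
    have h1 : ¬ v.adicValuation ((d : h20_B (K := K) z) : F) < 1 := by
      rw [← h20_mem_primeOf z v hv]
      exact d.2
    have h2 : v.adicValuation ((d : h20_B (K := K) z) : F) ≤ 1 :=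
      (h20_mem_iff_adicValuation_le_one v _).mp
        (h20_integral_mem v z (h20_mem_of_ord_pos v hv) _ (d : h20_B (K := K) z).2)
    exact le_antisymm h2 (not_lt.mp h1)
  have hn : v.adicValuation ((n : h20_B (K := K) z) : F) ≤ 1 :=
    (h20_mem_iff_adicValuation_le_one v _).mp
      (h20_integral_mem v z (h20_mem_of_ord_pos v hv) _ n.2)
  rw [h20_mem_iff_adicValuation_le_one]
  have hx' : x = ((n : h20_B (K := K) z) : F) * (((d : h20_B (K := K) z) : F))⁻¹ := by
    have : x * ((d : h20_B (K := K) z) : F) = ((n : h20_B (K := K) z) : F) := hnd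
    rw [← this]
    field_simp
  rw [hx', map_mul, map_inv₀, hd1, inv_one, mul_one]
  exact hn

end dedekind

end corr

end RH24

end
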