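import Mathlib
import Fermat.Agent.S24.A1Core

/-!
# T-RH slice A1 (helper2, on top of helper20's `A1Core`): the fundamental identity

For `z : F` transcendental over the algebraically closed field `K` of characteristic `0` with
`[F : K(z)] < ∞`:

* `RH24.finite_places_over` : there are finitely many places of `F / K` over `z = 0`;
* `RH24.sum_ord_eq_finrank` : `∑_{v | z = 0} ord_v z = [F : K(z)]`.
-/

set_option autoImplicit false
set_option linter.style.haveILetI false
set_option linter.deprecated false

noncomputable section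

open AlgebraicCurve IntermediateField Polynomial IsDedekindDomain
open scoped WithZero IntermediateField.algebraAdjoinAdjoin

namespace RH24

variable {K F : Type*} [Field K] [Field F] [Algebra K F]

section Prime

variable (z : F)

/-- the image of the ideal `(z)` of `K[z]` in `B` -/
theorem h2a1_map_span :
    Ideal.map (algebraMap (Algebra.adjoin K {z}) (h20_B (K := K) z))
      (Ideal.span {h20_zR (K := K) z}) = Ideal.span {h20_zB (K := K) z} := by
  rw [Ideal.map_span, Set.image_singleton]
  rfl

theorem h2a1_zB_ne_zero (hz0 : z ≠ 0) : h20_zB (K := K) z ≠ 0 := by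
  intro h
  exact hz0 (congrArg Subtype.val h)

/-- A prime of `B` lies over `(z)` iff it contains `z`. -/
theorem h2a1_liesOver_iff (hz : Transcendental K z) (P : Ideal (h20_B (K := K) z))
    [hP : P.IsPrime] :
    P.LiesOver (Ideal.span {h20_zR (K := K) z}) ↔ h20_zB (K := K) z ∈ P := by
  rw [Ideal.liesOver_iff, Ideal.under_def]
  constructor
  · intro h
    have hmem : h20_zR (K := K) z ∈ Ideal.span {h20_zR (K := K) z} :=
      Ideal.subset_span (Set.mem_singleton _)
    rw [h, Ideal.mem_comap] at hmem
    exact hmem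
  · intro h
    have hmax := h20_isMaximal_span (K := K) z hz
    refine hmax.eq_of_le ?_ ?_
    · exact (Ideal.comap_isPrime _ P).ne_top
    · rw [Ideal.span_singleton_le_iff_mem, Ideal.mem_comap]
      exact h

end Prime

section Index

variable (z : F) [IsDedekindDomain (h20_B (K := K) z)] [IsFractionRing (h20_B (K := K) z) F]

/-- The ramification index of `P` over `(z)` is `ord_P z`. -/
theorem h2a1_ramificationIdx (hz0 : z ≠ 0) (P : HeightOneSpectrum (h20_B (K := K) z))
    (hP : h20_zB (K := K) z ∈ P.asIdeal) :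
    (Ideal.span {h20_zR (K := K) z}).ramificationIdx' P.asIdeal
      = ((h20_placeOf z P).ord z).toNat := by
  have hpos := h20_placeOf_ord_pos z hz0 P hP
  have hord := h20_placeOf_ord z P z
  have hval : P.valuation F z = P.intValuation (h20_zB (K := K) z) :=
    P.valuation_of_algebraMap (K := F) (h20_zB (K := K) z)
  have hne : P.intValuation (h20_zB (K := K) z) ≠ 0 := by
    rw [← hval]
    exact (Valuation.ne_zero_iff _).mpr hz0
  obtain ⟨n, hn⟩ : ∃ n : ℕ, (h20_placeOf z P).ord z = n :=
    ⟨((h20_placeOf z P).ord z).toNat, (Int.toNat_of_nonneg hpos.le).symm⟩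
  have hint : P.intValuation (h20_zB (K := K) z) = WithZero.exp (-(n : ℤ)) := by
    rw [← WithZero.exp_log hne, ← hval]
    congr 1
    omega
  rw [hn, Int.toNat_natCast]
  apply Ideal.ramificationIdx'_spec
  · rw [h2a1_map_span, Ideal.span_singleton_le_iff_mem, ← P.intValuation_le_pow_iff_mem, hint]
  · rw [h2a1_map_span, Ideal.span_singleton_le_iff_mem, ← P.intValuation_le_pow_iff_mem, hint,
      WithZero.exp_le_exp]
    push_cast
    omega

end Index

section Inertia

attribute [local instance] Ideal.Quotient.field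

set_option synthInstance.maxHeartbeats 400000 in
set_option maxHeartbeats 1000000 in
/-- The inertia degree of a prime of `B` over `(z)` is `1` (`K` is algebraically closed). -/
theorem h2a1_inertiaDeg [IsAlgClosed K] (z : F) (hz : Transcendental K z)
    (P : Ideal (h20_B (K := K) z)) [hP : P.IsPrime] (hzP : h20_zB (K := K) z ∈ P) :
    (Ideal.span {h20_zR (K := K) z}).inertiaDeg' P = 1 := by
  haveI hmax := h20_isMaximal_span (K := K) z hz
  haveI hlies : P.LiesOver (Ideal.span {h20_zR (K := K) z}) := (h2a1_liesOver_iff z hz P).mpr hzP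
  rw [Ideal.inertiaDeg'_algebraMap]
  haveI : Nontrivial (h20_B (K := K) z ⧸ P) := Ideal.Quotient.nontrivial_iff.mpr hP.ne_top
  refine finrank_eq_one (1 : h20_B (K := K) z ⧸ P) one_ne_zero (fun w => ?_)
  obtain ⟨b, rfl⟩ := Ideal.Quotient.mk_surjective w
  obtain ⟨c, hc⟩ := h20_exists_residue_B z hz P hzP b
  refine ⟨Ideal.Quotient.mk _ (algebraMap K (Algebra.adjoin K {z}) c), ?_⟩
  rw [Algebra.smul_def, mul_one, Ideal.Quotient.algebraMap_mk_of_liesOver]
  symm
  rw [← sub_eq_zero, ← RingHom.map_sub, Ideal.Quotient.eq_zero_iff_mem]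
  exact hc

end Inertia

section Main

variable [IsAlgClosed K] [CharZero K]

/-- the ideal of `B` attached to a place over `z = 0` -/
def h2a1_ideal (z : F) (v : {v : Place K F // 0 < v.ord z}) : Ideal (h20_B (K := K) z) :=
  (h20_primeOf z v.1 v.2).asIdeal

omit [IsAlgClosed K] in
theorem h2a1_ideal_injective (z : F) (hz : Transcendental K z) [FiniteDimensional K⟮z⟯ F] :
    Function.Injective (h2a1_ideal (K := K) z) := by
  haveI := h20_isDedekind z hz
  haveI := h20_isFractionRing (K := K) z
  intro v v' h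
  have h' : h20_primeOf z v.1 v.2 = h20_primeOf z v'.1 v'.2 := HeightOneSpectrum.ext h
  apply Subtype.ext
  rw [← h20_placeOf_primeOf z v.1 v.2, ← h20_placeOf_primeOf z v'.1 v'.2, h']

omit [IsAlgClosed K] in
theorem h2a1_ideal_mem (z : F) (hz : Transcendental K z) [FiniteDimensional K⟮z⟯ F]
    (v : {v : Place K F // 0 < v.ord z}) :
    haveI := h20_isPrincipalIdealRing z hz
    haveI := h20_isDedekind z hz
    h2a1_ideal z v ∈ IsDedekindDomain.primesOverFinset (Ideal.span {h20_zR (K := K) z}) (h20_B (K := K) z) := by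
  haveI := h20_isPrincipalIdealRing z hz
  haveI := h20_isDedekind z hz
  haveI := h20_isMaximal_span (K := K) z hz
  rw [IsDedekindDomain.mem_primesOverFinset_iff (h20_span_ne_bot z hz)]
  haveI : (h2a1_ideal z v).IsPrime := (h20_primeOf z v.1 v.2).isPrime
  exact ⟨inferInstance, (h2a1_liesOver_iff z hz _).mpr (h20_zB_mem_primeOf z v.1 v.2)⟩

omit [IsAlgClosed K] in
theorem h2a1_exists_place (z : F) (hz : Transcendental K z) [FiniteDimensional K⟮z⟯ F]
    (P : Ideal (h20_B (K := K) z))
    (hP : haveI := h20_isPrincipalIdealRing z hz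
          haveI := h20_isDedekind z hz
          P ∈ IsDedekindDomain.primesOverFinset (Ideal.span {h20_zR (K := K) z}) (h20_B (K := K) z)) :
    ∃ v : {v : Place K F // 0 < v.ord z}, h2a1_ideal z v = P := by
  haveI := h20_isPrincipalIdealRing z hz
  haveI := h20_isDedekind z hz
  haveI := h20_isFractionRing (K := K) z
  haveI := h20_isMaximal_span (K := K) z hz
  have hz0 : z ≠ 0 := fun h => hz (h ▸ isAlgebraic_zero)
  rw [IsDedekindDomain.mem_primesOverFinset_iff (h20_span_ne_bot z hz)] at hP
  obtain ⟨hprime, hlies⟩ := hP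
  have hzP : h20_zB (K := K) z ∈ P := (h2a1_liesOver_iff z hz P).mp hlies
  have hne : P ≠ ⊥ := by
    intro h
    rw [h, Ideal.mem_bot] at hzP
    exact h2a1_zB_ne_zero z hz0 hzP
  let P' : HeightOneSpectrum (h20_B (K := K) z) := ⟨P, hprime, hne⟩
  refine ⟨⟨h20_placeOf z P', h20_placeOf_ord_pos z hz0 P' hzP⟩, ?_⟩
  show (h20_primeOf z (h20_placeOf z P') _).asIdeal = P
  rw [h20_primeOf_placeOf z hz0 P' hzP]

/-- **A1a.** -/
theorem finite_places_over (z : F) (hz : Transcendental K z) [FiniteDimensional K⟮z⟯ F] :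
    Finite {v : Place K F // 0 < v.ord z} := by
  haveI := h20_isPrincipalIdealRing z hz
  haveI := h20_isDedekind z hz
  exact Finite.of_injective
    (fun v => (⟨h2a1_ideal z v, h2a1_ideal_mem z hz v⟩ :
      {P // P ∈ IsDedekindDomain.primesOverFinset (Ideal.span {h20_zR (K := K) z}) (h20_B (K := K) z)}))
    (fun v v' h => h2a1_ideal_injective z hz (congrArg Subtype.val h))

/-- **A1b, the fundamental identity.** -/
theorem sum_ord_eq_finrank (z : F) (hz : Transcendental K z) [FiniteDimensional K⟮z⟯ F] :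
    ∑ᶠ v : {v : Place K F // 0 < v.ord z}, v.1.ord z = (Module.finrank K⟮z⟯ F : ℤ) := by
  haveI := h20_isPrincipalIdealRing z hz
  haveI := h20_isDedekind z hz
  haveI := h20_isFractionRing (K := K) z
  haveI := h20_finite z hz
  have hp0 := h20_span_ne_bot (K := K) z hz
  haveI := h20_isMaximal_span (K := K) z hz
  have hz0 : z ≠ 0 := fun h => hz (h ▸ isAlgebraic_zero)
  have hsum := Ideal.sum_ramification_inertia (R := Algebra.adjoin K {z}) (h20_B (K := K) z)
    K⟮z⟯ F (p := Ideal.span {h20_zR (K := K) z}) hp0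
  haveI := finite_places_over z hz
  letI : Fintype {v : Place K F // 0 < v.ord z} := Fintype.ofFinite _
  rw [finsum_eq_sum_of_fintype, ← hsum]
  push_cast
  refine Finset.sum_bij (fun v _ => h2a1_ideal z v) (fun v _ => h2a1_ideal_mem z hz v)
    (fun v _ v' _ h => h2a1_ideal_injective z hz h)
    (fun P hP => ?_) (fun v _ => ?_)
  · obtain ⟨v, hv⟩ := h2a1_exists_place z hz P hP
    exact ⟨v, Finset.mem_univ _, hv⟩
  · have hzP := h20_zB_mem_primeOf z v.1 v.2
    have h1 := h2a1_ramificationIdx z hz0 (h20_primeOf z v.1 v.2) hzP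
    haveI : (h20_primeOf z v.1 v.2).asIdeal.IsPrime := (h20_primeOf z v.1 v.2).isPrime
    have h2 := h2a1_inertiaDeg z hz (h20_primeOf z v.1 v.2).asIdeal hzP
    rw [h20_placeOf_primeOf] at h1
    show v.1.ord z = ((Ideal.span {h20_zR (K := K) z}).ramificationIdx'
      (h20_primeOf z v.1 v.2).asIdeal : ℤ) * ((Ideal.span {h20_zR (K := K) z}).inertiaDeg'
      (h20_primeOf z v.1 v.2).asIdeal : ℤ)
    rw [h1, h2]
    have := v.2
    simp only [Nat.cast_one, mul_one]
    omega

end Main

end RH24

end
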