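import Mathlib
import Fermat.Agent.S24.A0

set_option autoImplicit false
set_option linter.style.haveILetI false
set_option linter.unusedSectionVars false

noncomputable section

open IntermediateField KaehlerDifferential Polynomial TensorProduct

namespace RH24

section A3a

variable {K F : Type*} [Field K] [Field F] [Algebra K F]

/-- `K(f)` is the fraction field of `K[X]` via `X ↦ f` for transcendental `f`. -/
theorem h5a_isFractionRing (f : F) (hf : Transcendental K f) :
    letI : Algebra K[X] K⟮f⟯ := (aeval (AdjoinSimple.gen K f)).toRingHom.toAlgebra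
    IsFractionRing K[X] K⟮f⟯ := by
  letI : Algebra K[X] K⟮f⟯ := (aeval (AdjoinSimple.gen K f)).toRingHom.toAlgebra
  have hinj : Function.Injective (algebraMap K[X] K⟮f⟯) := by
    intro p q hpq
    have h1 : aeval (AdjoinSimple.gen K f) p = aeval (AdjoinSimple.gen K f) q := hpq
    have h2 : aeval f p = aeval f q := by
      have := congrArg (fun x : K⟮f⟯ => (x : F)) h1
      simpa [AdjoinSimple.coe_aeval_gen_apply] using this
    exact (transcendental_iff_injective.mp hf) h2
  haveI : FaithfulSMul K[X] K⟮f⟯ := (faithfulSMul_iff_algebraMap_injective _ _).mpr hinj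
  refine IsFractionRing.of_field K[X] K⟮f⟯ ?_
  rintro ⟨z, hz⟩
  obtain ⟨r, s, hrs⟩ := (IntermediateField.mem_adjoin_simple_iff K z).mp hz
  refine ⟨r, s, ?_⟩
  apply Subtype.ext
  show z = ((aeval (AdjoinSimple.gen K f) r / aeval (AdjoinSimple.gen K f) s : K⟮f⟯) : F)
  rw [hrs]
  simp [AdjoinSimple.coe_aeval_gen_apply]

variable [CharZero K]

/-- `F` is formally étale over `K[X]` (via `X ↦ f`) when `f` is transcendental and
`F / K(f)` is finite. -/
theorem h5a_formallyEtale (f : F) (hf : Transcendental K f) [FiniteDimensional K⟮f⟯ F] :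
    letI : Algebra K[X] F := (aeval f).toRingHom.toAlgebra
    Algebra.FormallyEtale K[X] F := by
  letI : Algebra K[X] F := (aeval f).toRingHom.toAlgebra
  letI : Algebra K[X] K⟮f⟯ := (aeval (AdjoinSimple.gen K f)).toRingHom.toAlgebra
  haveI : IsScalarTower K[X] K⟮f⟯ F := IsScalarTower.of_algebraMap_eq (fun p => by
    show aeval f p = ((aeval (AdjoinSimple.gen K f) p : K⟮f⟯) : F)
    rw [AdjoinSimple.coe_aeval_gen_apply])
  haveI : IsFractionRing K[X] K⟮f⟯ := h5a_isFractionRing f hf
  haveI : Algebra.FormallyEtale K[X] K⟮f⟯ :=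
    Algebra.FormallyEtale.of_isLocalization (nonZeroDivisors K[X])
  haveI : CharZero K⟮f⟯ := charZero_of_injective_algebraMap (algebraMap K K⟮f⟯).injective
  haveI : Algebra.IsAlgebraic K⟮f⟯ F := Algebra.IsAlgebraic.of_finite _ _
  haveI : Algebra.IsSeparable K⟮f⟯ F := inferInstance
  haveI : Algebra.FormallyEtale K⟮f⟯ F := Algebra.FormallyEtale.of_isSeparable K⟮f⟯ F
  exact Algebra.FormallyEtale.comp K[X] K⟮f⟯ F

/-- The `F`-linear isomorphism `Ω[F⁄K] ≃ F` sending `D f` to `1`. -/
theorem h5a_exists_equiv (f : F) (hf : Transcendental K f) [FiniteDimensional K⟮f⟯ F] :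
    ∃ φ : Ω[F⁄K] ≃ₗ[F] F, φ (D K F f) = 1 := by
  letI : Algebra K[X] F := (aeval f).toRingHom.toAlgebra
  haveI : IsScalarTower K K[X] F := IsScalarTower.of_algebraMap_eq (fun c => by
    show algebraMap K F c = aeval f (C c)
    rw [aeval_C])
  haveI : Algebra.FormallyEtale K[X] F := h5a_formallyEtale f hf
  let e1 : F ⊗[K[X]] Ω[K[X]⁄K] ≃ₗ[F] Ω[F⁄K] := tensorKaehlerEquivOfFormallyEtale K K[X] F
  let e2 : F ⊗[K[X]] Ω[K[X]⁄K] ≃ₗ[F] F ⊗[K[X]] K[X] :=
    TensorProduct.AlgebraTensorModule.congr (LinearEquiv.refl F F) (polynomialEquiv K)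
  let e3 : F ⊗[K[X]] K[X] ≃ₗ[F] F := TensorProduct.AlgebraTensorModule.rid K[X] F F
  refine ⟨e1.symm.trans (e2.trans e3), ?_⟩
  have hfX : f = algebraMap K[X] F X := by
    show f = aeval f X
    rw [aeval_X]
  have h1 : e1.symm (D K F f) = 1 ⊗ₜ D K K[X] X := by
    conv_lhs => rw [hfX]
    exact tensorKaehlerEquivOfFormallyEtale_symm_D_algebraMap K K[X] F X
  simp only [LinearEquiv.trans_apply, h1]
  simp [e2, e3, polynomialEquiv_D]

/-- A3a: for transcendental `f`, the differential `D f` spans `Ω[F⁄K]` over `F`. -/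
theorem span_D_eq_top (y : F) (_hy : Transcendental K y) [FiniteDimensional K⟮y⟯ F]
    (f : F) (hf : Transcendental K f) : Submodule.span F {D K F f} = ⊤ := by
  haveI : FiniteDimensional K⟮f⟯ F := finiteDimensional_adjoin_of_transcendental y f hf
  obtain ⟨φ, hφ⟩ := h5a_exists_equiv f hf
  rw [eq_top_iff]
  intro ω _
  have h : ω = φ ω • D K F f := by
    apply φ.injective
    rw [map_smul, hφ, smul_eq_mul, mul_one]
  rw [h]
  exact Submodule.smul_mem _ _ (Submodule.mem_span_singleton_self _)

/-- A3a: for transcendental `f`, the differential `D f` is nonzero. -/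
theorem D_ne_zero (y : F) (_hy : Transcendental K y) [FiniteDimensional K⟮y⟯ F]
    (f : F) (hf : Transcendental K f) : D K F f ≠ 0 := by
  haveI : FiniteDimensional K⟮f⟯ F := finiteDimensional_adjoin_of_transcendental y f hf
  obtain ⟨φ, hφ⟩ := h5a_exists_equiv f hf
  intro h0
  rw [h0, map_zero] at hφ
  exact zero_ne_one hφ

/-- `Ω[F⁄K]` is free of rank one over `F`, with basis `D f`, for every transcendental `f`:
every differential is a unique multiple of `D f`. -/
theorem h5a_exists_unique_smul (y : F) (_hy : Transcendental K y) [FiniteDimensional K⟮y⟯ F]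
    (f : F) (hf : Transcendental K f) (ω : Ω[F⁄K]) : ∃! c : F, ω = c • D K F f := by
  haveI : FiniteDimensional K⟮f⟯ F := finiteDimensional_adjoin_of_transcendental y f hf
  obtain ⟨φ, hφ⟩ := h5a_exists_equiv f hf
  refine ⟨φ ω, ?_, ?_⟩
  · apply φ.injective
    rw [map_smul, hφ, smul_eq_mul, mul_one]
  · intro c hc
    rw [hc, map_smul, hφ, smul_eq_mul, mul_one]

end A3a

end RH24
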