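import Mathlib

/-!
# T-RH (S24), slice A3b, part 1 (helper22): power series expansion in a local parameter

Abstract setting: `K` a field, `O` a `K`-algebra which is a domain, `π : O` a nonzero nonunit
such that every element of `O` is congruent to a constant modulo `π` (`h22a_Unif`).
We construct the expansion map `h22a_iotaHom : O →ₐ[K] K⟦X⟧`, `π ↦ X`.
-/

set_option autoImplicit false
set_option linter.unusedSectionVars false

noncomputable section

namespace RH24

open PowerSeries

/-- `π` is a "uniformizer with residue field `K`" of the `K`-algebra `O`. -/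
structure h22a_Unif (K O : Type*) [Field K] [CommRing O] [Algebra K O] (π : O) : Prop where
  ne_zero : π ≠ 0
  not_unit : ¬ IsUnit π
  res : ∀ u : O, ∃ c : K, π ∣ u - algebraMap K O c

section Series

variable {K O : Type*} [Field K] [CommRing O] [IsDomain O] [Algebra K O] {π : O}
variable (h : h22a_Unif K O π)

/-- The constant term of `u`. -/
def h22a_c0 (u : O) : K := (h.res u).choose

/-- The shift `(u - c₀ u) / π`. -/
def h22a_T (u : O) : O := ((h.res u).choose_spec).choose

theorem h22a_eq (u : O) : u = algebraMap K O (h22a_c0 h u) + π * h22a_T h u := by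
  have := ((h.res u).choose_spec).choose_spec
  rw [h22a_c0, h22a_T, ← this]
  ring

include h in
theorem h22a_algebraMap_eq_zero {c : K} {w : O} (hc : algebraMap K O c = π * w) : c = 0 := by
  by_contra hc0
  apply h.not_unit
  have hu : IsUnit (algebraMap K O c) := (IsUnit.mk0 c hc0).map (algebraMap K O)
  rw [hc] at hu
  exact isUnit_of_mul_isUnit_left hu

theorem h22a_unique {u w : O} {c : K} (hu : u = algebraMap K O c + π * w) :
    h22a_c0 h u = c ∧ h22a_T h u = w := by
  have h1 := h22a_eq h u
  have h2 : algebraMap K O (h22a_c0 h u - c) = π * (w - h22a_T h u) := by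
    rw [map_sub, mul_sub]
    have : algebraMap K O (h22a_c0 h u) + π * h22a_T h u = algebraMap K O c + π * w := by
      rw [← h1, ← hu]
    linear_combination this
  have h3 : h22a_c0 h u = c := sub_eq_zero.1 (h22a_algebraMap_eq_zero h h2)
  refine ⟨h3, ?_⟩
  rw [h3, sub_self, map_zero] at h2
  have h4 := (mul_eq_zero.1 h2.symm).resolve_left h.ne_zero
  exact (sub_eq_zero.1 h4).symm

theorem h22a_c0_add (u w : O) : h22a_c0 h (u + w) = h22a_c0 h u + h22a_c0 h w :=
  (h22a_unique h (w := h22a_T h u + h22a_T h w) (by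
    rw [map_add]
    linear_combination h22a_eq h u + h22a_eq h w)).1

theorem h22a_T_add (u w : O) : h22a_T h (u + w) = h22a_T h u + h22a_T h w :=
  (h22a_unique h (c := h22a_c0 h u + h22a_c0 h w) (by
    rw [map_add]
    linear_combination h22a_eq h u + h22a_eq h w)).2

theorem h22a_c0_algebraMap (c : K) : h22a_c0 h (algebraMap K O c) = c :=
  (h22a_unique h (w := 0) (by rw [mul_zero, add_zero])).1

theorem h22a_T_algebraMap (c : K) : h22a_T h (algebraMap K O c) = 0 :=
  (h22a_unique h (c := c) (by rw [mul_zero, add_zero])).2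

theorem h22a_c0_zero : h22a_c0 h (0 : O) = 0 := by
  have := h22a_c0_algebraMap h (0 : K)
  rwa [map_zero] at this

theorem h22a_T_zero : h22a_T h (0 : O) = 0 := by
  have := h22a_T_algebraMap h (0 : K)
  rwa [map_zero] at this

theorem h22a_c0_one : h22a_c0 h (1 : O) = 1 := by
  have := h22a_c0_algebraMap h (1 : K)
  rwa [map_one] at this

theorem h22a_T_one : h22a_T h (1 : O) = 0 := by
  have := h22a_T_algebraMap h (1 : K)
  rwa [map_one] at this

theorem h22a_c0_pi_mul (w : O) : h22a_c0 h (π * w) = 0 :=
  (h22a_unique h (w := w) (by rw [map_zero, zero_add])).1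

theorem h22a_T_pi_mul (w : O) : h22a_T h (π * w) = w :=
  (h22a_unique h (c := 0) (by rw [map_zero, zero_add])).2

theorem h22a_c0_mul (u w : O) : h22a_c0 h (u * w) = h22a_c0 h u * h22a_c0 h w :=
  (h22a_unique h (w := algebraMap K O (h22a_c0 h u) * h22a_T h w + h22a_T h u * w) (by
    rw [map_mul]
    have hu := h22a_eq h u
    have hw := h22a_eq h w
    linear_combination (algebraMap K O (h22a_c0 h u)) * hw + w * hu)).1

theorem h22a_T_mul (u w : O) :
    h22a_T h (u * w) = algebraMap K O (h22a_c0 h u) * h22a_T h w + h22a_T h u * w :=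
  (h22a_unique h (c := h22a_c0 h u * h22a_c0 h w) (by
    rw [map_mul]
    have hu := h22a_eq h u
    have hw := h22a_eq h w
    linear_combination (algebraMap K O (h22a_c0 h u)) * hw + w * hu)).2

theorem h22a_c0_smul (c : K) (u : O) : h22a_c0 h (algebraMap K O c * u) = c * h22a_c0 h u := by
  rw [h22a_c0_mul, h22a_c0_algebraMap]

theorem h22a_T_smul (c : K) (u : O) :
    h22a_T h (algebraMap K O c * u) = algebraMap K O c * h22a_T h u := by
  rw [h22a_T_mul, h22a_c0_algebraMap, h22a_T_algebraMap, zero_mul, add_zero]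

theorem h22a_T_iterate_add (n : ℕ) (u w : O) :
    (h22a_T h)^[n] (u + w) = (h22a_T h)^[n] u + (h22a_T h)^[n] w := by
  induction n generalizing u w with
  | zero => rfl
  | succ n ih => rw [Function.iterate_succ_apply, Function.iterate_succ_apply,
      Function.iterate_succ_apply, h22a_T_add, ih]

theorem h22a_T_iterate_smul (n : ℕ) (c : K) (u : O) :
    (h22a_T h)^[n] (algebraMap K O c * u) = algebraMap K O c * (h22a_T h)^[n] u := by
  induction n generalizing u with
  | zero => rfl
  | succ n ih => rw [Function.iterate_succ_apply, Function.iterate_succ_apply, h22a_T_smul, ih]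

theorem h22a_T_iterate_zero (n : ℕ) : (h22a_T h)^[n] (0 : O) = 0 := by
  induction n with
  | zero => rfl
  | succ n ih => rw [Function.iterate_succ_apply, h22a_T_zero, ih]

/-- The expansion of `u` as a power series in `π`. -/
def h22a_iota (u : O) : K⟦X⟧ := PowerSeries.mk fun n => h22a_c0 h ((h22a_T h)^[n] u)

theorem h22a_coeff_iota (u : O) (n : ℕ) :
    PowerSeries.coeff n (h22a_iota h u) = h22a_c0 h ((h22a_T h)^[n] u) :=
  PowerSeries.coeff_mk _ _

theorem h22a_constantCoeff_iota (u : O) :
    PowerSeries.constantCoeff (h22a_iota h u) = h22a_c0 h u := by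
  rw [← PowerSeries.coeff_zero_eq_constantCoeff_apply, h22a_coeff_iota]
  rfl

theorem h22a_coeff_succ_iota (u : O) (n : ℕ) :
    PowerSeries.coeff (n + 1) (h22a_iota h u) = PowerSeries.coeff n (h22a_iota h (h22a_T h u)) := by
  rw [h22a_coeff_iota, h22a_coeff_iota, Function.iterate_succ_apply]

theorem h22a_iota_eq (u : O) :
    h22a_iota h u = PowerSeries.C (h22a_c0 h u) + PowerSeries.X * h22a_iota h (h22a_T h u) := by
  ext n
  cases n with
  | zero =>
    rw [map_add, PowerSeries.coeff_zero_C, PowerSeries.coeff_zero_X_mul, add_zero,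
      h22a_coeff_iota]
    rfl
  | succ n =>
    rw [map_add, PowerSeries.coeff_succ_X_mul, PowerSeries.coeff_C, if_neg (Nat.succ_ne_zero n),
      zero_add, h22a_coeff_succ_iota]

theorem h22a_iota_add (u w : O) : h22a_iota h (u + w) = h22a_iota h u + h22a_iota h w := by
  ext n
  rw [map_add, h22a_coeff_iota, h22a_coeff_iota, h22a_coeff_iota, h22a_T_iterate_add,
    h22a_c0_add]

theorem h22a_iota_zero : h22a_iota h (0 : O) = 0 := by
  ext n
  rw [h22a_coeff_iota, h22a_T_iterate_zero, h22a_c0_zero, map_zero]

theorem h22a_iota_smul (c : K) (u : O) :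
    h22a_iota h (algebraMap K O c * u) = PowerSeries.C c * h22a_iota h u := by
  ext n
  rw [PowerSeries.coeff_C_mul, h22a_coeff_iota, h22a_coeff_iota, h22a_T_iterate_smul,
    h22a_c0_smul]

theorem h22a_iota_algebraMap (c : K) : h22a_iota h (algebraMap K O c) = PowerSeries.C c := by
  rw [h22a_iota_eq, h22a_c0_algebraMap, h22a_T_algebraMap, h22a_iota_zero, mul_zero, add_zero]

theorem h22a_iota_one : h22a_iota h (1 : O) = 1 := by
  have := h22a_iota_algebraMap h (1 : K)
  rwa [map_one, map_one] at this

theorem h22a_iota_pi_mul (w : O) : h22a_iota h (π * w) = PowerSeries.X * h22a_iota h w := by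
  rw [h22a_iota_eq, h22a_c0_pi_mul, h22a_T_pi_mul, map_zero, zero_add]

theorem h22a_iota_pi : h22a_iota h π = PowerSeries.X := by
  have := h22a_iota_pi_mul h (1 : O)
  rwa [mul_one, h22a_iota_one, mul_one] at this

theorem h22a_coeff_iota_mul (n : ℕ) : ∀ u w : O,
    PowerSeries.coeff n (h22a_iota h (u * w)) =
      PowerSeries.coeff n (h22a_iota h u * h22a_iota h w) := by
  induction n with
  | zero =>
    intro u w
    rw [PowerSeries.coeff_zero_eq_constantCoeff_apply,
      PowerSeries.coeff_zero_eq_constantCoeff_apply, map_mul, h22a_constantCoeff_iota,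
      h22a_constantCoeff_iota, h22a_constantCoeff_iota, h22a_c0_mul]
  | succ n ih =>
    intro u w
    have h1 : h22a_iota h u * h22a_iota h w =
        PowerSeries.C (h22a_c0 h u) * h22a_iota h w +
          PowerSeries.X * (h22a_iota h (h22a_T h u) * h22a_iota h w) := by
      conv_lhs => rw [h22a_iota_eq h u]
      ring
    rw [h1, map_add, PowerSeries.coeff_C_mul, PowerSeries.coeff_succ_X_mul, ← ih,
      h22a_coeff_succ_iota, h22a_T_mul, h22a_iota_add, map_add, h22a_iota_smul,
      PowerSeries.coeff_C_mul, h22a_coeff_succ_iota]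

theorem h22a_iota_mul (u w : O) : h22a_iota h (u * w) = h22a_iota h u * h22a_iota h w := by
  ext n
  exact h22a_coeff_iota_mul h n u w

/-- The expansion map as a `K`-algebra homomorphism. -/
def h22a_iotaHom : O →ₐ[K] K⟦X⟧ where
  toFun := h22a_iota h
  map_one' := h22a_iota_one h
  map_mul' := h22a_iota_mul h
  map_zero' := h22a_iota_zero h
  map_add' := h22a_iota_add h
  commutes' c := by
    show h22a_iota h (algebraMap K O c) = algebraMap K K⟦X⟧ c
    rw [h22a_iota_algebraMap]
    rfl

@[simp] theorem h22a_iotaHom_apply (u : O) : h22a_iotaHom h u = h22a_iota h u := rfl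

theorem h22a_iotaHom_pi : h22a_iotaHom h π = PowerSeries.X := h22a_iota_pi h

theorem h22a_eq_pow_mul (n : ℕ) (u : O)
    (hu : ∀ m < n, PowerSeries.coeff m (h22a_iota h u) = 0) :
    u = π ^ n * (h22a_T h)^[n] u := by
  induction n with
  | zero => simp
  | succ n ih =>
    have h1 := ih (fun m hm => hu m (Nat.lt_succ_of_lt hm))
    have h2 := hu n (Nat.lt_succ_self n)
    rw [h22a_coeff_iota] at h2
    have h3 := h22a_eq h ((h22a_T h)^[n] u)
    rw [h2, map_zero, zero_add] at h3
    rw [Function.iterate_succ_apply', pow_succ, mul_assoc, ← h3]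
    exact h1

/-- The expansion map is injective if `⋂ πⁿ O = 0`. -/
theorem h22a_iota_injective (hsep : ∀ u : O, (∀ n : ℕ, π ^ n ∣ u) → u = 0) :
    Function.Injective (h22a_iotaHom h) := by
  rw [injective_iff_map_eq_zero]
  intro u hu
  apply hsep
  intro n
  refine ⟨(h22a_T h)^[n] u, h22a_eq_pow_mul h n u fun m _ => ?_⟩
  have : h22a_iota h u = 0 := hu
  rw [this, map_zero]

/-- If the constant term of `s` is nonzero then `π ∤ s`. -/
theorem h22a_not_dvd_of_c0_ne_zero {s : O} (hs : h22a_c0 h s ≠ 0) : ¬ π ∣ s := by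
  rintro ⟨w, rfl⟩
  exact hs (h22a_c0_pi_mul h w)

end Series

end RH24
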