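import Mathlib
import Fermat.Prelude.Def_AlgebraicCurve_CanonicalDivisor
import Fermat.Agent.S24.A3bSeries

/-!
# T-RH (S24), slice A3b (helper22): the local formula `ord_v (df) = ord_v f - 1`

For a place `v` of `F/K` with residue field `K` (`v.deg = 1`) and `Ω[F⁄K] = F · dπ`
(`π` the uniformizer of `v`):

* `h22a_regular`: `d u ∈ O_v · dπ` for `u ∈ O_v` (regularity), via the expansion
  `O_v → K⟦X⟧` and uniqueness of derivations;
* `h22a_ordDifferential_D`: `v.ordDifferential (D f) = v.ord f - 1` if `v.ord f ≠ 0` (char 0).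
-/

set_option autoImplicit false
set_option linter.unusedSectionVars false
set_option linter.style.haveILetI false

noncomputable section

namespace RH24

open AlgebraicCurve KaehlerDifferential

variable {K F : Type*} [Field K] [Field F] [Algebra K F]

/-- The uniformizer chosen by the prelude (`Place.dCoord` is its differential). -/
def h22a_unif (v : Place K F) : v.toValuationSubring :=
  (IsDiscreteValuationRing.exists_irreducible v.toValuationSubring).choose

theorem h22a_unif_irreducible (v : Place K F) : Irreducible (h22a_unif v) :=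
  (IsDiscreteValuationRing.exists_irreducible v.toValuationSubring).choose_spec

theorem h22a_dCoord_eq (v : Place K F) :
    v.dCoord = D K F ((h22a_unif v : v.toValuationSubring) : F) := rfl

theorem h22a_ord_unif (v : Place K F) : v.ord ((h22a_unif v : v.toValuationSubring) : F) = 1 :=
  v.ord_coe_irreducible (h22a_unif_irreducible v)

theorem h22a_unif_ne_zero (v : Place K F) : ((h22a_unif v : v.toValuationSubring) : F) ≠ 0 := by
  intro h
  have := h22a_ord_unif v
  rw [h, v.ord_zero] at this
  exact zero_ne_one this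

/-- Residue field `K`: every element of `O_v` is congruent to a constant modulo `π`. -/
theorem h22a_res_of_deg (v : Place K F) (hdeg : v.deg = 1) (u : v.toValuationSubring) :
    ∃ c : K, h22a_unif v ∣ u - algebraMap K v.toValuationSubring c := by
  have h1 : (⊥ : Subalgebra K v.ResidueField) = ⊤ :=
    Subalgebra.bot_eq_top_of_finrank_eq_one hdeg
  have h2 : IsLocalRing.residue v.toValuationSubring u ∈ (⊥ : Subalgebra K v.ResidueField) := by
    rw [h1]
    exact Algebra.mem_top
  obtain ⟨c, hc⟩ := Algebra.mem_bot.1 h2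
  refine ⟨c, ?_⟩
  have h3 : IsLocalRing.residue v.toValuationSubring (u - algebraMap K v.toValuationSubring c)
      = 0 := by
    rw [map_sub, ← hc, sub_eq_zero]
    rfl
  rw [IsLocalRing.residue_eq_zero_iff, (h22a_unif_irreducible v).maximalIdeal_eq,
    Ideal.mem_span_singleton] at h3
  exact h3

theorem h22a_unif_isUnif (v : Place K F) (hdeg : v.deg = 1) :
    h22a_Unif K v.toValuationSubring (h22a_unif v) where
  ne_zero := (h22a_unif_irreducible v).ne_zero
  not_unit := (h22a_unif_irreducible v).not_isUnit
  res := h22a_res_of_deg v hdeg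

theorem h22a_sep (v : Place K F) (u : v.toValuationSubring)
    (hu : ∀ n : ℕ, h22a_unif v ^ n ∣ u) : u = 0 := by
  have hI : (Ideal.span {h22a_unif v} : Ideal v.toValuationSubring) ≠ ⊤ := by
    rw [Ne, Ideal.span_singleton_eq_top]
    exact (h22a_unif_irreducible v).not_isUnit
  have h := Ideal.iInf_pow_eq_bot_of_isLocalRing _ hI
  have hmem : u ∈ ⨅ i : ℕ, (Ideal.span {h22a_unif v} : Ideal v.toValuationSubring) ^ i := by
    rw [Ideal.mem_iInf]
    intro i
    rw [Ideal.span_singleton_pow, Ideal.mem_span_singleton]
    exact hu i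
  rw [h] at hmem
  exact hmem

/-- **Regularity.** For `u ∈ O_v`, `du ∈ O_v · dπ`. -/
theorem h22a_regular (v : Place K F) (hdeg : v.deg = 1)
    (hspan : Submodule.span F {v.dCoord} = ⊤) (u : v.toValuationSubring) :
    ∃ c : v.toValuationSubring, D K F (u : F) = (c : F) • v.dCoord := by
  have hmem : D K F (u : F) ∈ Submodule.span F {v.dCoord} := by
    rw [hspan]
    exact Submodule.mem_top
  obtain ⟨c, hc⟩ := Submodule.mem_span_singleton.1 hmem
  by_cases hcO : c ∈ v.toValuationSubring
  · exact ⟨⟨c, hcO⟩, hc.symm⟩
  exfalso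
  have hc0 : c ≠ 0 := fun h => hcO (h ▸ zero_mem _)
  have hs : c⁻¹ ∈ v.toValuationSubring := (v.toValuationSubring.mem_or_inv_mem c).resolve_left hcO
  -- notation
  let O := v.toValuationSubring
  let π : O := h22a_unif v
  let s : O := ⟨c⁻¹, hs⟩
  have hU := h22a_unif_isUnif v hdeg
  -- the relation in `Ω[F⁄K]`
  have hrel : (s : F) • D K F (u : F) = D K F (π : F) := by
    rw [← hc, smul_smul]
    show (c⁻¹ * c) • v.dCoord = _
    rw [inv_mul_cancel₀ hc0, one_smul]
    rfl
  -- the relation in `Ω[O⁄K]`, up to torsion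
  let ω : Ω[O⁄K] := s • D K O u - D K O π
  have hmap : KaehlerDifferential.map K K O F ω = 0 := by
    show KaehlerDifferential.map K K O F (s • D K O u - D K O π) = 0
    rw [map_sub, map_smul, KaehlerDifferential.map_D, KaehlerDifferential.map_D, sub_eq_zero]
    exact hrel
  obtain ⟨t, ht⟩ := (IsLocalizedModule.eq_zero_iff (nonZeroDivisors O)
    (KaehlerDifferential.map K K O F)).1 hmap
  -- the derivation `d/dX ∘ ι`
  let ι : O →ₐ[K] PowerSeries K := h22a_iotaHom hU
  have hιinj : Function.Injective ι := h22a_iota_injective hU (h22a_sep v)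
  letI : Algebra O (PowerSeries K) := ι.toRingHom.toAlgebra
  haveI : IsScalarTower K O (PowerSeries K) :=
    IsScalarTower.of_algebraMap_eq fun a => (ι.commutes a).symm
  let δ : Derivation K O (PowerSeries K) := (PowerSeries.derivative K).compAlgebraMap O
  have hδ : ∀ a : O, δ a = PowerSeries.derivative K (ι a) := fun a => rfl
  have hL : δ.liftKaehlerDifferential ((t : O) • ω) = 0 := by
    have : (t : O) • ω = 0 := ht
    rw [this, map_zero]
  have hsmul : ∀ (a : O) (x : PowerSeries K), a • x = ι a * x := fun a x => rfl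
  have hcomp : δ.liftKaehlerDifferential ((t : O) • ω) =
      ι (t : O) * (ι s * PowerSeries.derivative K (ι u) - 1) := by
    show δ.liftKaehlerDifferential ((t : O) • (s • D K O u - D K O π)) = _
    rw [map_smul, map_sub, map_smul, Derivation.liftKaehlerDifferential_comp_D,
      Derivation.liftKaehlerDifferential_comp_D, hδ, hδ, hsmul, hsmul]
    have hπ : ι π = PowerSeries.X := h22a_iotaHom_pi hU
    rw [hπ, PowerSeries.derivative_X]
  rw [hcomp] at hL
  have ht0 : ι (t : O) ≠ 0 := by
    intro h0
    have : (t : O) = 0 := hιinj (by rw [h0, map_zero])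
    exact nonZeroDivisors.coe_ne_zero t this
  have hone : ι s * PowerSeries.derivative K (ι u) = 1 :=
    sub_eq_zero.1 ((mul_eq_zero.1 hL).resolve_left ht0)
  have hunit : IsUnit (ι s) := IsUnit.of_mul_eq_one _ hone
  have hcc : PowerSeries.constantCoeff (ι s) ≠ 0 :=
    (PowerSeries.isUnit_iff_constantCoeff.1 hunit).ne_zero
  have hc0s : h22a_c0 hU s ≠ 0 := by
    rwa [← h22a_constantCoeff_iota hU s]
  have hnd : ¬ π ∣ s := h22a_not_dvd_of_c0_ne_zero hU hc0s
  have hsunit : IsUnit s := by
    by_contra hns
    have hm : s ∈ IsLocalRing.maximalIdeal O := (IsLocalRing.mem_maximalIdeal s).2 hns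
    rw [(h22a_unif_irreducible v).maximalIdeal_eq, Ideal.mem_span_singleton] at hm
    exact hnd hm
  obtain ⟨s', hs'⟩ := hsunit.exists_right_inv
  apply hcO
  have h1 : ((s * s' : O) : F) = 1 := by rw [hs']; rfl
  have h2 : c⁻¹ * (s' : F) = 1 := h1
  have h3 : (s' : F) = c := by
    field_simp at h2
    exact h2.symm ▸ rfl
  rw [← h3]
  exact s'.2

/-- **Local formula.** `ord_v (df) = ord_v f - 1` if `ord_v f ≠ 0`. -/
theorem h22a_ordDifferential_D [CharZero K] (v : Place K F) (hdeg : v.deg = 1)
    (hspan : Submodule.span F {v.dCoord} = ⊤) (hne : v.dCoord ≠ 0)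
    (f : F) (hf : v.ord f ≠ 0) : v.ordDifferential (D K F f) = v.ord f - 1 := by
  haveI : v.DCoordGenerates := ⟨hspan⟩
  haveI : Nontrivial Ω[F⁄K] := ⟨⟨v.dCoord, 0, hne⟩⟩
  have hf0 : f ≠ 0 := by
    rintro rfl
    exact hf v.ord_zero
  have hπ := h22a_unif_irreducible v
  obtain ⟨u, hu⟩ := v.exists_unit_mul_zpow hf0 hπ
  obtain ⟨cu, hcu⟩ := h22a_regular v hdeg hspan (u : v.toValuationSubring)
  set n : ℤ := v.ord f with hn
  set π : F := ((h22a_unif v : v.toValuationSubring) : F) with hπdef
  have hπ0 : π ≠ 0 := h22a_unif_ne_zero v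
  have hD : D K F f = (π ^ (n - 1) * ((n : F) * ((u : v.toValuationSubring) : F) + π * (cu : F)))
      • v.dCoord := by
    have hpow : π ^ n = π ^ (n - 1) * π := by
      rw [← zpow_add_one₀ hπ0, sub_add_cancel]
    rw [hu, Derivation.leibniz, Derivation.leibniz_zpow, hcu, h22a_dCoord_eq,
      ← Int.cast_smul_eq_zsmul F n, smul_smul, smul_smul, smul_smul, ← add_smul, hpow]
    congr 1
    ring
  rw [Place.ordDifferential, v.differentialCoeff_unique hD]
  -- the second factor is a unit of `O_v`
  have hnK : (n : K) ≠ 0 := by exact_mod_cast hf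
  let w : v.toValuationSubring :=
    algebraMap K v.toValuationSubring (n : K) * (u : v.toValuationSubring) + h22a_unif v * cu
  have hw : IsUnit w := by
    by_contra hns
    have hm : w ∈ IsLocalRing.maximalIdeal v.toValuationSubring :=
      (IsLocalRing.mem_maximalIdeal w).2 hns
    have hm2 : h22a_unif v * cu ∈ IsLocalRing.maximalIdeal v.toValuationSubring := by
      rw [hπ.maximalIdeal_eq, Ideal.mem_span_singleton]
      exact dvd_mul_right _ _
    have hm3 : algebraMap K v.toValuationSubring (n : K) * (u : v.toValuationSubring) ∈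
        IsLocalRing.maximalIdeal v.toValuationSubring := by
      have := Ideal.sub_mem _ hm hm2
      simpa [w] using this
    have hun : IsUnit (algebraMap K v.toValuationSubring (n : K) * (u : v.toValuationSubring)) :=
      ((IsUnit.mk0 _ hnK).map (algebraMap K v.toValuationSubring)).mul u.isUnit
    exact (IsLocalRing.mem_maximalIdeal _).1 hm3 hun
  have hwF : ((w : v.toValuationSubring) : F) =
      (n : F) * ((u : v.toValuationSubring) : F) + π * (cu : F) := by
    show algebraMap K F (n : K) * ((u : v.toValuationSubring) : F) + π * (cu : F) = _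
    rw [map_intCast]
  have hw0 : ((w : v.toValuationSubring) : F) ≠ 0 := by
    intro h0
    exact hw.ne_zero (Subtype.ext h0)
  rw [← hwF, v.ord_mul (zpow_ne_zero _ hπ0) hw0, v.ord_zpow, h22a_ord_unif,
    show ((w : v.toValuationSubring) : F) = ((hw.unit : v.toValuationSubringˣ) :
      v.toValuationSubring) from rfl, v.ord_coe_unit, mul_one, add_zero]

/-- The uniformizer of a place is transcendental over an algebraically closed `K`. -/
theorem h22a_unif_transcendental [IsAlgClosed K] (v : Place K F) :
    Transcendental K ((h22a_unif v : v.toValuationSubring) : F) := by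
  intro halg
  have hint : IsIntegral K ((h22a_unif v : v.toValuationSubring) : F) := halg.isIntegral
  have hdeg : (minpoly K ((h22a_unif v : v.toValuationSubring) : F)).degree = 1 :=
    IsAlgClosed.degree_eq_one_of_irreducible K (minpoly.irreducible hint)
  obtain ⟨c, hc⟩ := minpoly.mem_range_of_degree_eq_one K _ hdeg
  have hc0 : c ≠ 0 := by
    rintro rfl
    rw [map_zero] at hc
    exact h22a_unif_ne_zero v hc.symm
  have hunit : IsUnit (algebraMap K v.toValuationSubring c) :=
    (IsUnit.mk0 c hc0).map (algebraMap K v.toValuationSubring)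
  have heq : algebraMap K v.toValuationSubring c = h22a_unif v := Subtype.ext hc
  rw [heq] at hunit
  exact (h22a_unif_irreducible v).not_isUnit hunit

/-- `DCoordGenerates` from the A3a statement `span {D f} = ⊤` for transcendental `f`. -/
theorem h22a_dCoordGenerates_of [IsAlgClosed K] (v : Place K F)
    (hspan : ∀ f : F, Transcendental K f → Submodule.span F {D K F f} = ⊤) :
    v.DCoordGenerates :=
  ⟨hspan _ (h22a_unif_transcendental v)⟩

/-- The local formula from the A1 statement `v.deg = 1` and the A3a statements. -/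
theorem h22a_ordDifferential_D_of [IsAlgClosed K] [CharZero K] (v : Place K F)
    (hdeg : v.deg = 1)
    (hspan : ∀ f : F, Transcendental K f → Submodule.span F {D K F f} = ⊤)
    (hne : ∀ f : F, Transcendental K f → D K F f ≠ 0)
    (f : F) (hf : v.ord f ≠ 0) : v.ordDifferential (D K F f) = v.ord f - 1 :=
  h22a_ordDifferential_D v hdeg (hspan _ (h22a_unif_transcendental v))
    (hne _ (h22a_unif_transcendental v)) f hf

end RH24
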