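import Mathlib
import Fermat.Agent.S24.A0
import Fermat.Agent.S24.A1Core
import Fermat.Agent.S24.A3a
import Fermat.Agent.S24.A3b

/-!
# T-RH (S24), Layer A (helper22): residue degree one, centers, and the local formula

* `RH24.place_deg_eq_one`: every place of `F/K` has degree one (`K` algebraically closed).
* `RH24.exists_center`: a place with `0 ≤ ord y` is centered at some `y = a`.
* `RH24.ordDifferential_D`: `ord_v (df) = ord_v f - 1` if `ord_v f ≠ 0` (exact contract statement).
-/

set_option autoImplicit false
set_option linter.unusedSectionVars false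
set_option linter.style.haveILetI false

noncomputable section

namespace RH24

open AlgebraicCurve KaehlerDifferential IntermediateField

variable {K F : Type*} [Field K] [IsAlgClosed K] [CharZero K] [Field F] [Algebra K F]

theorem h22a_adicValuation_algebraMap (v : Place K F) {c : K} (hc : c ≠ 0) :
    v.adicValuation (algebraMap K F c) = 1 := by
  have h0 : algebraMap K F c ≠ 0 := (map_ne_zero _).2 hc
  rw [h20_adicValuation_eq v h0, h20_ord_algebraMap]
  simp

/-- Residue field `K`: every element of `O_v` is congruent to a constant modulo `π`. -/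
theorem h22a_res (y : F) (_hy : Transcendental K y) [FiniteDimensional K⟮y⟯ F]
    (v : Place K F) (u : v.toValuationSubring) :
    ∃ c : K, h22a_unif v ∣ u - algebraMap K v.toValuationSubring c := by
  have hz : Transcendental K ((h22a_unif v : v.toValuationSubring) : F) :=
    h22a_unif_transcendental v
  have hv : 0 < v.ord ((h22a_unif v : v.toValuationSubring) : F) := by
    rw [h22a_ord_unif]
    exact one_pos
  generalize ((h22a_unif v : v.toValuationSubring) : F) = z at hz hv
  haveI : FiniteDimensional K⟮z⟯ F := finiteDimensional_adjoin_of_transcendental y z hz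
  haveI := h20_isDedekind z hz
  haveI := h20_isFractionRing (K := K) z
  have hPv : h20_placeOf z (h20_primeOf z v hv) = v := h20_placeOf_primeOf z v hv
  have hval : ∀ f : F, v.adicValuation f = (h20_primeOf z v hv).valuation F f := by
    intro f
    rw [← h20_placeOf_adicValuation z (h20_primeOf z v hv) f, hPv]
  have hu : (h20_primeOf z v hv).valuation F (u : F) ≤ 1 := by
    rw [← hval]
    exact (h20_mem_iff_adicValuation_le_one v _).1 u.2
  obtain ⟨n, d, hnd⟩ := (h20_primeOf z v hv).exists_primeCompl_mul_eq_of_integer (u : F) hu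
  obtain ⟨cn, hcn⟩ := h20_exists_residue_B z hz (h20_primeOf z v hv).asIdeal
    (h20_zB_mem_primeOf z v hv) n
  obtain ⟨cd, hcd⟩ := h20_exists_residue_B z hz (h20_primeOf z v hv).asIdeal
    (h20_zB_mem_primeOf z v hv) (d : h20_B (K := K) z)
  have hcd0 : cd ≠ 0 := by
    rintro rfl
    rw [map_zero, sub_zero] at hcd
    exact d.2 hcd
  refine ⟨cn / cd, ?_⟩
  rw [← Ideal.mem_span_singleton, ← (h22a_unif_irreducible v).maximalIdeal_eq,
    h20_mem_maximalIdeal_iff]
  -- the valuation computation in `F`
  have hN : v.adicValuation ((n : F) - algebraMap K F cn) < 1 :=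
    (h20_mem_primeOf z v hv (n - h20_cB z cn)).1 hcn
  have hD : v.adicValuation (((d : h20_B (K := K) z) : F) - algebraMap K F cd) < 1 :=
    (h20_mem_primeOf z v hv ((d : h20_B (K := K) z) - h20_cB z cd)).1 hcd
  have hd1 : v.adicValuation (((d : h20_B (K := K) z) : F)) = 1 := by
    have h1 : ¬ v.adicValuation ((d : h20_B (K := K) z) : F) < 1 := by
      rw [← h20_mem_primeOf z v hv]
      exact d.2
    have h2 : v.adicValuation ((d : h20_B (K := K) z) : F) ≤ 1 :=
      (h20_mem_iff_adicValuation_le_one v _).mp
        (h20_integral_mem v z (h20_mem_of_ord_pos v hv) _ (d : h20_B (K := K) z).2)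
    exact le_antisymm h2 (not_lt.mp h1)
  have hnd' : (u : F) * ((d : h20_B (K := K) z) : F) = (n : F) := hnd
  have hcdF : algebraMap K F cd ≠ 0 := (map_ne_zero _).2 hcd0
  have hkey : ((u : F) - algebraMap K F (cn / cd)) * (((d : h20_B (K := K) z) : F) *
      algebraMap K F cd) = ((n : F) - algebraMap K F cn) * algebraMap K F cd -
        algebraMap K F cn * (((d : h20_B (K := K) z) : F) - algebraMap K F cd) := by
    rw [map_div₀, ← hnd']
    field_simp
    ring
  have hrhs : v.adicValuation (((n : F) - algebraMap K F cn) * algebraMap K F cd -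
        algebraMap K F cn * (((d : h20_B (K := K) z) : F) - algebraMap K F cd)) < 1 := by
    apply Valuation.map_sub_lt
    · rw [map_mul]
      calc v.adicValuation ((n : F) - algebraMap K F cn) * v.adicValuation (algebraMap K F cd)
          ≤ v.adicValuation ((n : F) - algebraMap K F cn) * 1 :=
            mul_le_mul_right ((h20_mem_iff_adicValuation_le_one v _).1 (v.algebraMap_mem' cd)) _
        _ < 1 := by rw [mul_one]; exact hN
    · rw [map_mul]
      calc v.adicValuation (algebraMap K F cn) *
            v.adicValuation (((d : h20_B (K := K) z) : F) - algebraMap K F cd)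
          ≤ 1 * v.adicValuation (((d : h20_B (K := K) z) : F) - algebraMap K F cd) :=
            mul_le_mul_left ((h20_mem_iff_adicValuation_le_one v _).1 (v.algebraMap_mem' cn)) _
        _ < 1 := by rw [one_mul]; exact hD
  rw [← hkey, map_mul, map_mul, hd1, h22a_adicValuation_algebraMap v hcd0, mul_one, mul_one]
    at hrhs
  exact hrhs

/-- **A1**: every place has degree one. -/
theorem place_deg_eq_one (y : F) (hy : Transcendental K y) [FiniteDimensional K⟮y⟯ F]
    (v : Place K F) : v.deg = 1 := by
  rw [Place.deg]
  apply (Subalgebra.bot_eq_top_iff_finrank_eq_one (F := K) (E := v.ResidueField)).1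
  refine le_antisymm bot_le ?_
  intro x _
  obtain ⟨u, rfl⟩ := IsLocalRing.residue_surjective x
  obtain ⟨c, hc⟩ := h22a_res y hy v u
  rw [Algebra.mem_bot]
  refine ⟨c, ?_⟩
  have h3 : IsLocalRing.residue v.toValuationSubring (u - algebraMap K v.toValuationSubring c)
      = 0 := by
    rw [IsLocalRing.residue_eq_zero_iff, (h22a_unif_irreducible v).maximalIdeal_eq,
      Ideal.mem_span_singleton]
    exact hc
  rw [map_sub, sub_eq_zero] at h3
  rw [h3]
  rfl

/-- **A1**: a place with `0 ≤ ord y` is centered at `y = a` for some `a : K`. -/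
theorem exists_center (y : F) (hy : Transcendental K y) [FiniteDimensional K⟮y⟯ F]
    (v : Place K F) (h : 0 ≤ v.ord y) : ∃ a : K, 0 < v.ord (y - algebraMap K F a) := by
  have hy0 : y ≠ 0 := fun h0 => hy (h0 ▸ isAlgebraic_zero)
  have hyO : y ∈ v.toValuationSubring := (h20_mem_iff_ord_nonneg v hy0).2 h
  obtain ⟨c, hc⟩ := h22a_res y hy v ⟨y, hyO⟩
  refine ⟨c, ?_⟩
  have hne : y - algebraMap K F c ≠ 0 := by
    intro h0
    apply hy
    rw [sub_eq_zero.1 h0]
    exact isAlgebraic_algebraMap c
  rw [← h20_adicValuation_lt_one_iff v hne]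
  have hm : (⟨y, hyO⟩ - algebraMap K v.toValuationSubring c : v.toValuationSubring) ∈
      IsLocalRing.maximalIdeal v.toValuationSubring := by
    rw [(h22a_unif_irreducible v).maximalIdeal_eq, Ideal.mem_span_singleton]
    exact hc
  exact (h20_mem_maximalIdeal_iff v _).1 hm

/-- **A3b**: the local formula `ord_v (df) = ord_v f - 1` for `ord_v f ≠ 0`. -/
theorem ordDifferential_D (y : F) (hy : Transcendental K y) [FiniteDimensional K⟮y⟯ F]
    (v : Place K F) (f : F) (hf : v.ord f ≠ 0) :
    v.ordDifferential (D K F f) = v.ord f - 1 :=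
  h22a_ordDifferential_D_of v (place_deg_eq_one y hy v) (fun f hf => span_D_eq_top y hy f hf)
    (fun f hf => D_ne_zero y hy f hf) f hf

end RH24
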