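import Mathlib

/-!
# `SL(2, ℤ) ⧸ Γ₀(N)` and primitive vectors mod `N`  (helper8, T-RH slices C1/C2)

The first column mod `N` of a matrix in `SL(2, ℤ)` is a primitive vector of `(ZMod N)²`, and two
matrices lie in the same left coset of `Γ₀(N)` iff their first columns mod `N` have vanishing
cross product.
-/

set_option autoImplicit false

open MatrixGroups CongruenceSubgroup

namespace RH24

/-- entry `(1,0)` of `g⁻¹ * h` -/
theorem h8_inv_mul_apply_one_zero (g h : SL(2, ℤ)) :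
    (g⁻¹ * h) 1 0 = -(g 1 0) * (h 0 0) + (g 0 0) * (h 1 0) := by
  rw [Matrix.SpecialLinearGroup.coe_mul, Matrix.SpecialLinearGroup.coe_inv,
    Matrix.adjugate_fin_two]
  simp [Matrix.mul_apply, Fin.sum_univ_two]

/-- the coset criterion: cross product of the first columns vanishes mod `N` -/
theorem h8_mk_eq_iff (N : ℕ) (g h : SL(2, ℤ)) :
    (QuotientGroup.mk g : SL(2, ℤ) ⧸ Gamma0 N) = QuotientGroup.mk h ↔
      ((g 0 0 : ℤ) : ZMod N) * ((h 1 0 : ℤ) : ZMod N)
        = ((g 1 0 : ℤ) : ZMod N) * ((h 0 0 : ℤ) : ZMod N) := by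
  rw [QuotientGroup.eq, CongruenceSubgroup.Gamma0_mem, h8_inv_mul_apply_one_zero]
  push_cast
  constructor
  · intro h1
    linear_combination h1
  · intro h1
    linear_combination h1

/-- the determinant relation mod `N` -/
theorem h8_det_mod (N : ℕ) (g : SL(2, ℤ)) :
    ((g 1 1 : ℤ) : ZMod N) * ((g 0 0 : ℤ) : ZMod N)
      + (-((g 0 1 : ℤ) : ZMod N)) * ((g 1 0 : ℤ) : ZMod N) = 1 := by
  have h := g.det_coe
  rw [Matrix.det_fin_two] at h
  have h2 := congrArg (Int.cast : ℤ → ZMod N) h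
  push_cast at h2
  linear_combination h2

/-- the first column of a product -/
theorem h8_mul_apply_zero_zero (g h : SL(2, ℤ)) :
    (g * h) 0 0 = g 0 0 * h 0 0 + g 0 1 * h 1 0 := by
  rw [Matrix.SpecialLinearGroup.coe_mul]
  simp [Matrix.mul_apply, Fin.sum_univ_two]

theorem h8_mul_apply_one_zero (g h : SL(2, ℤ)) :
    (g * h) 1 0 = g 1 0 * h 0 0 + g 1 1 * h 1 0 := by
  rw [Matrix.SpecialLinearGroup.coe_mul]
  simp [Matrix.mul_apply, Fin.sum_univ_two]

/-- shifting lemma: if `gcd(x, c, N) = 1` and `c ≠ 0`, some `x + k N` is coprime to `c`. -/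
theorem h8_exists_coprime_shift (x c N : ℕ) (hc : c ≠ 0)
    (h : ∀ p : ℕ, p.Prime → p ∣ x → p ∣ c → p ∣ N → False) :
    ∃ k : ℕ, (x + k * N).Coprime c := by
  classical
  let ps : Finset ℕ := {p ∈ c.primeFactors | ¬p ∣ x}
  refine ⟨ps.prod id, ?_⟩
  apply Nat.coprime_of_dvd
  intro p pp hp hpc
  by_cases hpx : p ∣ x
  · have h1 := Nat.dvd_sub hp hpx
    rw [add_comm, Nat.add_sub_cancel] at h1
    rcases pp.dvd_mul.mp h1 with h2 | h2
    · have ⟨q, hq, hq'⟩ := (pp.prime.dvd_finsetProd_iff id).mp h2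
      rw [Finset.mem_filter, Nat.mem_primeFactors,
        ← (Nat.prime_dvd_prime_iff_eq pp hq.1.1).mp hq'] at hq
      exact hq.2 hpx
    · exact h p pp hpx hpc h2
  · have pps : p ∈ ps := Finset.mem_filter.mpr ⟨Nat.mem_primeFactors.mpr ⟨pp, hpc, hc⟩, hpx⟩
    have h1 := Nat.dvd_sub hp ((Finset.dvd_prod_of_mem id pps).mul_right N)
    rw [Nat.add_sub_cancel] at h1
    exact hpx h1

/-- lifting lemma: every primitive vector mod `N` is the first column of a matrix in `SL(2, ℤ)`. -/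
theorem h8_exists_lift (N : ℕ) [NeZero N] (x y a b : ZMod N) (hab : a * x + b * y = 1) :
    ∃ g : SL(2, ℤ), ((g 0 0 : ℤ) : ZMod N) = x ∧ ((g 1 0 : ℤ) : ZMod N) = y := by
  classical
  -- integer lifts
  obtain ⟨c, hc0, hcy⟩ : ∃ c : ℕ, c ≠ 0 ∧ (c : ZMod N) = y := by
    by_cases hy : y.val = 0
    · refine ⟨N, NeZero.ne N, ?_⟩
      rw [ZMod.natCast_self]
      exact ((ZMod.val_eq_zero y).mp hy).symm
    · exact ⟨y.val, hy, ZMod.natCast_zmod_val y⟩
  have hx : ((x.val : ℕ) : ZMod N) = x := ZMod.natCast_zmod_val x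
  have hprim : ∀ p : ℕ, p.Prime → p ∣ x.val → p ∣ c → p ∣ N → False := by
    intro p pp hpx hpc hpN
    have hpx' : (ZMod.castHom hpN (ZMod p)) x = 0 := by
      rw [← hx, map_natCast]
      exact (ZMod.natCast_eq_zero_iff _ _).mpr hpx
    have hpy' : (ZMod.castHom hpN (ZMod p)) y = 0 := by
      rw [← hcy, map_natCast]
      exact (ZMod.natCast_eq_zero_iff _ _).mpr hpc
    have h1 := congrArg (ZMod.castHom hpN (ZMod p)) hab
    rw [map_add, map_mul, map_mul, hpx', hpy', map_one] at h1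
    haveI : Fact p.Prime := ⟨pp⟩
    simp at h1
  obtain ⟨k, hk⟩ := h8_exists_coprime_shift x.val c N hc0 hprim
  have hk' : IsCoprime ((x.val + k * N : ℕ) : ℤ) (c : ℤ) := Nat.isCoprime_iff_coprime.mpr hk
  obtain ⟨u, v, huv⟩ := hk'
  refine ⟨⟨!![((x.val + k * N : ℕ) : ℤ), -v; (c : ℤ), u], ?_⟩, ?_, ?_⟩
  · rw [Matrix.det_fin_two_of]
    linear_combination huv
  · simp [hx]
  · simp [hcy]

end RH24
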