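import Mathlib

/-!
# Counting primitive vectors of `(ZMod N)²`  (helper8, T-RH slice C1)

`#{(x, y) ∈ (ZMod N)² primitive} = ψ(N) · φ(N)` where `ψ` is the Dedekind psi function
`ψ(N) = ∑_{d ∣ N, d squarefree} N / d`.
-/

set_option autoImplicit false

namespace RH24

/-- primitive vectors of `R²` -/
def h8_IsPrim {R : Type*} [CommRing R] (v : R × R) : Prop := ∃ a b : R, a * v.1 + b * v.2 = 1

theorem h8_isPrim_map {R S : Type*} [CommRing R] [CommRing S] (f : R →+* S) {v : R × R}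
    (h : h8_IsPrim v) : h8_IsPrim (f v.1, f v.2) := by
  obtain ⟨a, b, hab⟩ := h
  refine ⟨f a, f b, ?_⟩
  have := congrArg f hab
  simpa using this

theorem h8_card_prim_congr {R S : Type*} [CommRing R] [CommRing S] (e : R ≃+* S) :
    Nat.card {v : R × R // h8_IsPrim v} = Nat.card {v : S × S // h8_IsPrim v} := by
  refine Nat.card_congr (Equiv.subtypeEquiv (Equiv.prodCongr e.toEquiv e.toEquiv) ?_)
  intro v
  constructor
  · intro h
    exact h8_isPrim_map e.toRingHom h
  · intro h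
    have := h8_isPrim_map e.symm.toRingHom h
    simpa using this

theorem h8_card_prim_prod (R S : Type*) [CommRing R] [CommRing S] :
    Nat.card {v : (R × S) × (R × S) // h8_IsPrim v}
      = Nat.card {v : R × R // h8_IsPrim v} * Nat.card {v : S × S // h8_IsPrim v} := by
  rw [← Nat.card_prod]
  refine Nat.card_congr ((Equiv.subtypeEquiv (Equiv.prodProdProdComm R S R S) ?_).trans
    Equiv.subtypeProdEquivProd)
  rintro ⟨⟨r1, s1⟩, ⟨r2, s2⟩⟩
  constructor
  · rintro ⟨⟨a1, a2⟩, ⟨b1, b2⟩, h⟩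
    have h1 := congrArg Prod.fst h
    have h2 := congrArg Prod.snd h
    exact ⟨⟨a1, b1, by simpa using h1⟩, ⟨a2, b2, by simpa using h2⟩⟩
  · rintro ⟨⟨a1, b1, h1⟩, ⟨a2, b2, h2⟩⟩
    refine ⟨(a1, a2), (b1, b2), ?_⟩
    ext
    · simpa using h1
    · simpa using h2

theorem h8_card_add_card_compl {α : Type*} [Finite α] (p : α → Prop) :
    Nat.card {a // p a} + Nat.card {a // ¬ p a} = Nat.card α := by
  classical
  rw [← Nat.card_sum]
  exact Nat.card_congr (Equiv.sumCompl p)

theorem h8_card_isUnit (R : Type*) [Monoid R] :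
    Nat.card {x : R // IsUnit x} = Nat.card Rˣ := by
  symm
  refine Nat.card_congr (Equiv.ofBijective (fun u : Rˣ => (⟨u, u.isUnit⟩ : {x : R // IsUnit x}))
    ⟨?_, ?_⟩)
  · intro u v h
    exact Units.ext (congrArg Subtype.val h)
  · rintro ⟨x, u, rfl⟩
    exact ⟨u, rfl⟩

/-- a non-unit of `ZMod (p ^ k)` reduces to `0` mod `p` -/
theorem h8_nonunit_cast_eq_zero {p k : ℕ} (hp : p.Prime) (hk : k ≠ 0) (x : ZMod (p ^ k))
    (hx : ¬ IsUnit x) : ZMod.castHom (dvd_pow_self p hk) (ZMod p) x = 0 := by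
  have : NeZero (p ^ k) := ⟨pow_ne_zero k hp.ne_zero⟩
  have hx' : ((x.val : ℕ) : ZMod (p ^ k)) = x := ZMod.natCast_zmod_val x
  have hdvd : p ∣ x.val := by
    by_contra hnd
    apply hx
    rw [← hx', ZMod.isUnit_iff_coprime]
    exact (((Nat.Prime.coprime_iff_not_dvd hp).mpr hnd).symm).pow_right k
  rw [← hx', map_natCast]
  exact (ZMod.natCast_eq_zero_iff _ _).mpr hdvd

theorem h8_isPrim_primePow_iff {p k : ℕ} (hp : p.Prime) (hk : k ≠ 0)
    (v : ZMod (p ^ k) × ZMod (p ^ k)) :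
    ¬ h8_IsPrim v ↔ (¬ IsUnit v.1 ∧ ¬ IsUnit v.2) := by
  constructor
  · intro h
    constructor
    · intro hu
      obtain ⟨w, hw⟩ := hu.exists_left_inv
      exact h ⟨w, 0, by rw [hw]; ring⟩
    · intro hu
      obtain ⟨w, hw⟩ := hu.exists_left_inv
      exact h ⟨0, w, by rw [hw]; ring⟩
  · rintro ⟨h1, h2⟩ ⟨a, b, hab⟩
    have e1 := h8_nonunit_cast_eq_zero hp hk _ h1
    have e2 := h8_nonunit_cast_eq_zero hp hk _ h2
    have h3 := congrArg (ZMod.castHom (dvd_pow_self p hk) (ZMod p)) hab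
    rw [map_add, map_mul, map_mul, e1, e2, map_one] at h3
    have : Fact p.Prime := ⟨hp⟩
    simp at h3

theorem h8_card_nonunit_primePow {p : ℕ} (hp : p.Prime) (j : ℕ) :
    Nat.card {x : ZMod (p ^ (j + 1)) // ¬ IsUnit x} = p ^ j := by
  have : NeZero (p ^ (j + 1)) := ⟨pow_ne_zero _ hp.ne_zero⟩
  have h1 := h8_card_add_card_compl (fun x : ZMod (p ^ (j + 1)) => IsUnit x)
  rw [h8_card_isUnit, Nat.card_zmod, Nat.card_eq_fintype_card, ZMod.card_units_eq_totient,
    Nat.totient_prime_pow_succ hp j] at h1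
  obtain ⟨q, rfl⟩ : ∃ q, p = q + 1 := ⟨p - 1, (Nat.succ_pred_eq_of_pos hp.pos).symm⟩
  rw [Nat.add_sub_cancel, pow_succ] at h1
  have h2 : (q + 1) ^ j * q + Nat.card {x : ZMod ((q + 1) ^ (j + 1)) // ¬ IsUnit x}
      = (q + 1) ^ j * q + (q + 1) ^ j := h1.trans (by ring)
  exact Nat.add_left_cancel h2

theorem h8_card_prim_primePow {p : ℕ} (hp : p.Prime) (j : ℕ) :
    Nat.card {v : ZMod (p ^ (j + 1)) × ZMod (p ^ (j + 1)) // h8_IsPrim v}
      = (p ^ (j + 1) + p ^ j) * (p ^ j * (p - 1)) := by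
  have : NeZero (p ^ (j + 1)) := ⟨pow_ne_zero _ hp.ne_zero⟩
  have h1 := h8_card_add_card_compl
    (fun v : ZMod (p ^ (j + 1)) × ZMod (p ^ (j + 1)) => h8_IsPrim v)
  have h2 : Nat.card {v : ZMod (p ^ (j + 1)) × ZMod (p ^ (j + 1)) // ¬ h8_IsPrim v}
      = p ^ j * p ^ j := by
    rw [← h8_card_nonunit_primePow hp j, ← Nat.card_prod]
    refine Nat.card_congr ((Equiv.subtypeEquivRight ?_).trans Equiv.subtypeProdEquivProd)
    intro v
    exact h8_isPrim_primePow_iff hp (Nat.succ_ne_zero j) v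
  rw [h2, Nat.card_prod, Nat.card_zmod] at h1
  obtain ⟨q, rfl⟩ : ∃ q, p = q + 1 := ⟨p - 1, (Nat.succ_pred_eq_of_pos hp.pos).symm⟩
  rw [Nat.add_sub_cancel]
  have h3 : Nat.card {v : ZMod ((q + 1) ^ (j + 1)) × ZMod ((q + 1) ^ (j + 1)) // h8_IsPrim v}
      + (q + 1) ^ j * (q + 1) ^ j
      = ((q + 1) ^ (j + 1) + (q + 1) ^ j) * ((q + 1) ^ j * q) + (q + 1) ^ j * (q + 1) ^ j :=
    h1.trans (by ring)
  exact Nat.add_right_cancel h3

/-! ### The Dedekind psi function -/

/-- the Dedekind psi function (same formula as `ModularCurve.dedekindPsi`) -/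
def h8_psi (N : ℕ) : ℕ := ∑ d ∈ N.divisors with Squarefree d, N / d

/-- indicator of squarefree numbers as an arithmetic function -/
def h8_sqf : ArithmeticFunction ℕ :=
  ⟨fun n => if n = 0 then 0 else if Squarefree n then 1 else 0, by simp⟩

theorem h8_sqf_apply (n : ℕ) (hn : n ≠ 0) : h8_sqf n = if Squarefree n then 1 else 0 := by
  show (if n = 0 then 0 else if Squarefree n then 1 else 0) = _
  rw [if_neg hn]

theorem h8_sqf_isMultiplicative : h8_sqf.IsMultiplicative := by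
  constructor
  · rw [h8_sqf_apply 1 one_ne_zero, if_pos squarefree_one]
  · intro m n hmn
    by_cases hm : m = 0
    · subst hm
      simp [h8_sqf]
    by_cases hn : n = 0
    · subst hn
      simp [h8_sqf]
    rw [h8_sqf_apply _ (mul_ne_zero hm hn), h8_sqf_apply _ hm, h8_sqf_apply _ hn]
    by_cases h1 : Squarefree m <;> by_cases h2 : Squarefree n <;>
      simp [Nat.squarefree_mul hmn, h1, h2]

theorem h8_psi_eq (N : ℕ) : h8_psi N = (h8_sqf * ArithmeticFunction.id) N := by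
  rw [ArithmeticFunction.mul_apply,
    Nat.sum_divisorsAntidiagonal (fun a b => h8_sqf a * ArithmeticFunction.id b), h8_psi,
    Finset.sum_filter]
  refine Finset.sum_congr rfl ?_
  intro d hd
  have hd0 : d ≠ 0 := (Nat.pos_of_mem_divisors hd).ne'
  rw [h8_sqf_apply d hd0, ArithmeticFunction.id_apply]
  split_ifs <;> simp

theorem h8_psi_mul {a b : ℕ} (h : a.Coprime b) : h8_psi (a * b) = h8_psi a * h8_psi b := by
  rw [h8_psi_eq, h8_psi_eq, h8_psi_eq]
  exact (h8_sqf_isMultiplicative.mul ArithmeticFunction.isMultiplicative_id).map_mul_of_coprime h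

theorem h8_psi_prime_pow {p : ℕ} (hp : p.Prime) (j : ℕ) :
    h8_psi (p ^ (j + 1)) = p ^ (j + 1) + p ^ j := by
  rw [h8_psi, Finset.sum_filter, Nat.sum_divisors_prime_pow hp, Finset.sum_range_succ',
    Finset.sum_range_succ']
  have h0 : ∀ i ∈ Finset.range j,
      (if Squarefree (p ^ (i + 1 + 1)) then p ^ (j + 1) / p ^ (i + 1 + 1) else 0) = 0 := by
    intro i _
    rw [if_neg]
    intro hsq
    have := (Nat.squarefree_pow_iff hp.ne_one (by omega)).mp hsq
    omega
  rw [Finset.sum_eq_zero h0, zero_add]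
  have h1 : Squarefree (p ^ (0 + 1)) := by
    rw [zero_add, pow_one]
    exact hp.squarefree
  have h2 : Squarefree (p ^ 0) := by
    rw [pow_zero]
    exact squarefree_one
  rw [if_pos h1, if_pos h2, pow_zero, Nat.div_one, zero_add, pow_one, pow_succ,
    Nat.mul_div_cancel _ hp.pos, add_comm]

/-- the number of primitive vectors mod `N` -/
theorem h8_card_prim_zmod (N : ℕ) (hN : N ≠ 0) :
    Nat.card {v : ZMod N × ZMod N // h8_IsPrim v} = h8_psi N * N.totient := by
  induction N using Nat.recOnPosPrimePosCoprime with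
  | prime_pow p n hp hn =>
    obtain ⟨j, rfl⟩ : ∃ j, n = j + 1 := ⟨n - 1, by omega⟩
    rw [h8_card_prim_primePow hp j, h8_psi_prime_pow hp j, Nat.totient_prime_pow_succ hp j]
  | zero => exact absurd rfl hN
  | one =>
    have : h8_psi 1 = 1 := by
      rw [h8_psi, Nat.divisors_one, Finset.filter_singleton, if_pos squarefree_one]
      simp
    rw [this, Nat.totient_one, mul_one]
    have : Subsingleton (ZMod 1) := inferInstanceAs (Subsingleton (Fin 1))
    haveI : Unique {v : ZMod 1 × ZMod 1 // h8_IsPrim v} :=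
      { default := ⟨(0, 0), ⟨0, 0, Subsingleton.elim _ _⟩⟩
        uniq := fun v => Subtype.ext (Subsingleton.elim _ _) }
    exact Nat.card_unique
  | coprime a b ha hb hab iha ihb =>
    rw [h8_card_prim_congr (ZMod.chineseRemainder hab), h8_card_prim_prod,
      iha (by omega), ihb (by omega), h8_psi_mul hab, Nat.totient_mul hab]
    ring

end RH24
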