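import Mathlib
import Fermat.Prelude.Def_ModularCurve_GenusNumerics
import Fermat.Agent.S24.P1
import Fermat.Agent.S24.PrimCount

/-!
# T-RH slice C1 (helper8): `[SL(2, ℤ) : Γ₀(N)] = ψ(N)`
-/

set_option autoImplicit false

noncomputable section

open MatrixGroups CongruenceSubgroup

namespace RH24

/-- `#(SL(2,ℤ)/Γ₀(N)) · φ(N) = #{primitive vectors mod N}`: a coset together with a unit
is the same as a primitive vector. -/
theorem h8_card_cosets_mul_totient (N : ℕ) [NeZero N] :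
    Nat.card (SL(2, ℤ) ⧸ Gamma0 N) * N.totient
      = Nat.card {v : ZMod N × ZMod N // h8_IsPrim v} := by
  classical
  rw [← ZMod.card_units_eq_totient N, ← Nat.card_eq_fintype_card, ← Nat.card_prod]
  -- the map
  let X : (SL(2, ℤ) ⧸ Gamma0 N) → ZMod N := fun q => (((Quotient.out q : SL(2, ℤ)) 0 0 : ℤ) : ZMod N)
  let Y : (SL(2, ℤ) ⧸ Gamma0 N) → ZMod N := fun q => (((Quotient.out q : SL(2, ℤ)) 1 0 : ℤ) : ZMod N)
  have hprim : ∀ (q : SL(2, ℤ) ⧸ Gamma0 N) (u : (ZMod N)ˣ),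
      h8_IsPrim ((u : ZMod N) * X q, (u : ZMod N) * Y q) := by
    intro q u
    have hdet := h8_det_mod N (Quotient.out q : SL(2, ℤ))
    refine ⟨((u⁻¹ : (ZMod N)ˣ) : ZMod N) * (((Quotient.out q : SL(2, ℤ)) 1 1 : ℤ) : ZMod N),
      ((u⁻¹ : (ZMod N)ˣ) : ZMod N) * (-(((Quotient.out q : SL(2, ℤ)) 0 1 : ℤ) : ZMod N)), ?_⟩
    have hu : ((u⁻¹ : (ZMod N)ˣ) : ZMod N) * (u : ZMod N) = 1 := Units.inv_mul u
    show _ * ((u : ZMod N) * (((Quotient.out q : SL(2, ℤ)) 0 0 : ℤ) : ZMod N))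
      + _ * ((u : ZMod N) * (((Quotient.out q : SL(2, ℤ)) 1 0 : ℤ) : ZMod N)) = 1
    linear_combination hdet + ((((Quotient.out q : SL(2, ℤ)) 1 1 : ℤ) : ZMod N)
        * (((Quotient.out q : SL(2, ℤ)) 0 0 : ℤ) : ZMod N)
      + (-(((Quotient.out q : SL(2, ℤ)) 0 1 : ℤ) : ZMod N))
        * (((Quotient.out q : SL(2, ℤ)) 1 0 : ℤ) : ZMod N)) * hu
  let Φ : (SL(2, ℤ) ⧸ Gamma0 N) × (ZMod N)ˣ → {v : ZMod N × ZMod N // h8_IsPrim v} :=
    fun qu => ⟨((qu.2 : ZMod N) * X qu.1, (qu.2 : ZMod N) * Y qu.1), hprim qu.1 qu.2⟩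
  refine Nat.card_congr (Equiv.ofBijective Φ ⟨?_, ?_⟩)
  · rintro ⟨q, u⟩ ⟨q', u'⟩ h
    have h1 : (u : ZMod N) * X q = (u' : ZMod N) * X q' := congrArg (fun v => v.1.1) h
    have h2 : (u : ZMod N) * Y q = (u' : ZMod N) * Y q' := congrArg (fun v => v.1.2) h
    have hq : q = q' := by
      rw [← QuotientGroup.out_eq' q, ← QuotientGroup.out_eq' q', h8_mk_eq_iff]
      apply (Units.mul_right_inj u').mp
      show (u' : ZMod N) * (X q * Y q') = (u' : ZMod N) * (Y q * X q')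
      linear_combination (Y q) * h1 - (X q) * h2
    subst hq
    have hdet := h8_det_mod N (Quotient.out q : SL(2, ℤ))
    have hu : (u : ZMod N) = (u' : ZMod N) := by
      have hdet' : (((Quotient.out q : SL(2, ℤ)) 1 1 : ℤ) : ZMod N) * X q
        + (-(((Quotient.out q : SL(2, ℤ)) 0 1 : ℤ) : ZMod N)) * Y q = 1 := hdet
      linear_combination ((u' : ZMod N) - (u : ZMod N)) * hdet'
        + (((Quotient.out q : SL(2, ℤ)) 1 1 : ℤ) : ZMod N) * h1
        + (-(((Quotient.out q : SL(2, ℤ)) 0 1 : ℤ) : ZMod N)) * h2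
    rw [Units.ext hu]
  · rintro ⟨⟨x₀, y₀⟩, a, b, hab⟩
    obtain ⟨g₀, hg0, hg1⟩ := h8_exists_lift N x₀ y₀ a b hab
    let q : SL(2, ℤ) ⧸ Gamma0 N := QuotientGroup.mk g₀
    have hq : (QuotientGroup.mk (Quotient.out q) : SL(2, ℤ) ⧸ Gamma0 N) = QuotientGroup.mk g₀ :=
      QuotientGroup.out_eq' q
    rw [h8_mk_eq_iff, hg0, hg1] at hq
    have hcross : X q * y₀ = Y q * x₀ := hq
    have hdet : (((Quotient.out q : SL(2, ℤ)) 1 1 : ℤ) : ZMod N) * X q
        + (-(((Quotient.out q : SL(2, ℤ)) 0 1 : ℤ) : ZMod N)) * Y q = 1 :=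
      h8_det_mod N (Quotient.out q : SL(2, ℤ))
    set d : ZMod N := (((Quotient.out q : SL(2, ℤ)) 1 1 : ℤ) : ZMod N) with hd
    set b' : ZMod N := (((Quotient.out q : SL(2, ℤ)) 0 1 : ℤ) : ZMod N) with hb'
    have hab' : a * x₀ + b * y₀ = 1 := hab
    have hwx : (d * x₀ - b' * y₀) * X q = x₀ := by
      linear_combination x₀ * hdet - b' * hcross
    have hwy : (d * x₀ - b' * y₀) * Y q = y₀ := by
      linear_combination y₀ * hdet - d * hcross
    have hw : (d * x₀ - b' * y₀) * (a * X q + b * Y q) = 1 := by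
      linear_combination hab' + a * hwx + b * hwy
    refine ⟨(q, Units.mkOfMulEqOne _ _ hw), ?_⟩
    apply Subtype.ext
    show ((d * x₀ - b' * y₀) * X q, (d * x₀ - b' * y₀) * Y q) = (x₀, y₀)
    rw [hwx, hwy]

/-- C1 -/
theorem card_cosets (N : ℕ) [NeZero N] :
    Nat.card (SL(2, ℤ) ⧸ Gamma0 N) = ModularCurve.dedekindPsi N := by
  have h1 := h8_card_cosets_mul_totient N
  rw [h8_card_prim_zmod N (NeZero.ne N)] at h1
  exact Nat.eq_of_mul_eq_mul_right (Nat.totient_pos.mpr (NeZero.pos N)) h1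

end RH24

end
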