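import Mathlib
import Fermat.Agent.S24.Contract
import Fermat.Agent.S24.C1
import Fermat.Agent.S28.WP2

/-!
# T-RH (S24), Layer B, formal part (helper8): `B_transcendental` and the degree bound

* `RH24.B_transcendental` : `j` is transcendental over `ℚ̄` in `modularFunctionFieldBar N`.
* `RH24.h8b_B_degree_of_hasModEq` : `[F : ℚ̄(j)] ≤ #(SL(2,ℤ) ⧸ Γ₀(N))`, from the modular equations
  `H28S28.HasModEq p` (`p ∣ N` prime) through helper10's tower bound over an arbitrary field
  (`H28S28.h10_degreeUpperBoundC'`, S28 WP2).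
-/

set_option autoImplicit false

noncomputable section

open MatrixGroups CongruenceSubgroup ModularCurve IntermediateField

namespace RH24

/-- `j` over `ℚ̄` is the coefficientwise image of `j` over `ℚ`. -/
theorem h8b_coeffEmb_jq : coeffEmb Kbar jq = jqModC Kbar :=
  map_jqModC (algebraMap ℚ Kbar)

/-- `coeffEmb` commutes with `q ↦ q^d`. -/
theorem h8b_coeffEmb_qExpand (d : ℕ) [NeZero d] (x : LaurentSeries ℚ) :
    coeffEmb Kbar (qExpand ℚ d x) = qExpand Kbar d (coeffEmb Kbar x) := by
  ext k
  by_cases hk : (d : ℤ) ∣ k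
  · obtain ⟨m, rfl⟩ := hk
    rw [coeffEmb_coeff, qExpand_coeff_mul, qExpand_coeff_mul, coeffEmb_coeff]
  · rw [coeffEmb_coeff, qExpand_coeff_of_not_dvd d x hk, qExpand_coeff_of_not_dvd d _ hk,
      map_zero]

theorem h8b_coeffEmb_algebraMap (c : ℚ) :
    coeffEmb Kbar (algebraMap ℚ (LaurentSeries ℚ) c)
      = algebraMap Kbar (LaurentSeries Kbar) (algebraMap ℚ Kbar c) := by
  rw [algebraMap_laurentSeries_eq_single, algebraMap_laurentSeries_eq_single, coeffEmb,
    coeffMap_single]

/-- the base-changed function field is the field generated over `ℚ̄` by the `j(q^d)`, `d ∣ N` -/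
theorem h8b_bar_eq (N : ℕ) [NeZero N] :
    modularFunctionFieldBar N = modularFunctionFieldFullC Kbar N := by
  apply le_antisymm
  · show IntermediateField.adjoin Kbar
        (⇑(coeffEmb Kbar) '' ((modularFunctionFieldFull N : IntermediateField ℚ (LaurentSeries ℚ))
          : Set (LaurentSeries ℚ))) ≤ _
    rw [IntermediateField.adjoin_le_iff]
    rintro _ ⟨x, hx, rfl⟩
    have hx' : x ∈ IntermediateField.adjoin ℚ (divisorExpansions N) := hx
    induction hx' using IntermediateField.adjoin_induction with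
    | mem y hy =>
      obtain ⟨d, hne, hdvd, rfl⟩ := hy
      have := hne
      rw [h8b_coeffEmb_qExpand, h8b_coeffEmb_jq]
      exact jqModCd_mem_full Kbar N hdvd
    | algebraMap c =>
      rw [h8b_coeffEmb_algebraMap]
      exact IntermediateField.algebraMap_mem _ _
    | add y z hy hz ihy ihz =>
      rw [map_add]
      exact add_mem (ihy hy) (ihz hz)
    | inv y hy ihy =>
      rw [map_inv₀]
      exact inv_mem (ihy hy)
    | mul y z hy hz ihy ihz =>
      rw [map_mul]
      exact mul_mem (ihy hy) (ihz hz)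
  · rw [modularFunctionFieldFullC, IntermediateField.adjoin_le_iff]
    rintro _ ⟨d, hne, hdvd, rfl⟩
    haveI := hne
    rw [← h8b_coeffEmb_jq, ← h8b_coeffEmb_qExpand]
    exact coeffEmb_mem_laurentBaseChange Kbar (jqd_mem_full N hdvd)

theorem h8b_coe_Jbar (N : ℕ) [NeZero N] :
    ((Jbar N : modularFunctionFieldBar N) : LaurentSeries Kbar) = jqModC Kbar := by
  rw [coe_Jbar, h8b_coeffEmb_jq]

/-- **B_transcendental** -/
theorem B_transcendental (N : ℕ) [NeZero N] : Transcendental Kbar (Jbar N) := by
  have h := P2MW.S_ModularCurve_coeff_jqModC_neg_one.ModularCurve.CharLRows.transcendental_jqModC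
    Kbar
  rw [← h8b_coe_Jbar N] at h
  exact (transcendental_algebraMap_iff
    (algebraMap (modularFunctionFieldBar N) (LaurentSeries Kbar)).injective).mp h

/-- the subfield `ℚ̄(j)` of `F` maps onto the subfield `ℚ̄(j)` of `ℚ̄((q))` -/
theorem h8b_map_adjoin (N : ℕ) [NeZero N] :
    (Kbar⟮Jbar N⟯).map (modularFunctionFieldBar N).val = Kbar⟮jqModC Kbar⟯ := by
  rw [IntermediateField.adjoin_map, Set.image_singleton]
  congr 2
  exact h8b_coe_Jbar N

/-- **B_degree from the modular equations**: `[F : ℚ̄(j)] ≤ #(SL(2,ℤ) ⧸ Γ₀(N))`. -/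
theorem h8b_B_degree_of_hasModEq (N : ℕ) [NeZero N]
    (h : ∀ p : ℕ, ∀ hp : p.Prime, p ∣ N → @H28S28.HasModEq p ⟨hp.ne_zero⟩) :
    FiniteDimensional Kbar⟮Jbar N⟯ (modularFunctionFieldBar N) ∧
    Module.finrank Kbar⟮Jbar N⟯ (modularFunctionFieldBar N)
      ≤ Nat.card (SL(2, ℤ) ⧸ Gamma0 N) := by
  classical
  have hrank : Module.rank Kbar⟮Jbar N⟯ (modularFunctionFieldBar N)
      ≤ ((dedekindPsi N : ℕ) : Cardinal) := by
    apply rank_le
    intro t ht
    have hg : Function.Injective
        (Subtype.val : modularFunctionFieldBar N → LaurentSeries Kbar) :=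
      Subtype.val_injective
    have hcard : (t.image (Subtype.val : modularFunctionFieldBar N → LaurentSeries Kbar)).card
        = t.card := Finset.card_image_of_injective t hg
    rw [← hcard]
    apply H28S28.h10_degreeUpperBoundC' Kbar N h
    · intro x hx
      obtain ⟨y, _, rfl⟩ := Finset.mem_image.mp hx
      rw [← h8b_bar_eq]
      exact y.2
    · -- transfer of linear independence
      have hmem : ∀ x : Kbar⟮Jbar N⟯,
          (((x : modularFunctionFieldBar N) : LaurentSeries Kbar)) ∈ Kbar⟮jqModC Kbar⟯ := by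
        intro x
        rw [← h8b_map_adjoin N]
        exact ⟨x.1, x.2, rfl⟩
      let i : Kbar⟮Jbar N⟯ → Kbar⟮jqModC Kbar⟯ := fun x => ⟨_, hmem x⟩
      have hsurj : Function.Surjective i := by
        rintro ⟨c, hc⟩
        rw [← h8b_map_adjoin N] at hc
        obtain ⟨x, hx, hxc⟩ := hc
        exact ⟨⟨x, hx⟩, Subtype.ext hxc⟩
      let j : modularFunctionFieldBar N →+ LaurentSeries Kbar :=
        (modularFunctionFieldBar N).val.toRingHom.toAddMonoidHom
      have hinj : ∀ m : modularFunctionFieldBar N, j m = 0 → m = 0 := by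
        intro m hm
        exact Subtype.ext hm
      have hc : ∀ (r : Kbar⟮Jbar N⟯) (m : modularFunctionFieldBar N),
          j (r • m) = i r • j m := by
        intro r m
        rfl
      have h1 : LinearIndependent ↥Kbar⟮jqModC Kbar⟯
          (⇑j ∘ fun x : ↥t => (x : modularFunctionFieldBar N)) :=
        ht.map_of_surjective_injective i j hsurj hinj hc
      have h2 : LinearIndependent ↥Kbar⟮jqModC Kbar⟯
          (fun x : ↥(Set.range (⇑j ∘ fun x : ↥t => (x : modularFunctionFieldBar N))) =>
            (x : LaurentSeries Kbar)) := h1.linearIndepOn_id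
      let f : ↥(t.image (Subtype.val : modularFunctionFieldBar N → LaurentSeries Kbar)) →
          ↥(Set.range (⇑j ∘ fun x : ↥t => (x : modularFunctionFieldBar N))) := fun x => ⟨x.1, by
            obtain ⟨y, hy, hxy⟩ := Finset.mem_image.mp x.2
            exact ⟨⟨y, hy⟩, hxy⟩⟩
      have hf : Function.Injective f := by
        intro a b hab
        have h3 : (f a).1 = (f b).1 := congrArg Subtype.val hab
        exact Subtype.ext h3
      exact h2.comp f hf
  constructor
  · exact IsNoetherian.iff_fg.mp
      (IsNoetherian.iff_rank_lt_aleph0.mpr (lt_of_le_of_lt hrank Cardinal.natCast_lt_aleph0))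
  · rw [card_cosets]
    exact Module.finrank_le_of_rank_le hrank

end RH24

end
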