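import Mathlib
import Fermat.Agent.S24.BDegree
import Fermat.Agent.S28.ModEq.Final

/-!
# T-RH (S24), Layer B: `B_degree` (helper8)

`[F : ℚ̄(j)] ≤ #(SL(2,ℤ) ⧸ Γ₀(N))`, from the modular equations of S28 WP1 (`H23M.h15g_hasModEq`)
and the tower bound of S28 WP2 (`H28S28.h10_degreeUpperBoundC'`).
-/

set_option autoImplicit false

noncomputable section

open UpperHalfPlane ModularForm MatrixGroups CongruenceSubgroup AlgebraicCurve IntermediateField

namespace RH24

/-- **B_degree** -/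
theorem B_degree (N : ℕ) [NeZero N] :
    FiniteDimensional Kbar⟮Jbar N⟯ (ModularCurve.modularFunctionFieldBar N) ∧
    Module.finrank Kbar⟮Jbar N⟯ (ModularCurve.modularFunctionFieldBar N)
      ≤ Nat.card (SL(2, ℤ) ⧸ Gamma0 N) :=
  h8b_B_degree_of_hasModEq N (fun p hp _ =>
    @H23M.h15g_hasModEq p ⟨hp.ne_zero⟩ ⟨hp⟩)

end RH24

end
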