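import Mathlib
import Fermat.Agent.S24.PlaceBasic
import Fermat.Agent.S24.A3a

set_option autoImplicit false
set_option linter.style.haveILetI false
set_option linter.unusedSectionVars false

noncomputable section

open AlgebraicCurve IntermediateField

namespace RH24

section A2

variable {K F : Type*} [Field K] [Field F] [Algebra K F]

/-- an element of `F` algebraic over the algebraically closed field `K` is a constant -/
theorem h5a_exists_const_of_isAlgebraic [IsAlgClosed K] (f : F) (hf : IsAlgebraic K f) :
    ∃ c : K, f = algebraMap K F c := by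
  haveI : Algebra.IsAlgebraic K K⟮f⟯ :=
    IntermediateField.isAlgebraic_adjoin_simple hf.isIntegral
  have h := IntermediateField.eq_bot_of_isAlgClosed_of_isAlgebraic K⟮f⟯
  have hmem : f ∈ K⟮f⟯ := IntermediateField.mem_adjoin_simple_self K f
  rw [h] at hmem
  obtain ⟨c, hc⟩ := IntermediateField.mem_bot.mp hmem
  exact ⟨c, hc.symm⟩

/-- degree of a divisor when all places have degree one -/
theorem h5a_degree_eq_sum (hdeg : ∀ v : Place K F, v.deg = 1) (W : Divisor K F) :
    Divisor.degree W = ∑ v ∈ W.support, W v := by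
  classical
  induction W using Finsupp.induction with
  | zero => simp
  | single_add v n D hv hn ih =>
      rw [map_add, ih, Divisor.degree_single, hdeg v]
      have hdisj : Disjoint (Finsupp.single v n).support D.support := by
        rw [Finsupp.support_single _ hn, Finset.disjoint_singleton_left]
        exact hv
      rw [Finsupp.support_add_eq hdisj, Finset.sum_union hdisj,
        Finsupp.support_single _ hn, Finset.sum_singleton]
      have h1 : (Finsupp.single v n + D) v = n := by
        rw [Finsupp.add_apply, Finsupp.single_eq_same, Finsupp.notMem_support_iff.mp hv, add_zero]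
      have h2 : ∑ x ∈ D.support, (Finsupp.single v n + D) x = ∑ x ∈ D.support, D x := by
        apply Finset.sum_congr rfl
        intro x hx
        have hxv : x ≠ v := fun h => hv (h ▸ hx)
        rw [Finsupp.add_apply, Finsupp.single_eq_of_ne hxv, zero_add]
      rw [h1, h2]
      simp

/-- degree of a divisor as a sum over any finset containing the support -/
theorem h5a_degree_eq_sum_of_subset (hdeg : ∀ v : Place K F, v.deg = 1) (W : Divisor K F)
    (T : Finset (Place K F)) (hT : W.support ⊆ T) :
    Divisor.degree W = ∑ v ∈ T, W v := by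
  rw [h5a_degree_eq_sum hdeg W]
  exact Finset.sum_subset hT (fun v _ hv => Finsupp.notMem_support_iff.mp hv)

theorem h5a_finite_set (z : F) (h : Finite {v : Place K F // 0 < v.ord z}) :
    Set.Finite {v : Place K F | 0 < v.ord z} :=
  Set.finite_coe_iff.mp h

/-- the finite set of zeros of `z` -/
def h5a_zeros (z : F) (h : Finite {v : Place K F // 0 < v.ord z}) : Finset (Place K F) :=
  (h5a_finite_set z h).toFinset

theorem h5a_mem_zeros (z : F) (h : Finite {v : Place K F // 0 < v.ord z}) (v : Place K F) :
    v ∈ h5a_zeros z h ↔ 0 < v.ord z := by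
  simp [h5a_zeros]

theorem h5a_card_zeros (z : F) (h : Finite {v : Place K F // 0 < v.ord z}) :
    (h5a_zeros z h).card = Nat.card {v : Place K F // 0 < v.ord z} := by
  rw [h5a_zeros, ← Set.ncard_eq_toFinset_card _ _, ← Nat.card_coe_set_eq]
  rfl

theorem h5a_sum_zeros (z : F) (h : Finite {v : Place K F // 0 < v.ord z}) :
    ∑ v ∈ h5a_zeros z h, v.ord z = ∑ᶠ v : {v : Place K F // 0 < v.ord z}, v.1.ord z := by
  have h1 : ∑ᶠ v : {v : Place K F // 0 < v.ord z}, v.1.ord z
      = ∑ᶠ v ∈ {v : Place K F | 0 < v.ord z}, v.ord z :=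
    finsum_set_coe_eq_finsum_mem (s := {v : Place K F | 0 < v.ord z})
      (f := fun v : Place K F => v.ord z)
  rw [h1, finsum_mem_eq_finite_toFinset_sum _ (h5a_finite_set z h)]
  rfl

theorem h5a_adjoin_inv (f : F) : K⟮f⁻¹⟯ = K⟮f⟯ := by
  apply le_antisymm
  · rw [IntermediateField.adjoin_simple_le_iff]
    exact inv_mem (IntermediateField.mem_adjoin_simple_self K f)
  · rw [IntermediateField.adjoin_simple_le_iff]
    have := inv_mem (IntermediateField.mem_adjoin_simple_self K f⁻¹)
    rwa [inv_inv] at this

theorem h5a_transcendental_inv (f : F) (hf : Transcendental K f) : Transcendental K f⁻¹ := by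
  intro h
  apply hf
  have := h.inv
  rwa [inv_inv] at this

theorem h5a_adjoin_sub_const (y : F) (a : K) : K⟮y - algebraMap K F a⟯ = K⟮y⟯ := by
  apply le_antisymm
  · rw [IntermediateField.adjoin_simple_le_iff]
    exact sub_mem (IntermediateField.mem_adjoin_simple_self K y) (IntermediateField.algebraMap_mem _ a)
  · rw [IntermediateField.adjoin_simple_le_iff]
    have := add_mem (IntermediateField.mem_adjoin_simple_self K (y - algebraMap K F a))
      (IntermediateField.algebraMap_mem K⟮y - algebraMap K F a⟯ a)
    rwa [sub_add_cancel] at this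

theorem h5a_transcendental_sub_const (y : F) (hy : Transcendental K y) (a : K) :
    Transcendental K (y - algebraMap K F a) := by
  intro h
  apply hy
  have := h.add (isAlgebraic_algebraMap (R := K) (A := F) a)
  rwa [sub_add_cancel] at this

/-- the hypotheses from slice A1 that A2 and A4 use -/
structure h5a_A1 (K F : Type*) [Field K] [Field F] [Algebra K F] : Prop where
  fin : ∀ z : F, Transcendental K z → FiniteDimensional K⟮z⟯ F →
      Finite {v : Place K F // 0 < v.ord z}
  sum : ∀ z : F, Transcendental K z → FiniteDimensional K⟮z⟯ F →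
      ∑ᶠ v : {v : Place K F // 0 < v.ord z}, v.1.ord z = (Module.finrank K⟮z⟯ F : ℤ)
  deg : ∀ v : Place K F, v.deg = 1
  center : ∀ y : F, Transcendental K y → FiniteDimensional K⟮y⟯ F →
      ∀ v : Place K F, 0 ≤ v.ord y → ∃ a : K, 0 < v.ord (y - algebraMap K F a)

/-- A2 from A1: principal divisors have degree zero. -/
theorem h5a_degree_eq_zero_of_principal [IsAlgClosed K] (h1 : h5a_A1 K F)
    (y : F) [FiniteDimensional K⟮y⟯ F]
    (f : F) (hf : f ≠ 0) (Dv : Divisor K F) (hD : ∀ v : Place K F, Dv v = v.ord f) :
    Divisor.degree Dv = 0 := by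
  classical
  by_cases hfa : IsAlgebraic K f
  · obtain ⟨c, rfl⟩ := h5a_exists_const_of_isAlgebraic f hfa
    have : Dv = 0 := by
      ext v
      rw [hD, h20_ord_algebraMap]
      rfl
    rw [this, map_zero]
  · have hft : Transcendental K f := hfa
    have hfit : Transcendental K f⁻¹ := h5a_transcendental_inv f hft
    haveI hfd : FiniteDimensional K⟮f⟯ F := finiteDimensional_adjoin_of_transcendental y f hft
    haveI hfid : FiniteDimensional K⟮f⁻¹⟯ F :=
      finiteDimensional_adjoin_of_transcendental y f⁻¹ hfit
    have hZ := h1.fin f hft hfd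
    have hP := h1.fin f⁻¹ hfit hfid
    have hsub : Dv.support ⊆ h5a_zeros f hZ ∪ h5a_zeros f⁻¹ hP := by
      intro v hv
      rw [Finsupp.mem_support_iff, hD] at hv
      rw [Finset.mem_union, h5a_mem_zeros, h5a_mem_zeros, Place.ord_inv]
      omega
    have hdisj : Disjoint (h5a_zeros f hZ) (h5a_zeros f⁻¹ hP) := by
      rw [Finset.disjoint_left]
      intro v hv hv'
      rw [h5a_mem_zeros] at hv hv'
      rw [Place.ord_inv] at hv'
      omega
    rw [h5a_degree_eq_sum_of_subset h1.deg Dv _ hsub, Finset.sum_union hdisj]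
    have e1 : ∑ v ∈ h5a_zeros f hZ, Dv v = (Module.finrank K⟮f⟯ F : ℤ) := by
      rw [← h1.sum f hft hfd, ← h5a_sum_zeros f hZ]
      exact Finset.sum_congr rfl (fun v _ => hD v)
    have e2 : ∑ v ∈ h5a_zeros f⁻¹ hP, Dv v = -(Module.finrank K⟮f⁻¹⟯ F : ℤ) := by
      rw [← h1.sum f⁻¹ hfit hfid, ← h5a_sum_zeros f⁻¹ hP, ← Finset.sum_neg_distrib]
      exact Finset.sum_congr rfl (fun v _ => by rw [hD v, Place.ord_inv, neg_neg])
    have e3 : Module.finrank K⟮f⁻¹⟯ F = Module.finrank K⟮f⟯ F := by
      rw [h5a_adjoin_inv]
    rw [e1, e2, e3]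
    omega

end A2

end RH24
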