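/-
T-RH (S24), helper20: shared DEFINITIONS for Layer B (analysis).  Definitions only.
-/
import Mathlib
import Fermat.Agent.S24.Contract
import Fermat.Prelude.Def_ModularForm_HeckeOperator
import Fermat.Prelude.Def_ModularCurve_JqCoeff
import Fermat.Prelude.Def_GaloisRep_ComplexConjugation

set_option autoImplicit false

noncomputable section

open UpperHalfPlane ModularForm MatrixGroups CongruenceSubgroup
open scoped Manifold

namespace RH24

/-- the fixed embedding `ℚ̄ → ℂ` -/
def iota : AlgebraicClosure ℚ →+* ℂ := (complexEmbedding : AlgebraicClosure ℚ →+* ℂ)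

/-- the analytic `j`-function `E₄³ / Δ` -/
def jf (z : ℍ) : ℂ := E₄ z ^ 3 / ModularForm.discriminant z

/-- `z ↦ j(d z)` -/
def jd (d : ℕ) (z : ℍ) : ℂ := jf (ModularForm.heckeDiagMatrix d • z)

/-- `z ↦ j(d · δ⁻¹ z)`, the translate of `j(d z)` attached to the left coset `δ Γ₀(N)` -/
def jdt (d : ℕ) (δ : SL(2, ℤ)) (z : ℍ) : ℂ := jd d (δ⁻¹ • z)

/-- holomorphic functions on the upper half plane -/
def Hol : Subalgebra ℂ (ℍ → ℂ) where
  carrier := {f | MDiff f}
  mul_mem' := fun hf hg => MDifferentiable.mul hf hg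
  add_mem' := fun hf hg => MDifferentiable.add hf hg
  algebraMap_mem' := fun c => by
    show MDiff (fun _ : ℍ => c)
    exact mdifferentiable_const

theorem mem_Hol {f : ℍ → ℂ} : f ∈ Hol ↔ MDiff f := Iff.rfl

/-- moderate growth at `i∞`: `f Δ^M` is bounded at `i∞` for some `M` -/
def ModerateGrowth (f : ℍ → ℂ) : Prop :=
  ∃ M : ℕ, IsBoundedAtImInfty (fun z => f z * ModularForm.discriminant z ^ M)

/-- order of vanishing at a point of `ℍ` -/
def ordAt (z₀ : ℍ) (f : ℍ → ℂ) : ℕ∞ := analyticOrderAt (fun w : ℂ => f (ofComplex w)) (z₀ : ℂ)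

/-- order at the cusp `i∞` in the parameter `q_N = exp(2πi z / N)` -/
def ordInf (N : ℕ) (f : ℍ → ℂ) : WithTop ℤ :=
  meromorphicOrderAt (fun q : ℂ => f (ofComplex (Function.Periodic.invQParam (N : ℝ) q))) 0

/-- the index type of the generators: divisors of `N` -/
abbrev Dv (N : ℕ) : Type := {d : ℕ // d ∣ N}

theorem Dv_ne_zero {N : ℕ} [NeZero N] (d : Dv N) : d.1 ≠ 0 := by
  rintro h
  have := d.2
  rw [h, zero_dvd_iff] at this
  exact NeZero.ne N this

/-- the formal generators `j(q^d)` over `ℂ` -/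
def JC {N : ℕ} [NeZero N] (d : Dv N) : LaurentSeries ℂ :=
  haveI : NeZero d.1 := ⟨Dv_ne_zero d⟩
  ModularCurve.qExpand ℂ d.1 (ModularCurve.jqModC ℂ)

/-- the generators `j(q^d)` of the function field `modularFunctionFieldBar N` -/
def Jgen {N : ℕ} [NeZero N] (d : Dv N) : ModularCurve.modularFunctionFieldBar N :=
  haveI : NeZero d.1 := ⟨Dv_ne_zero d⟩
  ⟨ModularCurve.coeffEmb (AlgebraicClosure ℚ) (ModularCurve.qExpand ℚ d.1 ModularCurve.jq),
    ModularCurve.coeffEmb_mem_laurentBaseChange _ (ModularCurve.jqd_mem_full N d.2)⟩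

/-- formal evaluation of a polynomial in the generators -/
def formalEval (N : ℕ) [NeZero N] : MvPolynomial (Dv N) ℂ →ₐ[ℂ] LaurentSeries ℂ :=
  MvPolynomial.aeval (fun d => JC d)

end RH24

end
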