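/-
T-RH (S24), slice BI (helper24): cusp prerequisites for the `B_local_infty` assembly.
-/
import Mathlib
import Fermat.Agent.S24.BDefs

set_option autoImplicit false

noncomputable section

open UpperHalfPlane ModularForm MatrixGroups CongruenceSubgroup
open scoped Manifold

namespace RH24

/-! ## BI (cusp prerequisites for the assembly) -/

theorem h24_bdd_disc : IsBoundedAtImInfty (fun z : ℍ => ModularForm.discriminant z) :=
  ModularFormClass.bdd_at_infty (CuspForm.discriminant : ModularForm 𝒮ℒ 12)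

theorem h24_bdd_disc_pow (k : ℕ) :
    IsBoundedAtImInfty (fun z : ℍ => ModularForm.discriminant z ^ k) := by
  induction k with
  | zero =>
    simp only [pow_zero]
    exact Filter.const_boundedAtFilter _ (1 : ℂ)
  | succ k ih =>
    have h := Filter.BoundedAtFilter.mul ih h24_bdd_disc
    have he : (fun z : ℍ => ModularForm.discriminant z ^ (k + 1))
        = (fun z : ℍ => ModularForm.discriminant z ^ k) * fun z => ModularForm.discriminant z := by
      funext z
      simp [pow_succ]
    rw [he]
    exact h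

theorem moderateGrowth_const (c : ℂ) : ModerateGrowth (fun _ : ℍ => c) := by
  refine ⟨0, ?_⟩
  simp only [pow_zero, mul_one]
  exact Filter.const_boundedAtFilter _ c

theorem moderateGrowth_add (f g : ℍ → ℂ) (hf : ModerateGrowth f) (hg : ModerateGrowth g) :
    ModerateGrowth (fun z => f z + g z) := by
  obtain ⟨M, hM⟩ := hf
  obtain ⟨M', hM'⟩ := hg
  refine ⟨M + M', ?_⟩
  have h1 := Filter.BoundedAtFilter.mul hM (h24_bdd_disc_pow M')
  have h2 := Filter.BoundedAtFilter.mul hM' (h24_bdd_disc_pow M)
  have h3 := Filter.BoundedAtFilter.add h1 h2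
  have he : (fun z : ℍ => (f z + g z) * ModularForm.discriminant z ^ (M + M'))
      = ((fun z => f z * ModularForm.discriminant z ^ M) * fun z => ModularForm.discriminant z ^ M')
        + ((fun z => g z * ModularForm.discriminant z ^ M') *
            fun z => ModularForm.discriminant z ^ M) := by
    funext z
    simp only [Pi.add_apply, Pi.mul_apply, pow_add]
    ring
  rw [he]
  exact h3

theorem moderateGrowth_mul (f g : ℍ → ℂ) (hf : ModerateGrowth f) (hg : ModerateGrowth g) :
    ModerateGrowth (fun z => f z * g z) := by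
  obtain ⟨M, hM⟩ := hf
  obtain ⟨M', hM'⟩ := hg
  refine ⟨M + M', ?_⟩
  have h1 := Filter.BoundedAtFilter.mul hM hM'
  have he : (fun z : ℍ => (f z * g z) * ModularForm.discriminant z ^ (M + M'))
      = (fun z => f z * ModularForm.discriminant z ^ M) *
          fun z => g z * ModularForm.discriminant z ^ M' := by
    funext z
    simp only [Pi.mul_apply, pow_add]
    ring
  rw [he]
  exact h1

/-- `N`-periodic holomorphic functions of moderate growth -/
def HolInf (N : ℕ) : Subalgebra ℂ (ℍ → ℂ) where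
  carrier := {f | MDiff f ∧ (∀ z : ℍ, f ((N : ℝ) +ᵥ z) = f z) ∧ ModerateGrowth f}
  mul_mem' := by
    rintro f g ⟨hf1, hf2, hf3⟩ ⟨hg1, hg2, hg3⟩
    refine ⟨MDifferentiable.mul hf1 hg1, fun z => ?_, moderateGrowth_mul f g hf3 hg3⟩
    simp only [Pi.mul_apply, hf2 z, hg2 z]
  add_mem' := by
    rintro f g ⟨hf1, hf2, hf3⟩ ⟨hg1, hg2, hg3⟩
    refine ⟨MDifferentiable.add hf1 hg1, fun z => ?_, moderateGrowth_add f g hf3 hg3⟩
    simp only [Pi.add_apply, hf2 z, hg2 z]
  algebraMap_mem' := fun c => by
    refine ⟨?_, fun z => rfl, moderateGrowth_const c⟩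
    show MDiff (fun _ : ℍ => c)
    exact mdifferentiable_const

theorem mem_HolInf {N : ℕ} {f : ℍ → ℂ} :
    f ∈ HolInf N ↔ MDiff f ∧ (∀ z : ℍ, f ((N : ℝ) +ᵥ z) = f z) ∧ ModerateGrowth f := Iff.rfl

theorem HolInf_le_Hol (N : ℕ) : HolInf N ≤ Hol := fun _ h => h.1

/-- the action of `T ^ k` is the translation by `k` -/
theorem T_zpow_smul_eq_vadd (k : ℤ) (z : ℍ) : (ModularGroup.T ^ k) • z = ((k : ℝ) +ᵥ z : ℍ) :=
  UpperHalfPlane.modular_T_zpow_smul z k

end RH24

end
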