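import Mathlib
import Fermat.Agent.S24.BDefs
import Fermat.Prelude.Def_ModularCurve_X0ModL

/-!
# T-RH (S24), Layer B, slices BA1 + BA2 + BA2' (helper22): algebra plumbing

`F = modularFunctionFieldBar N` is the fraction field of `ℚ̄[j(q^d) : d ∣ N]`:

* `RH24.exists_frac` (BA2'): every element of `F` is a quotient of polynomials in the generators;
* `RH24.ringHom_ext_F` (BA1): a ring hom out of `F` is determined on `ℚ̄` and on the generators;
* `RH24.exists_real` (BA2): realisation of `F` in a field `E` from elements with the formal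
  relations.
-/

set_option autoImplicit false
set_option linter.unusedSectionVars false
set_option linter.style.haveILetI false

noncomputable section

open ModularCurve IntermediateField AlgebraicCurve

namespace RH24

/-- `j` over `ℚ̄` is the coefficientwise image of `j` over `ℚ`. -/
theorem h22b_coeffEmb_jq : coeffEmb Kbar jq = jqModC Kbar :=
  map_jqModC (algebraMap ℚ Kbar)

/-- `coeffEmb` commutes with `q ↦ q^d`. -/
theorem h22b_coeffEmb_qExpand (d : ℕ) [NeZero d] (x : LaurentSeries ℚ) :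
    coeffEmb Kbar (qExpand ℚ d x) = qExpand Kbar d (coeffEmb Kbar x) :=
  coeffMap_qExpand (algebraMap ℚ Kbar) d x

theorem h22b_coeffEmb_algebraMap (c : ℚ) :
    coeffEmb Kbar (algebraMap ℚ (LaurentSeries ℚ) c)
      = algebraMap Kbar (LaurentSeries Kbar) (algebraMap ℚ Kbar c) := by
  rw [algebraMap_laurentSeries_eq_single, algebraMap_laurentSeries_eq_single, coeffEmb,
    coeffMap_single]

variable (N : ℕ) [NeZero N]

/-- The evaluation of polynomials at the generators. -/
def h22b_ev : MvPolynomial (Dv N) Kbar →+* modularFunctionFieldBar N :=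
  (MvPolynomial.aeval (fun d : Dv N => Jgen d) :
    MvPolynomial (Dv N) Kbar →ₐ[Kbar] modularFunctionFieldBar N).toRingHom

theorem h22b_ev_apply (P : MvPolynomial (Dv N) Kbar) :
    h22b_ev N P = MvPolynomial.aeval (fun d : Dv N => Jgen d) P := rfl

theorem h22b_ev_X (d : Dv N) : h22b_ev N (MvPolynomial.X d) = Jgen d := by
  rw [h22b_ev_apply, MvPolynomial.aeval_X]

theorem h22b_ev_C (c : Kbar) :
    h22b_ev N (MvPolynomial.C c) = algebraMap Kbar (modularFunctionFieldBar N) c := by
  rw [h22b_ev_apply, MvPolynomial.aeval_C]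

/-- The subfield of `F` of fractions of polynomials in the generators. -/
def h22b_fracField : Subfield (modularFunctionFieldBar N) where
  carrier := {f | ∃ P Q : MvPolynomial (Dv N) Kbar, h22b_ev N Q ≠ 0 ∧ f = h22b_ev N P / h22b_ev N Q}
  mul_mem' := by
    rintro _ _ ⟨P₁, Q₁, h₁, rfl⟩ ⟨P₂, Q₂, h₂, rfl⟩
    refine ⟨P₁ * P₂, Q₁ * Q₂, ?_, ?_⟩
    · rw [RingHom.map_mul]; exact mul_ne_zero h₁ h₂
    · rw [RingHom.map_mul, RingHom.map_mul]; field_simp
  one_mem' := ⟨1, 1, by rw [RingHom.map_one]; exact one_ne_zero, by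
    rw [RingHom.map_one, div_one]⟩
  add_mem' := by
    rintro _ _ ⟨P₁, Q₁, h₁, rfl⟩ ⟨P₂, Q₂, h₂, rfl⟩
    refine ⟨P₁ * Q₂ + P₂ * Q₁, Q₁ * Q₂, ?_, ?_⟩
    · rw [RingHom.map_mul]; exact mul_ne_zero h₁ h₂
    · rw [RingHom.map_add, RingHom.map_mul, RingHom.map_mul, RingHom.map_mul]; field_simp
  zero_mem' := ⟨0, 1, by rw [RingHom.map_one]; exact one_ne_zero, by
    rw [RingHom.map_zero, zero_div]⟩
  neg_mem' := by
    rintro _ ⟨P, Q, h, rfl⟩
    exact ⟨-P, Q, h, by rw [RingHom.map_neg, neg_div]⟩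
  inv_mem' := by
    rintro _ ⟨P, Q, h, rfl⟩
    by_cases hP : h22b_ev N P = 0
    · refine ⟨0, 1, by rw [RingHom.map_one]; exact one_ne_zero, ?_⟩
      rw [hP, zero_div, inv_zero, RingHom.map_zero, zero_div]
    · exact ⟨Q, P, hP, by rw [inv_div]⟩

theorem h22b_Jgen_mem (d : Dv N) : Jgen d ∈ h22b_fracField N :=
  ⟨MvPolynomial.X d, 1, by rw [RingHom.map_one]; exact one_ne_zero, by
    rw [RingHom.map_one, div_one, h22b_ev_X]⟩

theorem h22b_algebraMap_mem (c : Kbar) :
    algebraMap Kbar (modularFunctionFieldBar N) c ∈ h22b_fracField N :=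
  ⟨MvPolynomial.C c, 1, by rw [RingHom.map_one]; exact one_ne_zero, by
    rw [RingHom.map_one, div_one, h22b_ev_C]⟩

/-- The elements `coeffEmb y`, `y ∈ ℚ(j(q^d))`, are fractions. -/
theorem h22b_coeffEmb_mem (y : LaurentSeries ℚ) (hy : y ∈ modularFunctionFieldFull N) :
    (⟨coeffEmb Kbar y, coeffEmb_mem_laurentBaseChange Kbar hy⟩ : modularFunctionFieldBar N) ∈
      h22b_fracField N := by
  have hy' : y ∈ IntermediateField.adjoin ℚ (divisorExpansions N) := hy
  induction hy' using IntermediateField.adjoin_induction with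
  | mem y hy0 =>
    obtain ⟨d, hne, hdvd, rfl⟩ := hy0
    exact h22b_Jgen_mem N ⟨d, hdvd⟩
  | algebraMap c =>
    have h := h22b_algebraMap_mem N (algebraMap ℚ Kbar c)
    have he : (⟨coeffEmb Kbar (algebraMap ℚ (LaurentSeries ℚ) c),
        coeffEmb_mem_laurentBaseChange Kbar hy⟩ : modularFunctionFieldBar N) =
        algebraMap Kbar (modularFunctionFieldBar N) (algebraMap ℚ Kbar c) :=
      Subtype.ext (h22b_coeffEmb_algebraMap c)
    rw [he]
    exact h
  | add y z hy1 hz1 ihy ihz =>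
    have he : (⟨coeffEmb Kbar (y + z), coeffEmb_mem_laurentBaseChange Kbar hy⟩ :
        modularFunctionFieldBar N) =
        ⟨coeffEmb Kbar y, coeffEmb_mem_laurentBaseChange Kbar hy1⟩ +
          ⟨coeffEmb Kbar z, coeffEmb_mem_laurentBaseChange Kbar hz1⟩ :=
      Subtype.ext (map_add _ _ _)
    rw [he]
    exact add_mem (ihy hy1) (ihz hz1)
  | inv y hy1 ihy =>
    have he : (⟨coeffEmb Kbar y⁻¹, coeffEmb_mem_laurentBaseChange Kbar hy⟩ :
        modularFunctionFieldBar N) =
        (⟨coeffEmb Kbar y, coeffEmb_mem_laurentBaseChange Kbar hy1⟩)⁻¹ :=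
      Subtype.ext (map_inv₀ _ _)
    rw [he]
    exact inv_mem (ihy hy1)
  | mul y z hy1 hz1 ihy ihz =>
    have he : (⟨coeffEmb Kbar (y * z), coeffEmb_mem_laurentBaseChange Kbar hy⟩ :
        modularFunctionFieldBar N) =
        ⟨coeffEmb Kbar y, coeffEmb_mem_laurentBaseChange Kbar hy1⟩ *
          ⟨coeffEmb Kbar z, coeffEmb_mem_laurentBaseChange Kbar hz1⟩ :=
      Subtype.ext (map_mul _ _ _)
    rw [he]
    exact mul_mem (ihy hy1) (ihz hz1)

theorem h22b_mem_fracField (x : LaurentSeries Kbar) (hx : x ∈ modularFunctionFieldBar N) :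
    (⟨x, hx⟩ : modularFunctionFieldBar N) ∈ h22b_fracField N := by
  have hx' : x ∈ IntermediateField.adjoin Kbar
      (⇑(coeffEmb Kbar) '' ((modularFunctionFieldFull N : IntermediateField ℚ (LaurentSeries ℚ))
        : Set (LaurentSeries ℚ))) := hx
  induction hx' using IntermediateField.adjoin_induction with
  | mem y hy0 =>
    obtain ⟨y, hy, rfl⟩ := hy0
    exact h22b_coeffEmb_mem N y hy
  | algebraMap c => exact h22b_algebraMap_mem N c
  | add y z hy1 hz1 ihy ihz =>
    have he : (⟨y + z, hx⟩ : modularFunctionFieldBar N) = ⟨y, hy1⟩ + ⟨z, hz1⟩ := rfl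
    rw [he]
    exact add_mem (ihy hy1) (ihz hz1)
  | inv y hy1 ihy =>
    have he : (⟨y⁻¹, hx⟩ : modularFunctionFieldBar N) = (⟨y, hy1⟩)⁻¹ := rfl
    rw [he]
    exact inv_mem (ihy hy1)
  | mul y z hy1 hz1 ihy ihz =>
    have he : (⟨y * z, hx⟩ : modularFunctionFieldBar N) = ⟨y, hy1⟩ * ⟨z, hz1⟩ := rfl
    rw [he]
    exact mul_mem (ihy hy1) (ihz hz1)

theorem h22b_exists_rep (f : modularFunctionFieldBar N) :
    ∃ P Q : MvPolynomial (Dv N) Kbar, h22b_ev N Q ≠ 0 ∧ f = h22b_ev N P / h22b_ev N Q :=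
  h22b_mem_fracField N f.1 f.2

/-- **BA2'**: every element of `F` is a fraction of polynomials in the generators. -/
theorem exists_frac (f : ModularCurve.modularFunctionFieldBar N) :
    ∃ P Q : MvPolynomial (Dv N) Kbar,
      MvPolynomial.aeval (fun d : Dv N => Jgen d) Q ≠ 0 ∧
      f = MvPolynomial.aeval (fun d : Dv N => Jgen d) P /
        MvPolynomial.aeval (fun d : Dv N => Jgen d) Q :=
  h22b_mem_fracField N f.1 f.2

/-- **BA1**: a ring hom out of `F` is determined on `K` and on the generators. -/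
theorem ringHom_ext_F {E : Type*} [Field E]
    (φ ψ : ModularCurve.modularFunctionFieldBar N →+* E)
    (hK : ∀ c : Kbar, φ (algebraMap Kbar _ c) = ψ (algebraMap Kbar _ c))
    (hJ : ∀ d : Dv N, φ (Jgen d) = ψ (Jgen d)) : φ = ψ := by
  have hcomp : φ.comp (h22b_ev N) = ψ.comp (h22b_ev N) := by
    apply MvPolynomial.ringHom_ext
    · intro c
      rw [RingHom.comp_apply, RingHom.comp_apply, h22b_ev_C]
      exact hK c
    · intro d
      rw [RingHom.comp_apply, RingHom.comp_apply, h22b_ev_X]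
      exact hJ d
  have hP : ∀ P, φ (h22b_ev N P) = ψ (h22b_ev N P) := fun P => RingHom.congr_fun hcomp P
  ext f
  obtain ⟨P, Q, -, hf⟩ := h22b_exists_rep N f
  rw [hf, map_div₀, map_div₀, hP, hP]

section Real

variable {N}
variable {E : Type*} [Field E] (ι' : ℂ →+* E) (a : Dv N → E)

/-- Evaluation of polynomials at the target elements. -/
def h22b_theta : MvPolynomial (Dv N) Kbar →+* E := MvPolynomial.eval₂Hom (ι'.comp iota) a

theorem h22b_coeffMap_Jgen (d : Dv N) :
    coeffMap iota ((Jgen d : modularFunctionFieldBar N) : LaurentSeries Kbar) = JC d := by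
  haveI : NeZero d.1 := ⟨Dv_ne_zero d⟩
  show coeffMap iota (coeffEmb Kbar (qExpand ℚ d.1 jq)) = qExpand ℂ d.1 (jqModC ℂ)
  rw [coeffEmb, coeffMap_coeffMap, coeffMap_qExpand, ← jqModC_rat, coeffMap_jqModC]

theorem h22b_coeffMap_ev (P : MvPolynomial (Dv N) Kbar) :
    coeffMap iota ((h22b_ev N P : modularFunctionFieldBar N) : LaurentSeries Kbar) =
      formalEval N (MvPolynomial.map iota P) := by
  have hcomp : ((coeffMap iota).comp
      (algebraMap (modularFunctionFieldBar N) (LaurentSeries Kbar))).comp (h22b_ev N) =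
      ((formalEval N : MvPolynomial (Dv N) ℂ →ₐ[ℂ] LaurentSeries ℂ).toRingHom).comp
        (MvPolynomial.map iota) := by
    apply MvPolynomial.ringHom_ext
    · intro c
      simp only [RingHom.comp_apply, h22b_ev_C, MvPolynomial.map_C]
      show coeffMap iota (algebraMap Kbar (LaurentSeries Kbar) c) =
        formalEval N (MvPolynomial.C (iota c))
      rw [formalEval, MvPolynomial.aeval_C, algebraMap_laurentSeries_eq_single,
        algebraMap_laurentSeries_eq_single, coeffMap_single]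
    · intro d
      simp only [RingHom.comp_apply, h22b_ev_X, MvPolynomial.map_X]
      show coeffMap iota ((Jgen d : modularFunctionFieldBar N) : LaurentSeries Kbar) =
        formalEval N (MvPolynomial.X d)
      rw [formalEval, MvPolynomial.aeval_X, h22b_coeffMap_Jgen]
  exact RingHom.congr_fun hcomp P

theorem h22b_coeffMap_iota_injective :
    Function.Injective (coeffMap iota : LaurentSeries Kbar →+* LaurentSeries ℂ) := by
  intro x y hxy
  ext k
  apply iota.injective
  have := congrArg (fun z : LaurentSeries ℂ => z.coeff k) hxy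
  simpa using this

variable (h : ∀ P : MvPolynomial (Dv N) ℂ, formalEval N P = 0 ↔ MvPolynomial.eval₂ ι' a P = 0)

include h in
theorem h22b_ev_eq_zero_iff (P : MvPolynomial (Dv N) Kbar) :
    h22b_ev N P = 0 ↔ h22b_theta ι' a P = 0 := by
  have h1 : h22b_ev N P = 0 ↔ formalEval N (MvPolynomial.map iota P) = 0 := by
    rw [← h22b_coeffMap_ev]
    constructor
    · intro h0
      rw [h0]
      simp
    · intro h0
      have h2 : ((h22b_ev N P : modularFunctionFieldBar N) : LaurentSeries Kbar) = 0 :=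
        h22b_coeffMap_iota_injective (by rw [h0, map_zero])
      exact Subtype.ext h2
  rw [h1, h, MvPolynomial.eval₂_map]
  rfl

/-- The realisation, as a function. -/
def h22b_phiFun (f : modularFunctionFieldBar N) : E :=
  h22b_theta ι' a (h22b_exists_rep N f).choose /
    h22b_theta ι' a (h22b_exists_rep N f).choose_spec.choose

include h in
theorem h22b_theta_ne_zero {Q : MvPolynomial (Dv N) Kbar} (hQ : h22b_ev N Q ≠ 0) :
    h22b_theta ι' a Q ≠ 0 := fun h0 => hQ ((h22b_ev_eq_zero_iff ι' a h Q).2 h0)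

include h in
theorem h22b_theta_div_eq {P Q P' Q' : MvPolynomial (Dv N) Kbar}
    (hQ : h22b_ev N Q ≠ 0) (hQ' : h22b_ev N Q' ≠ 0)
    (he : h22b_ev N P' / h22b_ev N Q' = h22b_ev N P / h22b_ev N Q) :
    h22b_theta ι' a P' / h22b_theta ι' a Q' = h22b_theta ι' a P / h22b_theta ι' a Q := by
  rw [div_eq_div_iff hQ' hQ] at he
  have hcross : h22b_ev N (P' * Q - P * Q') = 0 := by
    rw [RingHom.map_sub, RingHom.map_mul, RingHom.map_mul, he, sub_self]
  have hθ := (h22b_ev_eq_zero_iff ι' a h _).1 hcross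
  rw [RingHom.map_sub, RingHom.map_mul, RingHom.map_mul, sub_eq_zero] at hθ
  rw [div_eq_div_iff (h22b_theta_ne_zero ι' a h hQ') (h22b_theta_ne_zero ι' a h hQ)]
  exact hθ

include h in
theorem h22b_phiFun_eq (f : modularFunctionFieldBar N) (P Q : MvPolynomial (Dv N) Kbar)
    (hQ : h22b_ev N Q ≠ 0) (hf : f = h22b_ev N P / h22b_ev N Q) :
    h22b_phiFun ι' a f = h22b_theta ι' a P / h22b_theta ι' a Q := by
  have hspec := (h22b_exists_rep N f).choose_spec.choose_spec
  exact h22b_theta_div_eq ι' a h hQ hspec.1 (hspec.2.symm.trans hf)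

include h in
theorem h22b_exists_real :
    ∃ φ : ModularCurve.modularFunctionFieldBar N →+* E,
      (∀ d, φ (Jgen d) = a d) ∧ ∀ c : Kbar, φ (algebraMap Kbar _ c) = ι' (iota c) := by
  have hone : h22b_ev N (1 : MvPolynomial (Dv N) Kbar) ≠ 0 := by
    rw [RingHom.map_one]; exact one_ne_zero
  have key := h22b_phiFun_eq ι' a h
  refine ⟨{ toFun := h22b_phiFun ι' a
            map_one' := ?_
            map_mul' := ?_
            map_zero' := ?_
            map_add' := ?_ }, ?_, ?_⟩
  · rw [key 1 1 1 hone (by rw [RingHom.map_one, div_one]), RingHom.map_one, div_one]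
  · intro f g
    obtain ⟨P₁, Q₁, h₁, hf'⟩ := h22b_exists_rep N f
    obtain ⟨P₂, Q₂, h₂, hg'⟩ := h22b_exists_rep N g
    have h12 : h22b_ev N (Q₁ * Q₂) ≠ 0 := by
      rw [RingHom.map_mul]; exact mul_ne_zero h₁ h₂
    rw [key f P₁ Q₁ h₁ hf', key g P₂ Q₂ h₂ hg', key (f * g) (P₁ * P₂) (Q₁ * Q₂) h12 (by
      rw [hf', hg', RingHom.map_mul, RingHom.map_mul, div_mul_div_comm]), RingHom.map_mul,
      RingHom.map_mul]
    have hθ₁ : h22b_theta ι' a Q₁ ≠ 0 := h22b_theta_ne_zero ι' a h h₁
    have hθ₂ : h22b_theta ι' a Q₂ ≠ 0 := h22b_theta_ne_zero ι' a h h₂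
    field_simp
  · rw [key 0 0 1 hone (by rw [RingHom.map_zero, zero_div]), RingHom.map_zero, zero_div]
  · intro f g
    obtain ⟨P₁, Q₁, h₁, hf'⟩ := h22b_exists_rep N f
    obtain ⟨P₂, Q₂, h₂, hg'⟩ := h22b_exists_rep N g
    have h12 : h22b_ev N (Q₁ * Q₂) ≠ 0 := by
      rw [RingHom.map_mul]; exact mul_ne_zero h₁ h₂
    rw [key f P₁ Q₁ h₁ hf', key g P₂ Q₂ h₂ hg',
      key (f + g) (P₁ * Q₂ + Q₁ * P₂) (Q₁ * Q₂) h12 (by
        rw [hf', hg', RingHom.map_add, RingHom.map_mul, RingHom.map_mul, RingHom.map_mul,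
          div_add_div _ _ h₁ h₂]), RingHom.map_add, RingHom.map_mul, RingHom.map_mul,
      RingHom.map_mul]
    have hθ₁ : h22b_theta ι' a Q₁ ≠ 0 := h22b_theta_ne_zero ι' a h h₁
    have hθ₂ : h22b_theta ι' a Q₂ ≠ 0 := h22b_theta_ne_zero ι' a h h₂
    field_simp
  · intro d
    show h22b_phiFun ι' a (Jgen d) = a d
    rw [key (Jgen d) (MvPolynomial.X d) 1 hone (by rw [RingHom.map_one, div_one, h22b_ev_X]),
      RingHom.map_one, div_one, h22b_theta, MvPolynomial.coe_eval₂Hom, MvPolynomial.eval₂_X]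
  · intro c
    show h22b_phiFun ι' a (algebraMap Kbar _ c) = ι' (iota c)
    rw [key _ (MvPolynomial.C c) 1 hone (by rw [RingHom.map_one, div_one, h22b_ev_C]),
      RingHom.map_one, div_one, h22b_theta, MvPolynomial.coe_eval₂Hom, MvPolynomial.eval₂_C]
    rfl

end Real

/-- **BA2**: realisation.  If elements `a d` of a field `E` satisfy exactly the formal relations
of the `j(q^d)`, there is an embedding of `F` sending `Jgen d` to `a d`. -/
theorem exists_real {E : Type*} [Field E] (ι' : ℂ →+* E) (a : Dv N → E)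
    (h : ∀ P : MvPolynomial (Dv N) ℂ, formalEval N P = 0 ↔ MvPolynomial.eval₂ ι' a P = 0) :
    ∃ φ : ModularCurve.modularFunctionFieldBar N →+* E,
      (∀ d, φ (Jgen d) = a d) ∧ ∀ c : Kbar, φ (algebraMap Kbar _ c) = ι' (iota c) :=
  h22b_exists_real ι' a h

end RH24
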