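import Mathlib

set_option autoImplicit false
set_option linter.style.haveILetI false

noncomputable section

open scoped WithZero

namespace RH24

section BA3

variable {A : Type*} [CommRing A] [IsDomain A]

/-- the valuation on a domain attached to an order function -/
def h5b_valOfOrder (o : A → ℤ)
    (h1 : o 1 = 0) (hmul : ∀ a b, a ≠ 0 → b ≠ 0 → o (a * b) = o a + o b)
    (hadd : ∀ a b, a ≠ 0 → b ≠ 0 → a + b ≠ 0 → min (o a) (o b) ≤ o (a + b)) :
    Valuation A ℤᵐ⁰ := by
  classical
  exact
  { toFun := fun a => if a = 0 then 0 else WithZero.exp (-(o a))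
    map_zero' := by simp
    map_one' := by simp [h1]
    map_mul' := fun a b => by
      by_cases ha : a = 0
      · simp [ha]
      by_cases hb : b = 0
      · simp [hb]
      rw [if_neg ha, if_neg hb, if_neg (mul_ne_zero ha hb), hmul a b ha hb, ← WithZero.exp_add]
      congr 1
      ring
    map_add_le_max' := fun a b => by
      by_cases ha : a = 0
      · simp [ha]
      by_cases hb : b = 0
      · simp [hb]
      by_cases hab : a + b = 0
      · simp [hab]
      rw [if_neg ha, if_neg hb, if_neg hab]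
      have := hadd a b ha hb hab
      rcases min_le_iff.mp this with h | h
      · exact le_max_of_le_left (WithZero.exp_le_exp.mpr (by omega))
      · exact le_max_of_le_right (WithZero.exp_le_exp.mpr (by omega)) }

theorem h5b_valOfOrder_apply (o : A → ℤ)
    (h1 : o 1 = 0) (hmul : ∀ a b, a ≠ 0 → b ≠ 0 → o (a * b) = o a + o b)
    (hadd : ∀ a b, a ≠ 0 → b ≠ 0 → a + b ≠ 0 → min (o a) (o b) ≤ o (a + b))
    (a : A) (ha : a ≠ 0) :
    h5b_valOfOrder o h1 hmul hadd a = WithZero.exp (-(o a)) := by
  classical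
  show (if a = 0 then 0 else WithZero.exp (-(o a))) = _
  rw [if_neg ha]

theorem h5b_valOfOrder_supp (o : A → ℤ)
    (h1 : o 1 = 0) (hmul : ∀ a b, a ≠ 0 → b ≠ 0 → o (a * b) = o a + o b)
    (hadd : ∀ a b, a ≠ 0 → b ≠ 0 → a + b ≠ 0 → min (o a) (o b) ≤ o (a + b)) :
    nonZeroDivisors A ≤ (h5b_valOfOrder o h1 hmul hadd).supp.primeCompl := by
  intro a ha
  have ha0 : a ≠ 0 := nonZeroDivisors.ne_zero ha
  show a ∉ (h5b_valOfOrder o h1 hmul hadd).supp
  rw [Valuation.mem_supp_iff, h5b_valOfOrder_apply o h1 hmul hadd a ha0]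
  exact WithZero.exp_ne_zero

/-- BA3: a valuation on the fraction field from an order function. -/
theorem exists_valuation_of_order (o : A → ℤ)
    (h1 : o 1 = 0) (hmul : ∀ a b, a ≠ 0 → b ≠ 0 → o (a * b) = o a + o b)
    (hadd : ∀ a b, a ≠ 0 → b ≠ 0 → a + b ≠ 0 → min (o a) (o b) ≤ o (a + b)) :
    ∃ w : Valuation (FractionRing A) ℤᵐ⁰, ∀ a b : A, a ≠ 0 → b ≠ 0 →
      w (algebraMap A (FractionRing A) a / algebraMap A (FractionRing A) b)
        = WithZero.exp (-(o a - o b)) := by
  refine ⟨(h5b_valOfOrder o h1 hmul hadd).extendToLocalization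
    (h5b_valOfOrder_supp o h1 hmul hadd) (FractionRing A), fun a b ha hb => ?_⟩
  rw [map_div₀, Valuation.extendToLocalization_apply_map_apply,
    Valuation.extendToLocalization_apply_map_apply, h5b_valOfOrder_apply _ _ _ _ a ha,
    h5b_valOfOrder_apply _ _ _ _ b hb, ← WithZero.exp_sub]
  congr 1
  ring

end BA3

end RH24
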