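/-
T-RH (S24), slice B2 (helper6): level one.
* `RH24.h6_br_eq` : the bracket identity `2 E₄ D E₆ - 3 E₆ D E₄ = -1728 Δ`
  (`D = (2πi)⁻¹ d/dz`), via weight 12 cusp forms being multiples of `Δ`.
* zeros of `E₄`, `E₆`, `E₄³ - a Δ` (`a ≠ 0, 1728`) are simple; `E₄³ - a Δ` has a zero;
  `E₄ ρ = 0`, `E₆ i = 0`.
Statements are those of NOTES/S24_interface.md (Layer B2).
-/
import Mathlib

set_option autoImplicit false

noncomputable section

open UpperHalfPlane ModularForm MatrixGroups CongruenceSubgroup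
open scoped Topology Real Manifold

namespace RH24

/-- `A_a = E₄³ - a Δ`; `j - a = A_a / Δ`. -/
def Aform (a : ℂ) (z : ℍ) : ℂ := E₄ z ^ 3 - a * ModularForm.discriminant z

/-- the fixed point of `S * T` -/
def rho : ℍ := ⟨⟨-1/2, Real.sqrt 3 / 2⟩, by simp⟩

theorem h6_coe_rho : (rho : ℂ) = ⟨-1/2, Real.sqrt 3 / 2⟩ := rfl

theorem h6_rho_add_one_mul : ((rho : ℂ) + 1) * (rho : ℂ) = -1 := by
  rw [h6_coe_rho]
  apply Complex.ext
  · simp
    have h3 : Real.sqrt 3 * Real.sqrt 3 = 3 := Real.mul_self_sqrt (by norm_num)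
    nlinarith [h3]
  · simp
    ring

theorem ST_smul_rho : (ModularGroup.S * ModularGroup.T) • rho = rho := by
  rw [mul_smul, modular_T_smul, modular_S_smul]
  apply UpperHalfPlane.ext
  simp only [coe_vadd]
  have h := h6_rho_add_one_mul
  have hne : (1 + (rho : ℂ)) ≠ 0 := by
    intro h0
    rw [add_comm] at h0
    rw [h0] at h
    simp at h
  have : ((1:ℝ) : ℂ) + (rho : ℂ) = 1 + rho := by simp
  rw [this]
  field_simp
  linear_combination -h

theorem S_smul_I : ModularGroup.S • (UpperHalfPlane.I) = UpperHalfPlane.I := by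
  rw [modular_S_smul]
  apply UpperHalfPlane.ext
  simp only [coe_I]
  rw [inv_neg, Complex.inv_I, neg_neg]



theorem h6_slash_eqn {k : ℤ} (f : ModularForm 𝒮ℒ k) (γ : SL(2, ℤ)) (z : ℍ) :
    f (γ • z) = denom (γ : GL (Fin 2) ℝ) z ^ k * f z := by
  have hγ : (γ : GL (Fin 2) ℝ) ∈ 𝒮ℒ := ⟨γ, rfl⟩
  exact SlashInvariantForm.slash_action_eqn'' f hγ z

theorem h6_denom_S (z : ℍ) : denom ((ModularGroup.S : SL(2, ℤ)) : GL (Fin 2) ℝ) z = z := by
  simp

theorem h6_ST_10 : (ModularGroup.S * ModularGroup.T : SL(2, ℤ)) 1 0 = 1 := by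
  rw [Matrix.SpecialLinearGroup.coe_mul]
  simp [ModularGroup.S, ModularGroup.T, Matrix.mul_apply, Fin.sum_univ_two]

theorem h6_ST_11 : (ModularGroup.S * ModularGroup.T : SL(2, ℤ)) 1 1 = 1 := by
  rw [Matrix.SpecialLinearGroup.coe_mul]
  simp [ModularGroup.S, ModularGroup.T, Matrix.mul_apply, Fin.sum_univ_two]

theorem h6_denom_ST (z : ℍ) :
    denom ((ModularGroup.S * ModularGroup.T : SL(2, ℤ)) : GL (Fin 2) ℝ) z = (z : ℂ) + 1 := by
  have h := ModularGroup.denom_apply (ModularGroup.S * ModularGroup.T) z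
  rw [h6_ST_10, h6_ST_11] at h
  simpa using h

theorem E6_I : E₆ UpperHalfPlane.I = 0 := by
  have h := h6_slash_eqn E₆ ModularGroup.S UpperHalfPlane.I
  rw [S_smul_I, h6_denom_S] at h
  have h6 : ((UpperHalfPlane.I : ℍ) : ℂ) ^ (6 : ℤ) = -1 := by
    rw [coe_I]
    have : (Complex.I) ^ (6 : ℤ) = Complex.I ^ (6 : ℕ) := by norm_cast
    rw [this, show (6 : ℕ) = 4 + 2 by norm_num, pow_add, Complex.I_pow_four, Complex.I_sq]
    ring
  rw [h6] at h
  have h2 : (2 : ℂ) * E₆ UpperHalfPlane.I = 0 := by linear_combination h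
  simpa using h2

theorem E4_rho : E₄ rho = 0 := by
  have h := h6_slash_eqn E₄ (ModularGroup.S * ModularGroup.T) rho
  rw [ST_smul_rho, h6_denom_ST] at h
  have hr := h6_rho_add_one_mul
  -- let u = rho + 1; u * (u - 1) = -1, i.e. u^2 = u - 1; u^4 = (u-1)^2 = u^2 - 2u + 1 = -u
  have h4 : ((rho : ℂ) + 1) ^ (4 : ℤ) = -((rho : ℂ) + 1) := by
    have : ((rho : ℂ) + 1) ^ (4 : ℤ) = ((rho : ℂ) + 1) ^ (4 : ℕ) := by norm_cast
    rw [this]
    have h2 : ((rho : ℂ) + 1) ^ 2 = (rho : ℂ) := by linear_combination hr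
    calc ((rho : ℂ) + 1) ^ 4 = (((rho : ℂ) + 1) ^ 2) ^ 2 := by ring
      _ = (rho : ℂ) ^ 2 := by rw [h2]
      _ = -((rho : ℂ) + 1) := by linear_combination hr
  rw [h4] at h
  have hne : (rho : ℂ) + 2 ≠ 0 := by
    intro h0
    have : ((rho : ℂ) + 2).im = 0 := by rw [h0]; simp
    rw [h6_coe_rho] at this
    simp at this
  have h2 : ((rho : ℂ) + 2) * E₄ rho = 0 := by linear_combination h
  rcases mul_eq_zero.mp h2 with h3 | h3
  · exact absurd h3 hne
  · exact h3



open Derivative in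
theorem h6_D_eq {k : ℤ} (f : ModularForm 𝒮ℒ k) (z : ℍ) :
    D f z = Function.Periodic.qParam 1 z *
      deriv (cuspFunction 1 f) (Function.Periodic.qParam 1 z) := by
  unfold normalizedDerivOfComplex
  have hev : (f ∘ ofComplex) =ᶠ[𝓝 (z:ℂ)] (cuspFunction 1 f) ∘ (Function.Periodic.qParam 1) := by
    filter_upwards [isOpen_upperHalfPlaneSet.mem_nhds z.im_pos] with w hw
    simp only [Function.comp_apply]
    rw [ofComplex_apply_of_im_pos hw]
    exact (SlashInvariantFormClass.eq_cuspFunction f ⟨w, hw⟩ one_mem_strictPeriods_SL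
      one_ne_zero).symm
  rw [hev.deriv_eq]
  have hq : ‖Function.Periodic.qParam 1 (z:ℂ)‖ < 1 :=
    Function.Periodic.norm_qParam_lt_one one_pos z.im_pos
  have hd := ModularFormClass.differentiableAt_cuspFunction f one_pos one_mem_strictPeriods_SL hq
  have hq' : HasDerivAt (Function.Periodic.qParam 1)
      (2 * π * Complex.I * Function.Periodic.qParam 1 (z:ℂ)) (z:ℂ) := by
    have h1 : HasDerivAt (fun w : ℂ => 2 * π * Complex.I * w / ((1:ℝ):ℂ)) (2 * π * Complex.I)
        (z:ℂ) := by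
      have := (hasDerivAt_id (z:ℂ)).const_mul (2 * π * Complex.I)
      simpa using this
    have h2 := h1.cexp
    have h3 : Complex.exp (2 * ↑π * Complex.I * (z:ℂ) / ((1:ℝ):ℂ)) * (2 * ↑π * Complex.I)
        = 2 * π * Complex.I * Function.Periodic.qParam 1 (z:ℂ) := by
      unfold Function.Periodic.qParam
      ring
    rw [h3] at h2
    exact h2
  rw [(hd.hasDerivAt.comp _ hq').deriv]
  have hpi : (2 * π * Complex.I : ℂ) ≠ 0 := by
    simp [Real.pi_ne_zero]
  field_simp

open Derivative in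
theorem h6_D_isZeroAtImInfty {k : ℤ} (f : ModularForm 𝒮ℒ k) :
    IsZeroAtImInfty (D f) := by
  have hfun : (D f) = fun z : ℍ => Function.Periodic.qParam 1 z *
      deriv (cuspFunction 1 f) (Function.Periodic.qParam 1 z) := by
    funext z; exact h6_D_eq f z
  rw [hfun]
  unfold IsZeroAtImInfty Filter.ZeroAtFilter
  have hq := qParam_tendsto_atImInfty (h := 1) one_pos
  have han : AnalyticAt ℂ (cuspFunction 1 f) 0 :=
    ModularFormClass.analyticAt_cuspFunction_zero f one_pos one_mem_strictPeriods_SL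
  have hcont : ContinuousAt (deriv (cuspFunction 1 f)) 0 := han.deriv.continuousAt
  have h2 := hcont.tendsto.comp hq
  have := hq.mul h2
  simpa using this

open Derivative

/-- the Rankin–Cohen bracket `2 E₄ D E₆ - 3 E₆ D E₄` -/
def h6_br (z : ℍ) : ℂ := 2 * E₄ z * D E₆ z - 3 * E₆ z * D E₄ z

theorem h6_slash_eq {k : ℤ} (f : ModularForm 𝒮ℒ k) (γ : SL(2, ℤ)) : (⇑f) ∣[k] γ = ⇑f := by
  have hγ : (γ : GL (Fin 2) ℝ) ∈ 𝒮ℒ := ⟨γ, rfl⟩
  rw [ModularForm.SL_slash]
  exact SlashInvariantForm.slash_action_eqn f _ hγ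

theorem h6_D_slash {k : ℤ} (f : ModularForm 𝒮ℒ k) (γ : SL(2, ℤ)) (z : ℍ) :
    (D f ∣[k + 2] γ) z = D f z + (k : ℂ) * (2 * π * Complex.I)⁻¹ *
      ((γ 1 0 : ℂ) / denom (γ : GL (Fin 2) ℝ) z) * f z := by
  have h := normalizedDerivOfComplex_SL_slash (k := k) (F := f) (ModularFormClass.holo f) (γ := γ)
  rw [h6_slash_eq f γ] at h
  have h2 := congrFun h z
  simp only [Pi.sub_apply] at h2
  linear_combination -h2

theorem h6_br_slash (γ : SL(2, ℤ)) : h6_br ∣[(12 : ℤ)] γ = h6_br := by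
  have e1 : h6_br = (2 : ℂ) • ((⇑E₄) * D E₆) - (3 : ℂ) • ((⇑E₆) * D E₄) := by
    funext z
    simp [h6_br]
    ring
  have h48 := ModularForm.mul_slash_SL2 4 (6 + 2) γ (⇑E₄) (D E₆)
  have h66 := ModularForm.mul_slash_SL2 6 (4 + 2) γ (⇑E₆) (D E₄)
  have h4 := h6_slash_eq E₄ γ
  have h6 := h6_slash_eq E₆ γ
  funext z
  have a1 := congrFun h48 z
  have a2 := congrFun h66 z
  have d6 := h6_D_slash E₆ γ z
  have d4 := h6_D_slash E₄ γ z
  rw [e1]
  have hs : (((2 : ℂ) • ((⇑E₄) * D E₆) - (3 : ℂ) • ((⇑E₆) * D E₄)) ∣[(12:ℤ)] γ) z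
      = 2 * (((⇑E₄) * D E₆) ∣[(12:ℤ)] γ) z - 3 * (((⇑E₆) * D E₄) ∣[(12:ℤ)] γ) z := by
    rw [sub_eq_add_neg, SlashAction.add_slash, SlashAction.neg_slash,
      ModularForm.SL_smul_slash, ModularForm.SL_smul_slash]
    simp
    ring
  rw [hs]
  have a1' : (((⇑E₄) * D E₆) ∣[(12:ℤ)] γ) z = ((⇑E₄) ∣[(4:ℤ)] γ) z * ((D E₆) ∣[(6 + 2:ℤ)] γ) z := by
    have : ((4:ℤ) + (6 + 2)) = 12 := by norm_num
    rw [this] at a1
    simpa using a1
  have a2' : (((⇑E₆) * D E₄) ∣[(12:ℤ)] γ) z = ((⇑E₆) ∣[(6:ℤ)] γ) z * ((D E₄) ∣[(4 + 2:ℤ)] γ) z := by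
    have : ((6:ℤ) + (4 + 2)) = 12 := by norm_num
    rw [this] at a2
    simpa using a2
  rw [a1', a2', h4, h6]
  have d6' : ((D E₆) ∣[(6 + 2:ℤ)] γ) z = D E₆ z + (6 : ℂ) * (2 * π * Complex.I)⁻¹ *
      ((γ 1 0 : ℂ) / denom (γ : GL (Fin 2) ℝ) z) * E₆ z := by
    simpa using d6
  have d4' : ((D E₄) ∣[(4 + 2:ℤ)] γ) z = D E₄ z + (4 : ℂ) * (2 * π * Complex.I)⁻¹ *
      ((γ 1 0 : ℂ) / denom (γ : GL (Fin 2) ℝ) z) * E₄ z := by
    simpa using d4
  rw [d6', d4']
  simp only [Pi.sub_apply, Pi.smul_apply, Pi.mul_apply, smul_eq_mul]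
  ring


theorem h6_tendsto_cusp {k : ℤ} (f : ModularForm 𝒮ℒ k) :
    Filter.Tendsto (fun z : ℍ => f z) atImInfty (𝓝 (cuspFunction 1 f 0)) := by
  have hq := qParam_tendsto_atImInfty (h := 1) one_pos
  have han : AnalyticAt ℂ (cuspFunction 1 f) 0 :=
    ModularFormClass.analyticAt_cuspFunction_zero f one_pos one_mem_strictPeriods_SL
  have h2 := han.continuousAt.tendsto.comp hq
  refine h2.congr fun z => ?_
  simp only [Function.comp_apply]
  exact SlashInvariantFormClass.eq_cuspFunction f z one_mem_strictPeriods_SL one_ne_zero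

theorem h6_cusp_zero {k : ℤ} (f : ModularForm 𝒮ℒ k) :
    cuspFunction 1 f 0 = (qExpansion 1 f).coeff 0 := by
  rw [qExpansion_coeff]
  simp

theorem h6_cusp_deriv_zero {k : ℤ} (f : ModularForm 𝒮ℒ k) :
    deriv (cuspFunction 1 f) 0 = (qExpansion 1 f).coeff 1 := by
  rw [qExpansion_coeff]
  simp

theorem h6_E4_tendsto : Filter.Tendsto (fun z : ℍ => E₄ z) atImInfty (𝓝 1) := by
  have h := h6_tendsto_cusp E₄
  rwa [h6_cusp_zero, EisensteinSeries.E_qExpansion_coeff_zero _ ⟨2, rfl⟩] at h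

theorem h6_E6_tendsto : Filter.Tendsto (fun z : ℍ => E₆ z) atImInfty (𝓝 1) := by
  have h := h6_tendsto_cusp E₆
  rwa [h6_cusp_zero, EisensteinSeries.E_qExpansion_coeff_zero _ ⟨3, rfl⟩] at h

theorem h6_br_mdiff : MDiff h6_br := by
  have h4 : MDiff (⇑E₄) := ModularFormClass.holo E₄
  have h6 : MDiff (⇑E₆) := ModularFormClass.holo E₆
  have d4 := normalizedDerivOfComplex_mdifferentiable h4
  have d6 := normalizedDerivOfComplex_mdifferentiable h6
  have e1 : h6_br = ((fun _ => (2:ℂ)) * (⇑E₄) * D E₆) - ((fun _ => (3:ℂ)) * (⇑E₆) * D E₄) := by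
    funext z
    simp [h6_br]
  rw [e1]
  exact ((mdifferentiable_const.mul h4).mul d6).sub ((mdifferentiable_const.mul h6).mul d4)

theorem h6_br_zero : IsZeroAtImInfty h6_br := by
  unfold IsZeroAtImInfty Filter.ZeroAtFilter
  have z4 : Filter.Tendsto (D E₄) atImInfty (𝓝 0) := h6_D_isZeroAtImInfty E₄
  have z6 : Filter.Tendsto (D E₆) atImInfty (𝓝 0) := h6_D_isZeroAtImInfty E₆
  have := ((h6_E4_tendsto.const_mul 2).mul z6).sub ((h6_E6_tendsto.const_mul 3).mul z4)
  simp only [mul_zero, sub_zero] at this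
  refine this.congr fun z => ?_
  simp [h6_br]

/-- the bracket as a cusp form of weight 12 -/
def h6_brForm : CuspForm 𝒮ℒ 12 where
  toFun := h6_br
  slash_action_eq' A hA := by
    obtain ⟨A, rfl⟩ := hA
    exact h6_br_slash A
  holo' := h6_br_mdiff
  zero_at_cusps' hc := by
    rw [Subgroup.IsArithmetic.isCusp_iff_isCusp_SL2Z] at hc
    rw [OnePoint.isZeroAt_iff_forall_SL2Z hc]
    intro γ _
    rw [h6_br_slash]
    exact h6_br_zero


theorem h6_br_eq (z : ℍ) : h6_br z = -1728 * ModularForm.discriminant z := by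
  obtain ⟨c, hc⟩ := CuspForm.exists_smul_discriminant_of_weight_eq_twelve h6_brForm
  have hcz : ∀ w : ℍ, c * ModularForm.discriminant w = h6_br w := by
    intro w
    have := congrArg (fun g : CuspForm 𝒮ℒ 12 => g w) hc
    have h2 : h6_brForm w = h6_br w := rfl
    rw [← h2]
    simpa using this
  suffices hc1728 : c = -1728 by rw [← hcz z, hc1728]
  -- `H(q) = 2 c₄(q) c₆'(q) - 3 c₆(q) c₄'(q)`
  set c4 := cuspFunction 1 E₄ with hc4
  set c6 := cuspFunction 1 E₆ with hc6
  have hq := qParam_tendsto_atImInfty (h := 1) one_pos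
  have han4 : AnalyticAt ℂ c4 0 :=
    ModularFormClass.analyticAt_cuspFunction_zero E₄ one_pos one_mem_strictPeriods_SL
  have han6 : AnalyticAt ℂ c6 0 :=
    ModularFormClass.analyticAt_cuspFunction_zero E₆ one_pos one_mem_strictPeriods_SL
  have t4 : Filter.Tendsto (fun w : ℍ => c4 (Function.Periodic.qParam 1 w)) atImInfty (𝓝 (c4 0)) :=
    han4.continuousAt.tendsto.comp hq
  have t6 : Filter.Tendsto (fun w : ℍ => c6 (Function.Periodic.qParam 1 w)) atImInfty (𝓝 (c6 0)) :=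
    han6.continuousAt.tendsto.comp hq
  have t4' : Filter.Tendsto (fun w : ℍ => deriv c4 (Function.Periodic.qParam 1 w)) atImInfty
      (𝓝 (deriv c4 0)) := han4.deriv.continuousAt.tendsto.comp hq
  have t6' : Filter.Tendsto (fun w : ℍ => deriv c6 (Function.Periodic.qParam 1 w)) atImInfty
      (𝓝 (deriv c6 0)) := han6.deriv.continuousAt.tendsto.comp hq
  have tH := ((t4.const_mul 2).mul t6').sub ((t6.const_mul 3).mul t4')
  have tP := (ModularForm.tendsto_atImInfty_tprod_one_sub_eta_q_pow).const_mul c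
  -- the two functions agree
  have hEq : ∀ w : ℍ, c * (∏' n, (1 - eta_q n w) ^ 24)
      = 2 * c4 (Function.Periodic.qParam 1 w) * deriv c6 (Function.Periodic.qParam 1 w)
        - 3 * c6 (Function.Periodic.qParam 1 w) * deriv c4 (Function.Periodic.qParam 1 w) := by
    intro w
    have h1 := hcz w
    rw [ModularForm.discriminant_eq_q_prod] at h1
    have e4 : E₄ w = c4 (Function.Periodic.qParam 1 w) :=
      (SlashInvariantFormClass.eq_cuspFunction E₄ w one_mem_strictPeriods_SL one_ne_zero).symm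
    have e6 : E₆ w = c6 (Function.Periodic.qParam 1 w) :=
      (SlashInvariantFormClass.eq_cuspFunction E₆ w one_mem_strictPeriods_SL one_ne_zero).symm
    have d4 := h6_D_eq E₄ w
    have d6 := h6_D_eq E₆ w
    have hq0 : Function.Periodic.qParam 1 (w:ℂ) ≠ 0 := Function.Periodic.qParam_ne_zero _
    simp only [h6_br] at h1
    rw [d4, d6, e4, e6] at h1
    apply mul_left_cancel₀ hq0
    linear_combination h1
  have tP' : Filter.Tendsto (fun w : ℍ => 2 * c4 (Function.Periodic.qParam 1 w) *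
      deriv c6 (Function.Periodic.qParam 1 w)
        - 3 * c6 (Function.Periodic.qParam 1 w) * deriv c4 (Function.Periodic.qParam 1 w))
      atImInfty (𝓝 (c * 1)) := tP.congr hEq
  have huniq := tendsto_nhds_unique tP' tH
  have v40 : c4 0 = 1 := by
    rw [hc4, h6_cusp_zero, EisensteinSeries.E_qExpansion_coeff_zero _ ⟨2, rfl⟩]
  have v60 : c6 0 = 1 := by
    rw [hc6, h6_cusp_zero, EisensteinSeries.E_qExpansion_coeff_zero _ ⟨3, rfl⟩]
  have v41 : deriv c4 0 = 240 := by
    rw [hc4, h6_cusp_deriv_zero, ModularForm.E₄_qExpansion_coeff_one]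
  have v61 : deriv c6 0 = -504 := by
    rw [hc6, h6_cusp_deriv_zero, ModularForm.E₆_qExpansion_coeff_one]
  rw [v40, v60, v41, v61] at huniq
  linear_combination huniq


/-! ### orders -/

theorem h6_analyticAt {k : ℤ} (f : ModularForm 𝒮ℒ k) (z : ℍ) :
    AnalyticAt ℂ (fun w : ℂ => f (ofComplex w)) (z : ℂ) := by
  have h : MDiff (⇑f) := ModularFormClass.holo f
  rw [UpperHalfPlane.mdifferentiable_iff] at h
  exact h.analyticAt (isOpen_upperHalfPlaneSet.mem_nhds z.im_pos)

theorem h6_deriv_eq {k : ℤ} (f : ModularForm 𝒮ℒ k) (z : ℍ) :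
    deriv (fun w : ℂ => f (ofComplex w)) (z : ℂ) = (2 * π * Complex.I) * D f z := by
  have hpi : (2 * π * Complex.I : ℂ) ≠ 0 := by simp [Real.pi_ne_zero]
  unfold normalizedDerivOfComplex
  rw [← mul_assoc, mul_inv_cancel₀ hpi, one_mul]
  rfl

theorem order_E4_of_zero (z : ℍ) (hz : E₄ z = 0) :
    analyticOrderAt (fun w : ℂ => E₄ (ofComplex w)) (z : ℂ) = 1 := by
  apply (h6_analyticAt E₄ z).analyticOrderAt_eq_one_of_zero_deriv_ne_zero
  · simpa using hz
  · rw [h6_deriv_eq]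
    have hpi : (2 * π * Complex.I : ℂ) ≠ 0 := by simp [Real.pi_ne_zero]
    refine mul_ne_zero hpi ?_
    intro h0
    have hb := h6_br_eq z
    simp only [h6_br] at hb
    rw [h0, hz] at hb
    have hΔ := ModularForm.discriminant_ne_zero z
    apply hΔ
    have : (1728 : ℂ) * ModularForm.discriminant z = 0 := by linear_combination hb
    simpa using this

theorem order_E6_of_zero (z : ℍ) (hz : E₆ z = 0) :
    analyticOrderAt (fun w : ℂ => E₆ (ofComplex w)) (z : ℂ) = 1 := by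
  apply (h6_analyticAt E₆ z).analyticOrderAt_eq_one_of_zero_deriv_ne_zero
  · simpa using hz
  · rw [h6_deriv_eq]
    have hpi : (2 * π * Complex.I : ℂ) ≠ 0 := by simp [Real.pi_ne_zero]
    refine mul_ne_zero hpi ?_
    intro h0
    have hb := h6_br_eq z
    simp only [h6_br] at hb
    rw [h0, hz] at hb
    have hΔ := ModularForm.discriminant_ne_zero z
    apply hΔ
    have : (1728 : ℂ) * ModularForm.discriminant z = 0 := by linear_combination hb
    simpa using this

theorem h6_Aform_eq (a : ℂ) (z : ℍ) :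
    Aform a z = (1 - a / 1728) * E₄ z ^ 3 + (a / 1728) * E₆ z ^ 2 := by
  unfold Aform
  rw [ModularForm.discriminant_eq_E₄_cube_sub_E₆_sq]
  ring

theorem order_Aform_generic (a : ℂ) (ha0 : a ≠ 0) (ha1 : a ≠ 1728) (z : ℍ) (hz : Aform a z = 0) :
    analyticOrderAt (fun w : ℂ => Aform a (ofComplex w)) (z : ℂ) = 1 := by
  have hfun : (fun w : ℂ => Aform a (ofComplex w)) = fun w : ℂ =>
      (1 - a / 1728) * (E₄ (ofComplex w)) ^ 3 + (a / 1728) * (E₆ (ofComplex w)) ^ 2 := by
    funext w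
    exact h6_Aform_eq a _
  have han4 := h6_analyticAt E₄ z
  have han6 := h6_analyticAt E₆ z
  have hd4 := han4.differentiableAt.hasDerivAt
  have hd6 := han6.differentiableAt.hasDerivAt
  have hder : HasDerivAt (fun w : ℂ =>
      (1 - a / 1728) * (E₄ (ofComplex w)) ^ 3 + (a / 1728) * (E₆ (ofComplex w)) ^ 2)
      ((1 - a / 1728) * (3 * E₄ z ^ 2 * deriv (fun w : ℂ => E₄ (ofComplex w)) z) +
        (a / 1728) * (2 * E₆ z * deriv (fun w : ℂ => E₆ (ofComplex w)) z)) (z : ℂ) := by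
    have h' := (((hd4.pow 3).const_mul (1 - a / 1728)).add ((hd6.pow 2).const_mul (a / 1728)))
    simp at h'
    exact h'
  have han : AnalyticAt ℂ (fun w : ℂ => Aform a (ofComplex w)) (z : ℂ) := by
    rw [hfun]
    exact ((analyticAt_const.mul (han4.pow 3)).add (analyticAt_const.mul (han6.pow 2)))
  apply han.analyticOrderAt_eq_one_of_zero_deriv_ne_zero
  · simpa using hz
  · rw [hfun]
    rw [hder.deriv, h6_deriv_eq, h6_deriv_eq]
    intro h0
    have hpi : (2 * π * Complex.I : ℂ) ≠ 0 := by simp [Real.pi_ne_zero]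
    have hb := h6_br_eq z
    simp only [h6_br] at hb
    have hA := h6_Aform_eq a z
    rw [hz] at hA
    have hΔ := ModularForm.discriminant_ne_zero z
    have hΔ' := ModularForm.discriminant_eq_E₄_cube_sub_E₆_sq z
    have hα : (1 - a / 1728 : ℂ) ≠ 0 := by
      intro h
      apply ha1
      field_simp at h
      linear_combination -h
    have hβ : (a / 1728 : ℂ) ≠ 0 := by
      simpa using ha0
    -- E₄ * (derivative) = β E₆ * bracket * (2πi)
    have key : (a / 1728) * E₆ z * (-1728 * ModularForm.discriminant z) = 0 := by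
      have h0' : (1 - a / 1728) * (3 * E₄ z ^ 2 * D E₄ z) + (a / 1728) * (2 * E₆ z * D E₆ z) = 0 := by
        apply mul_left_cancel₀ hpi
        linear_combination h0
      rw [← hb]
      linear_combination (E₄ z) * h0' + 3 * D E₄ z * hA
    have hE6 : E₆ z = 0 := by
      rcases mul_eq_zero.mp key with h1 | h1
      · rcases mul_eq_zero.mp h1 with h2 | h2
        · exact absurd h2 hβ
        · exact h2
      · exfalso
        apply hΔ
        have : (1728 : ℂ) * ModularForm.discriminant z = 0 := by linear_combination -h1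
        simpa using this
    have hE4 : E₄ z = 0 := by
      rw [hE6] at hA
      have : (1 - a / 1728) * E₄ z ^ 3 = 0 := by linear_combination -hA
      rcases mul_eq_zero.mp this with h1 | h1
      · exact absurd h1 hα
      · exact pow_eq_zero_iff (by norm_num) |>.mp h1
    apply hΔ
    rw [hΔ', hE4, hE6]
    simp



/-! ### surjectivity of `j` -/

theorem h6_slash_eqn' {k : ℤ} (f : CuspForm 𝒮ℒ k) (γ : SL(2, ℤ)) (z : ℍ) :
    f (γ • z) = denom (γ : GL (Fin 2) ℝ) z ^ k * f z := by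
  have hγ : (γ : GL (Fin 2) ℝ) ∈ 𝒮ℒ := ⟨γ, rfl⟩
  exact SlashInvariantForm.slash_action_eqn'' f hγ z

theorem h6_Aform_smul (a : ℂ) (γ : SL(2, ℤ)) (z : ℍ) :
    Aform a (γ • z) = denom (γ : GL (Fin 2) ℝ) z ^ (12 : ℤ) * Aform a z := by
  unfold Aform
  have h4 := h6_slash_eqn E₄ γ z
  have hΔ := h6_slash_eqn' CuspForm.discriminant γ z
  simp only [CuspForm.coe_discriminant] at hΔ
  rw [h4, hΔ]
  have : (denom (γ : GL (Fin 2) ℝ) z ^ (4 : ℤ)) ^ 3 = denom (γ : GL (Fin 2) ℝ) z ^ (12 : ℤ) := by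
    rw [← zpow_natCast, ← zpow_mul]
    norm_num
  rw [mul_pow, this]
  ring

theorem h6_Aform_mdiff (a : ℂ) : MDiff (Aform a) := by
  have h4 : MDiff (⇑E₄) := ModularFormClass.holo E₄
  have hΔ : MDiff (⇑CuspForm.discriminant) := CuspForm.discriminant.holo'
  have e1 : Aform a = (⇑E₄) ^ 3 - (fun _ => a) * (⇑CuspForm.discriminant) := by
    funext z
    simp [Aform]
  rw [e1]
  exact (h4.pow 3).sub (mdifferentiable_const.mul hΔ)

theorem h6_Aform_tendsto (a : ℂ) : Filter.Tendsto (Aform a) atImInfty (𝓝 1) := by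
  have hΔ : Filter.Tendsto ModularForm.discriminant atImInfty (𝓝 0) :=
    ModularForm.discriminant_isZeroAtImInfty
  have := (h6_E4_tendsto.pow 3).sub (hΔ.const_mul a)
  simp only [one_pow, mul_zero, sub_zero] at this
  exact this

theorem h6_quot_slash (a : ℂ) (hne : ∀ z : ℍ, Aform a z ≠ 0) (γ : SL(2, ℤ)) :
    (fun z => ModularForm.discriminant z / Aform a z) ∣[(0:ℤ)] γ
      = fun z => ModularForm.discriminant z / Aform a z := by
  funext z
  rw [ModularForm.SL_slash_apply]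
  have hΔ := h6_slash_eqn' CuspForm.discriminant γ z
  simp only [CuspForm.coe_discriminant] at hΔ
  rw [h6_Aform_smul, hΔ]
  have hd : denom (γ : GL (Fin 2) ℝ) z ≠ 0 := denom_ne_zero _ z
  have hd12 : denom (γ : GL (Fin 2) ℝ) z ^ (12 : ℤ) ≠ 0 := zpow_ne_zero _ hd
  have hA := hne z
  field_simp
  simp

theorem h6_quot_zero (a : ℂ) :
    IsZeroAtImInfty (fun z => ModularForm.discriminant z / Aform a z) := by
  unfold IsZeroAtImInfty Filter.ZeroAtFilter
  have hΔ : Filter.Tendsto ModularForm.discriminant atImInfty (𝓝 0) :=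
    ModularForm.discriminant_isZeroAtImInfty
  have := hΔ.div (h6_Aform_tendsto a) one_ne_zero
  simp only [zero_div] at this
  exact this

theorem exists_zero_Aform (a : ℂ) : ∃ z : ℍ, Aform a z = 0 := by
  by_contra hne
  have hne : ∀ z : ℍ, Aform a z ≠ 0 := fun z hz => hne ⟨z, hz⟩
  -- `g = Δ / A_a` is a cusp form of weight 0
  let g : CuspForm 𝒮ℒ 0 :=
    { toFun := fun z => ModularForm.discriminant z / Aform a z
      slash_action_eq' := by
        intro A hA
        obtain ⟨γ, rfl⟩ := hA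
        exact h6_quot_slash a hne γ
      holo' := by
        have hΔ : MDiff (⇑CuspForm.discriminant) := CuspForm.discriminant.holo'
        exact hΔ.div (h6_Aform_mdiff a) hne
      zero_at_cusps' := by
        intro c hc
        rw [Subgroup.IsArithmetic.isCusp_iff_isCusp_SL2Z] at hc
        rw [OnePoint.isZeroAt_iff_forall_SL2Z hc]
        intro γ _
        rw [h6_quot_slash a hne γ]
        exact h6_quot_zero a }
  have hrank := CuspForm.rank_eq_zero_of_weight_lt_twelve (k := 0) (by norm_num)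
  have hg : g = 0 := rank_zero_iff_forall_zero.mp hrank g
  have hgz : g UpperHalfPlane.I = 0 := by rw [hg]; rfl
  have hgz' : ModularForm.discriminant UpperHalfPlane.I / Aform a UpperHalfPlane.I = 0 := hgz
  rcases div_eq_zero_iff.mp hgz' with h | h
  · exact ModularForm.discriminant_ne_zero _ h
  · exact hne _ h


end RH24
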