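import Mathlib
import Fermat.Agent.S24.BDefs
import Fermat.Agent.S24.B2
import Fermat.Agent.H23.DeltaN

/-!
# T-RH (S24), Layer B, slice BC1 (helper16): the translates `j(d δ⁻¹ z)` at the cusp

* `RH24.jdt_periodic`: `z ↦ j(d δ⁻¹ z)` is `N`-periodic for `d ∣ N`;
* `RH24.jdt_moderateGrowth`: it has moderate growth at `i∞`.
-/

set_option autoImplicit false
set_option linter.style.haveILetI false

noncomputable section

open UpperHalfPlane ModularForm MatrixGroups CongruenceSubgroup Filter Asymptotics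
  Matrix.SpecialLinearGroup
open scoped Manifold Topology Real

namespace RH24

/-- `j` is `SL(2,ℤ)`-invariant -/
theorem h16bc_jf_smul (γ : SL(2, ℤ)) (z : ℍ) : jf (γ • z) = jf z := by
  unfold jf
  have h4 := h6_slash_eqn E₄ γ z
  have h12 := h6_slash_eqn' CuspForm.discriminant γ z
  have hd : denom (γ : GL (Fin 2) ℝ) z ≠ 0 := denom_ne_zero _ z
  have hΔ : ModularForm.discriminant z ≠ 0 := discriminant_ne_zero z
  have h12' : ModularForm.discriminant (γ • z)
      = denom (γ : GL (Fin 2) ℝ) z ^ (12 : ℤ) * ModularForm.discriminant z := h12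
  rw [h4, h12']
  have e1 : (denom (γ : GL (Fin 2) ℝ) z ^ (4 : ℤ) * E₄ z) ^ 3
      = denom (γ : GL (Fin 2) ℝ) z ^ (12 : ℤ) * E₄ z ^ 3 := by
    rw [mul_pow, ← zpow_natCast (denom (γ : GL (Fin 2) ℝ) z ^ (4 : ℤ)) 3, ← zpow_mul]
    norm_num
  rw [e1, mul_div_mul_left _ _ (zpow_ne_zero _ hd)]

/-- `j(d z)` is invariant under `γ` with `d ∣ γ₁₀` -/
theorem h16bc_jd_smul_of_dvd (d : ℕ) (hd : d ≠ 0) (γ : SL(2, ℤ)) (h : (d : ℤ) ∣ γ 1 0) (z : ℍ) :
    jd d (γ • z) = jd d z := by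
  obtain ⟨e, he⟩ := h
  obtain ⟨g', hg'⟩ := H23.h12_diag_mul_of_dvd hd γ e he
  unfold jd
  have h1 : heckeDiagMatrix d • (γ • z) = g' • (heckeDiagMatrix d • z) := by
    show heckeDiagMatrix d • ((mapGL ℝ γ : GL (Fin 2) ℝ) • z)
      = (mapGL ℝ g' : GL (Fin 2) ℝ) • (heckeDiagMatrix d • z)
    rw [← mul_smul, ← mul_smul, hg']
  rw [h1, h16bc_jf_smul]

/-- BC1: the translates are `N`-periodic -/
theorem jdt_periodic (N : ℕ) [NeZero N] (d : Dv N) (δ : SL(2, ℤ)) (z : ℍ) :
    jdt d.1 δ ((N : ℝ) +ᵥ z) = jdt d.1 δ z := by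
  unfold jdt
  have hT : ((N : ℝ) +ᵥ z : ℍ) = ModularGroup.T ^ (N : ℤ) • z := by
    rw [UpperHalfPlane.modular_T_zpow_smul]
    simp
  set γ : SL(2, ℤ) := δ⁻¹ * ModularGroup.T ^ (N : ℤ) * δ with hγ
  have h1 : δ⁻¹ • ((N : ℝ) +ᵥ z : ℍ) = γ • (δ⁻¹ • z) := by
    rw [hT, ← mul_smul, ← mul_smul, hγ]
    congr 1
    group
  have hmem : γ ∈ Gamma N := by
    have hTmem : ModularGroup.T ^ (N : ℤ) ∈ Gamma N := by
      have := ModularGroup_T_pow_mem_Gamma (N : ℤ) (N : ℤ) dvd_rfl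
      simpa using this
    have := (Gamma_normal N).conj_mem _ hTmem δ⁻¹
    rw [inv_inv] at this
    exact this
  have hdvd : (d.1 : ℤ) ∣ γ 1 0 := by
    rw [Gamma_mem] at hmem
    have h10 := hmem.2.2.1
    have hN : (N : ℤ) ∣ γ 1 0 := (ZMod.intCast_zmod_eq_zero_iff_dvd _ _).mp h10
    exact dvd_trans (by exact_mod_cast d.2) hN
  rw [h1, h16bc_jd_smul_of_dvd d.1 (Dv_ne_zero d) γ hdvd]

/-- the imaginary part of `(g z + β) / D` -/
theorem h16bc_im_upper (g D : ℕ) (β : ℤ) (hgD : (g : ℝ) * (D : ℝ) ≠ 0) (z : ℍ) :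
    (upperTriangularGL g β D hgD • z).im = (g : ℝ) / D * z.im := by
  have hg : (g : ℝ) ≠ 0 := left_ne_zero_of_mul hgD
  have hD : (D : ℝ) ≠ 0 := right_ne_zero_of_mul hgD
  have hgpos : (0 : ℝ) < g := lt_of_le_of_ne (Nat.cast_nonneg g) (Ne.symm hg)
  have hDpos : (0 : ℝ) < D := lt_of_le_of_ne (Nat.cast_nonneg D) (Ne.symm hD)
  have hdet : 0 < (upperTriangularGL g β D hgD).det.val := by
    rw [Matrix.GeneralLinearGroup.val_det_apply, val_upperTriangularGL, Matrix.det_fin_two_of]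
    simp only [mul_zero, sub_zero]
    exact mul_pos hgpos hDpos
  have h := congrArg Complex.im (UpperHalfPlane.coe_smul_of_det_pos hdet z)
  rw [UpperHalfPlane.coe_im] at h
  rw [h]
  have e : num (upperTriangularGL g β D hgD) (z : ℂ)
      = ((g : ℝ) : ℂ) * (z : ℂ) + (((β : ℤ) : ℝ) : ℂ) := by
    simp [num, upperTriangularGL]
  have e' : denom (upperTriangularGL g β D hgD) (z : ℂ) = ((D : ℝ) : ℂ) := by
    simp [denom, upperTriangularGL]
  rw [e, e', Complex.div_ofReal_im]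
  simp only [Complex.add_im, Complex.mul_im, Complex.ofReal_re, Complex.ofReal_im, zero_mul,
    add_zero, UpperHalfPlane.coe_im]
  field_simp

/-- `Δ ^ g = O(Δ ∘ U)` at `i∞` for `U = (g β; 0 D)` -/
theorem h16bc_disc_pow_isBigO (g D : ℕ) (β : ℤ) (hgD : (g : ℝ) * (D : ℝ) ≠ 0) :
    (fun z : ℍ => ModularForm.discriminant z ^ g) =O[atImInfty]
      fun z : ℍ => ModularForm.discriminant (upperTriangularGL g β D hgD • z) := by
  have hD : (D : ℝ) ≠ 0 := right_ne_zero_of_mul hgD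
  have hD1 : (1 : ℝ) ≤ D := by
    have : D ≠ 0 := by
      rintro rfl
      exact hD (by simp)
    exact_mod_cast Nat.one_le_iff_ne_zero.mpr this
  have h1 : (fun z : ℍ => ModularForm.discriminant z) =O[atImInfty]
      fun τ : ℍ => Real.exp (-2 * Real.pi * τ.im / 1) :=
    CuspFormClass.exp_decay_atImInfty (h := 1) CuspForm.discriminant one_pos
      (by simp : (1 : ℝ) ∈ (𝒮ℒ : Subgroup (GL (Fin 2) ℝ)).strictPeriods)
  have h2 : (fun z : ℍ => ModularForm.discriminant z ^ g) =O[atImInfty]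
      fun τ : ℍ => Real.exp (-2 * Real.pi * τ.im / 1) ^ g := h1.pow g
  have h3 : (fun τ : ℍ => Real.exp (-2 * Real.pi * τ.im / 1) ^ g) =O[atImInfty]
      fun τ : ℍ => Real.exp (-2 * Real.pi * (upperTriangularGL g β D hgD • τ).im) := by
    refine IsBigO.of_bound 1 (Filter.Eventually.of_forall fun τ => ?_)
    rw [one_mul, Real.norm_of_nonneg (by positivity), Real.norm_of_nonneg (by positivity),
      ← Real.exp_nat_mul]
    apply Real.exp_le_exp.mpr
    rw [h16bc_im_upper]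
    have hpi := Real.pi_pos
    have hτ := τ.im_pos
    have hle : (g : ℝ) / D * τ.im ≤ g * τ.im := by
      apply mul_le_mul_of_nonneg_right _ hτ.le
      exact div_le_self (Nat.cast_nonneg g) hD1
    have : (g : ℝ) * (-2 * Real.pi * τ.im / 1) = -2 * Real.pi * (g * τ.im) := by ring
    rw [this]
    nlinarith
  have hU : (upperTriangularGL g β D hgD : GL (Fin 2) ℝ) 1 0 = 0 := by
    simp [upperTriangularGL]
  have h4 : (fun τ : ℍ => Real.exp (-2 * Real.pi * (upperTriangularGL g β D hgD • τ).im))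
      =O[atImInfty] fun τ : ℍ => ModularForm.discriminant (upperTriangularGL g β D hgD • τ) :=
    exp_isBigO_discriminant.comp_tendsto (tendsto_smul_atImInfty hU)
  exact (h2.trans h3).trans h4

/-- moderate growth of `j ∘ U` -/
theorem h16bc_moderate_upper (g D : ℕ) (β : ℤ) (hgD : (g : ℝ) * (D : ℝ) ≠ 0) :
    IsBoundedAtImInfty
      (fun z : ℍ => jf (upperTriangularGL g β D hgD • z) * ModularForm.discriminant z ^ g) := by
  have hU : (upperTriangularGL g β D hgD : GL (Fin 2) ℝ) 1 0 = 0 := by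
    simp [upperTriangularGL]
  have hE : IsBoundedAtImInfty (E₄ : ℍ → ℂ) := ModularFormClass.bdd_at_infty E₄
  have hEb : IsBoundedAtImInfty (fun z : ℍ => E₄ (upperTriangularGL g β D hgD • z)) :=
    hE.comp_tendsto (tendsto_smul_atImInfty hU)
  have hq : IsBoundedAtImInfty (fun z : ℍ => ModularForm.discriminant z ^ g
      / ModularForm.discriminant (upperTriangularGL g β D hgD • z)) :=
    (div_isBoundedUnder_of_isBigO (h16bc_disc_pow_isBigO g D β hgD)).isBigO_one ℝ
  have h3 : IsBoundedAtImInfty ((fun z : ℍ => E₄ (upperTriangularGL g β D hgD • z)) ^ 3) := by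
    rw [pow_succ, pow_succ, pow_one]
    exact (hEb.mul hEb).mul hEb
  have hfun : (fun z : ℍ => jf (upperTriangularGL g β D hgD • z) * ModularForm.discriminant z ^ g)
      = (fun z : ℍ => E₄ (upperTriangularGL g β D hgD • z)) ^ 3 *
        fun z : ℍ => ModularForm.discriminant z ^ g
          / ModularForm.discriminant (upperTriangularGL g β D hgD • z) := by
    funext z
    simp only [Pi.mul_apply, Pi.pow_apply, jf]
    ring
  rw [hfun]
  exact h3.mul hq

/-- BC1: the translates have moderate growth -/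
theorem jdt_moderateGrowth (N : ℕ) [NeZero N] (d : Dv N) (δ : SL(2, ℤ)) :
    ModerateGrowth (jdt d.1 δ) := by
  obtain ⟨δ', g, D, β, hgD, -, -, hmat⟩ := H23.h12_hermite (Dv_ne_zero d) δ⁻¹
  refine ⟨g, ?_⟩
  have hpt : ∀ z : ℍ, jdt d.1 δ z = jf (upperTriangularGL g β D hgD • z) := by
    intro z
    have h1 : heckeDiagMatrix d.1 • (δ⁻¹ • z) = δ' • (upperTriangularGL g β D hgD • z) := by
      show heckeDiagMatrix d.1 • ((mapGL ℝ δ⁻¹ : GL (Fin 2) ℝ) • z)
        = (mapGL ℝ δ' : GL (Fin 2) ℝ) • (upperTriangularGL g β D hgD • z)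
      rw [← mul_smul, ← mul_smul, hmat]
    show jf (heckeDiagMatrix d.1 • (δ⁻¹ • z)) = _
    rw [h1, h16bc_jf_smul]
  have hfun : (fun z : ℍ => jdt d.1 δ z * ModularForm.discriminant z ^ g)
      = fun z : ℍ => jf (upperTriangularGL g β D hgD • z) * ModularForm.discriminant z ^ g := by
    funext z
    rw [hpt z]
  rw [hfun]
  exact h16bc_moderate_upper g D β hgD

end RH24

end
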