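import Fermat.Agent.S24.BDefs
import Fermat.Agent.H23.RevPrelim

/-!
# T-RH (S24), Layer B, slice BC2 (helper23): the order at the cusp `i∞`

`ordInf N f` is the order at `0` of `q ↦ f (invQParam N q)`.  For `N`-periodic holomorphic
functions of moderate growth this is a discrete valuation.
-/

set_option autoImplicit false

noncomputable section

open UpperHalfPlane ModularForm MatrixGroups CongruenceSubgroup Filter Topology Function
open scoped Manifold

namespace RH24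

local notation "Δ" => ModularForm.discriminant
local notation "𝕢" => Function.Periodic.qParam

/-- the function of `q_N` whose order at `0` is `ordInf N f` -/
def h23c_G (N : ℕ) (f : ℍ → ℂ) : ℂ → ℂ :=
  fun q => f (ofComplex (Function.Periodic.invQParam (N : ℝ) q))

theorem h23c_ordInf_eq (N : ℕ) (f : ℍ → ℂ) :
    ordInf N f = meromorphicOrderAt (h23c_G N f) 0 := rfl

theorem h23c_G_eq_cusp (N : ℕ) (f : ℍ → ℂ) {q : ℂ} (hq : q ≠ 0) :
    h23c_G N f q = UpperHalfPlane.cuspFunction (N : ℝ) f q := by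
  rw [UpperHalfPlane.cuspFunction, Function.Periodic.cuspFunction_eq_of_nonzero _ _ hq]
  rfl

theorem h23c_G_eventuallyEq (N : ℕ) (f : ℍ → ℂ) :
    h23c_G N f =ᶠ[𝓝[≠] 0] UpperHalfPlane.cuspFunction (N : ℝ) f :=
  eventually_nhdsWithin_of_forall fun _ hq => h23c_G_eq_cusp N f hq

theorem h23c_pos (N : ℕ) [NeZero N] : (0 : ℝ) < (N : ℝ) :=
  Nat.cast_pos.mpr (NeZero.pos N)

theorem h23c_periodic {N : ℕ} {f : ℍ → ℂ} (hp : ∀ z : ℍ, f ((N : ℝ) +ᵥ z) = f z) :
    Function.Periodic (f ∘ ofComplex) ((N : ℝ) : ℂ) := by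
  intro w
  by_cases hw : 0 < Complex.im w
  · have h2 : 0 < Complex.im (w + ((N : ℝ) : ℂ)) := by simpa using hw
    simp only [comp_apply, ofComplex_apply_of_im_pos h2, ofComplex_apply_of_im_pos hw]
    rw [← hp ⟨w, hw⟩]
    congr 1
    ext
    simp [add_comm]
  · rw [not_lt] at hw
    have h2 : Complex.im (w + ((N : ℝ) : ℂ)) ≤ 0 := by simpa using hw
    simp only [comp_apply]
    rw [ofComplex_apply_eq_of_im_nonpos h2 hw]

/-- the value of `G` at `q_N(z)` is `f z` -/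
theorem h23c_G_qParam (N : ℕ) [NeZero N] {f : ℍ → ℂ} (hp : ∀ z : ℍ, f ((N : ℝ) +ᵥ z) = f z)
    (z : ℍ) : h23c_G N f (𝕢 (N : ℝ) z) = f z := by
  rw [h23c_G_eq_cusp N f (Function.Periodic.qParam_ne_zero _),
    UpperHalfPlane.eq_cuspFunction z (h23c_pos N).ne' (h23c_periodic hp)]

theorem h23c_tendsto_qParam (N : ℕ) [NeZero N] :
    Tendsto (fun z : ℍ => 𝕢 (N : ℝ) z) atImInfty (𝓝[≠] 0) :=
  (Function.Periodic.qParam_tendsto (h23c_pos N)).comp tendsto_coe_atImInfty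

theorem h23c_analyticAt (N : ℕ) [NeZero N] {f : ℍ → ℂ} (hf : MDiff f)
    (hp : ∀ z : ℍ, f ((N : ℝ) +ᵥ z) = f z) (hb : IsBoundedAtImInfty f) :
    AnalyticAt ℂ (UpperHalfPlane.cuspFunction (N : ℝ) f) 0 :=
  UpperHalfPlane.analyticAt_cuspFunction_zero (h23c_pos N) (h23c_periodic hp) hf hb

theorem h23c_meromorphicAt_of_bdd (N : ℕ) [NeZero N] {f : ℍ → ℂ} (hf : MDiff f)
    (hp : ∀ z : ℍ, f ((N : ℝ) +ᵥ z) = f z) (hb : IsBoundedAtImInfty f) :
    MeromorphicAt (h23c_G N f) 0 :=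
  (h23c_analyticAt N hf hp hb).meromorphicAt.congr (h23c_G_eventuallyEq N f).symm

/-- `Δ` is `N`-periodic. -/
theorem h23c_disc_vadd (N : ℕ) (z : ℍ) : Δ ((N : ℝ) +ᵥ z) = Δ z := by
  have h := SlashInvariantForm.vAdd_apply_of_mem_strictPeriods
    (CuspForm.discriminant : CuspForm 𝒮ℒ 12) z
    (by
      simp
      exact AddSubgroup.mem_zmultiples_iff.mpr ⟨N, by simp⟩ :
      (N : ℝ) ∈ (𝒮ℒ : Subgroup (GL (Fin 2) ℝ)).strictPeriods)
  exact h

theorem h23c_bdd_disc_pow (M : ℕ) : IsBoundedAtImInfty (fun z : ℍ => Δ z ^ M) := by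
  induction M with
  | zero =>
    simp only [pow_zero]
    exact Filter.const_boundedAtFilter atImInfty (1 : ℂ)
  | succ M ih =>
    have : (fun z : ℍ => Δ z ^ (M + 1)) = (fun z : ℍ => Δ z ^ M) * (Δ : ℍ → ℂ) := by
      funext z; simp [pow_succ]
    rw [this]
    exact ih.mul H23.bdd_disc

theorem h23c_meromorphicAt (N : ℕ) [NeZero N] {f : ℍ → ℂ} (hf : MDiff f)
    (hp : ∀ z : ℍ, f ((N : ℝ) +ᵥ z) = f z) (hg : ModerateGrowth f) :
    MeromorphicAt (h23c_G N f) 0 := by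
  obtain ⟨M, hM⟩ := hg
  have h1 : MeromorphicAt (h23c_G N (fun z => f z * Δ z ^ M)) 0 :=
    h23c_meromorphicAt_of_bdd N (hf.mul (H23.mdiff_disc.pow M))
      (fun z => by simp only [hp z, h23c_disc_vadd N z]) hM
  have h2 : MeromorphicAt (h23c_G N (fun z => Δ z ^ M)) 0 :=
    h23c_meromorphicAt_of_bdd N (H23.mdiff_disc.pow M)
      (fun z => by simp only [h23c_disc_vadd N z]) (h23c_bdd_disc_pow M)
  have h3 : h23c_G N f =
      h23c_G N (fun z => f z * Δ z ^ M) * (h23c_G N (fun z => Δ z ^ M))⁻¹ := by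
    funext q
    simp only [h23c_G, Pi.mul_apply, Pi.inv_apply]
    have := pow_ne_zero M (discriminant_ne_zero
      (ofComplex (Function.Periodic.invQParam (N : ℝ) q)))
    field_simp
  rw [h3]
  exact h1.mul h2.inv

/-- identity principle at the cusp -/
theorem h23c_eq_zero_of_eventually {f : ℍ → ℂ} (hf : MDiff f)
    (h : ∀ᶠ z in atImInfty, f z = 0) : ∀ z, f z = 0 := by
  obtain ⟨A, hA⟩ := (atImInfty_mem _).mp h
  have hΩo : IsOpen {z : ℂ | 0 < z.im} := isOpen_upperHalfPlaneSet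
  have hf' : DifferentiableOn ℂ (f ∘ ofComplex) {z : ℂ | 0 < z.im} := mdifferentiable_iff.mp hf
  have hfa : AnalyticOnNhd ℂ (f ∘ ofComplex) {z : ℂ | 0 < z.im} := hf'.analyticOnNhd hΩo
  set B : ℝ := max A 0 + 1 with hB
  have hBpos : 0 < B := by positivity
  have hBA : A < B := by
    have := le_max_left A 0
    linarith
  set z₁ : ℂ := ⟨0, B⟩ with hz₁
  have hz₁Ω : z₁ ∈ {z : ℂ | 0 < z.im} := hBpos
  have hopen : IsOpen {w : ℂ | max A 0 < w.im} :=
    isOpen_lt continuous_const Complex.continuous_im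
  have hz₁mem : z₁ ∈ {w : ℂ | max A 0 < w.im} := by
    show max A 0 < B
    linarith
  have hev : ∀ᶠ w in 𝓝 z₁, (f ∘ ofComplex) w = 0 := by
    filter_upwards [hopen.mem_nhds hz₁mem] with w hw
    have hw0 : 0 < w.im := lt_of_le_of_lt (le_max_right A 0) hw
    have hwA : A ≤ w.im := le_of_lt (lt_of_le_of_lt (le_max_left A 0) hw)
    simp only [comp_apply, ofComplex_apply_of_im_pos hw0]
    exact hA ⟨w, hw0⟩ hwA
  have hzero := hfa.eqOn_zero_of_preconnected_of_eventuallyEq_zero H23.isPreconnected_uhpSet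
    hz₁Ω hev
  intro z
  have := hzero z.im_pos
  simpa [Function.comp_apply, ofComplex_apply] using this

/-- BC2 -/
theorem ordInf_ne_top (N : ℕ) [NeZero N] (f : ℍ → ℂ) (hf : MDiff f)
    (hp : ∀ z : ℍ, f ((N : ℝ) +ᵥ z) = f z) (hg : ModerateGrowth f) (h : ∃ z, f z ≠ 0) :
    ordInf N f ≠ ⊤ := by
  intro htop
  rw [h23c_ordInf_eq, meromorphicOrderAt_eq_top_iff] at htop
  have h1 : ∀ᶠ z : ℍ in atImInfty, f z = 0 := by
    have := (h23c_tendsto_qParam N).eventually htop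
    filter_upwards [this] with z hz
    rwa [h23c_G_qParam N hp z] at hz
  obtain ⟨z, hz⟩ := h
  exact hz (h23c_eq_zero_of_eventually hf h1 z)

theorem ordInf_mul (N : ℕ) [NeZero N] (f g : ℍ → ℂ) (hf : MDiff f) (hg : MDiff g)
    (hfp : ∀ z : ℍ, f ((N : ℝ) +ᵥ z) = f z) (hgp : ∀ z : ℍ, g ((N : ℝ) +ᵥ z) = g z)
    (hfg : ModerateGrowth f) (hgg : ModerateGrowth g) :
    ordInf N (fun z => f z * g z) = ordInf N f + ordInf N g := by
  rw [h23c_ordInf_eq, h23c_ordInf_eq, h23c_ordInf_eq]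
  exact meromorphicOrderAt_mul (h23c_meromorphicAt N hf hfp hfg) (h23c_meromorphicAt N hg hgp hgg)

theorem ordInf_add (N : ℕ) [NeZero N] (f g : ℍ → ℂ) (hf : MDiff f) (hg : MDiff g)
    (hfp : ∀ z : ℍ, f ((N : ℝ) +ᵥ z) = f z) (hgp : ∀ z : ℍ, g ((N : ℝ) +ᵥ z) = g z)
    (hfg : ModerateGrowth f) (hgg : ModerateGrowth g) :
    min (ordInf N f) (ordInf N g) ≤ ordInf N (fun z => f z + g z) := by
  rw [h23c_ordInf_eq, h23c_ordInf_eq, h23c_ordInf_eq]
  exact meromorphicOrderAt_add (h23c_meromorphicAt N hf hfp hfg)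
    (h23c_meromorphicAt N hg hgp hgg)

theorem ordInf_const (N : ℕ) [NeZero N] (c : ℂ) (hc : c ≠ 0) : ordInf N (fun _ => c) = 0 := by
  classical
  rw [h23c_ordInf_eq]
  show meromorphicOrderAt (fun _ : ℂ => c) 0 = 0
  rw [meromorphicOrderAt_const, if_neg hc]

end RH24

end
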