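import Fermat.Agent.S24.BC2

/-!
# T-RH (S24), Layer B, slice BC2 (helper23): the order of `j` at the cusp is `-N`
-/

set_option autoImplicit false

noncomputable section

open UpperHalfPlane ModularForm MatrixGroups CongruenceSubgroup Filter Topology Function
open scoped Manifold

namespace RH24

local notation "Δ" => ModularForm.discriminant
local notation "𝕢" => Function.Periodic.qParam

/-- order from a factorisation `f = q_N ^ m · u` with `u → c ≠ 0` at `i∞`. -/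
theorem h23c_ordInf_eq_of_factor (N : ℕ) [NeZero N] (f u : ℍ → ℂ) (m : ℤ) (c : ℂ) (hc : c ≠ 0)
    (hu : MDiff u) (hup : ∀ z : ℍ, u ((N : ℝ) +ᵥ z) = u z)
    (hlim : Tendsto u atImInfty (𝓝 c))
    (hfac : ∀ z : ℍ, f z = (𝕢 (N : ℝ) z) ^ m * u z) :
    ordInf N f = m := by
  have hN := h23c_pos N
  have hub : IsBoundedAtImInfty u := hlim.isBigO_one ℝ
  have hU : AnalyticAt ℂ (UpperHalfPlane.cuspFunction (N : ℝ) u) 0 := h23c_analyticAt N hu hup hub
  have hU0 : UpperHalfPlane.cuspFunction (N : ℝ) u 0 = c := by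
    rw [UpperHalfPlane.cuspFunction_apply_zero hN hU (h23c_periodic hup)]
    exact hlim.limUnder_eq
  have hev : ∀ᶠ q in 𝓝[≠] (0 : ℂ),
      h23c_G N f q = (q - 0) ^ m • UpperHalfPlane.cuspFunction (N : ℝ) u q := by
    rw [eventually_nhdsWithin_iff]
    filter_upwards [Metric.ball_mem_nhds (0 : ℂ) one_pos] with q hq hq0
    have hq1 : ‖q‖ < 1 := by simpa using hq
    have hq0' : q ≠ 0 := hq0
    have him := Function.Periodic.im_invQParam_pos_of_norm_lt_one hN hq1 hq0'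
    rw [← h23c_G_eq_cusp N u hq0']
    simp only [h23c_G, sub_zero, smul_eq_mul]
    rw [hfac, ofComplex_apply_of_im_pos him]
    congr 2
    exact Function.Periodic.qParam_right_inv hN.ne' hq0'
  have hmer : MeromorphicAt (h23c_G N f) 0 := by
    have h1 : MeromorphicAt (fun q : ℂ => (q - 0) ^ m • UpperHalfPlane.cuspFunction (N : ℝ) u q) 0 :=
      (((MeromorphicAt.id (0 : ℂ)).sub (MeromorphicAt.const 0 0)).zpow m).smul hU.meromorphicAt
    exact h1.congr (hev.mono fun q hq => hq.symm)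
  rw [h23c_ordInf_eq, meromorphicOrderAt_eq_int_iff hmer]
  exact ⟨UpperHalfPlane.cuspFunction (N : ℝ) u, hU, by rw [hU0]; exact hc, hev⟩

/-- `E₄ → 1` at `i∞`. -/
theorem h23c_tendsto_E4 : Tendsto (fun z : ℍ => E₄ z) atImInfty (𝓝 1) := by
  have hper : (1 : ℝ) ∈ (𝒮ℒ : Subgroup (GL (Fin 2) ℝ)).strictPeriods := by simp
  have han : AnalyticAt ℂ (UpperHalfPlane.cuspFunction 1 (E₄ : ℍ → ℂ)) 0 :=
    ModularFormClass.analyticAt_cuspFunction_zero E₄ one_pos hper
  have hperiodic := SlashInvariantFormClass.periodic_comp_ofComplex E₄ hper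
  have h0 : UpperHalfPlane.cuspFunction 1 (E₄ : ℍ → ℂ) 0 = 1 := by
    have h1 := EisensteinSeries.E_qExpansion_coeff_zero (k := 4) (by norm_num) ⟨2, rfl⟩
    rw [UpperHalfPlane.qExpansion_coeff] at h1
    simpa using h1
  have h2 : Tendsto (fun z : ℍ => UpperHalfPlane.cuspFunction 1 (E₄ : ℍ → ℂ) (𝕢 1 z))
      atImInfty (𝓝 (UpperHalfPlane.cuspFunction 1 (E₄ : ℍ → ℂ) 0)) :=
    han.continuousAt.tendsto.comp (UpperHalfPlane.qParam_tendsto_atImInfty one_pos)
  rw [h0] at h2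
  refine h2.congr fun z => ?_
  exact UpperHalfPlane.eq_cuspFunction z one_ne_zero hperiodic

/-- the `N`-th power of `q_N` is `q`. -/
theorem h23c_qParam_pow (N : ℕ) [NeZero N] (z : ℂ) : (𝕢 (N : ℝ) z) ^ N = 𝕢 1 z := by
  have hN : (N : ℂ) ≠ 0 := Nat.cast_ne_zero.mpr (NeZero.ne N)
  simp only [Function.Periodic.qParam, ← Complex.exp_nat_mul]
  congr 1
  push_cast
  field_simp

theorem h23c_mdiff_qParam : MDiff (fun z : ℍ => 𝕢 1 (z : ℂ)) := by
  rw [mdifferentiable_iff]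
  have : DifferentiableOn ℂ (𝕢 1) {z : ℂ | 0 < z.im} :=
    (Function.Periodic.differentiable_qParam (h := 1)).differentiableOn
  refine this.congr fun w hw => ?_
  simp only [comp_apply, ofComplex_apply_of_im_pos hw]

theorem h23c_E4_vadd (N : ℕ) (z : ℍ) : E₄ ((N : ℝ) +ᵥ z) = E₄ z := by
  have h := SlashInvariantForm.vAdd_apply_of_mem_strictPeriods
    (E₄ : ModularForm 𝒮ℒ 4) z
    (by
      simp
      exact AddSubgroup.mem_zmultiples_iff.mpr ⟨N, by simp⟩ :
      (N : ℝ) ∈ (𝒮ℒ : Subgroup (GL (Fin 2) ℝ)).strictPeriods)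
  exact h

theorem h23c_jf_vadd (N : ℕ) (z : ℍ) : jf ((N : ℝ) +ᵥ z) = jf z := by
  unfold jf
  rw [h23c_E4_vadd, h23c_disc_vadd]

theorem h23c_qParam_vadd (N : ℕ) (z : ℍ) : 𝕢 1 (((N : ℝ) +ᵥ z : ℍ) : ℂ) = 𝕢 1 (z : ℂ) := by
  rw [UpperHalfPlane.coe_vadd]
  simp only [Function.Periodic.qParam]
  have : 2 * ↑Real.pi * Complex.I * (((N : ℝ) : ℂ) + (z : ℂ)) / ((1 : ℝ) : ℂ) =
      2 * ↑Real.pi * Complex.I * (z : ℂ) / ((1 : ℝ) : ℂ) + (N : ℕ) * (2 * ↑Real.pi * Complex.I) := by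
    push_cast
    ring
  rw [this, Complex.exp_add, Complex.exp_nat_mul, Complex.exp_two_pi_mul_I, one_pow, mul_one]

theorem h23c_mdiff_jf : MDiff jf :=
  (H23.mdiff_E4.pow 3).div H23.mdiff_disc fun z => discriminant_ne_zero z

/-- BC2: the order of `j` at the cusp (in the parameter `q_N`) is `-N`. -/
theorem ordInf_jf (N : ℕ) [NeZero N] : ordInf N jf = -(N : ℤ) := by
  have hprod := tendsto_atImInfty_tprod_one_sub_eta_q_pow
  refine h23c_ordInf_eq_of_factor N jf (fun z => jf z * 𝕢 1 (z : ℂ)) (-(N : ℤ)) 1 one_ne_zero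
    (h23c_mdiff_jf.mul h23c_mdiff_qParam) (fun z => by rw [h23c_jf_vadd, h23c_qParam_vadd]) ?_ ?_
  · -- the limit
    have h1 : Tendsto (fun z : ℍ => E₄ z ^ 3 / ∏' n, (1 - eta_q n z) ^ 24) atImInfty (𝓝 1) := by
      have := (h23c_tendsto_E4.pow 3).div hprod one_ne_zero
      rw [one_pow, div_one] at this
      exact this
    refine h1.congr fun z => ?_
    have hq : 𝕢 1 (z : ℂ) ≠ 0 := Function.Periodic.qParam_ne_zero _
    have hΔ := discriminant_ne_zero z
    have hΔeq := discriminant_eq_q_prod z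
    have hP : (∏' n, (1 - eta_q n z) ^ 24) ≠ 0 := by
      intro h0
      rw [h0, mul_zero] at hΔeq
      exact hΔ hΔeq
    unfold jf
    rw [hΔeq]
    field_simp
  · intro z
    have hq : 𝕢 (N : ℝ) (z : ℂ) ≠ 0 := Function.Periodic.qParam_ne_zero _
    rw [← h23c_qParam_pow N (z : ℂ), zpow_neg, zpow_natCast]
    field_simp

end RH24

end
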