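import Mathlib
import Fermat.Agent.S24.BDefs

set_option autoImplicit false
set_option linter.style.haveILetI false

noncomputable section

open UpperHalfPlane ModularForm MatrixGroups CongruenceSubgroup Filter Topology
open scoped Manifold WithZero

namespace RH24

section BH

theorem h5b_analyticOnNhd (f : ℍ → ℂ) (hf : MDiff f) :
    AnalyticOnNhd ℂ (fun w : ℂ => f (ofComplex w)) {z : ℂ | 0 < z.im} :=
  (UpperHalfPlane.mdifferentiable_iff.mp hf).analyticOnNhd isOpen_upperHalfPlaneSet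

theorem h5b_analyticAt (f : ℍ → ℂ) (hf : MDiff f) (z₀ : ℍ) :
    AnalyticAt ℂ (fun w : ℂ => f (ofComplex w)) (z₀ : ℂ) :=
  h5b_analyticOnNhd f hf z₀ z₀.im_pos

theorem h5b_isPreconnected : IsPreconnected {z : ℂ | 0 < z.im} :=
  Convex.isPreconnected (convex_halfSpace_im_gt 0)

/-- identity theorem: a holomorphic function on `ℍ` vanishing near a point vanishes. -/
theorem h5b_eq_zero_of_eventually (f : ℍ → ℂ) (hf : MDiff f) (z₀ : ℍ)
    (h : ∀ᶠ w in 𝓝 (z₀ : ℂ), f (ofComplex w) = 0) : ∀ z, f z = 0 := by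
  have hzero := (h5b_analyticOnNhd f hf).eqOn_zero_of_preconnected_of_eventuallyEq_zero
    h5b_isPreconnected z₀.im_pos h
  intro z
  have := hzero z.im_pos
  simpa [ofComplex_apply] using this

/-- BH1 -/
theorem Hol_noZeroDivisors (f g : ℍ → ℂ) (hf : MDiff f) (hg : MDiff g) (h : ∀ z, f z * g z = 0) :
    (∀ z, f z = 0) ∨ (∀ z, g z = 0) := by
  by_cases hg0 : ∀ z, g z = 0
  · exact Or.inr hg0
  left
  push Not at hg0
  obtain ⟨z₁, hz₁⟩ := hg0
  apply h5b_eq_zero_of_eventually f hf z₁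
  have hgc : ContinuousAt (fun w : ℂ => g (ofComplex w)) (z₁ : ℂ) :=
    (h5b_analyticAt g hg z₁).continuousAt
  have hgz : (fun w : ℂ => g (ofComplex w)) (z₁ : ℂ) ≠ 0 := by
    simpa [ofComplex_apply] using hz₁
  filter_upwards [hgc.eventually_ne hgz] with w hw
  rcases mul_eq_zero.mp (h (ofComplex w)) with h0 | h0
  · exact h0
  · exact absurd h0 hw

end BH

end RH24
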