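import Mathlib
import Fermat.Agent.S24.BDefs

/-!
# T-RH (S24) Layer B, slice BH3 (helper11): orders and the action of `SL(2,ℤ)`
-/

set_option autoImplicit false
set_option linter.style.longLine false
set_option linter.unusedVariables false

noncomputable section

open UpperHalfPlane ModularForm MatrixGroups CongruenceSubgroup
open scoped Manifold

namespace RH24

/-- the image of `g : SL(2,ℤ)` in `GL(2,ℝ)` -/
def h11b_gl (g : SL(2, ℤ)) : GL (Fin 2) ℝ := Matrix.SpecialLinearGroup.mapGL ℝ g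

theorem h11b_smul_eq (g : SL(2, ℤ)) (z : ℍ) : g • z = h11b_gl g • z := rfl

theorem h11b_det_pos' (g : SL(2, ℤ)) : 0 < (h11b_gl g).det.val := by
  unfold h11b_gl
  rw [Matrix.SpecialLinearGroup.det_mapGL]
  simp

theorem h11b_det_pos (g : SL(2, ℤ)) : 0 < (h11b_gl g).val.det := h11b_det_pos' g

/-- BH3 -/
theorem mdiff_comp_smul (g : SL(2, ℤ)) (f : ℍ → ℂ) (hf : MDiff f) : MDiff (fun z => f (g • z)) :=
  hf.comp (UpperHalfPlane.mdifferentiable_smul (h11b_det_pos' g))

/-- BH3 -/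
theorem ordAt_comp_smul (g : SL(2, ℤ)) (z₀ : ℍ) (f : ℍ → ℂ) (hf : MDiff f) :
    ordAt z₀ (fun z => f (g • z)) = ordAt (g • z₀) f := by
  unfold ordAt
  let G : ℂ → ℂ := fun z => ↑(h11b_gl g • ofComplex z)
  let F : ℂ → ℂ := fun z => f (ofComplex z)
  have h1 : (fun w : ℂ => f (g • ofComplex w)) = F ∘ G := by
    ext w
    change f (g • ofComplex w) = f (ofComplex ((h11b_gl g • ofComplex w : ℍ) : ℂ))
    rw [ofComplex_apply, h11b_smul_eq]
  rw [h1, analyticOrderAt_comp_of_deriv_ne_zero (z₀.analyticAt_smul (h11b_det_pos g))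
    (z₀.deriv_smul_ne_zero (h11b_det_pos g))]
  change analyticOrderAt F ((h11b_gl g • ofComplex (z₀ : ℂ) : ℍ) : ℂ) = _
  rw [ofComplex_apply, ← h11b_smul_eq]

end RH24

end
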