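/-
T-RH (S24), Layer B, slices BJ1 + BJ2 (helper15): the functions `j(d z)`.
* `RH24.mdiff_jf`, `RH24.jf_smul`, `RH24.mdiff_jd`, `RH24.jd_smul_of_mem_Gamma0`  (BJ1)
* `RH24.mem_Gamma0_of_jd_invariant` : the stabiliser of `j(N z)` in `SL(2,ℤ)` is `Γ₀(N)`  (BJ2)
Statements are those of NOTES/S24_layerB.md.
-/
import Mathlib
import Fermat.Agent.S24.BDefs
import Fermat.Agent.S24.B2
import Fermat.Agent.H23.DeltaN
import Fermat.Agent.H23.RevPrelim

set_option autoImplicit false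

noncomputable section

open UpperHalfPlane ModularForm MatrixGroups CongruenceSubgroup Filter Matrix.SpecialLinearGroup
open scoped Manifold Topology Real

namespace RH24

/-! ## BJ1 -/

theorem mdiff_jf : MDiff jf := by
  have h1 : MDiff (fun z : ℍ => E₄ z ^ 3) := (ModularFormClass.holo E₄).pow 3
  have h2 : MDiff (fun z : ℍ => ModularForm.discriminant z) :=
    CuspFormClass.holo CuspForm.discriminant
  intro z
  exact (h1 z).div (h2 z) (ModularForm.discriminant_ne_zero z)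

theorem jf_smul (γ : SL(2, ℤ)) (z : ℍ) : jf (γ • z) = jf z := by
  unfold jf
  rw [H23.E4_smul, H23.disc_smul]
  have hd : denom γ z ≠ 0 := denom_ne_zero γ z
  have hΔ := discriminant_ne_zero z
  field_simp

theorem mdiff_jd (d : ℕ) [NeZero d] : MDiff (jd d) :=
  mdiff_jf.comp (mdifferentiable_smul (det_heckeDiagMatrix_pos d))

/-- `jf` is invariant under `mapGL ℝ γ`. -/
theorem h15b_jf_mapGL_smul (γ : SL(2, ℤ)) (z : ℍ) : jf ((mapGL ℝ γ : GL (Fin 2) ℝ) • z) = jf z :=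
  jf_smul γ z

theorem jd_smul_of_mem_Gamma0 (N : ℕ) [NeZero N] (d : Dv N) (γ : SL(2, ℤ)) (hγ : γ ∈ Gamma0 N)
    (z : ℍ) : jd d.1 (γ • z) = jd d.1 z := by
  have hd0 : d.1 ≠ 0 := Dv_ne_zero d
  have hc : ((d.1 : ℕ) : ℤ) ∣ γ 1 0 := by
    have h1 : (N : ℤ) ∣ γ 1 0 := by
      have := Gamma0_mem.mp hγ
      exact (ZMod.intCast_zmod_eq_zero_iff_dvd _ _).mp this
    exact (Int.natCast_dvd_natCast.mpr d.2).trans h1
  obtain ⟨e, he⟩ := hc
  obtain ⟨γ', hγ'⟩ := H23.h12_diag_mul_of_dvd hd0 γ e he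
  unfold jd
  show jf (heckeDiagMatrix d.1 • ((mapGL ℝ γ : GL (Fin 2) ℝ) • z)) = _
  rw [← mul_smul, hγ', mul_smul]
  exact h15b_jf_mapGL_smul _ _

/-! ## BJ2 -/

/-- If `j` is invariant under the real translation by `x`, then `x` is an integer. -/
theorem h15b_int_of_jf_T (x : ℝ) (h : ∀ w : ℍ, jf (H23.h12_T x • w) = jf w) : ∃ n : ℤ, x = n := by
  have h2 := H23.h12_tendsto_discriminant_T_div x
  have hT : Tendsto (fun w : ℍ => H23.h12_T x • w) atImInfty atImInfty :=
    tendsto_smul_atImInfty (by simp [H23.h12_T_val])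
  have hE := h6_E4_tendsto
  have hE' : Tendsto (fun w : ℍ => E₄ (H23.h12_T x • w)) atImInfty (𝓝 1) := hE.comp hT
  have h3 : Tendsto (fun w : ℍ => E₄ (H23.h12_T x • w) ^ 3 / E₄ w ^ 3) atImInfty (𝓝 1) := by
    have := (hE'.pow 3).div (hE.pow 3) (by norm_num)
    rw [one_pow, div_one] at this
    exact this
  have hev : (fun w : ℍ => ModularForm.discriminant (H23.h12_T x • w) / ModularForm.discriminant w)
      =ᶠ[atImInfty] (fun w : ℍ => E₄ (H23.h12_T x • w) ^ 3 / E₄ w ^ 3) := by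
    have hne : ∀ᶠ w in atImInfty, E₄ w ≠ 0 := hE.eventually_ne one_ne_zero
    filter_upwards [hne] with w hw
    have h1 := h w
    unfold jf at h1
    have hΔ := discriminant_ne_zero w
    have hΔ' := discriminant_ne_zero (H23.h12_T x • w)
    have hw3 : E₄ w ^ 3 ≠ 0 := pow_ne_zero 3 hw
    rw [div_eq_div_iff hΔ' hΔ] at h1
    rw [div_eq_div_iff hΔ hw3]
    linear_combination -h1
  have h4 : Complex.exp (2 * π * Complex.I * x) = 1 :=
    tendsto_nhds_unique h2 (h3.congr' hev.symm)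
  rw [Complex.exp_eq_one_iff] at h4
  obtain ⟨n, hn⟩ := h4
  refine ⟨n, ?_⟩
  have hpi : (2 * π * Complex.I : ℂ) ≠ 0 := by
    simp [Real.pi_ne_zero]
  have : (x : ℂ) = n := by
    apply mul_left_cancel₀ hpi
    rw [hn]; ring
  exact_mod_cast this

/-- **BJ2** (distinctness): the stabiliser of `j(N z)` in `SL(2,ℤ)` is contained in `Γ₀(N)`. -/
theorem mem_Gamma0_of_jd_invariant (N : ℕ) [NeZero N] (γ : SL(2, ℤ))
    (h : ∀ z : ℍ, jd N (γ • z) = jd N z) : γ ∈ Gamma0 N := by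
  have hN := NeZero.ne N
  obtain ⟨δ, g, D, β, hgD, hgDN, hgc, hmat⟩ := H23.h12_hermite hN γ
  have hNR : (N : ℝ) ≠ 0 := by exact_mod_cast hN
  have hg0 : (g : ℝ) ≠ 0 := left_ne_zero_of_mul hgD
  have hD0 : (D : ℝ) ≠ 0 := right_ne_zero_of_mul hgD
  have hgDN' : (g : ℝ) * D = N := by exact_mod_cast hgDN
  -- (i) the hypothesis in terms of `j`
  have hi : ∀ z : ℍ, jf (upperTriangularGL g β D hgD • z) = jf (heckeDiagMatrix N • z) := by
    intro z
    have h1 := h z
    unfold jd at h1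
    have h2 : heckeDiagMatrix N • ((mapGL ℝ γ : GL (Fin 2) ℝ) • z) =
        (mapGL ℝ δ : GL (Fin 2) ℝ) • (upperTriangularGL g β D hgD • z) := by
      rw [← mul_smul, hmat, mul_smul]
    change jf (heckeDiagMatrix N • ((mapGL ℝ γ : GL (Fin 2) ℝ) • z)) = _ at h1
    rw [h2, h15b_jf_mapGL_smul] at h1
    exact h1
  -- (ii) matrix identities
  have hm1 : upperTriangularGL g β D hgD * H23.h12_T (1 / N) =
      H23.h12_T (g / (N * D)) * upperTriangularGL g β D hgD := by
    apply Units.ext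
    rw [Units.val_mul, Units.val_mul, H23.h12_T_val, H23.h12_T_val, val_upperTriangularGL]
    ext i j
    fin_cases i <;> fin_cases j <;> simp [Matrix.mul_apply, Fin.sum_univ_two]
    field_simp
    ring
  have hm2 : heckeDiagMatrix N * H23.h12_T (1 / N) = H23.h12_T 1 * heckeDiagMatrix N := by
    apply Units.ext
    rw [Units.val_mul, Units.val_mul, H23.h12_T_val, H23.h12_T_val, val_heckeDiagMatrix hN]
    ext i j
    fin_cases i <;> fin_cases j <;> simp [Matrix.mul_apply, Fin.sum_univ_two]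
  -- (iii) `j` is invariant under `z ↦ z + 1`
  have hT1 : ∀ w : ℍ, jf (H23.h12_T 1 • w) = jf w := by
    intro w
    have e : H23.h12_T 1 = mapGL ℝ (H23.h12_mkSL 1 1 0 1 (by norm_num)) := by
      apply Units.ext
      rw [H23.h12_mkSL_val, H23.h12_T_val]
      simp
    rw [e]
    exact h15b_jf_mapGL_smul _ _
  -- (iv) hence under `z ↦ z + x`
  have hTU : ∀ z : ℍ, jf (H23.h12_T (g / (N * D)) • (upperTriangularGL g β D hgD • z)) =
      jf (upperTriangularGL g β D hgD • z) := by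
    intro z
    rw [← mul_smul, ← hm1, mul_smul, hi, ← mul_smul, hm2, mul_smul, hT1, ← hi]
  have hTx : ∀ w : ℍ, jf (H23.h12_T (g / (N * D)) • w) = jf w := by
    intro w
    have := hTU ((upperTriangularGL g β D hgD)⁻¹ • w)
    rwa [smul_inv_smul] at this
  -- (v)
  obtain ⟨n, hn⟩ := h15b_int_of_jf_T _ hTx
  -- (vi)
  have hgn : (g : ℤ) = n * (N * D) := by
    have : (g : ℝ) = n * (N * D) := by
      rw [← hn]
      field_simp
    exact_mod_cast this
  have hNc : (N : ℤ) ∣ γ 1 0 := Dvd.dvd.trans ⟨n * D, by rw [hgn]; ring⟩ hgc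
  rw [CongruenceSubgroup.Gamma0_mem]
  exact (ZMod.intCast_zmod_eq_zero_iff_dvd _ _).mpr hNc

end RH24

end
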