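import Mathlib
import Fermat.Agent.S24.BDefs
import Fermat.Agent.S28.ModEq.Analytic
import Fermat.Agent.S28.ModEq.Bridge

/-!
# T-RH (S24), Layer B, slice BJ3 (helper16): the `q`-expansion principle

A polynomial relation between the functions `j(d z)` (`d ∣ N`) holds on the upper half plane
iff it holds for the formal Laurent series `j(q^d)`.
Route: `S28/ModEq` (`niceAlg`, `Lam`); clear denominators with `Δ(d z)`.
-/

set_option autoImplicit false
set_option linter.style.haveILetI false

noncomputable section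

open UpperHalfPlane ModularForm MatrixGroups CongruenceSubgroup
open H23 H23.Rel H23M ModularCurve H28S28
open scoped Manifold

namespace RH24

/-- the `q`-expansion homomorphism on nice functions is injective -/
theorem h16bj_Lam_injective : Function.Injective Lam := by
  rw [injective_iff_map_eq_zero]
  intro F hF
  rw [Lam_apply] at hF
  have h1 : qExpansion 1 (F : ℍ → ℂ) = 0 := by
    have hinj := HahnSeries.ofPowerSeries_injective (Γ := ℤ) (R := ℂ)
    apply hinj
    rw [hF, map_zero]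
  have h2 := eq_zero_of_qExpansion_eq_zero F.2 h1
  exact Subtype.ext h2

/-- the relation `j(d z) · Δ(d z) = E₄(d z)³` -/
theorem h16bj_jd_mul (d : ℕ) (z : ℍ) :
    jd d z * ModularForm.discriminant (ModularForm.heckeDiagMatrix d • z)
      = E₄ (ModularForm.heckeDiagMatrix d • z) ^ 3 := by
  rw [jd, jf, div_mul_cancel₀ _ (discriminant_ne_zero _)]

/-- the clearing-denominators statement, by induction on the polynomial -/
theorem h16bj_clear (N : ℕ) [NeZero N] (P : MvPolynomial (Dv N) ℂ) :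
    ∃ u Q : niceAlg, (∀ z : ℍ, (u : ℍ → ℂ) z ≠ 0) ∧
      (∀ z : ℍ, (Q : ℍ → ℂ) z
        = (u : ℍ → ℂ) z * MvPolynomial.eval (fun d : Dv N => jd d.1 z) P) ∧
      Lam Q = Lam u * formalEval N P := by
  induction P using MvPolynomial.induction_on with
  | C a =>
    refine ⟨1, algebraMap ℂ niceAlg a, fun z => one_ne_zero, fun z => ?_, ?_⟩
    · simp only [MvPolynomial.eval_C]
      show a = 1 * a
      rw [one_mul]
    · rw [map_one, one_mul, Lam_algebraMap]
      simp only [formalEval, MvPolynomial.aeval_C]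
      rw [HahnSeries.algebraMap_apply', PowerSeries.algebraMap_apply,
        Algebra.algebraMap_self_apply, HahnSeries.ofPowerSeries_C]
  | add P₁ P₂ ih₁ ih₂ =>
    obtain ⟨u₁, Q₁, hu₁, hQ₁, hL₁⟩ := ih₁
    obtain ⟨u₂, Q₂, hu₂, hQ₂, hL₂⟩ := ih₂
    refine ⟨u₁ * u₂, u₂ * Q₁ + u₁ * Q₂, fun z => mul_ne_zero (hu₁ z) (hu₂ z), fun z => ?_, ?_⟩
    · show (u₂ : ℍ → ℂ) z * (Q₁ : ℍ → ℂ) z + (u₁ : ℍ → ℂ) z * (Q₂ : ℍ → ℂ) z
        = (u₁ : ℍ → ℂ) z * (u₂ : ℍ → ℂ) z * _
      rw [hQ₁ z, hQ₂ z, map_add]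
      ring
    · rw [map_add, map_mul, map_mul, map_mul, map_add, hL₁, hL₂]
      ring
  | mul_X P d ih =>
    obtain ⟨u, Q, hu, hQ, hL⟩ := ih
    haveI : NeZero d.1 := ⟨Dv_ne_zero d⟩
    refine ⟨u * compDiag d.1 Dn, Q * compDiag d.1 E4n ^ 3,
      fun z => mul_ne_zero (hu z) (discriminant_ne_zero _), fun z => ?_, ?_⟩
    · show (Q : ℍ → ℂ) z * (E₄ (ModularForm.heckeDiagMatrix d.1 • z)) ^ 3
        = (u : ℍ → ℂ) z * ModularForm.discriminant (ModularForm.heckeDiagMatrix d.1 • z) * _
      rw [hQ z, map_mul, MvPolynomial.eval_X, ← h16bj_jd_mul]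
      ring
    · rw [map_mul, map_mul, map_pow, hL, Lam_compDiag_E4n_pow d.1 qExpansion_E4,
        Lam_compDiag_Dn d.1 qExpansion_disc, map_mul]
      have hX : formalEval N (MvPolynomial.X d) = Jp d.1 := by
        simp [formalEval, JC, Jp]
      rw [hX]
      ring

/-- **BJ3** (q-expansion principle): formal relations = analytic relations -/
theorem qexp_principle (N : ℕ) [NeZero N] (P : MvPolynomial (Dv N) ℂ) :
    formalEval N P = 0 ↔ ∀ z : ℍ, MvPolynomial.eval (fun d : Dv N => jd d.1 z) P = 0 := by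
  obtain ⟨u, Q, hu, hQ, hL⟩ := h16bj_clear N P
  have hu0 : Lam u ≠ 0 := by
    intro h
    have : u = 0 := h16bj_Lam_injective (by rw [h, map_zero])
    have hz := hu UpperHalfPlane.I
    rw [this] at hz
    exact hz rfl
  constructor
  · intro h z
    have hQ0 : Q = 0 := h16bj_Lam_injective (by rw [hL, h, mul_zero, map_zero])
    have := hQ z
    rw [hQ0] at this
    have h0 : ((0 : niceAlg) : ℍ → ℂ) z = 0 := rfl
    rw [h0] at this
    exact (mul_eq_zero.1 this.symm).resolve_left (hu z)
  · intro h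
    have hQ0 : Q = 0 := by
      apply Subtype.ext
      funext z
      rw [hQ z, h z, mul_zero]
      rfl
    rw [hQ0, map_zero] at hL
    exact (mul_eq_zero.1 hL.symm).resolve_left hu0

end RH24

end
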