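import Mathlib

/-!
# T-RH slice C4 (helper2): parity and the Ree–Scott inequality for orbit counts

For a group `G` acting on a finite set `X` and `g₁ g₂ : G`, writing `c(g)` for the number of
orbits of `⟨g⟩` on `X`:

* `RH24.orbits_parity` : `|X| + c(g₁) + c(g₂) + c(g₁ g₂)` is even (sign of permutations);
* `RH24.orbits_le` : if `g₁, g₂` generate `G` and the action is transitive then
  `c(g₁) + c(g₂) + c(g₁ g₂) ≤ |X| + 2` (Ree's theorem, proved with Scott's linear algebra argument
  on the permutation module `X → ℚ`).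
-/

set_option autoImplicit false
set_option linter.style.haveILetI false

noncomputable section

namespace RH24

open Equiv Equiv.Perm

/-! ## Number of orbits of a permutation and its sign -/

section Sign

variable {X : Type*} [Fintype X] [DecidableEq X]

/-- The orbits of `σ` are the cycles of `σ` together with its fixed points. -/
def h2c4_orbitMap (σ : Perm X) :
    Quotient (SameCycle.setoid σ) → {c // c ∈ σ.cycleFactorsFinset} ⊕ Function.fixedPoints σ :=
  Quotient.lift
    (fun x => if h : σ x = x then Sum.inr ⟨x, h⟩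
      else Sum.inl ⟨σ.cycleOf x, cycleOf_mem_cycleFactorsFinset_iff.mpr (mem_support.mpr h)⟩)
    (by
      intro x y hxy
      have hxy' : σ.SameCycle x y := hxy
      by_cases hx : σ x = x
      · have hy : σ y = y := hxy'.apply_eq_self_iff.mp hx
        have hxe : x = y := by
          obtain ⟨i, hi⟩ := hxy'
          rw [← hi]
          exact ((zpow_apply_eq_self_of_apply_eq_self hx i)).symm
        subst hxe
        simp [hx]
      · have hy : ¬ σ y = y := fun h => hx (hxy'.apply_eq_self_iff.mpr h)
        simp only [hx, hy, dite_false]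
        congr 2
        exact hxy'.cycleOf_eq)

theorem h2c4_orbitMap_mk (σ : Perm X) (x : X) :
    h2c4_orbitMap σ (Quotient.mk (SameCycle.setoid σ) x) =
      if h : σ x = x then Sum.inr ⟨x, h⟩
      else Sum.inl ⟨σ.cycleOf x, cycleOf_mem_cycleFactorsFinset_iff.mpr (mem_support.mpr h)⟩ :=
  rfl

theorem h2c4_orbitMap_bijective (σ : Perm X) : Function.Bijective (h2c4_orbitMap σ) := by
  constructor
  · intro q₁ q₂
    induction q₁ using Quotient.inductionOn with
    | _ x =>
    induction q₂ using Quotient.inductionOn with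
    | _ y =>
    intro h
    rw [h2c4_orbitMap_mk, h2c4_orbitMap_mk] at h
    by_cases hx : σ x = x
    · by_cases hy : σ y = y
      · simp only [hx, hy, dite_true, Sum.inr.injEq] at h
        have hxy : x = y := congrArg Subtype.val h
        rw [hxy]
      · simp [hx, hy] at h
    · by_cases hy : σ y = y
      · simp [hx, hy] at h
      · simp only [hx, hy, dite_false, Sum.inl.injEq, Subtype.mk.injEq] at h
        apply Quotient.sound
        show σ.SameCycle x y
        by_contra hns
        have h1 : σ.cycleOf x y = y := by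
          rw [cycleOf_apply, if_neg hns]
        have h2 : σ.cycleOf y y = σ y := cycleOf_apply_self σ y
        rw [h, h2] at h1
        exact hy h1
  · rintro (⟨c, hc⟩ | ⟨x, hx⟩)
    · obtain ⟨x, hxc⟩ := (mem_cycleFactorsFinset_iff.mp hc).1.nonempty_support
      have hcx : c = σ.cycleOf x := cycle_is_cycleOf hxc hc
      have hxs : x ∈ σ.support := by
        rw [← cycleOf_mem_cycleFactorsFinset_iff, ← hcx]; exact hc
      refine ⟨Quotient.mk _ x, ?_⟩
      rw [h2c4_orbitMap_mk, dif_neg (mem_support.mp hxs)]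
      congr 2
      exact hcx.symm
    · refine ⟨Quotient.mk _ x, ?_⟩
      have hx' : σ x = x := hx
      rw [h2c4_orbitMap_mk, dif_pos hx']

theorem h2c4_card_quotient (σ : Perm X) :
    Nat.card (Quotient (SameCycle.setoid σ)) =
      Multiset.card σ.cycleType + (Fintype.card X - σ.cycleType.sum) := by
  rw [Nat.card_congr (Equiv.ofBijective _ (h2c4_orbitMap_bijective σ)), Nat.card_sum,
    Nat.card_eq_fintype_card, Nat.card_eq_fintype_card, card_fixedPoints, cycleType_def,
    Multiset.card_map, Fintype.card_coe]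
  rfl

theorem h2c4_sign (σ : Perm X) :
    Perm.sign σ = (-1 : ℤˣ) ^ (Fintype.card X + Nat.card (Quotient (SameCycle.setoid σ))) := by
  rw [sign_of_cycleType, h2c4_card_quotient]
  have hle := sum_cycleType_le σ
  have : Fintype.card X + (Multiset.card σ.cycleType + (Fintype.card X - σ.cycleType.sum))
      = (σ.cycleType.sum + Multiset.card σ.cycleType) + 2 * (Fintype.card X - σ.cycleType.sum) := by
    omega
  rw [this, pow_add _ (σ.cycleType.sum + Multiset.card σ.cycleType), pow_mul]
  simp

end Sign

/-! ## Orbits of a cyclic subgroup -/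

section Action

variable {G X : Type*} [Group G] [MulAction G X]

theorem h2c4_toPerm_zpow (g : G) (k : ℤ) (x : X) :
    ((MulAction.toPerm g : Perm X) ^ k) x = g ^ k • x := by
  have h : (MulAction.toPerm g : Perm X) ^ k = MulAction.toPerm (g ^ k) :=
    (map_zpow (MulAction.toPermHom G X) g k).symm
  rw [h]
  rfl

theorem h2c4_orbitRel_iff (g : G) (x y : X) :
    (MulAction.orbitRel (Subgroup.zpowers g) X) x y ↔
      (MulAction.toPerm g : Perm X).SameCycle x y := by
  rw [MulAction.orbitRel_apply, MulAction.mem_orbit_iff]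
  constructor
  · rintro ⟨⟨h, hh⟩, hxy⟩
    obtain ⟨k, rfl⟩ := Subgroup.mem_zpowers_iff.mp hh
    refine ⟨-k, ?_⟩
    rw [h2c4_toPerm_zpow]
    have hxy' : g ^ k • y = x := hxy
    rw [← hxy', smul_smul, ← zpow_add]
    simp
  · rintro ⟨k, hk⟩
    refine ⟨⟨g ^ (-k), Subgroup.zpow_mem_zpowers g (-k)⟩, ?_⟩
    rw [h2c4_toPerm_zpow] at hk
    show g ^ (-k) • y = x
    rw [← hk, smul_smul, ← zpow_add]
    simp

theorem h2c4_card_orbits (g : G) :
    Nat.card (MulAction.orbitRel.Quotient (Subgroup.zpowers g) X) =
      Nat.card (Quotient (SameCycle.setoid (MulAction.toPerm g : Perm X))) :=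
  Nat.card_congr (Quotient.congr (Equiv.refl X) (fun x y => h2c4_orbitRel_iff g x y))

end Action

/-! ## Linear algebra: a Sylvester-type rank inequality -/

section Rank

variable {K V₀ V₁ V₂ : Type*} [Field K] [AddCommGroup V₀] [Module K V₀]
  [AddCommGroup V₁] [Module K V₁] [AddCommGroup V₂] [Module K V₂]
  [FiniteDimensional K V₀] [FiniteDimensional K V₁]

/-- `rank g ≤ rank (f ∘ g) + dim ker f`. -/
theorem h2c4_rank_le (g : V₀ →ₗ[K] V₁) (f : V₁ →ₗ[K] V₂) :
    Module.finrank K (LinearMap.range g) ≤
      Module.finrank K (LinearMap.range (f ∘ₗ g)) + Module.finrank K (LinearMap.ker f) := by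
  have h1 := LinearMap.finrank_range_add_finrank_ker (f.domRestrict (LinearMap.range g))
  rw [LinearMap.range_domRestrict, ← LinearMap.range_comp] at h1
  have h2 : Module.finrank K (LinearMap.ker (f.domRestrict (LinearMap.range g))) ≤
      Module.finrank K (LinearMap.ker f) := by
    let j : LinearMap.ker (f.domRestrict (LinearMap.range g)) →ₗ[K] LinearMap.ker f :=
      LinearMap.codRestrict (LinearMap.ker f)
        ((LinearMap.range g).subtype ∘ₗ (LinearMap.ker (f.domRestrict (LinearMap.range g))).subtype)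
        (by
          rintro ⟨x, hx⟩
          rw [LinearMap.mem_ker] at hx ⊢
          exact hx)
    have hj : Function.Injective j := by
      intro x y hxy
      have := congrArg Subtype.val hxy
      exact Subtype.ext (Subtype.ext this)
    exact LinearMap.finrank_le_finrank_of_injective hj
  omega

end Rank

/-! ## The permutation module `X → ℚ` -/

section Scott

variable {G X : Type*} [Group G] [MulAction G X]

/-- The stabiliser of a function `f : X → ℚ`. -/
def h2c4_stab (f : X → ℚ) : Subgroup G where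
  carrier := {g | ∀ x, f (g • x) = f x}
  one_mem' := by intro x; simp
  mul_mem' := by
    intro a b ha hb x
    rw [mul_smul, ha, hb]
  inv_mem' := by
    intro a ha x
    have := ha (a⁻¹ • x)
    rw [smul_inv_smul] at this
    exact this.symm

theorem h2c4_mem_stab {f : X → ℚ} {g : G} : g ∈ h2c4_stab f ↔ ∀ x, f (g • x) = f x := Iff.rfl

theorem h2c4_const (g₁ g₂ : G) (hgen : Subgroup.closure {g₁, g₂} = ⊤)
    [MulAction.IsPretransitive G X]
    (f : X → ℚ) (h₁ : g₁ ∈ h2c4_stab f) (h₂ : g₂ ∈ h2c4_stab f) (x y : X) : f x = f y := by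
  have hle : Subgroup.closure {g₁, g₂} ≤ h2c4_stab f := by
    rw [Subgroup.closure_le]
    intro g hg
    rcases hg with rfl | rfl
    · exact h₁
    · exact h₂
  rw [hgen] at hle
  obtain ⟨g, rfl⟩ := MulAction.exists_smul_eq G x y
  exact ((hle (Subgroup.mem_top g)) x).symm

/-- The permutation representation on functions. -/
def h2c4_rho (g : G) : (X → ℚ) →ₗ[ℚ] (X → ℚ) := LinearMap.funLeft ℚ ℚ (fun x => g⁻¹ • x)

@[simp] theorem h2c4_rho_apply (g : G) (f : X → ℚ) (x : X) :
    h2c4_rho g f x = f (g⁻¹ • x) := rfl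

theorem h2c4_rho_mul (g h : G) (f : X → ℚ) :
    h2c4_rho (g * h) f = h2c4_rho g (h2c4_rho h f) := by
  funext x; simp [mul_smul]

/-- `1 - ρ(g)`. -/
def h2c4_D (g : G) : (X → ℚ) →ₗ[ℚ] (X → ℚ) := LinearMap.id - h2c4_rho g

@[simp] theorem h2c4_D_apply (g : G) (f : X → ℚ) (x : X) :
    h2c4_D g f x = f x - f (g⁻¹ • x) := rfl

theorem h2c4_mem_ker_D {g : G} {f : X → ℚ} :
    f ∈ LinearMap.ker (h2c4_D g) ↔ g ∈ h2c4_stab f := by
  rw [LinearMap.mem_ker, ← inv_mem_iff, h2c4_mem_stab]
  constructor
  · intro h x
    have := congrFun h x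
    simp only [h2c4_D_apply, Pi.zero_apply] at this
    linarith
  · intro h
    funext x
    simp only [h2c4_D_apply, Pi.zero_apply, h x, sub_self]

theorem h2c4_D_mul (g h : G) (f : X → ℚ) :
    h2c4_D (g * h) f = h2c4_D g f + h2c4_rho g (h2c4_D h f) := by
  funext x
  simp [mul_smul]

/-- The fixed space of `g` has dimension the number of `⟨g⟩`-orbits. -/
theorem h2c4_finrank_ker [Finite X] (g : G) :
    Module.finrank ℚ (LinearMap.ker (h2c4_D g : (X → ℚ) →ₗ[ℚ] (X → ℚ))) =
      Nat.card (MulAction.orbitRel.Quotient (Subgroup.zpowers g) X) := by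
  classical
  letI : Fintype X := Fintype.ofFinite X
  letI : Fintype (MulAction.orbitRel.Quotient (Subgroup.zpowers g) X) := Fintype.ofFinite _
  let ι : (MulAction.orbitRel.Quotient (Subgroup.zpowers g) X → ℚ) →ₗ[ℚ] (X → ℚ) :=
    LinearMap.funLeft ℚ ℚ (Quotient.mk (MulAction.orbitRel (Subgroup.zpowers g) X))
  have hinj : Function.Injective ι :=
    LinearMap.funLeft_injective_of_surjective ℚ ℚ _ Quotient.mk_surjective
  have hrange : LinearMap.range ι = LinearMap.ker (h2c4_D g) := by
    ext f
    rw [h2c4_mem_ker_D, LinearMap.mem_range]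
    constructor
    · rintro ⟨F, rfl⟩ x
      show F (Quotient.mk _ (g • x)) = F (Quotient.mk _ x)
      congr 1
      apply Quotient.sound
      show (MulAction.orbitRel (Subgroup.zpowers g) X) (g • x) x
      rw [MulAction.orbitRel_apply, MulAction.mem_orbit_iff]
      exact ⟨⟨g, Subgroup.mem_zpowers g⟩, rfl⟩
    · intro hg
      have hz : Subgroup.zpowers g ≤ h2c4_stab f := by
        rw [Subgroup.zpowers_le]; exact hg
      refine ⟨Quotient.lift f ?_, ?_⟩
      · intro a b hab
        have hab' : (MulAction.orbitRel (Subgroup.zpowers g) X) a b := hab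
        rw [MulAction.orbitRel_apply, MulAction.mem_orbit_iff] at hab'
        obtain ⟨⟨h, hh⟩, rfl⟩ := hab'
        exact (hz hh) b
      · funext x
        rfl
  rw [← hrange, LinearMap.finrank_range_of_inj hinj, Module.finrank_fintype_fun_eq_card,
    Nat.card_eq_fintype_card]

/-- rank of `1 - ρ(g)` plus number of orbits of `g` is `|X|`. -/
theorem h2c4_rank_add [Finite X] (g : G) :
    Module.finrank ℚ (LinearMap.range (h2c4_D g : (X → ℚ) →ₗ[ℚ] (X → ℚ))) +
      Nat.card (MulAction.orbitRel.Quotient (Subgroup.zpowers g) X) = Nat.card X := by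
  classical
  letI : Fintype X := Fintype.ofFinite X
  rw [← h2c4_finrank_ker, LinearMap.finrank_range_add_finrank_ker,
    Module.finrank_fintype_fun_eq_card, Nat.card_eq_fintype_card]

/-- **Scott's lemma** for the permutation module, three elements with product one. -/
theorem h2c4_scott [Finite X] [Nonempty X] (g₁ g₂ : G)
    (hgen : Subgroup.closure {g₁, g₂} = ⊤) [MulAction.IsPretransitive G X] :
    2 * Nat.card X ≤
      Module.finrank ℚ (LinearMap.range (h2c4_D g₁ : (X → ℚ) →ₗ[ℚ] (X → ℚ))) +
      Module.finrank ℚ (LinearMap.range (h2c4_D g₂ : (X → ℚ) →ₗ[ℚ] (X → ℚ))) +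
      Module.finrank ℚ (LinearMap.range (h2c4_D (g₁ * g₂) : (X → ℚ) →ₗ[ℚ] (X → ℚ))) + 2 := by
  classical
  letI : Fintype X := Fintype.ofFinite X
  obtain ⟨x₀⟩ := ‹Nonempty X›
  have hn : Module.finrank ℚ (X → ℚ) = Nat.card X := by
    rw [Module.finrank_fintype_fun_eq_card, Nat.card_eq_fintype_card]
  -- notation
  let A : (X → ℚ) →ₗ[ℚ] (X → ℚ) := h2c4_D g₁
  let B : (X → ℚ) →ₗ[ℚ] (X → ℚ) := h2c4_D g₂
  let C : (X → ℚ) →ₗ[ℚ] (X → ℚ) := h2c4_D (g₁ * g₂)
  let Φ : (X → ℚ) →ₗ[ℚ] (LinearMap.range A × LinearMap.range B) :=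
    A.rangeRestrict.prod B.rangeRestrict
  let Ψ : (LinearMap.range A × LinearMap.range B) →ₗ[ℚ] (X → ℚ) :=
    LinearMap.coprod (LinearMap.range A).subtype (h2c4_rho g₁ ∘ₗ (LinearMap.range B).subtype)
  have hcomp : Ψ ∘ₗ Φ = C := by
    apply LinearMap.ext
    intro f
    show (A f : X → ℚ) + h2c4_rho g₁ (B f) = C f
    exact (h2c4_D_mul g₁ g₂ f).symm
  -- (i) the kernel of Φ consists of constant functions
  have hkerΦ : Module.finrank ℚ (LinearMap.ker Φ) ≤ 1 := by
    let j : LinearMap.ker Φ →ₗ[ℚ] ℚ := (LinearMap.proj x₀) ∘ₗ (LinearMap.ker Φ).subtype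
    have hj : Function.Injective j := by
      rw [injective_iff_map_eq_zero]
      rintro ⟨f, hf⟩ hf0
      have hf0' : f x₀ = 0 := hf0
      rw [LinearMap.mem_ker] at hf
      have hA : A f = 0 := congrArg (fun p => ((p.1 : LinearMap.range A) : X → ℚ)) hf
      have hB : B f = 0 := congrArg (fun p => ((p.2 : LinearMap.range B) : X → ℚ)) hf
      have h1 : g₁ ∈ h2c4_stab f := h2c4_mem_ker_D.mp (LinearMap.mem_ker.mpr hA)
      have h2 : g₂ ∈ h2c4_stab f := h2c4_mem_ker_D.mp (LinearMap.mem_ker.mpr hB)
      apply Subtype.ext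
      funext x
      show f x = 0
      rw [h2c4_const g₁ g₂ hgen f h1 h2 x x₀, hf0']
    have := LinearMap.finrank_le_finrank_of_injective hj
    simpa using this
  have hΦ := LinearMap.finrank_range_add_finrank_ker Φ
  rw [hn] at hΦ
  -- (ii)
  have hL1 := h2c4_rank_le Φ Ψ
  rw [hcomp] at hL1
  -- (iii)
  have hΨ := LinearMap.finrank_range_add_finrank_ker Ψ
  rw [Module.finrank_prod] at hΨ
  -- (iv) the range of Ψ has codimension at most one
  have hrankΨ : Nat.card X ≤ Module.finrank ℚ (LinearMap.range Ψ) + 1 := by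
    let T : ((X → ℚ) × (X → ℚ)) →ₗ[ℚ] (X → ℚ) :=
      Ψ ∘ₗ (A.rangeRestrict.prodMap B.rangeRestrict)
    have hT : ∀ u v : X → ℚ, T (u, v) = A u + h2c4_rho g₁ (B v) := fun u v => rfl
    have hle : Module.finrank ℚ (LinearMap.range T) ≤ Module.finrank ℚ (LinearMap.range Ψ) :=
      Submodule.finrank_mono (LinearMap.range_comp_le_range _ _)
    have hdual := LinearMap.finrank_range_dualMap_eq_finrank_range T
    have hrn := LinearMap.finrank_range_add_finrank_ker T.dualMap
    rw [Subspace.dual_finrank_eq, hn, hdual] at hrn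
    have hker : Module.finrank ℚ (LinearMap.ker T.dualMap) ≤ 1 := by
      let j : LinearMap.ker T.dualMap →ₗ[ℚ] ℚ :=
        (Module.Dual.eval ℚ (X → ℚ) (Pi.single x₀ 1)) ∘ₗ (LinearMap.ker T.dualMap).subtype
      have hj : Function.Injective j := by
        rw [injective_iff_map_eq_zero]
        rintro ⟨φ, hφ⟩ hφ0
        have hφ0' : φ (Pi.single x₀ 1) = 0 := hφ0
        rw [LinearMap.mem_ker] at hφ
        have hφT : ∀ u v : X → ℚ, φ (T (u, v)) = 0 := by
          intro u v
          have := congrArg (fun ψ : Module.Dual ℚ ((X → ℚ) × (X → ℚ)) => ψ (u, v)) hφ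
          simpa [LinearMap.dualMap_apply] using this
        have hφA : ∀ u : X → ℚ, φ (A u) = 0 := by
          intro u
          have := hφT u 0
          rw [hT] at this
          simpa using this
        have hφρB : ∀ v : X → ℚ, φ (h2c4_rho g₁ (B v)) = 0 := by
          intro v
          have := hφT 0 v
          rw [hT] at this
          simpa using this
        have hφρ : ∀ u : X → ℚ, φ (h2c4_rho g₁ u) = φ u := by
          intro u
          have h := hφA u
          have hAu : A u = u - h2c4_rho g₁ u := rfl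
          rw [hAu, map_sub] at h
          linarith
        have hφB : ∀ v : X → ℚ, φ (B v) = 0 := by
          intro v
          rw [← hφρ (B v)]; exact hφρB v
        -- the function attached to φ
        let f : X → ℚ := fun x => φ (Pi.single x 1)
        have hsingle : ∀ (g : G) (x : X),
            (Pi.single (g • x) 1 : X → ℚ) = h2c4_rho g (Pi.single x 1) := by
          intro g x
          funext y
          simp only [h2c4_rho_apply, Pi.single_apply]
          by_cases h : y = g • x
          · rw [if_pos h, if_pos (by rw [h, inv_smul_smul])]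
          · rw [if_neg h, if_neg (fun h' => h (by rw [← h', smul_inv_smul]))]
        have hstab : ∀ g : G, (∀ v : X → ℚ, φ (h2c4_D g v) = 0) → g ∈ h2c4_stab f := by
          intro g hg x
          show φ (Pi.single (g • x) 1) = φ (Pi.single x 1)
          rw [hsingle]
          have h := hg (Pi.single x 1)
          have hDu : h2c4_D g (Pi.single x 1 : X → ℚ)
              = Pi.single x 1 - h2c4_rho g (Pi.single x 1) := rfl
          rw [hDu, map_sub] at h
          linarith
        have h1 : g₁ ∈ h2c4_stab f := hstab g₁ hφA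
        have h2 : g₂ ∈ h2c4_stab f := hstab g₂ hφB
        apply Subtype.ext
        show φ = 0
        apply LinearMap.pi_ext
        intro x r
        have hxr : (Pi.single x r : X → ℚ) = r • Pi.single x 1 := by
          funext y
          simp [Pi.single_apply]
        rw [hxr, map_smul, LinearMap.zero_apply]
        have : φ (Pi.single x 1) = 0 := by
          have := h2c4_const g₁ g₂ hgen f h1 h2 x x₀
          show f x = 0
          rw [this]; exact hφ0'
        rw [this, smul_zero]
      have := LinearMap.finrank_le_finrank_of_injective hj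
      simpa using this
    omega
  show 2 * Nat.card X ≤ Module.finrank ℚ (LinearMap.range A) +
      Module.finrank ℚ (LinearMap.range B) + Module.finrank ℚ (LinearMap.range C) + 2
  omega

end Scott

/-- **C4, parity.** -/
theorem orbits_parity {G X : Type*} [Group G] [MulAction G X] [Finite X]
    (g₁ g₂ : G) :
    Even (Nat.card X
      + Nat.card (MulAction.orbitRel.Quotient (Subgroup.zpowers g₁) X)
      + Nat.card (MulAction.orbitRel.Quotient (Subgroup.zpowers g₂) X)
      + Nat.card (MulAction.orbitRel.Quotient (Subgroup.zpowers (g₁ * g₂)) X)) := by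
  classical
  letI : Fintype X := Fintype.ofFinite X
  rw [h2c4_card_orbits g₁, h2c4_card_orbits g₂, h2c4_card_orbits (g₁ * g₂),
    Nat.card_eq_fintype_card]
  have h1 := h2c4_sign (MulAction.toPerm g₁ : Perm X)
  have h2 := h2c4_sign (MulAction.toPerm g₂ : Perm X)
  have h12 := h2c4_sign (MulAction.toPerm (g₁ * g₂) : Perm X)
  have hmul : (MulAction.toPerm (g₁ * g₂) : Perm X)
      = MulAction.toPerm g₁ * MulAction.toPerm g₂ :=
    map_mul (MulAction.toPermHom G X) g₁ g₂
  rw [hmul, Perm.sign_mul, h1, h2, ← pow_add] at h12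
  set n := Fintype.card X
  set c₁ := Nat.card (Quotient (SameCycle.setoid (MulAction.toPerm g₁ : Perm X)))
  set c₂ := Nat.card (Quotient (SameCycle.setoid (MulAction.toPerm g₂ : Perm X)))
  set c₃ := Nat.card (Quotient (SameCycle.setoid
    (MulAction.toPerm g₁ * MulAction.toPerm g₂ : Perm X)))
  have hc₃ : Nat.card (Quotient (SameCycle.setoid (MulAction.toPerm (g₁ * g₂) : Perm X))) = c₃ := by
    rw [hmul]
  rw [hc₃]
  by_contra hodd
  rw [Nat.not_even_iff_odd] at hodd
  have hpar : ∀ a b : ℕ, ((-1 : ℤˣ) ^ a = (-1) ^ b) → Even (a + b) := by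
    intro a b hab
    by_contra h
    rw [Nat.not_even_iff_odd] at h
    have : (-1 : ℤˣ) ^ (a + b) = 1 := by
      rw [pow_add, hab, ← pow_add, ← two_mul, pow_mul]; simp
    rw [h.neg_one_pow] at this
    exact absurd this (by decide)
  have := hpar _ _ h12
  rcases this with ⟨k, hk⟩
  rcases hodd with ⟨m, hm⟩
  omega

/-- **C4, Ree–Scott inequality.** -/
theorem orbits_le {G X : Type*} [Group G] [MulAction G X] [Finite X] [Nonempty X]
    (g₁ g₂ : G) (hgen : Subgroup.closure {g₁, g₂} = ⊤) [MulAction.IsPretransitive G X] :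
    Nat.card (MulAction.orbitRel.Quotient (Subgroup.zpowers g₁) X)
      + Nat.card (MulAction.orbitRel.Quotient (Subgroup.zpowers g₂) X)
      + Nat.card (MulAction.orbitRel.Quotient (Subgroup.zpowers (g₁ * g₂)) X)
    ≤ Nat.card X + 2 := by
  have h := h2c4_scott (X := X) g₁ g₂ hgen
  have h1 := h2c4_rank_add (X := X) g₁
  have h2 := h2c4_rank_add (X := X) g₂
  have h3 := h2c4_rank_add (X := X) (g₁ * g₂)
  omega

end RH24

end
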