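import Mathlib
import Fermat.Prelude.Def_ModularCurve_GenusNumerics
import Fermat.Agent.S24.P1
import Fermat.Agent.S24.C1
import Fermat.Agent.S24.C4

/-!
# T-RH slice C2 (helper8): fixed points and orbits of `S` and `S * T` on `SL(2, ℤ) ⧸ Γ₀(N)`

* `RH24.card_fixed_S` : `#Fix(S) = ν₂(N)`
* `RH24.card_fixed_ST` : `#Fix(ST) = ν₃(N)`
* `RH24.two_mul_card_orbits_S` : `2 · #orbits(⟨S⟩) = ψ(N) + ν₂(N)`
* `RH24.three_mul_card_orbits_ST` : `3 · #orbits(⟨ST⟩) = ψ(N) + 2 ν₃(N)`
-/

set_option autoImplicit false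

noncomputable section

open MatrixGroups CongruenceSubgroup

namespace RH24

/-! ### Fixed point criteria -/

/-- `M • [g] = [g]` in terms of the first column of `g` mod `N`. -/
theorem h8_smul_mk_eq_iff (N : ℕ) (M g : SL(2, ℤ)) :
    M • (QuotientGroup.mk g : SL(2, ℤ) ⧸ Gamma0 N) = QuotientGroup.mk g ↔
      ((g 0 0 : ℤ) : ZMod N) * (((M 1 0 : ℤ) : ZMod N) * ((g 0 0 : ℤ) : ZMod N)
          + ((M 1 1 : ℤ) : ZMod N) * ((g 1 0 : ℤ) : ZMod N))
        = ((g 1 0 : ℤ) : ZMod N) * (((M 0 0 : ℤ) : ZMod N) * ((g 0 0 : ℤ) : ZMod N)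
          + ((M 0 1 : ℤ) : ZMod N) * ((g 1 0 : ℤ) : ZMod N)) := by
  have h1 : M • (QuotientGroup.mk g : SL(2, ℤ) ⧸ Gamma0 N) = QuotientGroup.mk (M * g) := rfl
  rw [h1, eq_comm, h8_mk_eq_iff, h8_mul_apply_zero_zero, h8_mul_apply_one_zero]
  push_cast
  rfl

theorem h8_S_coe_entries : (ModularGroup.S 0 0 = 0) ∧ (ModularGroup.S 0 1 = -1)
    ∧ (ModularGroup.S 1 0 = 1) ∧ (ModularGroup.S 1 1 = 0) := by
  rw [ModularGroup.coe_S]
  simp

theorem h8_ST_coe : ((ModularGroup.S * ModularGroup.T : SL(2, ℤ)) : Matrix (Fin 2) (Fin 2) ℤ)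
    = !![0, -1; 1, 1] := by
  rw [Matrix.SpecialLinearGroup.coe_mul, ModularGroup.coe_S, ModularGroup.coe_T,
    Matrix.mul_fin_two]
  simp

theorem h8_S_sq_coe : ((ModularGroup.S ^ 2 : SL(2, ℤ)) : Matrix (Fin 2) (Fin 2) ℤ)
    = !![-1, 0; 0, -1] := by
  rw [pow_two, Matrix.SpecialLinearGroup.coe_mul, ModularGroup.coe_S, Matrix.mul_fin_two]
  simp

theorem h8_ST_cube_coe :
    (((ModularGroup.S * ModularGroup.T) ^ 3 : SL(2, ℤ)) : Matrix (Fin 2) (Fin 2) ℤ)
      = !![-1, 0; 0, -1] := by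
  rw [pow_succ, pow_two, Matrix.SpecialLinearGroup.coe_mul, Matrix.SpecialLinearGroup.coe_mul,
    h8_ST_coe, Matrix.mul_fin_two, Matrix.mul_fin_two]
  simp

theorem h8_fixed_S_iff (N : ℕ) (g : SL(2, ℤ)) :
    ModularGroup.S • (QuotientGroup.mk g : SL(2, ℤ) ⧸ Gamma0 N) = QuotientGroup.mk g ↔
      ((g 0 0 : ℤ) : ZMod N) ^ 2 + ((g 1 0 : ℤ) : ZMod N) ^ 2 = 0 := by
  rw [h8_smul_mk_eq_iff]
  obtain ⟨h00, h01, h10, h11⟩ := h8_S_coe_entries
  rw [h00, h01, h10, h11]
  push_cast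
  constructor
  · intro h
    linear_combination h
  · intro h
    linear_combination h

theorem h8_fixed_ST_iff (N : ℕ) (g : SL(2, ℤ)) :
    (ModularGroup.S * ModularGroup.T) • (QuotientGroup.mk g : SL(2, ℤ) ⧸ Gamma0 N)
        = QuotientGroup.mk g ↔
      ((g 0 0 : ℤ) : ZMod N) ^ 2 + ((g 0 0 : ℤ) : ZMod N) * ((g 1 0 : ℤ) : ZMod N)
        + ((g 1 0 : ℤ) : ZMod N) ^ 2 = 0 := by
  rw [h8_smul_mk_eq_iff, h8_ST_coe]
  simp only [Matrix.of_apply, Matrix.cons_val', Matrix.cons_val_zero, Matrix.cons_val_one,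
    Matrix.cons_val_fin_one]
  push_cast
  constructor
  · intro h
    linear_combination h
  · intro h
    linear_combination h

theorem h8_S_sq_smul (N : ℕ) (q : SL(2, ℤ) ⧸ Gamma0 N) : ModularGroup.S ^ 2 • q = q := by
  induction q using QuotientGroup.induction_on with
  | H g =>
    rw [h8_smul_mk_eq_iff, h8_S_sq_coe]
    simp only [Matrix.of_apply, Matrix.cons_val', Matrix.cons_val_zero, Matrix.cons_val_one,
      Matrix.cons_val_fin_one]
    push_cast
    ring

theorem h8_ST_cube_smul (N : ℕ) (q : SL(2, ℤ) ⧸ Gamma0 N) :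
    (ModularGroup.S * ModularGroup.T) ^ 3 • q = q := by
  induction q using QuotientGroup.induction_on with
  | H g =>
    rw [h8_smul_mk_eq_iff, h8_ST_cube_coe]
    simp only [Matrix.of_apply, Matrix.cons_val', Matrix.cons_val_zero, Matrix.cons_val_one,
      Matrix.cons_val_fin_one]
    push_cast
    ring

/-! ### Counting fixed points -/

/-- C2a: fixed points of `S` -/
theorem card_fixed_S (N : ℕ) [NeZero N] :
    Nat.card {q : SL(2, ℤ) ⧸ Gamma0 N // ModularGroup.S • q = q} = ModularCurve.nuTwo N := by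
  classical
  rw [ModularCurve.nuTwo]
  symm
  have hex : ∀ u : ZMod N, ∃ g : SL(2, ℤ), ((g 0 0 : ℤ) : ZMod N) = u
      ∧ ((g 1 0 : ℤ) : ZMod N) = 1 :=
    fun u => h8_exists_lift N u 1 0 1 (by ring)
  choose lift hl0 hl1 using hex
  have hfix : ∀ u : {u : ZMod N // u ^ 2 + 1 = 0},
      ModularGroup.S • (QuotientGroup.mk (lift u.1) : SL(2, ℤ) ⧸ Gamma0 N)
        = QuotientGroup.mk (lift u.1) := by
    intro u
    rw [h8_fixed_S_iff, hl0, hl1]
    linear_combination u.2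
  let F : {u : ZMod N // u ^ 2 + 1 = 0} → {q : SL(2, ℤ) ⧸ Gamma0 N // ModularGroup.S • q = q} :=
    fun u => ⟨QuotientGroup.mk (lift u.1), hfix u⟩
  refine Nat.card_congr (Equiv.ofBijective F ⟨?_, ?_⟩)
  · intro u u' h
    have h1 : (QuotientGroup.mk (lift u.1) : SL(2, ℤ) ⧸ Gamma0 N)
        = QuotientGroup.mk (lift u'.1) := congrArg Subtype.val h
    rw [h8_mk_eq_iff, hl0, hl1, hl0, hl1] at h1
    apply Subtype.ext
    linear_combination h1
  · rintro ⟨q, hq⟩
    induction q using QuotientGroup.induction_on with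
    | H g =>
      rw [h8_fixed_S_iff] at hq
      have hdet := h8_det_mod N g
      set x : ZMod N := ((g 0 0 : ℤ) : ZMod N) with hx
      set y : ZMod N := ((g 1 0 : ℤ) : ZMod N) with hy
      set d : ZMod N := ((g 1 1 : ℤ) : ZMod N) with hd
      set b : ZMod N := ((g 0 1 : ℤ) : ZMod N) with hb
      set w : ZMod N := -d ^ 2 * y - 2 * b * d * x + b ^ 2 * y with hw
      have hyw : y * w = 1 := by
        rw [hw]
        linear_combination (-d ^ 2) * hq + (d * x - b * y + 1) * hdet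
      have hu : (x * w) ^ 2 + 1 = 0 := by
        linear_combination w ^ 2 * hq - (y * w + 1) * hyw
      refine ⟨⟨x * w, hu⟩, ?_⟩
      apply Subtype.ext
      show (QuotientGroup.mk (lift (x * w)) : SL(2, ℤ) ⧸ Gamma0 N) = QuotientGroup.mk g
      rw [h8_mk_eq_iff, hl0, hl1]
      show x * w * y = 1 * x
      linear_combination x * hyw

/-- C2b: fixed points of `S * T` (the elliptic element fixing `ρ`) -/
theorem card_fixed_ST (N : ℕ) [NeZero N] :
    Nat.card {q : SL(2, ℤ) ⧸ Gamma0 N // (ModularGroup.S * ModularGroup.T) • q = q}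
      = ModularCurve.nuThree N := by
  classical
  rw [ModularCurve.nuThree]
  symm
  have hex : ∀ t : ZMod N, ∃ g : SL(2, ℤ), ((g 0 0 : ℤ) : ZMod N) = 1
      ∧ ((g 1 0 : ℤ) : ZMod N) = t :=
    fun t => h8_exists_lift N 1 t 1 0 (by ring)
  choose lift hl0 hl1 using hex
  have hfix : ∀ t : {t : ZMod N // t ^ 2 + t + 1 = 0},
      (ModularGroup.S * ModularGroup.T) • (QuotientGroup.mk (lift t.1) : SL(2, ℤ) ⧸ Gamma0 N)
        = QuotientGroup.mk (lift t.1) := by
    intro t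
    rw [h8_fixed_ST_iff, hl0, hl1]
    linear_combination t.2
  let F : {t : ZMod N // t ^ 2 + t + 1 = 0} →
      {q : SL(2, ℤ) ⧸ Gamma0 N // (ModularGroup.S * ModularGroup.T) • q = q} :=
    fun t => ⟨QuotientGroup.mk (lift t.1), hfix t⟩
  refine Nat.card_congr (Equiv.ofBijective F ⟨?_, ?_⟩)
  · intro t t' h
    have h1 : (QuotientGroup.mk (lift t.1) : SL(2, ℤ) ⧸ Gamma0 N)
        = QuotientGroup.mk (lift t'.1) := congrArg Subtype.val h
    rw [h8_mk_eq_iff, hl0, hl1, hl0, hl1] at h1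
    apply Subtype.ext
    linear_combination -h1
  · rintro ⟨q, hq⟩
    induction q using QuotientGroup.induction_on with
    | H g =>
      rw [h8_fixed_ST_iff] at hq
      have hdet := h8_det_mod N g
      set x : ZMod N := ((g 0 0 : ℤ) : ZMod N) with hx
      set y : ZMod N := ((g 1 0 : ℤ) : ZMod N) with hy
      set d : ZMod N := ((g 1 1 : ℤ) : ZMod N) with hd
      set b : ZMod N := ((g 0 1 : ℤ) : ZMod N) with hb
      set w : ZMod N := d ^ 2 * x - 2 * b * d * y - b ^ 2 * x - b ^ 2 * y with hw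
      have hxw : x * w = 1 := by
        rw [hw]
        linear_combination (-b ^ 2) * hq + (d * x - b * y + 1) * hdet
      have ht : (y * w) ^ 2 + y * w + 1 = 0 := by
        linear_combination w ^ 2 * hq - (1 + x * w + y * w) * hxw
      refine ⟨⟨y * w, ht⟩, ?_⟩
      apply Subtype.ext
      show (QuotientGroup.mk (lift (y * w)) : SL(2, ℤ) ⧸ Gamma0 N) = QuotientGroup.mk g
      rw [h8_mk_eq_iff, hl0, hl1]
      show 1 * y = y * w * x
      linear_combination (-y) * hxw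

/-! ### Orbit counts -/

/-- If `g ^ n` acts trivially on the finite set `X` (`n` prime), then
`n · #orbits(⟨g⟩) = #X + (n - 1) · #Fix(g)`. -/
theorem h8_orbits_prime {G X : Type*} [Group G] [MulAction G X] [Finite X] (g : G) (n : ℕ)
    (hn : n.Prime) (h : ∀ x : X, g ^ n • x = x) :
    n * Nat.card (MulAction.orbitRel.Quotient (Subgroup.zpowers g) X)
      = Nat.card X + (n - 1) * Nat.card {x : X // g • x = x} := by
  classical
  haveI := Fintype.ofFinite X
  rw [h2c4_card_orbits, h2c4_card_quotient]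
  have hF : Nat.card {x : X // g • x = x}
      = Fintype.card X - (MulAction.toPerm g : Equiv.Perm X).cycleType.sum := by
    rw [← Equiv.Perm.card_fixedPoints, ← Nat.card_eq_fintype_card]
    rfl
  rw [hF, Nat.card_eq_fintype_card]
  generalize hσ : (MulAction.toPerm g : Equiv.Perm X) = σ
  have hσn : σ ^ n = 1 := by
    ext x
    have h1 := h2c4_toPerm_zpow g (n : ℤ) x
    rw [zpow_natCast, zpow_natCast, hσ] at h1
    rw [h1]
    exact h x
  have hle := Equiv.Perm.sum_cycleType_le σ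
  obtain ⟨k, rfl⟩ : ∃ k, n = k + 1 := ⟨n - 1, (Nat.succ_pred_eq_of_pos hn.pos).symm⟩
  rw [Nat.add_sub_cancel]
  rcases (Nat.dvd_prime hn).mp (orderOf_dvd_of_pow_eq_one hσn) with h1 | h1
  · have h2 : σ = 1 := orderOf_eq_one_iff.mp h1
    rw [h2, Equiv.Perm.cycleType_one]
    simp only [Multiset.card_zero, Multiset.sum_zero, Nat.sub_zero, zero_add]
    ring
  · obtain ⟨m, hm⟩ := Equiv.Perm.cycleType_prime_order (σ := σ) (h1 ▸ hn)
    rw [h1] at hm
    rw [hm] at hle ⊢
    simp only [Multiset.card_replicate, Multiset.sum_replicate, smul_eq_mul] at hle ⊢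
    obtain ⟨r, hr⟩ := Nat.exists_eq_add_of_le hle
    rw [hr, Nat.add_sub_cancel_left]
    ring

/-- C2c: orbit counts (S acts as an involution, ST with order 3, since `-1 ∈ Γ₀(N)`). -/
theorem two_mul_card_orbits_S (N : ℕ) [NeZero N] :
    2 * Nat.card (MulAction.orbitRel.Quotient (Subgroup.zpowers ModularGroup.S)
        (SL(2, ℤ) ⧸ Gamma0 N))
      = ModularCurve.dedekindPsi N + ModularCurve.nuTwo N := by
  have h := h8_orbits_prime (X := SL(2, ℤ) ⧸ Gamma0 N) ModularGroup.S 2 Nat.prime_two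
    (h8_S_sq_smul N)
  rw [card_cosets, card_fixed_S] at h
  refine h.trans ?_
  ring

theorem three_mul_card_orbits_ST (N : ℕ) [NeZero N] :
    3 * Nat.card (MulAction.orbitRel.Quotient
        (Subgroup.zpowers (ModularGroup.S * ModularGroup.T)) (SL(2, ℤ) ⧸ Gamma0 N))
      = ModularCurve.dedekindPsi N + 2 * ModularCurve.nuThree N := by
  have h := h8_orbits_prime (X := SL(2, ℤ) ⧸ Gamma0 N) (ModularGroup.S * ModularGroup.T) 3
    Nat.prime_three (h8_ST_cube_smul N)
  rw [card_cosets, card_fixed_ST] at h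
  exact h

end RH24

end
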