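/-
T-RH slice C3 (helper5), for S24: the number of orbits of `T` on `SL(2,ℤ) ⧸ Γ₀(N)` (left
multiplication) is `cuspCount N = ∑_{d ∣ N} φ(gcd(d, N/d))`.

Route: the coset of `g` only depends on the first column `(a, c)` of `g` up to units mod `N`;
`g, g'` lie in the same `T`-orbit iff `gcd(c c', N) ∣ a' c - a c'` (`h5c3_orbit_iff_R`); the
invariants of an orbit are `d = gcd(c, N)` and `a (c/d)⁻¹ mod gcd(d, N/d)`.
-/
import Mathlib
import Fermat.Prelude.Def_ModularCurve_GenusNumerics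

set_option autoImplicit false

noncomputable section

open MatrixGroups CongruenceSubgroup

namespace RH24

/-- entry (1,0) of `(T^k * g')⁻¹ * g`. -/
theorem h5c3_entry (g g' : SL(2, ℤ)) (k : ℤ) :
    (((ModularGroup.T ^ k * g')⁻¹ * g : SL(2, ℤ)) 1 0 : ℤ)
      = g' 0 0 * g 1 0 - g 0 0 * g' 1 0 + k * (g 1 0 * g' 1 0) := by
  rw [Matrix.SpecialLinearGroup.coe_mul, Matrix.SpecialLinearGroup.coe_inv,
    Matrix.SpecialLinearGroup.coe_mul, ModularGroup.coe_T_zpow]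
  simp [Matrix.adjugate_fin_two, Matrix.mul_apply, Fin.sum_univ_two, Matrix.vecMul, dotProduct]
  ring

/-- the orbit relation of `⟨T⟩` on `SL(2,ℤ) ⧸ Γ₀(N)` in terms of matrix entries -/
theorem h5c3_orbit_iff (N : ℕ) (g g' : SL(2, ℤ)) :
    (MulAction.orbitRel (Subgroup.zpowers ModularGroup.T) (SL(2, ℤ) ⧸ Gamma0 N)).r
        (g : SL(2, ℤ) ⧸ Gamma0 N) (g' : SL(2, ℤ) ⧸ Gamma0 N) ↔
      ∃ k : ℤ, (N : ℤ) ∣ g' 0 0 * g 1 0 - g 0 0 * g' 1 0 + k * (g 1 0 * g' 1 0) := by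
  rw [MulAction.orbitRel_apply, MulAction.mem_orbit_iff]
  constructor
  · rintro ⟨⟨h, k, rfl⟩, hk⟩
    refine ⟨k, ?_⟩
    have h1 : ((ModularGroup.T ^ k * g' : SL(2, ℤ)) : SL(2, ℤ) ⧸ Gamma0 N) = g := hk
    rw [QuotientGroup.eq, Gamma0_mem, h5c3_entry] at h1
    exact (ZMod.intCast_zmod_eq_zero_iff_dvd _ N).mp h1
  · rintro ⟨k, hk⟩
    refine ⟨⟨ModularGroup.T ^ k, k, rfl⟩, ?_⟩
    change ((ModularGroup.T ^ k * g' : SL(2, ℤ)) : SL(2, ℤ) ⧸ Gamma0 N) = g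
    rw [QuotientGroup.eq, Gamma0_mem, h5c3_entry]
    exact (ZMod.intCast_zmod_eq_zero_iff_dvd _ N).mpr hk

/-- Bezout criterion. -/
theorem h5c3_crit (N : ℕ) (X Y : ℤ) :
    (∃ k : ℤ, (N : ℤ) ∣ X + k * Y) ↔ ((Int.gcd Y N : ℤ) ∣ X) := by
  constructor
  · rintro ⟨k, hk⟩
    have h1 : (Int.gcd Y N : ℤ) ∣ (N : ℤ) := Int.gcd_dvd_right _ _
    have h2 : (Int.gcd Y N : ℤ) ∣ Y := Int.gcd_dvd_left _ _
    have h3 : (Int.gcd Y N : ℤ) ∣ X + k * Y := h1.trans hk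
    have h4 : (Int.gcd Y N : ℤ) ∣ k * Y := Dvd.dvd.mul_left h2 k
    exact (Int.dvd_add_left h4).mp h3
  · rintro ⟨t, ht⟩
    have hb := Int.gcd_eq_gcd_ab Y N
    refine ⟨-(Int.gcdA Y N * t), Int.gcdB Y N * t, ?_⟩
    rw [ht, hb]
    ring

/-- the first column of a matrix in `SL(2,ℤ)` is primitive -/
theorem h5c3_coprime (g : Matrix.SpecialLinearGroup (Fin 2) ℤ) : IsCoprime (g 0 0) (g 1 0) := by
  have h := g.det_coe
  rw [Matrix.det_fin_two] at h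
  exact ⟨g 1 1, -(g 0 1), by linarith⟩

/-- gcd computation: `gcd(d u · d u', d e) = d · gcd(d, e)` if `u, u'` are prime to `e`. -/
theorem h5c3_gcd (d e : ℕ) (u u' : ℤ) (hu : IsCoprime u (e : ℤ)) (hu' : IsCoprime u' (e : ℤ)) :
    Int.gcd ((d : ℤ) * u * ((d : ℤ) * u')) ((d * e : ℕ) : ℤ) = d * Nat.gcd d e := by
  have e1 : (d : ℤ) * u * ((d : ℤ) * u') = (d : ℤ) * ((d : ℤ) * (u * u')) := by ring
  rw [e1, Nat.cast_mul, Int.gcd_mul_left, Int.natAbs_natCast]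
  congr 1
  have hc : IsCoprime (u * u') (e : ℤ) := hu.mul_left hu'
  have : Int.gcd ((d : ℤ) * (u * u')) (e : ℤ) = Int.gcd (d : ℤ) (e : ℤ) := by
    apply Nat.dvd_antisymm
    · have h1 : (Int.gcd ((d : ℤ) * (u * u')) (e : ℤ) : ℤ) ∣ (d : ℤ) * (u * u') := Int.gcd_dvd_left _ _
      have h2 : (Int.gcd ((d : ℤ) * (u * u')) (e : ℤ) : ℤ) ∣ (e : ℤ) := Int.gcd_dvd_right _ _
      have h3 : IsCoprime ((Int.gcd ((d : ℤ) * (u * u')) (e : ℤ) : ℤ)) (u * u') :=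
        (hc.symm.of_isCoprime_of_dvd_left h2)
      have h4 : (Int.gcd ((d : ℤ) * (u * u')) (e : ℤ) : ℤ) ∣ (d : ℤ) := h3.dvd_of_dvd_mul_right h1
      exact Int.natCast_dvd_natCast.mp (Int.dvd_coe_gcd h4 h2)
    · have h1 : (Int.gcd (d : ℤ) (e : ℤ) : ℤ) ∣ (d : ℤ) := Int.gcd_dvd_left _ _
      have h2 : (Int.gcd (d : ℤ) (e : ℤ) : ℤ) ∣ (e : ℤ) := Int.gcd_dvd_right _ _
      exact Int.natCast_dvd_natCast.mp (Int.dvd_coe_gcd (Dvd.dvd.mul_right h1 _) h2)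
  rw [this, Int.gcd_natCast_natCast]

/-- the relation on matrices describing the `T`-orbits on `SL(2,ℤ)/Γ₀(N)` -/
def h5c3_R (N : ℕ) (g g' : Matrix.SpecialLinearGroup (Fin 2) ℤ) : Prop :=
  (Int.gcd (g 1 0 * g' 1 0) N : ℤ) ∣ g' 0 0 * g 1 0 - g 0 0 * g' 1 0

/-- the modulus attached to a divisor -/
def h5c3_m (N d : ℕ) : ℕ := Nat.gcd d (N / d)

theorem h5c3_m_pos {N d : ℕ} (hN : N ≠ 0) (hd : d ∣ N) : 0 < h5c3_m N d := by
  unfold h5c3_m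
  have hd0 : d ≠ 0 := fun h => hN (by rw [h] at hd; exact zero_dvd_iff.mp hd)
  exact Nat.gcd_pos_of_pos_left _ (Nat.pos_of_ne_zero hd0)

theorem h5c3_m_dvd (N d : ℕ) : h5c3_m N d ∣ d := Nat.gcd_dvd_left _ _

/-- injectivity core -/
theorem h5c3_inj_core {N : ℕ} (hN : N ≠ 0) (g g' : Matrix.SpecialLinearGroup (Fin 2) ℤ)
    {d d' r r' : ℕ} (hd : d ∣ N) (hd' : d' ∣ N) (hc : g 1 0 = d) (hc' : g' 1 0 = d')
    (hr : ((h5c3_m N d : ℕ) : ℤ) ∣ g 0 0 - r) (hr' : ((h5c3_m N d' : ℕ) : ℤ) ∣ g' 0 0 - r')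
    (hrlt : r < h5c3_m N d) (hrlt' : r' < h5c3_m N d')
    (hR : h5c3_R N g g') : d = d' ∧ r = r' := by
  unfold h5c3_R at hR
  rw [hc, hc'] at hR
  have hd0 : d ≠ 0 := fun h => hN (by rw [h] at hd; exact zero_dvd_iff.mp hd)
  have hd0' : d' ≠ 0 := fun h => hN (by rw [h] at hd'; exact zero_dvd_iff.mp hd')
  have hcop : IsCoprime (g 0 0) (d : ℤ) := hc ▸ h5c3_coprime g
  have hcop' : IsCoprime (g' 0 0) (d' : ℤ) := hc' ▸ h5c3_coprime g'
  -- d ∣ d'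
  have h1 : (d : ℤ) ∣ (Int.gcd ((d : ℤ) * d') N : ℤ) :=
    Int.dvd_coe_gcd (Dvd.intro _ rfl) (Int.natCast_dvd_natCast.mpr hd)
  have h1' : (d' : ℤ) ∣ (Int.gcd ((d : ℤ) * d') N : ℤ) :=
    Int.dvd_coe_gcd (Dvd.intro_left _ rfl) (Int.natCast_dvd_natCast.mpr hd')
  have h2 : (d : ℤ) ∣ g 0 0 * d' := by
    have := h1.trans hR
    have h3 : (d : ℤ) ∣ g' 0 0 * d := Dvd.intro_left _ rfl
    have h4 := (Int.dvd_sub h3 this)
    simpa using h4
  have h2' : (d' : ℤ) ∣ g' 0 0 * d := by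
    have := h1'.trans hR
    have h3 : (d' : ℤ) ∣ g 0 0 * d' := Dvd.intro_left _ rfl
    have h4 := (Int.dvd_add this h3)
    simpa using h4
  have h5 : (d : ℤ) ∣ d' := hcop.symm.dvd_of_dvd_mul_left h2
  have h5' : (d' : ℤ) ∣ d := hcop'.symm.dvd_of_dvd_mul_left h2'
  have hdd : d = d' := Nat.dvd_antisymm (Int.natCast_dvd_natCast.mp h5) (Int.natCast_dvd_natCast.mp h5')
  subst hdd
  refine ⟨rfl, ?_⟩
  -- now the residues
  obtain ⟨e, he⟩ := hd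
  have hg := h5c3_gcd d e 1 1 isCoprime_one_left isCoprime_one_left
  simp only [mul_one] at hg
  have hNe : N / d = e := by rw [he]; exact Nat.mul_div_cancel_left e (Nat.pos_of_ne_zero hd0)
  have hm : h5c3_m N d = Nat.gcd d e := by unfold h5c3_m; rw [hNe]
  rw [he, hg] at hR
  have h6 : ((d * Nat.gcd d e : ℕ) : ℤ) ∣ (d : ℤ) * (g' 0 0 - g 0 0) := by
    have e1 : (d : ℤ) * (g' 0 0 - g 0 0) = g' 0 0 * d - g 0 0 * d := by ring
    rw [e1]; exact hR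
  rw [Nat.cast_mul] at h6
  have h7 : ((Nat.gcd d e : ℕ) : ℤ) ∣ g' 0 0 - g 0 0 :=
    (mul_dvd_mul_iff_left (by exact_mod_cast hd0)).mp h6
  rw [hm] at hr hr' hrlt hrlt'
  have h8 : ((Nat.gcd d e : ℕ) : ℤ) ∣ (r' : ℤ) - r := by
    have e2 : (r' : ℤ) - r = (g' 0 0 - g 0 0) - (g' 0 0 - r') + (g 0 0 - r) := by ring
    rw [e2]
    exact Int.dvd_add (Int.dvd_sub h7 hr') hr
  have h9 : (r' : ℤ) ≡ r [ZMOD (Nat.gcd d e : ℕ)] := (Int.modEq_iff_dvd.mpr (by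
    have : ((Nat.gcd d e : ℕ) : ℤ) ∣ (r : ℤ) - r' := by
      have := (Int.dvd_neg).mpr h8
      simpa using this
    exact this))
  have h10 : r' ≡ r [MOD Nat.gcd d e] := Int.natCast_modEq_iff.mp h9
  exact (Nat.ModEq.eq_of_lt_of_lt h10 hrlt' hrlt).symm

/-- surjectivity core -/
theorem h5c3_surj_core {N : ℕ} (hN : N ≠ 0) (g : Matrix.SpecialLinearGroup (Fin 2) ℤ) :
    ∃ d r : ℕ, d ∣ N ∧ r < h5c3_m N d ∧ Nat.Coprime (h5c3_m N d) r ∧
      ∀ g' : Matrix.SpecialLinearGroup (Fin 2) ℤ, g' 1 0 = d →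
        ((h5c3_m N d : ℕ) : ℤ) ∣ g' 0 0 - r → h5c3_R N g g' := by
  set a := g 0 0 with ha
  set c := g 1 0 with hc
  set d := Int.gcd c N with hd
  have hdN : d ∣ N := Int.natCast_dvd_natCast.mp (Int.gcd_dvd_right c N)
  have hd0 : d ≠ 0 := fun h => hN (by rw [h] at hdN; exact zero_dvd_iff.mp hdN)
  have hdpos : 0 < d := Nat.pos_of_ne_zero hd0
  obtain ⟨e, he⟩ := hdN
  have hdc : (d : ℤ) ∣ c := Int.gcd_dvd_left c N
  obtain ⟨u, hu⟩ := hdc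
  have hNe : N / d = e := by rw [he]; exact Nat.mul_div_cancel_left e hdpos
  have hm : h5c3_m N d = Nat.gcd d e := by unfold h5c3_m; rw [hNe]
  -- u is prime to e
  have hue : IsCoprime u (e : ℤ) := by
    have h1 := Int.gcd_div_gcd_div_gcd (i := c) (j := (N : ℤ)) (by rw [← hd]; exact hdpos)
    rw [← hd] at h1
    have e1 : c / (d : ℤ) = u := by
      rw [hu]; exact Int.mul_ediv_cancel_left u (by exact_mod_cast hd0)
    have e2 : (N : ℤ) / (d : ℤ) = e := by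
      rw [he]; push_cast; exact Int.mul_ediv_cancel_left _ (by exact_mod_cast hd0)
    rw [e1, e2] at h1
    exact Int.isCoprime_iff_gcd_eq_one.mpr h1
  obtain ⟨x, y, hxy⟩ := hue
  have hmpos : 0 < Nat.gcd d e := Nat.gcd_pos_of_pos_left _ hdpos
  have hmpos' : (0 : ℤ) < ((Nat.gcd d e : ℕ) : ℤ) := by exact_mod_cast hmpos
  have hme : ((Nat.gcd d e : ℕ) : ℤ) ∣ (e : ℤ) := Int.natCast_dvd_natCast.mpr (Nat.gcd_dvd_right d e)
  have hmd : ((Nat.gcd d e : ℕ) : ℤ) ∣ (d : ℤ) := Int.natCast_dvd_natCast.mpr (Nat.gcd_dvd_left d e)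
  -- the residue
  set r := ((a * x) % ((Nat.gcd d e : ℕ) : ℤ)).toNat with hr
  have hr0 : 0 ≤ (a * x) % ((Nat.gcd d e : ℕ) : ℤ) := Int.emod_nonneg _ hmpos'.ne'
  have hrcast : (r : ℤ) = (a * x) % ((Nat.gcd d e : ℕ) : ℤ) := Int.toNat_of_nonneg hr0
  have hrlt : r < Nat.gcd d e := by
    have := Int.emod_lt_of_pos (a * x) hmpos'
    rw [← hrcast] at this
    exact_mod_cast this
  have hrdvd : ((Nat.gcd d e : ℕ) : ℤ) ∣ a * x - r := by
    rw [hrcast]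
    exact ⟨(a * x) / ((Nat.gcd d e : ℕ) : ℤ), by
      have := Int.emod_add_mul_ediv (a * x) ((Nat.gcd d e : ℕ) : ℤ); linarith⟩
  -- coprimality
  have hcop_a : IsCoprime a ((Nat.gcd d e : ℕ) : ℤ) := by
    have h1 : IsCoprime a c := h5c3_coprime g
    exact h1.of_isCoprime_of_dvd_right (hmd.trans ⟨u, hu⟩)
  have hcop_x : IsCoprime x ((Nat.gcd d e : ℕ) : ℤ) := by
    have h1 : IsCoprime x (e : ℤ) := ⟨u, y, by linarith⟩
    exact h1.of_isCoprime_of_dvd_right hme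
  have hcop_ax : IsCoprime (a * x) ((Nat.gcd d e : ℕ) : ℤ) := hcop_a.mul_left hcop_x
  have hcop_r : IsCoprime (r : ℤ) ((Nat.gcd d e : ℕ) : ℤ) := by
    obtain ⟨t, ht⟩ := hrdvd
    have e3 : (r : ℤ) = a * x + ((Nat.gcd d e : ℕ) : ℤ) * (-t) := by linarith
    rw [e3]
    exact (IsCoprime.add_mul_left_left_iff).mpr hcop_ax
  have hcop_r' : Nat.Coprime (Nat.gcd d e) r := by
    have := Int.isCoprime_iff_gcd_eq_one.mp hcop_r
    rw [Int.gcd_natCast_natCast] at this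
    exact Nat.Coprime.symm this
  refine ⟨d, r, ⟨e, he⟩, by rw [hm]; exact hrlt, by rw [hm]; exact hcop_r', ?_⟩
  intro g' hc' hr'
  rw [hm] at hr'
  unfold h5c3_R
  rw [← hc, hc', hu]
  have hg := h5c3_gcd d e u 1 ⟨x, y, hxy⟩ isCoprime_one_left
  rw [mul_one] at hg
  have e4 : ((N : ℕ) : ℤ) = ((d * e : ℕ) : ℤ) := by rw [he]
  rw [e4, hg, ← ha]
  have e5 : g' 0 0 * ((d : ℤ) * u) - a * (d : ℤ) = (d : ℤ) * (g' 0 0 * u - a) := by ring
  rw [e5, Nat.cast_mul]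
  apply mul_dvd_mul_left
  have e6 : g' 0 0 * u - a = (g' 0 0 - r) * u - (a * x - r) * u - a * (y * e) := by
    have : x * u = 1 - y * e := by linarith
    linear_combination (a) * this
  rw [e6]
  exact Int.dvd_sub (Int.dvd_sub (Dvd.dvd.mul_right hr' _) (Dvd.dvd.mul_right hrdvd _))
    (Dvd.dvd.mul_left (Dvd.dvd.mul_left hme _) _)

/-- orbit relation = `h5c3_R` -/
theorem h5c3_orbit_iff_R (N : ℕ) (g g' : SL(2, ℤ)) :
    (MulAction.orbitRel (Subgroup.zpowers ModularGroup.T) (SL(2, ℤ) ⧸ Gamma0 N)).r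
        (g : SL(2, ℤ) ⧸ Gamma0 N) (g' : SL(2, ℤ) ⧸ Gamma0 N) ↔ h5c3_R N g g' := by
  rw [h5c3_orbit_iff, h5c3_crit]
  rfl

/-- lifting a residue prime to `n` to an integer prime to `m` (copy of the argument in
`ZMod.unitsMap_surjective`) -/
theorem h5c3_lift {n m : ℕ} (hm : m ≠ 0) (x : ℕ) (hx : x.Coprime n) :
    ∃ k : ℕ, (x + k * n).Coprime m := by
  let ps : Finset ℕ := {p ∈ m.primeFactors | ¬p ∣ x}
  use ps.prod id
  apply Nat.coprime_of_dvd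
  intro p pp hp hpn
  by_cases hpx : p ∣ x
  · have h := Nat.dvd_sub hp hpx
    rw [add_comm, Nat.add_sub_cancel] at h
    rcases pp.dvd_mul.mp h with h | h
    · have ⟨q, hq, hq'⟩ := (pp.prime.dvd_finsetProd_iff id).mp h
      rw [Finset.mem_filter, Nat.mem_primeFactors,
        ← (Nat.prime_dvd_prime_iff_eq pp hq.1.1).mp hq'] at hq
      exact hq.2 hpx
    · exact Nat.Prime.not_coprime_iff_dvd.mpr ⟨p, pp, hpx, h⟩ hx
  · have pps : p ∈ ps := Finset.mem_filter.mpr ⟨Nat.mem_primeFactors.mpr ⟨pp, hpn, hm⟩, hpx⟩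
    have h := Nat.dvd_sub hp ((Finset.dvd_prod_of_mem id pps).mul_right n)
    rw [Nat.add_sub_cancel] at h
    contradiction

/-- existence of a representative matrix -/
theorem h5c3_exists_rep {N : ℕ} (hN : N ≠ 0) {d r : ℕ} (hd : d ∣ N)
    (hr : Nat.Coprime (h5c3_m N d) r) :
    ∃ g : SL(2, ℤ), g 1 0 = d ∧ ((h5c3_m N d : ℕ) : ℤ) ∣ g 0 0 - r := by
  have hd0 : d ≠ 0 := fun h => hN (by rw [h] at hd; exact zero_dvd_iff.mp hd)
  obtain ⟨k, hk⟩ := h5c3_lift (n := h5c3_m N d) hd0 r hr.symm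
  have hcop : IsCoprime ((r + k * h5c3_m N d : ℕ) : ℤ) (d : ℤ) := by
    rw [Int.isCoprime_iff_gcd_eq_one, Int.gcd_natCast_natCast]
    exact hk
  obtain ⟨x, y, hxy⟩ := hcop
  refine ⟨⟨!![((r + k * h5c3_m N d : ℕ) : ℤ), -y; (d : ℤ), x], ?_⟩, ?_, ?_⟩
  · rw [Matrix.det_fin_two_of]
    linarith
  · simp
  · simp only [Matrix.of_apply, Matrix.cons_val', Matrix.cons_val_zero,
      Matrix.cons_val_fin_one]
    push_cast
    exact ⟨k, by ring⟩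

/-- the representative -/
def h5c3_rep (N : ℕ) (d r : ℕ) : SL(2, ℤ) :=
  if h : N ≠ 0 ∧ d ∣ N ∧ Nat.Coprime (h5c3_m N d) r then
    Classical.choose (h5c3_exists_rep h.1 h.2.1 h.2.2) else 1

theorem h5c3_rep_spec {N : ℕ} (hN : N ≠ 0) {d r : ℕ} (hd : d ∣ N)
    (hr : Nat.Coprime (h5c3_m N d) r) :
    h5c3_rep N d r 1 0 = d ∧ ((h5c3_m N d : ℕ) : ℤ) ∣ h5c3_rep N d r 0 0 - r := by
  unfold h5c3_rep
  rw [dif_pos ⟨hN, hd, hr⟩]
  exact Classical.choose_spec (h5c3_exists_rep hN hd hr)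

/-- the index set -/
def h5c3_S (N : ℕ) : Finset ((_ : ℕ) × ℕ) :=
  N.divisors.sigma (fun d => (Finset.range (h5c3_m N d)).filter (fun r => (h5c3_m N d).Coprime r))

theorem h5c3_card_S (N : ℕ) : (h5c3_S N).card = ModularCurve.cuspCount N := by
  unfold h5c3_S ModularCurve.cuspCount
  rw [Finset.card_sigma]
  apply Finset.sum_congr rfl
  intro d _
  rw [Nat.totient_eq_card_coprime]
  rfl

theorem h5c3_mem_S {N : ℕ} (hN : N ≠ 0) {s : (_ : ℕ) × ℕ} :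
    s ∈ h5c3_S N ↔ s.1 ∣ N ∧ s.2 < h5c3_m N s.1 ∧ (h5c3_m N s.1).Coprime s.2 := by
  unfold h5c3_S
  rw [Finset.mem_sigma, Nat.mem_divisors, Finset.mem_filter, Finset.mem_range]
  tauto

/-- the map from the index set to the set of orbits -/
def h5c3_Psi (N : ℕ) (s : h5c3_S N) :
    MulAction.orbitRel.Quotient (Subgroup.zpowers ModularGroup.T) (SL(2, ℤ) ⧸ Gamma0 N) :=
  Quotient.mk'' ((h5c3_rep N s.1.1 s.1.2 : SL(2, ℤ)) : SL(2, ℤ) ⧸ Gamma0 N)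

theorem h5c3_Psi_bijective (N : ℕ) [NeZero N] : Function.Bijective (h5c3_Psi N) := by
  have hN : N ≠ 0 := NeZero.ne N
  constructor
  · rintro ⟨s, hs⟩ ⟨s', hs'⟩ h
    have hs1 := (h5c3_mem_S hN).mp hs
    have hs1' := (h5c3_mem_S hN).mp hs'
    have h1 := Quotient.eq''.mp h
    have h2 := (h5c3_orbit_iff_R N _ _).mp h1
    have sp := h5c3_rep_spec hN hs1.1 hs1.2.2
    have sp' := h5c3_rep_spec hN hs1'.1 hs1'.2.2
    obtain ⟨e1, e2⟩ := h5c3_inj_core hN _ _ hs1.1 hs1'.1 sp.1 sp'.1 sp.2 sp'.2 hs1.2.1 hs1'.2.1 h2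
    apply Subtype.ext
    exact Sigma.ext e1 (heq_of_eq e2)
  · intro ω
    induction ω using Quotient.inductionOn' with
    | h x =>
      induction x using QuotientGroup.induction_on with
      | H g =>
        obtain ⟨d, r, hd, hrlt, hcop, hall⟩ := h5c3_surj_core hN g
        have hmem : (⟨d, r⟩ : (_ : ℕ) × ℕ) ∈ h5c3_S N := (h5c3_mem_S hN).mpr ⟨hd, hrlt, hcop⟩
        refine ⟨⟨⟨d, r⟩, hmem⟩, ?_⟩
        have sp := h5c3_rep_spec hN hd hcop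
        have hR := hall (h5c3_rep N d r) sp.1 sp.2
        have h1 := (h5c3_orbit_iff_R N g (h5c3_rep N d r)).mpr hR
        exact (Quotient.eq''.mpr h1).symm

/-- **C3**: the number of `T`-orbits is the number of cusps. -/
theorem card_orbits_T (N : ℕ) [NeZero N] :
    Nat.card (MulAction.orbitRel.Quotient (Subgroup.zpowers ModularGroup.T)
        (SL(2, ℤ) ⧸ Gamma0 N))
      = ModularCurve.cuspCount N := by
  rw [← Nat.card_eq_of_bijective _ (h5c3_Psi_bijective N), Nat.card_eq_fintype_card,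
    Fintype.card_coe, h5c3_card_S]

end RH24
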