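/-
T-RH (S24), slice BL (helper6): level one, orders of `j - c` (on top of B2).
Statements are those of NOTES/S24_layerB.md (section BL).
-/
import Mathlib
import Fermat.Agent.S24.BDefs
import Fermat.Agent.S24.B2

set_option autoImplicit false

noncomputable section

open UpperHalfPlane ModularForm MatrixGroups CongruenceSubgroup
open scoped Topology Real Manifold

namespace RH24

theorem h6_jf_eq_iff (z : ℍ) (c : ℂ) : jf z = c ↔ Aform c z = 0 := by
  unfold jf Aform
  have hΔ := ModularForm.discriminant_ne_zero z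
  rw [div_eq_iff hΔ, sub_eq_zero]

theorem exists_jf_eq (c : ℂ) : ∃ z : ℍ, jf z = c := by
  obtain ⟨z, hz⟩ := exists_zero_Aform c
  exact ⟨z, (h6_jf_eq_iff z c).mpr hz⟩

theorem h6_analyticAt_disc_inv (z₀ : ℍ) :
    AnalyticAt ℂ (fun w : ℂ => (ModularForm.discriminant (ofComplex w))⁻¹) (z₀ : ℂ) := by
  have h : MDiff (⇑CuspForm.discriminant) := CuspForm.discriminant.holo'
  rw [UpperHalfPlane.mdifferentiable_iff] at h
  have han : AnalyticAt ℂ (fun w : ℂ => ModularForm.discriminant (ofComplex w)) (z₀ : ℂ) :=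
    h.analyticAt (isOpen_upperHalfPlaneSet.mem_nhds z₀.im_pos)
  refine han.inv ?_
  simpa using ModularForm.discriminant_ne_zero z₀

theorem h6_order_disc_inv (z₀ : ℍ) :
    analyticOrderAt (fun w : ℂ => (ModularForm.discriminant (ofComplex w))⁻¹) (z₀ : ℂ) = 0 := by
  rw [(h6_analyticAt_disc_inv z₀).analyticOrderAt_eq_zero]
  simpa using ModularForm.discriminant_ne_zero z₀

/-- order of `f / Δ` is the order of `f` -/
theorem h6_order_div_disc (z₀ : ℍ) (f : ℂ → ℂ) (hf : AnalyticAt ℂ f (z₀ : ℂ)) :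
    analyticOrderAt (fun w : ℂ => f w / ModularForm.discriminant (ofComplex w)) (z₀ : ℂ)
      = analyticOrderAt f (z₀ : ℂ) := by
  have h := analyticOrderAt_mul hf (h6_analyticAt_disc_inv z₀)
  rw [h6_order_disc_inv, add_zero] at h
  rw [← h]
  rfl

theorem h6_analyticAt_Aform (a : ℂ) (z₀ : ℍ) :
    AnalyticAt ℂ (fun w : ℂ => Aform a (ofComplex w)) (z₀ : ℂ) := by
  have h := h6_Aform_mdiff a
  rw [UpperHalfPlane.mdifferentiable_iff] at h
  exact h.analyticAt (isOpen_upperHalfPlaneSet.mem_nhds z₀.im_pos)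

theorem ordAt_jf_sub_generic (z₀ : ℍ) (h0 : jf z₀ ≠ 0) (h1 : jf z₀ ≠ 1728) :
    ordAt z₀ (fun z => jf z - jf z₀) = 1 := by
  unfold ordAt
  have hfun : (fun w : ℂ => jf (ofComplex w) - jf z₀)
      = fun w : ℂ => Aform (jf z₀) (ofComplex w) / ModularForm.discriminant (ofComplex w) := by
    funext w
    unfold jf Aform
    have hΔ := ModularForm.discriminant_ne_zero (ofComplex w)
    field_simp
  rw [hfun, h6_order_div_disc z₀ _ (h6_analyticAt_Aform _ z₀)]
  exact order_Aform_generic (jf z₀) h0 h1 z₀ ((h6_jf_eq_iff z₀ _).mp rfl)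

theorem ordAt_jf_of_zero (z₀ : ℍ) (h : jf z₀ = 0) : ordAt z₀ jf = 3 := by
  unfold ordAt
  have hE4 : E₄ z₀ = 0 := by
    have := (h6_jf_eq_iff z₀ 0).mp h
    unfold Aform at this
    simpa using this
  have hfun : (fun w : ℂ => jf (ofComplex w))
      = fun w : ℂ => ((fun w : ℂ => E₄ (ofComplex w)) ^ 3) w
          / ModularForm.discriminant (ofComplex w) := by
    funext w
    rfl
  rw [hfun, h6_order_div_disc z₀ _ ((h6_analyticAt E₄ z₀).pow 3),
    analyticOrderAt_pow (h6_analyticAt E₄ z₀), order_E4_of_zero z₀ hE4]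
  rfl

theorem ordAt_jf_sub_1728 (z₀ : ℍ) (h : jf z₀ = 1728) :
    ordAt z₀ (fun z => jf z - 1728) = 2 := by
  unfold ordAt
  have hE6 : E₆ z₀ = 0 := by
    have h1 := (h6_jf_eq_iff z₀ 1728).mp h
    rw [h6_Aform_eq] at h1
    have : E₆ z₀ ^ 2 = 0 := by
      have h2 : (1 - (1728:ℂ) / 1728) = 0 := by norm_num
      have h3 : ((1728:ℂ) / 1728) = 1 := by norm_num
      rw [h2, h3] at h1
      simpa using h1
    exact pow_eq_zero_iff (by norm_num) |>.mp this
  have hfun : (fun w : ℂ => jf (ofComplex w) - 1728)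
      = fun w : ℂ => ((fun w : ℂ => E₆ (ofComplex w)) ^ 2) w
          / ModularForm.discriminant (ofComplex w) := by
    funext w
    have hΔ := ModularForm.discriminant_ne_zero (ofComplex w)
    have hΔ' := ModularForm.discriminant_eq_E₄_cube_sub_E₆_sq (ofComplex w)
    unfold jf
    simp only [Pi.pow_apply]
    field_simp
    rw [hΔ']
    ring
  rw [hfun, h6_order_div_disc z₀ _ ((h6_analyticAt E₆ z₀).pow 2),
    analyticOrderAt_pow (h6_analyticAt E₆ z₀), order_E6_of_zero z₀ hE6]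
  rfl

theorem exists_fixed_ST :
    ∃ z₀ : ℍ, (ModularGroup.S * ModularGroup.T) • z₀ = z₀ ∧ jf z₀ = 0 := by
  refine ⟨rho, ST_smul_rho, ?_⟩
  unfold jf
  rw [E4_rho]
  simp

theorem exists_fixed_S : ∃ z₀ : ℍ, ModularGroup.S • z₀ = z₀ ∧ jf z₀ = 1728 := by
  refine ⟨UpperHalfPlane.I, S_smul_I, ?_⟩
  rw [h6_jf_eq_iff, h6_Aform_eq, E6_I]
  norm_num

end RH24
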