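import Mathlib
import Fermat.Agent.S24.A3a
import Fermat.Agent.S24.A3b

/-!
# T-RH (S24), slice A3b (helper22): contract statements

* `RH24.dCoordGenerates`: exact contract statement (from A3a).
* `RH24.h22a_ordDifferential_D_of_deg`: the local formula, with the A1 statement `v.deg = 1`
  as a hypothesis.
-/

set_option autoImplicit false

noncomputable section

namespace RH24

open AlgebraicCurve KaehlerDifferential IntermediateField

variable {K F : Type*} [Field K] [IsAlgClosed K] [CharZero K] [Field F] [Algebra K F]

/-- A3b: the differential of the uniformizer spans `Ω[F⁄K]`. -/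
theorem dCoordGenerates (y : F) (hy : Transcendental K y) [FiniteDimensional K⟮y⟯ F]
    (v : Place K F) : v.DCoordGenerates :=
  h22a_dCoordGenerates_of v fun f hf => span_D_eq_top y hy f hf

/-- A3b: the local formula, assuming `v.deg = 1` (A1). -/
theorem h22a_ordDifferential_D_of_deg (y : F) (hy : Transcendental K y)
    [FiniteDimensional K⟮y⟯ F] (v : Place K F) (hdeg : v.deg = 1) (f : F) (hf : v.ord f ≠ 0) :
    v.ordDifferential (D K F f) = v.ord f - 1 :=
  h22a_ordDifferential_D_of v hdeg (fun f hf => span_D_eq_top y hy f hf)
    (fun f hf => D_ne_zero y hy f hf) f hf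

end RH24
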