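import Mathlib
import Fermat.Agent.S24.A2

set_option autoImplicit false
set_option linter.style.haveILetI false
set_option linter.unusedSectionVars false

noncomputable section

open AlgebraicCurve IntermediateField KaehlerDifferential

namespace RH24

section A4

variable {K F : Type*} [Field K] [Field F] [Algebra K F]

/-- the hypotheses from slice A3b that A4 uses -/
structure h5a_A3b (K F : Type*) [Field K] [Field F] [Algebra K F] : Prop where
  gen : ∀ v : Place K F, v.DCoordGenerates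
  ordD : ∀ (v : Place K F) (f : F), v.ord f ≠ 0 →
    v.ordDifferential (D K F f) = v.ord f - 1

/-- the hypothesis from slice A5 that A4 uses -/
def h5a_A5 (K F : Type*) [Field K] [Field F] [Algebra K F] (X : Type*) : Prop :=
  ∀ z : F, Transcendental K z → FiniteDimensional K⟮z⟯ F →
    Module.finrank K⟮z⟯ F ≤ Nat.card X →
    ∀ r : Setoid X, HasLocalData K z r →
      Nat.card {v : Place K F // 0 < v.ord z} = Nat.card (Quotient r)

/-- data about the zeros of a transcendental `z`: a finset `Z` with `v ∈ Z ↔ 0 < ord_v z`,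
`∑_{v ∈ Z} ord_v z = [F : K(z)]`. -/
theorem h5a_zero_data (h1 : h5a_A1 K F) (z : F) (hz : Transcendental K z)
    (hfd : FiniteDimensional K⟮z⟯ F) :
    ∃ Z : Finset (Place K F), (∀ v, v ∈ Z ↔ 0 < v.ord z) ∧
      ∑ v ∈ Z, v.ord z = (Module.finrank K⟮z⟯ F : ℤ) ∧
      Z.card = Nat.card {v : Place K F // 0 < v.ord z} := by
  have hZ := h1.fin z hz hfd
  refine ⟨h5a_zeros z hZ, h5a_mem_zeros z hZ, ?_, h5a_card_zeros z hZ⟩
  rw [h5a_sum_zeros z hZ, h1.sum z hz hfd]

/-- zeros of `y - a`: finset `Z`, sum of orders `= n`, cardinality given by `A5`. -/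
theorem h5a_fibre_data (h1 : h5a_A1 K F) (y : F) (hy : Transcendental K y)
    [FiniteDimensional K⟮y⟯ F] {X : Type*} (h5 : h5a_A5 K F X)
    (hdeg : Module.finrank K⟮y⟯ F ≤ Nat.card X) (a : K) (r : Setoid X)
    (L : HasLocalData K (y - algebraMap K F a) r) :
    ∃ Z : Finset (Place K F), (∀ v, v ∈ Z ↔ 0 < v.ord (y - algebraMap K F a)) ∧
      ∑ v ∈ Z, v.ord (y - algebraMap K F a) = (Module.finrank K⟮y⟯ F : ℤ) ∧
      Z.card = Nat.card (Quotient r) := by
  have hz := h5a_transcendental_sub_const y hy a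
  have hfd : FiniteDimensional K⟮y - algebraMap K F a⟯ F := by
    rw [h5a_adjoin_sub_const]; infer_instance
  have hn : Module.finrank K⟮y - algebraMap K F a⟯ F = Module.finrank K⟮y⟯ F := by
    rw [h5a_adjoin_sub_const]
  obtain ⟨Z, hZ1, hZ2, hZ3⟩ := h5a_zero_data h1 _ hz hfd
  refine ⟨Z, hZ1, by rw [hZ2, hn], ?_⟩
  rw [hZ3]
  exact h5 _ hz hfd (by rw [hn]; exact hdeg) r L

/-- poles of `y`: finset `Z`, sum of orders of `y⁻¹` `= n`, cardinality given by `A5`. -/
theorem h5a_pole_data (h1 : h5a_A1 K F) (y : F) (hy : Transcendental K y)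
    [FiniteDimensional K⟮y⟯ F] {X : Type*} (h5 : h5a_A5 K F X)
    (hdeg : Module.finrank K⟮y⟯ F ≤ Nat.card X) (r : Setoid X)
    (L : HasLocalData K y⁻¹ r) :
    ∃ Z : Finset (Place K F), (∀ v, v ∈ Z ↔ 0 < v.ord y⁻¹) ∧
      ∑ v ∈ Z, v.ord y⁻¹ = (Module.finrank K⟮y⟯ F : ℤ) ∧
      Z.card = Nat.card (Quotient r) := by
  have hz := h5a_transcendental_inv y hy
  have hfd : FiniteDimensional K⟮y⁻¹⟯ F := by
    rw [h5a_adjoin_inv]; infer_instance
  have hn : Module.finrank K⟮y⁻¹⟯ F = Module.finrank K⟮y⟯ F := by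
    rw [h5a_adjoin_inv]
  obtain ⟨Z, hZ1, hZ2, hZ3⟩ := h5a_zero_data h1 _ hz hfd
  refine ⟨Z, hZ1, by rw [hZ2, hn], ?_⟩
  rw [hZ3]
  exact h5 _ hz hfd (by rw [hn]; exact hdeg) r L

/-- a finset of positive integers with sum `n` and at least `n` elements consists of ones -/
theorem h5a_all_one {ι : Type*} (Z : Finset ι) (e : ι → ℤ) (n : ℤ) (hpos : ∀ v ∈ Z, 0 < e v)
    (hsum : ∑ v ∈ Z, e v = n) (hcard : n ≤ Z.card) : (Z.card : ℤ) = n ∧ ∀ v ∈ Z, e v = 1 := by
  have h1 : ∑ v ∈ Z, (e v - 1) = n - Z.card := by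
    rw [Finset.sum_sub_distrib, hsum]
    simp
  have h2 : ∀ v ∈ Z, 0 ≤ e v - 1 := fun v hv => by have := hpos v hv; omega
  have h3 : 0 ≤ ∑ v ∈ Z, (e v - 1) := Finset.sum_nonneg h2
  have h4 : ∑ v ∈ Z, (e v - 1) = 0 := by omega
  refine ⟨by omega, fun v hv => ?_⟩
  have := (Finset.sum_eq_zero_iff_of_nonneg h2).mp h4 v hv
  omega

/-- the order of the differential `D y` at a place, in terms of the order of `y - a`
resp. `y⁻¹` -/
theorem h5a_ordD_finite (h3 : h5a_A3b K F) (y : F) (a : K) (v : Place K F)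
    (h : 0 < v.ord (y - algebraMap K F a)) :
    v.ordDifferential (D K F y) = v.ord (y - algebraMap K F a) - 1 := by
  have := h3.ordD v (y - algebraMap K F a) (by omega)
  rwa [map_sub, Derivation.map_algebraMap, sub_zero] at this

theorem h5a_ordD_pole (h3 : h5a_A3b K F) (y : F) (v : Place K F)
    (h : 0 < v.ord y⁻¹) :
    v.ordDifferential (D K F y) = - v.ord y⁻¹ - 1 := by
  rw [Place.ord_inv] at h
  rw [h3.ordD v y (by omega), Place.ord_inv]
  ring

/-- two different fibres are disjoint -/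
theorem h5a_fibre_disjoint (y : F) (a b : K) (hab : a ≠ b) (v : Place K F)
    (ha : 0 < v.ord (y - algebraMap K F a)) (hb : 0 < v.ord (y - algebraMap K F b)) : False := by
  have hne : algebraMap K F (b - a) ≠ 0 := by
    rw [Ne, map_eq_zero, sub_eq_zero]
    exact fun h => hab h.symm
  have h0 : v.ord (algebraMap K F (b - a)) = 0 := h20_ord_algebraMap v _
  have e : algebraMap K F (b - a) = (y - algebraMap K F a) + -(y - algebraMap K F b) := by
    rw [map_sub]; ring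
  have hya : y - algebraMap K F a ≠ 0 := by
    intro h; rw [h, Place.ord_zero] at ha; exact lt_irrefl _ ha
  have hyb : y - algebraMap K F b ≠ 0 := by
    intro h; rw [h, Place.ord_zero] at hb; exact lt_irrefl _ hb
  have hnb : v.ord (-(y - algebraMap K F b)) = v.ord (y - algebraMap K F b) := by
    rw [Place.ord, Place.ord, Valuation.map_neg]
  have := h20_ord_add v hya (neg_ne_zero.mpr hyb) (by rw [← e]; exact hne)
  rw [← e, h0, hnb] at this
  have := lt_min ha hb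
  omega

/-- a pole is not in a finite fibre -/
theorem h5a_fibre_pole_disjoint (y : F) (a : K) (v : Place K F)
    (ha : 0 < v.ord (y - algebraMap K F a)) (hb : 0 < v.ord y⁻¹) : False := by
  rw [Place.ord_inv] at hb
  have hy0 : y ≠ 0 := by
    intro h; rw [h, Place.ord_zero] at hb; omega
  rcases eq_or_ne a 0 with rfl | ha0
  · rw [map_zero, sub_zero] at ha; omega
  have hc : algebraMap K F a ≠ 0 := by rwa [Ne, map_eq_zero]
  have hnc : v.ord (-algebraMap K F a) = 0 := by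
    rw [Place.ord, Valuation.map_neg, ← Place.ord, h20_ord_algebraMap]
  have := h20_ord_add_eq_of_lt v hy0 (neg_ne_zero.mpr hc) (by rw [hnc]; omega)
  rw [← sub_eq_add_neg] at this
  omega

theorem h5a_card_quotient_bot (X : Type*) :
    Nat.card (Quotient (⊥ : Setoid X)) = Nat.card X := by
  apply Nat.card_congr
  refine Equiv.ofBijective (Quotient.lift (fun x : X => x) (fun a b h => ?_)) ⟨?_, ?_⟩
  · have h' : (⊥ : Setoid X) a b := h
    rw [Setoid.bot_def] at h'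
    exact h'
  · intro p q
    induction p using Quotient.inductionOn with | h a => ?_
    induction q using Quotient.inductionOn with | h b => ?_
    intro h
    have h' : a = b := h
    rw [h']
  · intro x
    exact ⟨Quotient.mk _ x, rfl⟩

/-- the divisor of the differential `D y` has the Riemann–Hurwitz degree -/
theorem h5a_degree_Dy [IsAlgClosed K] [CharZero K]
    (h1 : h5a_A1 K F) (h3 : h5a_A3b K F)
    (y : F) (hy : Transcendental K y) [FiniteDimensional K⟮y⟯ F]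
    {X : Type*} [Finite X] (h5 : h5a_A5 K F X)
    (hdeg : Module.finrank K⟮y⟯ F ≤ Nat.card X)
    (a₁ a₂ : K) (h12 : a₁ ≠ a₂) (r₁ r₂ r₃ : Setoid X)
    (L₁ : HasLocalData K (y - algebraMap K F a₁) r₁)
    (L₂ : HasLocalData K (y - algebraMap K F a₂) r₂)
    (L₃ : HasLocalData K y⁻¹ r₃)
    (Lgen : ∀ a : K, a ≠ a₁ → a ≠ a₂ → HasLocalData K (y - algebraMap K F a) (⊥ : Setoid X))
    (W : Divisor K F) (hW : ∀ v : Place K F, W v = v.ordDifferential (D K F y)) :
    Divisor.degree W =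
      ((Nat.card X : ℤ) - Nat.card (Quotient r₁)) + ((Nat.card X : ℤ) - Nat.card (Quotient r₂))
        - ((Nat.card X : ℤ) + Nat.card (Quotient r₃)) := by
  classical
  obtain ⟨Z₁, hZ₁m, hZ₁s, hZ₁c⟩ := h5a_fibre_data h1 y hy h5 hdeg a₁ r₁ L₁
  obtain ⟨Z₂, hZ₂m, hZ₂s, hZ₂c⟩ := h5a_fibre_data h1 y hy h5 hdeg a₂ r₂ L₂
  obtain ⟨Z₃, hZ₃m, hZ₃s, hZ₃c⟩ := h5a_pole_data h1 y hy h5 hdeg r₃ L₃
  have hgen : ∀ a, a ≠ a₁ → a ≠ a₂ → (Nat.card X : ℤ) = (Module.finrank K⟮y⟯ F : ℤ) ∧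
      ∀ v : Place K F, 0 < v.ord (y - algebraMap K F a) → v.ord (y - algebraMap K F a) = 1 := by
    intro a ha1 ha2
    obtain ⟨Z, hZm, hZs, hZc⟩ := h5a_fibre_data h1 y hy h5 hdeg a ⊥ (Lgen a ha1 ha2)
    rw [h5a_card_quotient_bot] at hZc
    have := h5a_all_one Z (fun v => v.ord (y - algebraMap K F a)) _
      (fun v hv => (hZm v).mp hv) hZs (by rw [hZc]; exact_mod_cast hdeg)
    rw [hZc] at this
    exact ⟨this.1, fun v hv => this.2 v ((hZm v).mpr hv)⟩
  obtain ⟨a₃, ha3⟩ := Infinite.exists_notMem_finset ({a₁, a₂} : Finset K)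
  have ha31 : a₃ ≠ a₁ := fun h => ha3 (by simp [h])
  have ha32 : a₃ ≠ a₂ := fun h => ha3 (by simp [h])
  have hn := (hgen a₃ ha31 ha32).1
  have hsub : W.support ⊆ Z₁ ∪ Z₂ ∪ Z₃ := by
    intro v hv
    rw [Finsupp.mem_support_iff, hW] at hv
    by_contra hnot
    simp only [Finset.mem_union, hZ₁m, hZ₂m, hZ₃m, not_or] at hnot
    obtain ⟨⟨hn1, hn2⟩, hn3⟩ := hnot
    have hy0 : 0 ≤ v.ord y := by
      rw [Place.ord_inv] at hn3; omega
    obtain ⟨a, ha⟩ := h1.center y hy inferInstance v hy0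
    have ha1 : a ≠ a₁ := by rintro rfl; exact hn1 ha
    have ha2 : a ≠ a₂ := by rintro rfl; exact hn2 ha
    apply hv
    rw [h5a_ordD_finite h3 y a v ha, (hgen a ha1 ha2).2 v ha]
    rfl
  have hd12 : Disjoint Z₁ Z₂ := by
    rw [Finset.disjoint_left]
    intro v hv1 hv2
    exact h5a_fibre_disjoint y a₁ a₂ h12 v ((hZ₁m v).mp hv1) ((hZ₂m v).mp hv2)
  have hd3 : Disjoint (Z₁ ∪ Z₂) Z₃ := by
    rw [Finset.disjoint_left]
    intro v hv hv3
    rcases Finset.mem_union.mp hv with hv1 | hv2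
    · exact h5a_fibre_pole_disjoint y a₁ v ((hZ₁m v).mp hv1) ((hZ₃m v).mp hv3)
    · exact h5a_fibre_pole_disjoint y a₂ v ((hZ₂m v).mp hv2) ((hZ₃m v).mp hv3)
  rw [h5a_degree_eq_sum_of_subset h1.deg W _ hsub, Finset.sum_union hd3, Finset.sum_union hd12]
  have e1 : ∑ v ∈ Z₁, W v = (Module.finrank K⟮y⟯ F : ℤ) - Nat.card (Quotient r₁) := by
    rw [← hZ₁s, ← hZ₁c]
    have : ∑ v ∈ Z₁, W v = ∑ v ∈ Z₁, (v.ord (y - algebraMap K F a₁) - 1) :=
      Finset.sum_congr rfl (fun v hv => by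
        rw [hW, h5a_ordD_finite h3 y a₁ v ((hZ₁m v).mp hv)])
    rw [this, Finset.sum_sub_distrib]
    simp
  have e2 : ∑ v ∈ Z₂, W v = (Module.finrank K⟮y⟯ F : ℤ) - Nat.card (Quotient r₂) := by
    rw [← hZ₂s, ← hZ₂c]
    have : ∑ v ∈ Z₂, W v = ∑ v ∈ Z₂, (v.ord (y - algebraMap K F a₂) - 1) :=
      Finset.sum_congr rfl (fun v hv => by
        rw [hW, h5a_ordD_finite h3 y a₂ v ((hZ₂m v).mp hv)])
    rw [this, Finset.sum_sub_distrib]
    simp
  have e3 : ∑ v ∈ Z₃, W v = -(Module.finrank K⟮y⟯ F : ℤ) - Nat.card (Quotient r₃) := by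
    rw [← hZ₃s, ← hZ₃c]
    have : ∑ v ∈ Z₃, W v = ∑ v ∈ Z₃, (-v.ord y⁻¹ - 1) :=
      Finset.sum_congr rfl (fun v hv => by
        rw [hW, h5a_ordD_pole h3 y v ((hZ₃m v).mp hv)])
    rw [this, Finset.sum_sub_distrib, Finset.sum_neg_distrib]
    simp
  rw [e1, e2, e3, hn]
  ring

/-- **A4 (RH-global)**, from the slices A1, A3b, A5 as hypotheses. -/
theorem h5a_degree_canonical [IsAlgClosed K] [CharZero K]
    [HasCanonicalDivisor (K := K) (F := F)]
    (h1 : h5a_A1 K F) (h3 : h5a_A3b K F)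
    (y : F) (hy : Transcendental K y) [FiniteDimensional K⟮y⟯ F]
    {X : Type*} [Finite X] (h5 : h5a_A5 K F X)
    (hdeg : Module.finrank K⟮y⟯ F ≤ Nat.card X)
    (a₁ a₂ : K) (h12 : a₁ ≠ a₂) (r₁ r₂ r₃ : Setoid X)
    (L₁ : HasLocalData K (y - algebraMap K F a₁) r₁)
    (L₂ : HasLocalData K (y - algebraMap K F a₂) r₂)
    (L₃ : HasLocalData K y⁻¹ r₃)
    (Lgen : ∀ a : K, a ≠ a₁ → a ≠ a₂ → HasLocalData K (y - algebraMap K F a) (⊥ : Setoid X))
    {ω : Ω[F⁄K]} (hω : ω ≠ 0) :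
    Divisor.degree (canonicalDivisorOf hω) =
      ((Nat.card X : ℤ) - Nat.card (Quotient r₁)) + ((Nat.card X : ℤ) - Nat.card (Quotient r₂))
        - ((Nat.card X : ℤ) + Nat.card (Quotient r₃)) := by
  have hDy : D K F y ≠ 0 := D_ne_zero y hy y hy
  haveI : Nontrivial Ω[F⁄K] := ⟨⟨D K F y, 0, hDy⟩⟩
  obtain ⟨W, hW⟩ := HasCanonicalDivisor.exists_divisor (D K F y) hDy
  obtain ⟨c, hc, -⟩ := h5a_exists_unique_smul y hy y hy ω
  have hc0 : c ≠ 0 := by
    rintro rfl
    rw [zero_smul] at hc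
    exact hω hc
  have key : ∀ v : Place K F, (canonicalDivisorOf hω) v = v.ord c + W v := by
    intro v
    haveI := h3.gen v
    rw [canonicalDivisorOf_apply, hW]
    have hcoef : v.differentialCoeff (D K F y) ≠ 0 := by
      intro h0
      have := v.differentialCoeff_smul_dCoord (D K F y)
      rw [h0, zero_smul] at this
      exact hDy this.symm
    conv_lhs => rw [hc]
    exact v.ordDifferential_smul hc0 hcoef
  have hdiv : Divisor.degree (canonicalDivisorOf hω - W) = 0 :=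
    h5a_degree_eq_zero_of_principal h1 y c hc0 _ (fun v => by
      rw [Finsupp.sub_apply, key]; ring)
  rw [map_sub] at hdiv
  rw [sub_eq_zero.mp hdiv]
  exact h5a_degree_Dy h1 h3 y hy h5 hdeg a₁ a₂ h12 r₁ r₂ r₃ L₁ L₂ L₃ Lgen W hW

end A4

end RH24
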