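import Mathlib
import Fermat.Prelude.Def_AlgebraicCurve_CanonicalDivisor

/-!
# T-RH slice A5, part 1 (helper2): the place attached to an additive valuation

An "additive valuation" on a field `F` is given here as a plain function `u : F → ℤ` which is
additive on products of nonzero elements and satisfies the ultrametric inequality.  If it is
trivial on the constants `K` and positive somewhere, it is a positive multiple of `v.ord` for a
unique place `v` of `F / K`.
-/

set_option autoImplicit false
set_option linter.style.haveILetI false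

noncomputable section

namespace RH24

open AlgebraicCurve

/-- An additive (exponential) valuation given as a plain function `F → ℤ`; the value at `0` is
irrelevant. -/
structure H2IsAddVal {F : Type*} [Field F] (u : F → ℤ) : Prop where
  map_mul : ∀ a b : F, a ≠ 0 → b ≠ 0 → u (a * b) = u a + u b
  map_add : ∀ a b : F, a ≠ 0 → b ≠ 0 → a + b ≠ 0 → min (u a) (u b) ≤ u (a + b)

namespace H2IsAddVal

variable {F : Type*} [Field F] {u : F → ℤ} (hu : H2IsAddVal u)
include hu

theorem map_one : u 1 = 0 := by
  have := hu.map_mul 1 1 one_ne_zero one_ne_zero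
  rw [mul_one] at this
  omega

theorem map_neg_one : u (-1) = 0 := by
  have h := hu.map_mul (-1) (-1) (neg_ne_zero.mpr one_ne_zero) (neg_ne_zero.mpr one_ne_zero)
  rw [neg_mul_neg, mul_one, hu.map_one] at h
  omega

theorem map_neg {a : F} (ha : a ≠ 0) : u (-a) = u a := by
  have h := hu.map_mul (-1) a (neg_ne_zero.mpr one_ne_zero) ha
  rw [neg_one_mul, hu.map_neg_one] at h
  omega

theorem map_inv {a : F} (ha : a ≠ 0) : u a⁻¹ = - u a := by
  have h := hu.map_mul a a⁻¹ ha (inv_ne_zero ha)
  rw [mul_inv_cancel₀ ha, hu.map_one] at h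
  omega

theorem map_pow {a : F} (ha : a ≠ 0) (n : ℕ) : u (a ^ n) = n * u a := by
  induction n with
  | zero => simp [hu.map_one]
  | succ k ih =>
    rw [pow_succ, hu.map_mul _ _ (pow_ne_zero k ha) ha, ih]
    push_cast; ring

theorem map_zpow {a : F} (ha : a ≠ 0) (n : ℤ) : u (a ^ n) = n * u a := by
  rcases n with k | k
  · simp only [Int.ofNat_eq_natCast, zpow_natCast]
    exact hu.map_pow ha k
  · rw [zpow_negSucc, hu.map_inv (pow_ne_zero _ ha), hu.map_pow ha]
    push_cast
    rw [Int.negSucc_eq]
    ring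

theorem map_div {a b : F} (ha : a ≠ 0) (hb : b ≠ 0) : u (a / b) = u a - u b := by
  rw [div_eq_mul_inv, hu.map_mul a b⁻¹ ha (inv_ne_zero hb), hu.map_inv hb]
  ring

omit hu in
/-- Composition with an injective ring homomorphism. -/
theorem comp {E : Type*} [Field E] {w : E → ℤ} (hw : H2IsAddVal w) (σ : F →+* E) :
    H2IsAddVal (fun f => w (σ f)) where
  map_mul a b ha hb := by
    simp only [_root_.map_mul]
    exact hw.map_mul _ _ ((map_ne_zero σ).mpr ha) ((map_ne_zero σ).mpr hb)
  map_add a b ha hb hab := by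
    simp only [_root_.map_add]
    exact hw.map_add _ _ ((map_ne_zero σ).mpr ha) ((map_ne_zero σ).mpr hb)
      (by rw [← _root_.map_add]; exact (map_ne_zero σ).mpr hab)

/-- The valuation subring of an additive valuation. -/
def valuationSubring : ValuationSubring F where
  carrier := {f | f = 0 ∨ 0 ≤ u f}
  mul_mem' := by
    rintro a b (rfl | ha) (rfl | hb)
    · left; simp
    · left; simp
    · left; simp
    · by_cases ha0 : a = 0
      · left; simp [ha0]
      by_cases hb0 : b = 0
      · left; simp [hb0]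
      right
      rw [hu.map_mul a b ha0 hb0]
      omega
  one_mem' := Or.inr (by rw [hu.map_one])
  add_mem' := by
    rintro a b ha hb
    by_cases ha0 : a = 0
    · simpa [ha0] using hb
    by_cases hb0 : b = 0
    · simpa [hb0] using ha
    by_cases hab : a + b = 0
    · left; exact hab
    right
    have h1 : 0 ≤ u a := ha.resolve_left ha0
    have h2 : 0 ≤ u b := hb.resolve_left hb0
    have := hu.map_add a b ha0 hb0 hab
    exact le_trans (le_min h1 h2) this
  zero_mem' := Or.inl rfl
  neg_mem' := by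
    rintro a (rfl | ha)
    · left; simp
    · by_cases ha0 : a = 0
      · left; simp [ha0]
      right
      rw [hu.map_neg ha0]; exact ha
  mem_or_inv_mem' := by
    intro a
    by_cases ha0 : a = 0
    · left; left; exact ha0
    by_cases h : 0 ≤ u a
    · left; right; exact h
    · right; right
      rw [hu.map_inv ha0]
      omega

theorem mem_valuationSubring {f : F} : f ∈ hu.valuationSubring ↔ f = 0 ∨ 0 ≤ u f := Iff.rfl

theorem mem_valuationSubring_of_ne {f : F} (hf : f ≠ 0) : f ∈ hu.valuationSubring ↔ 0 ≤ u f := by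
  rw [hu.mem_valuationSubring]
  exact ⟨fun h => h.resolve_left hf, Or.inr⟩

theorem isUnit_iff (x : hu.valuationSubring) (hx : x ≠ 0) : IsUnit x ↔ u (x : F) = 0 := by
  have hx0 : (x : F) ≠ 0 := fun h => hx (Subtype.ext h)
  have hxu : 0 ≤ u (x : F) := (hu.mem_valuationSubring_of_ne hx0).mp x.2
  constructor
  · intro hunit
    obtain ⟨b, hab⟩ := isUnit_iff_exists_inv.mp hunit
    have hab' : (x : F) * (b : F) = 1 := congrArg Subtype.val hab
    have hb0 : (b : F) ≠ 0 := by
      intro h
      rw [h, mul_zero] at hab'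
      exact zero_ne_one hab'
    have hbu : 0 ≤ u (b : F) := (hu.mem_valuationSubring_of_ne hb0).mp b.2
    have h := hu.map_mul _ _ hx0 hb0
    rw [hab', hu.map_one] at h
    omega
  · intro h
    have hinv : (x : F)⁻¹ ∈ hu.valuationSubring := by
      rw [hu.mem_valuationSubring_of_ne (inv_ne_zero hx0), hu.map_inv hx0, h]
      simp
    exact ⟨⟨x, ⟨_, hinv⟩, Subtype.ext (by simp [hx0]), Subtype.ext (by simp [hx0])⟩, rfl⟩


/-- An additive valuation which is positive somewhere has a least positive value, and all values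
are multiples of it. -/
theorem exists_uniformizer {y : F} (hy0 : y ≠ 0) (hy : 0 < u y) :
    ∃ (π : F) (m : ℤ), π ≠ 0 ∧ 0 < m ∧ u π = m ∧ ∀ f : F, f ≠ 0 → m ∣ u f := by
  obtain ⟨m, ⟨π, hπ0, hπm, hmpos⟩, hmin⟩ :=
    Int.exists_least_of_bdd (P := fun z => ∃ f : F, f ≠ 0 ∧ u f = z ∧ 0 < z)
      ⟨0, fun z ⟨_, _, _, hz⟩ => hz.le⟩ ⟨u y, y, hy0, rfl, hy⟩
  refine ⟨π, m, hπ0, hmpos, hπm, fun f hf => ?_⟩
  -- divide with remainder
  set q := u f / m with hq
  set r := u f % m with hr
  have hqr : u f = m * q + r := (Int.mul_ediv_add_emod (u f) m).symm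
  have hr0 : 0 ≤ r := Int.emod_nonneg _ hmpos.ne'
  have hrm : r < m := Int.emod_lt_of_pos _ hmpos
  have hg0 : f * (π ^ q)⁻¹ ≠ 0 := mul_ne_zero hf (inv_ne_zero (zpow_ne_zero q hπ0))
  have hg : u (f * (π ^ q)⁻¹) = r := by
    rw [hu.map_mul _ _ hf (inv_ne_zero (zpow_ne_zero q hπ0)), hu.map_inv (zpow_ne_zero q hπ0),
      hu.map_zpow hπ0, hπm]
    rw [hqr]; ring
  by_contra hdiv
  have hrpos : 0 < r := by
    rcases hr0.lt_or_eq with h | h
    · exact h
    · exfalso; apply hdiv
      rw [hqr, ← h]; simp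
  have := hmin r ⟨_, hg0, hg, hrpos⟩
  omega

/-- The valuation subring of a nontrivial additive valuation is a discrete valuation ring. -/
theorem isDiscreteValuationRing {y : F} (hy0 : y ≠ 0) (hy : 0 < u y) :
    IsDiscreteValuationRing hu.valuationSubring := by
  obtain ⟨π, m, hπ0, hmpos, hπm, hdvd⟩ := hu.exists_uniformizer hy0 hy
  have hπmem : π ∈ hu.valuationSubring := by
    rw [hu.mem_valuationSubring_of_ne hπ0, hπm]; exact hmpos.le
  apply IsDiscreteValuationRing.ofHasUnitMulPowIrreducibleFactorization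
  refine ⟨⟨π, hπmem⟩, ?_, ?_⟩
  · -- irreducible
    have hp0 : (⟨π, hπmem⟩ : hu.valuationSubring) ≠ 0 := fun h => hπ0 (congrArg Subtype.val h)
    refine ⟨?_, ?_⟩
    · rw [hu.isUnit_iff _ hp0]
      show u π ≠ 0
      omega
    · intro a b hab
      have hab' : π = (a : F) * (b : F) := congrArg Subtype.val hab
      have ha0 : (a : F) ≠ 0 := by
        intro h; rw [h, zero_mul] at hab'; exact hπ0 hab'
      have hb0 : (b : F) ≠ 0 := by
        intro h; rw [h, mul_zero] at hab'; exact hπ0 hab'
      have hau : 0 ≤ u (a : F) := (hu.mem_valuationSubring_of_ne ha0).mp a.2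
      have hbu : 0 ≤ u (b : F) := (hu.mem_valuationSubring_of_ne hb0).mp b.2
      have hsum : u (a : F) + u (b : F) = m := by
        rw [← hu.map_mul _ _ ha0 hb0, ← hab', hπm]
      obtain ⟨ka, hka⟩ := hdvd a ha0
      obtain ⟨kb, hkb⟩ := hdvd b hb0
      have hka0 : 0 ≤ ka := by
        by_contra h
        have : m * ka < 0 := mul_neg_of_pos_of_neg hmpos (not_le.mp h)
        omega
      have hkb0 : 0 ≤ kb := by
        by_contra h
        have : m * kb < 0 := mul_neg_of_pos_of_neg hmpos (not_le.mp h)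
        omega
      have hk : ka + kb = 1 := by
        have : m * (ka + kb) = m * 1 := by rw [mul_add, ← hka, ← hkb, hsum, mul_one]
        exact mul_left_cancel₀ hmpos.ne' this
      have ha0' : a ≠ 0 := fun h => ha0 (by rw [h]; rfl)
      have hb0' : b ≠ 0 := fun h => hb0 (by rw [h]; rfl)
      rcases (show ka = 0 ∨ kb = 0 by omega) with h | h
      · left
        rw [hu.isUnit_iff _ ha0', hka, h, mul_zero]
      · right
        rw [hu.isUnit_iff _ hb0', hkb, h, mul_zero]
  · intro x hx
    have hx0 : (x : F) ≠ 0 := fun h => hx (Subtype.ext h)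
    have hxu : 0 ≤ u (x : F) := (hu.mem_valuationSubring_of_ne hx0).mp x.2
    obtain ⟨k, hk⟩ := hdvd x hx0
    have hk0 : 0 ≤ k := by
      by_contra h
      have : m * k < 0 := mul_neg_of_pos_of_neg hmpos (not_le.mp h)
      omega
    obtain ⟨n, rfl⟩ := Int.eq_ofNat_of_zero_le hk0
    refine ⟨n, ?_⟩
    -- the unit `x / π ^ n`
    have hz0 : (x : F) * (π ^ n)⁻¹ ≠ 0 := mul_ne_zero hx0 (inv_ne_zero (pow_ne_zero n hπ0))
    have hzu : u ((x : F) * (π ^ n)⁻¹) = 0 := by
      rw [hu.map_mul _ _ hx0 (inv_ne_zero (pow_ne_zero n hπ0)), hu.map_inv (pow_ne_zero n hπ0),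
        hu.map_pow hπ0, hπm, hk]
      ring
    have hzmem : (x : F) * (π ^ n)⁻¹ ∈ hu.valuationSubring := by
      rw [hu.mem_valuationSubring_of_ne hz0, hzu]
    have hzne : (⟨_, hzmem⟩ : hu.valuationSubring) ≠ 0 := fun h => hz0 (congrArg Subtype.val h)
    have hzunit : IsUnit (⟨_, hzmem⟩ : hu.valuationSubring) := by
      rw [hu.isUnit_iff _ hzne]; exact hzu
    refine ⟨hzunit.unit, ?_⟩
    apply Subtype.ext
    simp only [IsUnit.unit_spec, MulMemClass.coe_mul, SubmonoidClass.coe_pow]
    field_simp

end H2IsAddVal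

/-- **A5, part 1.**  An additive valuation on `F`, trivial on the constants `K` and positive at
some element, is a positive multiple of `v.ord` for a place `v` of `F / K`. -/
theorem h2a5_exists_place {K F : Type*} [Field K] [Field F] [Algebra K F]
    {u : F → ℤ} (hu : H2IsAddVal u) (hK : ∀ c : K, c ≠ 0 → u (algebraMap K F c) = 0)
    {y : F} (hy0 : y ≠ 0) (hy : 0 < u y) :
    ∃ (v : Place K F) (m : ℤ), 0 < m ∧ v.toValuationSubring = hu.valuationSubring ∧
      ∀ f : F, f ≠ 0 → u f = m * v.ord f := by
  haveI hdvr : IsDiscreteValuationRing hu.valuationSubring := hu.isDiscreteValuationRing hy0 hy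
  let v : Place K F :=
    { toValuationSubring := hu.valuationSubring
      algebraMap_mem' := fun a => by
        by_cases ha : a = 0
        · left; simp [ha]
        · right; rw [hK a ha]
      ne_top' := by
        intro h
        have hmem : y⁻¹ ∈ hu.valuationSubring := by rw [h]; exact ValuationSubring.mem_top _
        rw [hu.mem_valuationSubring_of_ne (inv_ne_zero hy0), hu.map_inv hy0] at hmem
        omega
      isPrincipalIdealRing' := inferInstance }
  obtain ⟨π, hπ⟩ := IsDiscreteValuationRing.exists_irreducible v.toValuationSubring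
  have hπ0 : (π : F) ≠ 0 := fun h => hπ.ne_zero (Subtype.ext h)
  have hπnu : ¬ IsUnit π := hπ.not_isUnit
  have hπu : 0 < u (π : F) := by
    have h0 : 0 ≤ u (π : F) := (hu.mem_valuationSubring_of_ne hπ0).mp π.2
    rcases h0.lt_or_eq with h | h
    · exact h
    · exact absurd ((hu.isUnit_iff π hπ.ne_zero).mpr h.symm) hπnu
  refine ⟨v, u (π : F), hπu, rfl, fun f hf => ?_⟩
  obtain ⟨w, hw⟩ := v.exists_unit_mul_zpow hf hπ
  have hw0 : ((w : v.toValuationSubring) : F) ≠ 0 := by
    intro h
    exact w.ne_zero (Subtype.ext h)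
  have hwu : u ((w : v.toValuationSubring) : F) = 0 :=
    (hu.isUnit_iff (w : hu.valuationSubring) w.ne_zero).mp w.isUnit
  conv_lhs => rw [hw]
  rw [hu.map_mul _ _ hw0 (zpow_ne_zero _ hπ0), hwu, hu.map_zpow hπ0]
  ring

end RH24

end
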