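import Mathlib
import Fermat.Agent.S24.Contract
import Fermat.Agent.S24.A5Place

/-!
# T-RH slice A5, part 2 (helper2): additive valuations attached to local data

From a multiplicative valuation `w : Valuation E ℤᵐ⁰` and a ring homomorphism `σ : F →+* E`
we get the additive valuation `f ↦ - log (w (σ f))` on `F`.  We compare two additive valuations
on the rational function field `K⟮z⟯`.
-/

set_option autoImplicit false
set_option linter.style.haveILetI false

noncomputable section

open scoped WithZero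

namespace RH24

open AlgebraicCurve IntermediateField Polynomial

section AddValOfValuation

variable {F E : Type*} [Field F] [Field E]

/-- The additive valuation `f ↦ - log (w (σ f))`. -/
def h2a5_u (w : Valuation E ℤᵐ⁰) (σ : F →+* E) (f : F) : ℤ := - WithZero.log (w (σ f))

theorem h2a5_w_ne_zero (w : Valuation E ℤᵐ⁰) (σ : F →+* E) {f : F} (hf : f ≠ 0) :
    w (σ f) ≠ 0 :=
  (Valuation.ne_zero_iff w).mpr ((map_ne_zero σ).mpr hf)

theorem h2a5_isAddVal (w : Valuation E ℤᵐ⁰) (σ : F →+* E) : H2IsAddVal (h2a5_u w σ) where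
  map_mul a b ha hb := by
    simp only [h2a5_u, map_mul]
    rw [WithZero.log_mul (h2a5_w_ne_zero w σ ha) (h2a5_w_ne_zero w σ hb)]
    ring
  map_add a b ha hb hab := by
    simp only [h2a5_u, map_add]
    have h := Valuation.map_add w (σ a) (σ b)
    have hab' : w (σ a + σ b) ≠ 0 := by
      rw [← map_add]; exact h2a5_w_ne_zero w σ hab
    rcases le_max_iff.mp h with h1 | h1
    · have := (WithZero.log_le_log hab' (h2a5_w_ne_zero w σ ha)).mpr h1
      exact le_trans (min_le_left _ _) (neg_le_neg this)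
    · have := (WithZero.log_le_log hab' (h2a5_w_ne_zero w σ hb)).mpr h1
      exact le_trans (min_le_right _ _) (neg_le_neg this)

theorem h2a5_u_nonneg_iff (w : Valuation E ℤᵐ⁰) (σ : F →+* E) {f : F} (hf : f ≠ 0) :
    0 ≤ h2a5_u w σ f ↔ w (σ f) ≤ 1 := by
  rw [h2a5_u, ← WithZero.log_le_log (h2a5_w_ne_zero w σ hf) one_ne_zero, WithZero.log_one]
  omega

theorem h2a5_u_pos_iff (w : Valuation E ℤᵐ⁰) (σ : F →+* E) {f : F} (hf : f ≠ 0) :
    0 < h2a5_u w σ f ↔ w (σ f) < 1 := by
  rw [h2a5_u, ← WithZero.log_lt_log (h2a5_w_ne_zero w σ hf) one_ne_zero, WithZero.log_one]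
  omega

theorem h2a5_u_eq_of_eq (w : Valuation E ℤᵐ⁰) (σ σ' : F →+* E) {f : F}
    (h : w (σ f) = w (σ' f)) : h2a5_u w σ f = h2a5_u w σ' f := by
  simp only [h2a5_u, h]

end AddValOfValuation

/-! ## Additive valuations on the rational function field `K⟮z⟯` -/

section Rat

variable {K F : Type*} [Field K] [Field F] [Algebra K F]

theorem H2IsAddVal.map_add_of_lt {u : F → ℤ} (hu : H2IsAddVal u) {a b : F} (ha : a ≠ 0) (hb : b ≠ 0)
    (hab : u a < u b) : a + b ≠ 0 ∧ u (a + b) = u a := by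
  have hne : a + b ≠ 0 := by
    intro h
    have : a = -b := eq_neg_of_add_eq_zero_left h
    rw [this, hu.map_neg hb] at hab
    exact lt_irrefl _ hab
  refine ⟨hne, le_antisymm ?_ ?_⟩
  · -- `a = (a + b) + (-b)`
    have h := hu.map_add (a + b) (-b) hne (neg_ne_zero.mpr hb) (by simpa using ha)
    rw [add_neg_cancel_right, hu.map_neg hb] at h
    rcases min_le_iff.mp h with h1 | h1
    · exact h1
    · omega
  · have h := hu.map_add a b ha hb hne
    rcases min_le_iff.mp h with h1 | h1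
    · exact h1
    · omega

/-- Polynomial expressions in `z` lie in the valuation ring. -/
theorem H2IsAddVal.aeval_mem {u : F → ℤ} (hu : H2IsAddVal u)
    (hK : ∀ c : K, c ≠ 0 → u (algebraMap K F c) = 0) {z : F} (hz : z ≠ 0) (hzu : 0 ≤ u z)
    (p : K[X]) : aeval z p ∈ hu.valuationSubring := by
  rw [aeval_eq_sum_range]
  refine sum_mem fun i _ => ?_
  rw [Algebra.smul_def]
  refine mul_mem ?_ (pow_mem ((hu.mem_valuationSubring_of_ne hz).mpr hzu) i)
  by_cases hc : p.coeff i = 0
  · rw [hc, map_zero]; exact zero_mem _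
  · rw [hu.mem_valuationSubring_of_ne ((map_ne_zero (algebraMap K F)).mpr hc), hK _ hc]

/-- A polynomial with nonzero constant term gives a unit at `z = 0`. -/
theorem H2IsAddVal.aeval_of_coeff_zero_ne {u : F → ℤ} (hu : H2IsAddVal u)
    (hK : ∀ c : K, c ≠ 0 → u (algebraMap K F c) = 0) {z : F} (hz : z ≠ 0) (hzu : 0 < u z)
    (p : K[X]) (hp : p.coeff 0 ≠ 0) : aeval z p ≠ 0 ∧ u (aeval z p) = 0 := by
  have hdec : aeval z p = algebraMap K F (p.coeff 0) + z * aeval z p.divX := by
    conv_lhs => rw [← Polynomial.divX_mul_X_add p]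
    rw [_root_.map_add, _root_.map_mul, aeval_X, aeval_C]
    ring
  have hc0 : algebraMap K F (p.coeff 0) ≠ 0 := (map_ne_zero (algebraMap K F)).mpr hp
  have hcu : u (algebraMap K F (p.coeff 0)) = 0 := hK _ hp
  by_cases hs : aeval z p.divX = 0
  · rw [hdec, hs, mul_zero, add_zero]
    exact ⟨hc0, hcu⟩
  · have hsu : 0 ≤ u (aeval z p.divX) :=
      (hu.mem_valuationSubring_of_ne hs).mp (hu.aeval_mem hK hz hzu.le _)
    have hzs : u (algebraMap K F (p.coeff 0)) < u (z * aeval z p.divX) := by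
      rw [hu.map_mul _ _ hz hs, hcu]; omega
    have := hu.map_add_of_lt hc0 (mul_ne_zero hz hs) hzs
    rw [hdec]
    exact ⟨this.1, this.2.trans hcu⟩

/-- On `K⟮z⟯` every additive valuation which is trivial on `K` and positive at `z` is
`ord_z` times its value at `z`. -/
theorem h2a5_exists_ordz {z : F} (hz : z ≠ 0) (a : F) (ha : a ∈ K⟮z⟯) (ha0 : a ≠ 0) :
    ∃ k : ℤ, ∀ u : F → ℤ, H2IsAddVal u → (∀ c : K, c ≠ 0 → u (algebraMap K F c) = 0) →
      0 < u z → u a = k * u z := by
  obtain ⟨p, q, hpq⟩ := (IntermediateField.mem_adjoin_simple_iff K a).mp ha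
  have hq0 : aeval z q ≠ 0 := by
    intro h; rw [h, div_zero] at hpq; exact ha0 hpq
  have hp0 : aeval z p ≠ 0 := by
    intro h; rw [h, zero_div] at hpq; exact ha0 hpq
  have hp : p ≠ 0 := fun h => hp0 (by rw [h, map_zero])
  have hq : q ≠ 0 := fun h => hq0 (by rw [h, map_zero])
  obtain ⟨p₁, hp₁, hp₁'⟩ := exists_eq_pow_rootMultiplicity_mul_and_not_dvd p hp 0
  obtain ⟨q₁, hq₁, hq₁'⟩ := exists_eq_pow_rootMultiplicity_mul_and_not_dvd q hq 0
  rw [C_0, sub_zero] at hp₁ hq₁ hp₁' hq₁'
  have hp₁c : p₁.coeff 0 ≠ 0 := by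
    intro h; exact hp₁' (X_dvd_iff.mpr h)
  have hq₁c : q₁.coeff 0 ≠ 0 := by
    intro h; exact hq₁' (X_dvd_iff.mpr h)
  refine ⟨(rootMultiplicity 0 p : ℤ) - rootMultiplicity 0 q, fun u hu hK hzu => ?_⟩
  obtain ⟨hP0, hPu⟩ := hu.aeval_of_coeff_zero_ne hK hz hzu p₁ hp₁c
  obtain ⟨hQ0, hQu⟩ := hu.aeval_of_coeff_zero_ne hK hz hzu q₁ hq₁c
  have hP : aeval z p = z ^ rootMultiplicity 0 p * aeval z p₁ := by
    conv_lhs => rw [hp₁]
    rw [map_mul, map_pow, aeval_X]
  have hQ : aeval z q = z ^ rootMultiplicity 0 q * aeval z q₁ := by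
    conv_lhs => rw [hq₁]
    rw [map_mul, map_pow, aeval_X]
  rw [hpq, hu.map_div hp0 hq0, hP, hQ,
    hu.map_mul _ _ (pow_ne_zero _ hz) hP0, hu.map_mul _ _ (pow_ne_zero _ hz) hQ0,
    hu.map_pow hz, hu.map_pow hz, hPu, hQu]
  ring

end Rat

/-! ## Embeddings: agreement on `K⟮z⟯` and counting -/

section Emb

/-- Two ring homomorphisms agreeing on `K` and at `z` agree on `K⟮z⟯`. -/
theorem h2a5_agree_adjoin {K F E : Type*} [Field K] [Field F] [Algebra K F] [Field E]
    {z : F} (σ σ' : F →+* E)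
    (hK : ∀ c : K, σ (algebraMap K F c) = σ' (algebraMap K F c)) (hz : σ z = σ' z)
    (a : F) (ha : a ∈ K⟮z⟯) : σ a = σ' a := by
  obtain ⟨p, q, rfl⟩ := (IntermediateField.mem_adjoin_simple_iff K a).mp ha
  have hcomp : σ.comp (algebraMap K F) = σ'.comp (algebraMap K F) := RingHom.ext hK
  have h : ∀ r : K[X], σ (aeval z r) = σ' (aeval z r) := by
    intro r
    rw [aeval_def, hom_eval₂, hom_eval₂, hcomp, hz]
  rw [map_div₀, map_div₀, h p, h q]

/-- At most `[F : M]` distinct ring homomorphisms `F →+* E` agree on `M`. -/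
theorem h2a5_card_le_finrank {M F E : Type*} [Field M] [Field F] [Field E] [Algebra M F]
    [FiniteDimensional M F] {ι : Type*} [Finite ι] (τ : ι → F →+* E)
    (hinj : Function.Injective τ)
    (hagree : ∀ i j (m : M), τ i (algebraMap M F m) = τ j (algebraMap M F m)) :
    Nat.card ι ≤ Module.finrank M F := by
  classical
  letI : Fintype ι := Fintype.ofFinite ι
  rcases isEmpty_or_nonempty ι with hι | ⟨⟨i₀⟩⟩
  · simp
  letI : Algebra M E := ((τ i₀).comp (algebraMap M F)).toAlgebra
  let φ : ι → (F →ₐ[M] E) := fun i =>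
    { τ i with
      commutes' := fun m => by
        show τ i (algebraMap M F m) = τ i₀ (algebraMap M F m)
        exact hagree i i₀ m }
  have hφ : Function.Injective φ := by
    intro i j hij
    apply hinj
    ext f
    exact congrArg (fun ψ : F →ₐ[M] E => ψ f) hij
  have hli : LinearIndependent E (fun i => (φ i).toLinearMap) :=
    (linearIndependent_toLinearMap M F E).comp φ hφ
  have := hli.fintype_card_le_finrank
  rw [Module.finrank_linearMap_self] at this
  rw [Nat.card_eq_fintype_card]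
  exact this

end Emb

/-! ## Places as additive valuations -/

section PlaceVal

variable {K F : Type*} [Field K] [Field F] [Algebra K F]

theorem h2a5_isAddVal_ord (v : Place K F) : H2IsAddVal v.ord := by
  have h := h2a5_isAddVal v.adicValuation (RingHom.id F)
  exact h

theorem h2a5_mem_iff_ord (v : Place K F) {f : F} (hf : f ≠ 0) :
    f ∈ v.toValuationSubring ↔ 0 ≤ v.ord f := by
  obtain ⟨π, hπ⟩ := IsDiscreteValuationRing.exists_irreducible v.toValuationSubring
  obtain ⟨w, hw⟩ := v.exists_unit_mul_zpow hf hπ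
  have hπ0 : (π : F) ≠ 0 := fun h => hπ.ne_zero (Subtype.ext h)
  constructor
  · intro hmem
    by_contra hneg
    rw [not_le] at hneg
    -- `π ^ (-ord f) * f = w` is a unit, so `π` is a unit
    obtain ⟨n, hn⟩ : ∃ n : ℕ, v.ord f = -((n : ℤ) + 1) := ⟨(-(v.ord f) - 1).toNat, by omega⟩
    have hf' : f = ((w : v.toValuationSubring) : F) * ((π : F) ^ (n + 1))⁻¹ := by
      conv_lhs => rw [hw, hn]
      rw [zpow_neg, ← zpow_natCast]
      push_cast
      rfl
    have hprod : ((π ^ (n + 1) * ⟨f, hmem⟩ : v.toValuationSubring) : F)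
        = ((w : v.toValuationSubring) : F) := by
      rw [MulMemClass.coe_mul, SubmonoidClass.coe_pow]
      show (π : F) ^ (n + 1) * f = _
      rw [hf']
      field_simp
    have hprod' : π ^ (n + 1) * ⟨f, hmem⟩ = (w : v.toValuationSubring) := Subtype.ext hprod
    have hu : IsUnit (π ^ (n + 1) * (⟨f, hmem⟩ : v.toValuationSubring)) := by
      rw [hprod']; exact w.isUnit
    have hu' : IsUnit (π ^ (n + 1)) := isUnit_of_mul_isUnit_left hu
    exact hπ.not_isUnit (isUnit_of_dvd_unit (dvd_pow_self π (Nat.succ_ne_zero n)) hu')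
  · intro hord
    obtain ⟨n, hn⟩ := Int.eq_ofNat_of_zero_le hord
    rw [hw, hn, zpow_natCast]
    exact mul_mem (w : v.toValuationSubring).2 (pow_mem π.2 n)

theorem h2a5_ord_algebraMap (v : Place K F) (c : K) (hc : c ≠ 0) :
    v.ord (algebraMap K F c) = 0 := by
  have hc' : algebraMap K F c ≠ 0 := (map_ne_zero (algebraMap K F)).mpr hc
  have h1 := (h2a5_mem_iff_ord v hc').mp (v.algebraMap_mem' c)
  have hci : algebraMap K F c⁻¹ ≠ 0 := (map_ne_zero (algebraMap K F)).mpr (inv_ne_zero hc)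
  have h2 := (h2a5_mem_iff_ord v hci).mp (v.algebraMap_mem' c⁻¹)
  rw [map_inv₀, v.ord_inv] at h2
  omega

end PlaceVal

end RH24

end
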