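import Mathlib
import Fermat.Agent.S24.A5Local

/-!
# T-RH slice A5, part 4 (helper2): weak approximation for finitely many places (sign version)
-/

set_option autoImplicit false
set_option linter.style.haveILetI false

noncomputable section

namespace RH24

open AlgebraicCurve

variable {K F : Type*} [Field K] [Field F] [Algebra K F]

/-- Distinct places have incomparable valuation rings. -/
theorem h2a5_eq_of_le (v₀ v₁ : Place K F)
    (h : v₀.toValuationSubring ≤ v₁.toValuationSubring) : v₀ = v₁ := by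
  by_contra hne
  have hnle : ¬ v₁.toValuationSubring ≤ v₀.toValuationSubring := by
    intro h'
    exact hne (Place.ext (le_antisymm h h'))
  obtain ⟨b, hb1, hb0⟩ := SetLike.not_le_iff_exists.mp hnle
  have hb : b ≠ 0 := by
    rintro rfl
    exact hb0 (zero_mem _)
  have hbord : v₀.ord b < 0 := by
    by_contra hge
    exact hb0 ((h2a5_mem_iff_ord v₀ hb).mpr (not_lt.mp hge))
  apply v₁.ne_top'
  rw [eq_top_iff]
  intro f _
  by_cases hf : f = 0
  · rw [hf]; exact zero_mem _
  set k : ℕ := (v₀.ord f).natAbs with hk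
  have hc0 : f * (b ^ k)⁻¹ ≠ 0 := mul_ne_zero hf (inv_ne_zero (pow_ne_zero k hb))
  have hcord : 0 ≤ v₀.ord (f * (b ^ k)⁻¹) := by
    have hu := h2a5_isAddVal_ord v₀
    rw [hu.map_mul _ _ hf (inv_ne_zero (pow_ne_zero k hb)), hu.map_inv (pow_ne_zero k hb),
      hu.map_pow hb]
    have h1 : (k : ℤ) * v₀.ord b ≤ -(k : ℤ) := by nlinarith
    have h2 : -(k : ℤ) ≤ v₀.ord f := by
      rw [hk]; have := Int.le_natAbs (a := -v₀.ord f); simp at this; omega
    omega
  have hcmem : f * (b ^ k)⁻¹ ∈ v₁.toValuationSubring := h ((h2a5_mem_iff_ord v₀ hc0).mpr hcord)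
  have : f = f * (b ^ k)⁻¹ * b ^ k := by
    field_simp
  rw [this]
  exact mul_mem hcmem (pow_mem hb1 k)

/-- Two distinct places are separated by a function. -/
theorem h2a5_exists_pair (v₀ v₁ : Place K F) (hne : v₀ ≠ v₁) :
    ∃ h : F, h ≠ 0 ∧ 0 < v₀.ord h ∧ v₁.ord h < 0 := by
  have h01 : ¬ v₀.toValuationSubring ≤ v₁.toValuationSubring := fun h => hne (h2a5_eq_of_le v₀ v₁ h)
  have h10 : ¬ v₁.toValuationSubring ≤ v₀.toValuationSubring :=
    fun h => hne (h2a5_eq_of_le v₁ v₀ h).symm
  obtain ⟨a, ha0, ha1⟩ := SetLike.not_le_iff_exists.mp h01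
  obtain ⟨b, hb1, hb0⟩ := SetLike.not_le_iff_exists.mp h10
  have ha : a ≠ 0 := by rintro rfl; exact ha1 (zero_mem _)
  have hb : b ≠ 0 := by rintro rfl; exact hb0 (zero_mem _)
  have e1 : 0 ≤ v₀.ord a := (h2a5_mem_iff_ord v₀ ha).mp ha0
  have e2 : v₁.ord a < 0 := by
    by_contra hge; exact ha1 ((h2a5_mem_iff_ord v₁ ha).mpr (not_lt.mp hge))
  have e3 : 0 ≤ v₁.ord b := (h2a5_mem_iff_ord v₁ hb).mp hb1
  have e4 : v₀.ord b < 0 := by
    by_contra hge; exact hb0 ((h2a5_mem_iff_ord v₀ hb).mpr (not_lt.mp hge))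
  refine ⟨a / b, div_ne_zero ha hb, ?_, ?_⟩
  · rw [(h2a5_isAddVal_ord v₀).map_div ha hb]; omega
  · rw [(h2a5_isAddVal_ord v₁).map_div ha hb]; omega

/-- Sign approximation: a function with a zero at `v₀` and poles at finitely many other places. -/
theorem h2a5_approx (v₀ : Place K F) (s : Finset (Place K F)) (hs : v₀ ∉ s) :
    ∃ g : F, g ≠ 0 ∧ 0 < v₀.ord g ∧ ∀ v ∈ s, v.ord g < 0 := by
  classical
  induction s using Finset.induction_on with
  | empty =>
    obtain ⟨π, hπ⟩ := IsDiscreteValuationRing.exists_irreducible v₀.toValuationSubring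
    refine ⟨(π : F), fun h => hπ.ne_zero (Subtype.ext h), ?_, by simp⟩
    rw [v₀.ord_coe_irreducible hπ]; exact one_pos
  | insert v₁ s' hv₁ ih =>
    have hs' : v₀ ∉ s' := fun h => hs (Finset.mem_insert_of_mem h)
    have hne : v₀ ≠ v₁ := fun h => hs (h ▸ Finset.mem_insert_self _ _)
    obtain ⟨g, hg0, hg, hgs⟩ := ih hs'
    obtain ⟨h, hh0, hh, hh1⟩ := h2a5_exists_pair v₀ v₁ hne
    by_cases hcase : v₁.ord g < 0
    · refine ⟨g, hg0, hg, fun v hv => ?_⟩
      rcases Finset.mem_insert.mp hv with rfl | hv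
      · exact hcase
      · exact hgs v hv
    · rw [not_lt] at hcase
      -- take `g + h ^ N` with `N` large
      obtain ⟨N, hN⟩ : ∃ N : ℕ, N = 1 + ∑ v ∈ s', (v.ord g).natAbs := ⟨_, rfl⟩
      have hN1 : 1 ≤ N := by omega
      have hhN0 : h ^ N ≠ 0 := pow_ne_zero N hh0
      have hordN : ∀ v : Place K F, v.ord (h ^ N) = N * v.ord h := fun v =>
        (h2a5_isAddVal_ord v).map_pow hh0 N
      -- at `v₁`
      have h1lt : v₁.ord (h ^ N) < v₁.ord g := by
        rw [hordN]
        have : (N : ℤ) * v₁.ord h ≤ v₁.ord h := by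
          have hN' : (1 : ℤ) ≤ N := by exact_mod_cast hN1
          nlinarith
        omega
      have hv₁' := (h2a5_isAddVal_ord v₁).map_add_of_lt hhN0 hg0 h1lt
      have hsum0 : g + h ^ N ≠ 0 := by rw [add_comm]; exact hv₁'.1
      refine ⟨g + h ^ N, hsum0, ?_, fun v hv => ?_⟩
      · have := (h2a5_isAddVal_ord v₀).map_add g (h ^ N) hg0 hhN0 hsum0
        have hpos : 0 < v₀.ord (h ^ N) := by
          rw [hordN]
          have hN' : (0 : ℤ) < N := by exact_mod_cast hN1
          exact mul_pos hN' hh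
        exact lt_of_lt_of_le (lt_min hg hpos) this
      · rcases Finset.mem_insert.mp hv with rfl | hv
        · rw [add_comm, hv₁'.2, hordN]
          have hN' : (0 : ℤ) < N := by exact_mod_cast hN1
          exact mul_neg_of_pos_of_neg hN' hh1
        · have hgv := hgs v hv
          by_cases hhv : 0 ≤ v.ord h
          · -- `ord (h^N) ≥ 0 > ord g`
            have hlt : v.ord g < v.ord (h ^ N) := by
              rw [hordN]
              have hN' : (0 : ℤ) ≤ N := Int.natCast_nonneg N
              have : 0 ≤ (N : ℤ) * v.ord h := mul_nonneg hN' hhv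
              omega
            rw [((h2a5_isAddVal_ord v).map_add_of_lt hg0 hhN0 hlt).2]
            exact hgv
          · rw [not_le] at hhv
            have hNv : ((v.ord g).natAbs : ℤ) < N := by
              have : (v.ord g).natAbs ≤ ∑ v ∈ s', (v.ord g).natAbs :=
                Finset.single_le_sum (f := fun v : Place K F => (v.ord g).natAbs)
                  (fun _ _ => Nat.zero_le _) hv
              rw [hN]
              exact_mod_cast Nat.lt_one_add_iff.mpr this
            have hlt : v.ord (h ^ N) < v.ord g := by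
              rw [hordN]
              have h1 : (N : ℤ) * v.ord h ≤ -(N : ℤ) := by nlinarith
              have h2 : -((v.ord g).natAbs : ℤ) ≤ v.ord g := by
                have := Int.le_natAbs (a := -v.ord g); simp at this; omega
              omega
            have := (h2a5_isAddVal_ord v).map_add_of_lt hhN0 hg0 hlt
            rw [add_comm, this.2, hordN]
            have hN' : (0 : ℤ) < N := by exact_mod_cast hN1
            exact mul_neg_of_pos_of_neg hN' hhv

end RH24

end
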