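import Mathlib
import Fermat.Agent.S24.Contract
import Fermat.Agent.S24.A5Place
import Fermat.Agent.S24.A5Local

/-!
# T-RH slice A5, part 3 (helper2): integrality from the embeddings

If `g ∈ F` satisfies `w (σ x g) ≤ 1` for all the `n = [F : K⟮z⟯]` embeddings `σ x`, then `g` lies
in the valuation ring of every place of `F` over `z = 0`.
-/

set_option autoImplicit false
set_option linter.style.haveILetI false

noncomputable section

open scoped WithZero

namespace RH24

open AlgebraicCurve IntermediateField Polynomial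

/-- Unpacked local data (see `HasLocalData`). -/
structure H2LocalData (K : Type*) {F : Type*} [Field K] [Field F] [Algebra K F] (z : F)
    (X : Type*) (E : Type*) [Field E] where
  /-- the valuation -/
  w : Valuation E ℤᵐ⁰
  /-- the embeddings -/
  σ : X → F →+* E
  inj : Function.Injective σ
  agreeK : ∀ x x' (c : K), σ x (algebraMap K F c) = σ x' (algebraMap K F c)
  leK : ∀ x (c : K), w (σ x (algebraMap K F c)) ≤ 1
  agreez : ∀ x x', σ x z = σ x' z
  ltz : ∀ x, w (σ x z) < 1

namespace H2LocalData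

variable {K F : Type*} [Field K] [Field F] [Algebra K F] {z : F} {X E : Type*} [Field E]
  (D : H2LocalData K z X E)

/-- the additive valuation on `F` attached to `x` -/
def u (x : X) : F → ℤ := h2a5_u D.w (D.σ x)

theorem isAddVal (x : X) : H2IsAddVal (D.u x) := h2a5_isAddVal D.w (D.σ x)

theorem u_algebraMap (x : X) (c : K) (hc : c ≠ 0) : D.u x (algebraMap K F c) = 0 := by
  have hc' : algebraMap K F c ≠ 0 := (map_ne_zero (algebraMap K F)).mpr hc
  have hci : algebraMap K F c⁻¹ ≠ 0 := (map_ne_zero (algebraMap K F)).mpr (inv_ne_zero hc)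
  have h1 : 0 ≤ D.u x (algebraMap K F c) := (h2a5_u_nonneg_iff D.w (D.σ x) hc').mpr (D.leK x c)
  have h2 : 0 ≤ D.u x (algebraMap K F c⁻¹) :=
    (h2a5_u_nonneg_iff D.w (D.σ x) hci).mpr (D.leK x c⁻¹)
  rw [map_inv₀, (D.isAddVal x).map_inv hc'] at h2
  omega

theorem u_z_pos (hz : z ≠ 0) (x : X) : 0 < D.u x z :=
  (h2a5_u_pos_iff D.w (D.σ x) hz).mpr (D.ltz x)

theorem agree_adjoin (x x' : X) (a : F) (ha : a ∈ K⟮z⟯) : D.σ x a = D.σ x' a :=
  h2a5_agree_adjoin (D.σ x) (D.σ x') (D.agreeK x x') (D.agreez x x') a ha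

include D in
theorem card_le [Finite X] [FiniteDimensional K⟮z⟯ F] : Nat.card X ≤ Module.finrank K⟮z⟯ F :=
  h2a5_card_le_finrank (M := K⟮z⟯) D.σ D.inj (fun i j m => D.agree_adjoin i j _ m.2)

end H2LocalData

/-- valuations of elementary symmetric functions of integral elements -/
theorem h2a5_w_esymm_le {E : Type*} [Field E] (w : Valuation E ℤᵐ⁰) (s : Multiset E)
    (hs : ∀ a ∈ s, w a ≤ 1) (j : ℕ) : w (s.esymm j) ≤ 1 := by
  have hsum : ∀ t : Multiset E, (∀ a ∈ t, w a ≤ 1) → w t.sum ≤ 1 := by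
    intro t
    induction t using Multiset.induction_on with
    | empty => intro _; simp
    | cons a t ih =>
      intro h
      rw [Multiset.sum_cons]
      refine le_trans (Valuation.map_add w _ _) (max_le (h a (Multiset.mem_cons_self a t)) ?_)
      exact ih (fun b hb => h b (Multiset.mem_cons_of_mem hb))
  have hprod : ∀ t : Multiset E, (∀ a ∈ t, w a ≤ 1) → w t.prod ≤ 1 := by
    intro t
    induction t using Multiset.induction_on with
    | empty => intro _; simp
    | cons a t ih =>
      intro h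
      rw [Multiset.prod_cons, map_mul]
      exact mul_le_one' (h a (Multiset.mem_cons_self a t))
        (ih (fun b hb => h b (Multiset.mem_cons_of_mem hb)))
  rw [Multiset.esymm]
  apply hsum
  intro a ha
  obtain ⟨t, ht, rfl⟩ := Multiset.mem_map.mp ha
  apply hprod
  intro b hb
  exact hs b (Multiset.mem_of_le (Multiset.mem_powersetCard.mp ht).1 hb)


namespace H2LocalData

variable {K F : Type*} [Field K] [Field F] [Algebra K F] {z : F} {X E : Type*} [Field E]
  (D : H2LocalData K z X E)

/-- **Integrality.** An element which is integral for all the valuations `w ∘ σ x` lies in the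
valuation ring of every place over `z = 0`. -/
theorem mem_of_forall_le [Finite X] [FiniteDimensional K⟮z⟯ F] (hz : z ≠ 0)
    (hdeg : Module.finrank K⟮z⟯ F ≤ Nat.card X) (g : F) (hg : ∀ x, D.w (D.σ x g) ≤ 1)
    (v : Place K F) (hv : 0 < v.ord z) : g ∈ v.toValuationSubring := by
  classical
  letI : Fintype X := Fintype.ofFinite X
  -- `X` is nonempty
  have hnpos : 0 < Module.finrank K⟮z⟯ F := Module.finrank_pos
  have hXpos : 0 < Nat.card X := lt_of_lt_of_le hnpos hdeg
  obtain ⟨x₀⟩ : Nonempty X := (Nat.card_pos_iff.mp hXpos).1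
  -- the minimal polynomial
  have hint : IsIntegral K⟮z⟯ g := IsIntegral.of_finite K⟮z⟯ g
  set P := minpoly K⟮z⟯ g with hP
  have hPmonic : P.Monic := minpoly.monic hint
  let ι₀ : K⟮z⟯ →+* E := (D.σ x₀).comp (algebraMap K⟮z⟯ F)
  have hι : ∀ x, (D.σ x).comp (algebraMap K⟮z⟯ F) = ι₀ := by
    intro x
    ext a
    exact D.agree_adjoin x x₀ _ a.2
  set PE := P.map ι₀ with hPE
  have hPEmonic : PE.Monic := hPmonic.map ι₀
  have hPE0 : PE ≠ 0 := hPEmonic.ne_zero
  have hdegPE : PE.natDegree = P.natDegree := natDegree_map ι₀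
  -- each `σ x g` is a root
  have hroot : ∀ x, D.σ x g ∈ PE.roots := by
    intro x
    rw [mem_roots hPE0, IsRoot, hPE, eval_map, ← hι x, ← hom_eval₂, ← aeval_def, minpoly.aeval,
      map_zero]
  -- counting
  set R : Finset E := Finset.univ.image (fun x => D.σ x g) with hR
  have hRsub : R ⊆ PE.roots.toFinset := by
    intro c hc
    obtain ⟨x, -, rfl⟩ := Finset.mem_image.mp hc
    exact Multiset.mem_toFinset.mpr (hroot x)
  have hfib : ∀ c ∈ R, (Finset.univ.filter (fun x => D.σ x g = c)).card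
      ≤ Module.finrank K⟮z⟯⟮g⟯ F := by
    intro c _
    have := h2a5_card_le_finrank (M := K⟮z⟯⟮g⟯) (ι := {x : X // D.σ x g = c})
      (fun x => D.σ x.1) (fun a b hab => Subtype.ext (D.inj hab))
      (fun i j m => by
        refine h2a5_agree_adjoin (K := K⟮z⟯) (z := g) (D.σ i.1) (D.σ j.1) ?_ ?_ _ m.2
        · intro a
          exact D.agree_adjoin i.1 j.1 _ a.2
        · rw [i.2, j.2])
    rw [Nat.card_eq_fintype_card, Fintype.card_subtype] at this
    exact this
  have hcard := Finset.card_le_mul_card_image (f := fun x => D.σ x g) Finset.univ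
    (Module.finrank K⟮z⟯⟮g⟯ F) hfib
  rw [Finset.card_univ, ← Nat.card_eq_fintype_card] at hcard
  have htower := Module.finrank_mul_finrank K⟮z⟯ K⟮z⟯⟮g⟯ F
  rw [IntermediateField.adjoin.finrank hint] at htower
  have he'pos : 0 < Module.finrank K⟮z⟯⟮g⟯ F := Module.finrank_pos
  have hdR : P.natDegree ≤ R.card := by
    have h1 : Module.finrank K⟮z⟯⟮g⟯ F * P.natDegree ≤ Module.finrank K⟮z⟯⟮g⟯ F * R.card := by
      calc Module.finrank K⟮z⟯⟮g⟯ F * P.natDegree
          = Module.finrank K⟮z⟯ F := by rw [mul_comm]; exact htower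
        _ ≤ Nat.card X := hdeg
        _ ≤ Module.finrank K⟮z⟯⟮g⟯ F * R.card := hcard
    exact Nat.le_of_mul_le_mul_left h1 he'pos
  have h2 : R.card ≤ PE.roots.toFinset.card := Finset.card_le_card hRsub
  have h3 : PE.roots.toFinset.card ≤ Multiset.card PE.roots := Multiset.toFinset_card_le _
  have h4 : Multiset.card PE.roots ≤ PE.natDegree := card_roots' PE
  have hrootscard : Multiset.card PE.roots = PE.natDegree := by omega
  have hReq : R = PE.roots.toFinset := Finset.eq_of_subset_of_card_le hRsub (by omega)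
  have hwroots : ∀ c ∈ PE.roots, D.w c ≤ 1 := by
    intro c hc
    have : c ∈ R := by rw [hReq]; exact Multiset.mem_toFinset.mpr hc
    obtain ⟨x, -, rfl⟩ := Finset.mem_image.mp this
    exact hg x
  -- the coefficients of `PE` are `w`-integral
  have hcoeff : ∀ k, D.w (PE.coeff k) ≤ 1 := by
    intro k
    by_cases hk : k ≤ PE.natDegree
    · rw [coeff_eq_esymm_roots_of_card hrootscard hk, hPEmonic.leadingCoeff, one_mul, map_mul,
        map_pow, Valuation.map_neg, map_one, one_pow, one_mul]
      exact h2a5_w_esymm_le D.w _ hwroots _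
    · rw [coeff_eq_zero_of_natDegree_lt (not_le.mp hk), map_zero]
      exact zero_le
  -- hence the coefficients of `P` lie in the valuation ring of `v`
  have hcoeffv : ∀ k, algebraMap K⟮z⟯ F (P.coeff k) ∈ v.toValuationSubring := by
    intro k
    by_cases hak : algebraMap K⟮z⟯ F (P.coeff k) = 0
    · rw [hak]; exact zero_mem _
    have hw : D.w (D.σ x₀ (algebraMap K⟮z⟯ F (P.coeff k))) ≤ 1 := by
      have := hcoeff k
      rwa [hPE, coeff_map] at this
    have hu : 0 ≤ D.u x₀ (algebraMap K⟮z⟯ F (P.coeff k)) :=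
      (h2a5_u_nonneg_iff D.w (D.σ x₀) hak).mpr hw
    obtain ⟨k', hk'⟩ := h2a5_exists_ordz (K := K) hz (algebraMap K⟮z⟯ F (P.coeff k)) (P.coeff k).2 hak
    have e1 := hk' (D.u x₀) (D.isAddVal x₀) (D.u_algebraMap x₀) (D.u_z_pos hz x₀)
    have e2 := hk' v.ord (h2a5_isAddVal_ord v) (h2a5_ord_algebraMap v) hv
    have hzpos := D.u_z_pos hz x₀
    have hk'0 : 0 ≤ k' := by
      by_contra hneg
      have : k' * D.u x₀ z < 0 := mul_neg_of_neg_of_pos (not_le.mp hneg) hzpos
      omega
    rw [h2a5_mem_iff_ord v hak, e2]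
    positivity
  -- integrality
  have hlift : P.map (algebraMap K⟮z⟯ F) ∈ lifts (algebraMap v.toValuationSubring F) := by
    rw [lifts_iff_coeff_lifts]
    intro k
    rw [coeff_map]
    exact ⟨⟨_, hcoeffv k⟩, rfl⟩
  obtain ⟨q, hq, -, hqmonic⟩ :=
    lifts_and_degree_eq_and_monic hlift (hPmonic.map (algebraMap K⟮z⟯ F))
  have hgint : IsIntegral v.toValuationSubring g := by
    refine ⟨q, hqmonic, ?_⟩
    rw [← eval_map, hq, eval_map, ← aeval_def, minpoly.aeval]
  obtain ⟨y, hy⟩ := IsIntegrallyClosed.isIntegral_iff.mp hgint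
  rw [← hy]
  exact y.2

end H2LocalData

end RH24

end
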