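import Mathlib
import Fermat.Agent.S24.Contract
import Fermat.Agent.S24.A5Place
import Fermat.Agent.S24.A5Local
import Fermat.Agent.S24.A5Integral
import Fermat.Agent.S24.A5Approx

/-!
# T-RH slice A5, part 5 (helper2): exhaustion and counting

`RH24.h2a5_card_places_over_of_sum` : the statement of A5 (`card_places_over`) with the two A1 facts
(finiteness of the set of places over `z = 0` and the fundamental identity `∑ e_v = n`) as
explicit hypotheses.
-/

set_option autoImplicit false
set_option linter.style.haveILetI false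

noncomputable section

open scoped WithZero

namespace RH24

open AlgebraicCurve IntermediateField Polynomial

namespace H2LocalData

variable {K F : Type*} [Field K] [Field F] [Algebra K F] {z : F} {X E : Type*} [Field E]
  (D : H2LocalData K z X E)

/-- The place of `F` attached to the index `x`. -/
def place (hz : z ≠ 0) (x : X) : Place K F :=
  (h2a5_exists_place (D.isAddVal x) (D.u_algebraMap x) hz (D.u_z_pos hz x)).choose

theorem place_spec (hz : z ≠ 0) (x : X) :
    ∃ m : ℤ, 0 < m ∧ (D.place hz x).toValuationSubring = (D.isAddVal x).valuationSubring ∧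
      ∀ f : F, f ≠ 0 → D.u x f = m * (D.place hz x).ord f :=
  (h2a5_exists_place (D.isAddVal x) (D.u_algebraMap x) hz (D.u_z_pos hz x)).choose_spec

theorem place_ord_z_pos (hz : z ≠ 0) (x : X) : 0 < (D.place hz x).ord z := by
  obtain ⟨m, hm, -, hspec⟩ := D.place_spec hz x
  have h := hspec z hz
  have hpos := D.u_z_pos hz x
  rw [h] at hpos
  exact pos_of_mul_pos_left_aux hm hpos
where
  pos_of_mul_pos_left_aux {m k : ℤ} (hm : 0 < m) (h : 0 < m * k) : 0 < k := by
    by_contra hk
    have : m * k ≤ 0 := mul_nonpos_of_nonneg_of_nonpos hm.le (not_lt.mp hk)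
    omega

theorem place_eq_of_w_eq (hz : z ≠ 0) (x x' : X) (h : ∀ f, D.w (D.σ x f) = D.w (D.σ x' f)) :
    D.place hz x = D.place hz x' := by
  obtain ⟨-, -, h1, -⟩ := D.place_spec hz x
  obtain ⟨-, -, h2, -⟩ := D.place_spec hz x'
  apply Place.ext
  rw [h1, h2]
  ext f
  rw [H2IsAddVal.mem_valuationSubring, H2IsAddVal.mem_valuationSubring]
  have : D.u x f = D.u x' f := h2a5_u_eq_of_eq D.w _ _ (h f)
  rw [this]

/-- **Exhaustion.** Every place over `z = 0` is attached to some index. -/
theorem exists_place_eq [Finite X] [FiniteDimensional K⟮z⟯ F] (hz : z ≠ 0)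
    (hdeg : Module.finrank K⟮z⟯ F ≤ Nat.card X) (v : Place K F) (hv : 0 < v.ord z) :
    ∃ x, D.place hz x = v := by
  classical
  letI : Fintype X := Fintype.ofFinite X
  by_contra hne
  rw [not_exists] at hne
  set s : Finset (Place K F) := Finset.univ.image (fun x => D.place hz x) with hs
  have hvs : v ∉ s := by
    intro h
    obtain ⟨x, -, hx⟩ := Finset.mem_image.mp h
    exact hne x hx
  obtain ⟨g, hg0, hgv, hgs⟩ := h2a5_approx v s hvs
  have hgi0 : g⁻¹ ≠ 0 := inv_ne_zero hg0
  have hle : ∀ x, D.w (D.σ x g⁻¹) ≤ 1 := by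
    intro x
    rw [← h2a5_u_nonneg_iff D.w (D.σ x) hgi0]
    obtain ⟨m, hm, -, hspec⟩ := D.place_spec hz x
    show 0 ≤ D.u x g⁻¹
    rw [hspec _ hgi0, Place.ord_inv]
    have := hgs (D.place hz x) (Finset.mem_image.mpr ⟨x, Finset.mem_univ _, rfl⟩)
    have h1 : 0 ≤ -(D.place hz x).ord g := by omega
    exact mul_nonneg hm.le h1
  have hmem := D.mem_of_forall_le hz hdeg g⁻¹ hle v hv
  rw [h2a5_mem_iff_ord v hgi0, Place.ord_inv] at hmem
  omega

/-- **Divisibility.** (H2) forces the ramification index to divide the size of the class. -/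
theorem ord_z_dvd (hz : z ≠ 0) (x : X) (N : ℕ)
    (H2 : ∀ f : F, f ≠ 0 → ∃ m : ℤ, D.w (D.σ x f) ^ N = D.w (D.σ x z) ^ m) :
    (D.place hz x).ord z ∣ (N : ℤ) := by
  obtain ⟨m, hm, -, hspec⟩ := D.place_spec hz x
  obtain ⟨π, hπ⟩ := IsDiscreteValuationRing.exists_irreducible (D.place hz x).toValuationSubring
  have hπ0 : (π : F) ≠ 0 := fun h => hπ.ne_zero (Subtype.ext h)
  have hπord : (D.place hz x).ord (π : F) = 1 := (D.place hz x).ord_coe_irreducible hπ
  obtain ⟨k, hk⟩ := H2 (π : F) hπ0
  have hlog := congrArg WithZero.log hk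
  rw [WithZero.log_pow, WithZero.log_zpow] at hlog
  have e1 : D.u x (π : F) = m := by rw [hspec _ hπ0, hπord, mul_one]
  have e2 : D.u x z = m * (D.place hz x).ord z := hspec z hz
  have e1' : WithZero.log (D.w (D.σ x (π : F))) = -m := by
    have : D.u x (π : F) = - WithZero.log (D.w (D.σ x (π : F))) := rfl
    omega
  have e2' : WithZero.log (D.w (D.σ x z)) = -(m * (D.place hz x).ord z) := by
    have : D.u x z = - WithZero.log (D.w (D.σ x z)) := rfl
    omega
  rw [e1', e2'] at hlog
  simp only [nsmul_eq_mul, smul_eq_mul] at hlog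
  have hcancel : m * (N : ℤ) = m * (k * (D.place hz x).ord z) := by
    have h1 : (N : ℤ) * -m = k * -(m * (D.place hz x).ord z) := hlog
    linarith [h1]
  have := mul_left_cancel₀ hm.ne' hcancel
  exact ⟨k, by rw [this]; ring⟩

end H2LocalData

/-- A positive multiple divides: `e ∣ N`, `0 < e`, `0 < N` gives `e ≤ N` (integers). -/
theorem h2a5_le_of_dvd {e : ℤ} {N : ℕ} (he : 0 < e) (hN : 0 < N) (h : e ∣ (N : ℤ)) :
    e.toNat ≤ N := by
  have := Int.le_of_dvd (by exact_mod_cast hN) h
  omega

/-- **A5 with the A1 facts as hypotheses.** -/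
theorem h2a5_card_places_over_of_sum {K F : Type*} [Field K] [Field F] [Algebra K F]
    (z : F) (hz : z ≠ 0) [FiniteDimensional K⟮z⟯ F]
    {X : Type*} [Finite X] (hdeg : Module.finrank K⟮z⟯ F ≤ Nat.card X) (r : Setoid X)
    (h : HasLocalData K z r)
    (hfin : Finite {v : Place K F // 0 < v.ord z})
    (hsum : ∑ᶠ v : {v : Place K F // 0 < v.ord z}, v.1.ord z = (Module.finrank K⟮z⟯ F : ℤ)) :
    Nat.card {v : Place K F // 0 < v.ord z} = Nat.card (Quotient r) := by
  classical
  obtain ⟨E, instE, w, σ, hinj, hagK, hleK, hagz, hltz, H1, H2⟩ := h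
  let D : H2LocalData K z X E :=
    { w := w, σ := σ, inj := hinj, agreeK := hagK, leK := hleK, agreez := hagz, ltz := hltz }
  letI : Fintype X := Fintype.ofFinite X
  letI : Fintype {v : Place K F // 0 < v.ord z} := Fintype.ofFinite _
  letI : Fintype (Quotient r) := Fintype.ofFinite _
  -- the map from classes to places
  let φ : Quotient r → {v : Place K F // 0 < v.ord z} :=
    Quotient.lift (fun x => ⟨D.place hz x, D.place_ord_z_pos hz x⟩)
      (fun x x' hxx' => Subtype.ext (D.place_eq_of_w_eq hz x x' (H1 x x' hxx')))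
  have hφ : Function.Surjective φ := by
    rintro ⟨v, hv⟩
    obtain ⟨x, hx⟩ := D.exists_place_eq hz hdeg v hv
    exact ⟨Quotient.mk r x, Subtype.ext hx⟩
  -- sizes of classes
  let N : Quotient r → ℕ := fun q => Fintype.card {x : X // Quotient.mk r x = q}
  have hNpos : ∀ q, 0 < N q := by
    intro q
    induction q using Quotient.inductionOn with
    | _ x => exact Fintype.card_pos_iff.mpr ⟨⟨x, rfl⟩⟩
  have hNsum : ∑ q, N q = Fintype.card X := by
    rw [← Fintype.card_sigma]
    exact Fintype.card_congr (Equiv.sigmaFiberEquiv (Quotient.mk r))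
  have hcardX : Fintype.card X ≤ Module.finrank K⟮z⟯ F := by
    have := D.card_le
    rwa [Nat.card_eq_fintype_card] at this
  -- ramification indices
  let e : {v : Place K F // 0 < v.ord z} → ℕ := fun v => (v.1.ord z).toNat
  have hesum : ∑ v, e v = Module.finrank K⟮z⟯ F := by
    rw [finsum_eq_sum_of_fintype] at hsum
    have : ((∑ v, e v : ℕ) : ℤ) = (Module.finrank K⟮z⟯ F : ℤ) := by
      rw [← hsum]
      push_cast
      refine Finset.sum_congr rfl (fun v _ => ?_)
      exact Int.toNat_of_nonneg v.2.le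
    exact_mod_cast this
  have heN : ∀ q, e (φ q) ≤ N q := by
    intro q
    induction q using Quotient.inductionOn with
    | _ x =>
      have hcard : Nat.card {x' // r x' x} = N (Quotient.mk r x) := by
        rw [Nat.card_eq_fintype_card]
        refine Fintype.card_congr (Equiv.subtypeEquivRight (fun x' => ?_))
        exact (Quotient.eq (r := r)).symm
      have hdvd := D.ord_z_dvd hz x (Nat.card {x' // r x' x}) (H2 x)
      rw [hcard] at hdvd
      exact h2a5_le_of_dvd (D.place_ord_z_pos hz x) (hNpos _) hdvd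
  -- a section of `φ`
  let ψ : {v : Place K F // 0 < v.ord z} → Quotient r := Function.surjInv hφ
  have hψinj : Function.Injective ψ := Function.injective_surjInv hφ
  have hψφ : ∀ v, φ (ψ v) = v := Function.surjInv_eq hφ
  have hψsurj : Function.Surjective ψ := by
    by_contra hns
    rw [Function.Surjective, not_forall] at hns
    obtain ⟨q₀, hq₀⟩ := hns
    rw [not_exists] at hq₀
    have h1 : ∑ v, e v ≤ ∑ v, N (ψ v) := by
      refine Finset.sum_le_sum (fun v _ => ?_)
      have := heN (ψ v)
      rwa [hψφ] at this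
    have h2 : ∑ v, N (ψ v) = ∑ q ∈ Finset.univ.image ψ, N q :=
      (Finset.sum_image (fun a _ b _ hab => hψinj hab)).symm
    have h3 : ∑ q ∈ Finset.univ.image ψ, N q < ∑ q, N q := by
      refine Finset.sum_lt_sum_of_subset (Finset.subset_univ _) (Finset.mem_univ q₀) ?_
        (hNpos q₀) (fun _ _ _ => Nat.zero_le _)
      intro hmem
      obtain ⟨v, -, hv⟩ := Finset.mem_image.mp hmem
      exact hq₀ v hv
    omega
  rw [Nat.card_eq_fintype_card, Nat.card_eq_fintype_card]
  exact Fintype.card_congr (Equiv.ofBijective ψ ⟨hψinj, hψsurj⟩)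

end RH24

end
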