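import Mathlib
import Fermat.Agent.S24.Contract
import Fermat.Agent.S24.A1
import Fermat.Agent.S24.A5Count

/-!
# T-RH slice A5 (helper2): RH-local, final form

`RH24.card_places_over` : the number of places of `F / K` over `z = 0` is the number of classes of
the local uniformisation data (contract statement of `NOTES/S24_contract.md`).
-/

set_option autoImplicit false

noncomputable section

open AlgebraicCurve IntermediateField

namespace RH24

variable {K F : Type*} [Field K] [IsAlgClosed K] [CharZero K] [Field F] [Algebra K F]

/-- **A5 (RH-local).** -/
theorem card_places_over (z : F) (hz : Transcendental K z) [FiniteDimensional K⟮z⟯ F]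
    {X : Type*} [Finite X] (hdeg : Module.finrank K⟮z⟯ F ≤ Nat.card X) (r : Setoid X)
    (h : HasLocalData K z r) :
    Nat.card {v : Place K F // 0 < v.ord z} = Nat.card (Quotient r) :=
  h2a5_card_places_over_of_sum z (fun h0 => hz (h0 ▸ isAlgebraic_zero)) hdeg r h
    (finite_places_over z hz) (sum_ord_eq_finrank z hz)

end RH24

end
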