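import Mathlib
import Fermat.Agent.S24.A4
import Fermat.Agent.S24.A1
import Fermat.Agent.S24.A1Deg
import Fermat.Agent.S24.A3bFinal
import Fermat.Agent.S24.A5

/-!
# T-RH (S24), Layer A, slices A2 + A4 (helper5): final (unconditional) statements

* `RH24.degree_eq_zero_of_principal` : principal divisors have degree zero;
* `RH24.degree_canonical` : the Riemann–Hurwitz count (exact contract statement of
  `NOTES/S24_contract.md`).
-/

set_option autoImplicit false
set_option linter.style.haveILetI false
set_option linter.unusedSectionVars false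

noncomputable section

open AlgebraicCurve IntermediateField KaehlerDifferential

namespace RH24

variable {K F : Type*} [Field K] [IsAlgClosed K] [CharZero K] [Field F] [Algebra K F]

theorem h5a_A1_holds (y : F) (hy : Transcendental K y) [FiniteDimensional K⟮y⟯ F] :
    h5a_A1 K F where
  fin := fun z hz hfd => by
    haveI := hfd
    exact finite_places_over z hz
  sum := fun z hz hfd => by
    haveI := hfd
    exact sum_ord_eq_finrank z hz
  deg := fun v => place_deg_eq_one y hy v
  center := fun y' hy' hfd v h => by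
    haveI := hfd
    exact exists_center y' hy' v h

theorem h5a_A3b_holds (y : F) (hy : Transcendental K y) [FiniteDimensional K⟮y⟯ F] :
    h5a_A3b K F where
  gen := fun v => dCoordGenerates y hy v
  ordD := fun v f hf => ordDifferential_D y hy v f hf

theorem h5a_A5_holds (X : Type*) [Finite X] : h5a_A5 K F X :=
  fun z hz hfd hdeg r h => by
    haveI := hfd
    exact card_places_over z hz hdeg r h

/-- **A2**: principal divisors have degree zero. -/
theorem degree_eq_zero_of_principal (y : F) (hy : Transcendental K y) [FiniteDimensional K⟮y⟯ F]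
    (f : F) (hf : f ≠ 0) (Dv : Divisor K F) (hD : ∀ v : Place K F, Dv v = v.ord f) :
    Divisor.degree Dv = 0 :=
  h5a_degree_eq_zero_of_principal (h5a_A1_holds y hy) y f hf Dv hD

/-- **A4 (RH-global)**: the degree of a canonical divisor. -/
theorem degree_canonical [HasCanonicalDivisor (K := K) (F := F)]
    (y : F) (hy : Transcendental K y) [FiniteDimensional K⟮y⟯ F]
    {X : Type*} [Finite X] (hdeg : Module.finrank K⟮y⟯ F ≤ Nat.card X)
    (a₁ a₂ : K) (h12 : a₁ ≠ a₂) (r₁ r₂ r₃ : Setoid X)
    (L₁ : HasLocalData K (y - algebraMap K F a₁) r₁)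
    (L₂ : HasLocalData K (y - algebraMap K F a₂) r₂)
    (L₃ : HasLocalData K y⁻¹ r₃)
    (Lgen : ∀ a : K, a ≠ a₁ → a ≠ a₂ → HasLocalData K (y - algebraMap K F a) (⊥ : Setoid X))
    {ω : Ω[F⁄K]} (hω : ω ≠ 0) :
    Divisor.degree (canonicalDivisorOf hω) =
      ((Nat.card X : ℤ) - Nat.card (Quotient r₁)) + ((Nat.card X : ℤ) - Nat.card (Quotient r₂))
        - ((Nat.card X : ℤ) + Nat.card (Quotient r₃)) :=
  h5a_degree_canonical (h5a_A1_holds y hy) (h5a_A3b_holds y hy) y hy (h5a_A5_holds X) hdeg
    a₁ a₂ h12 r₁ r₂ r₃ L₁ L₂ L₃ Lgen hω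

end RH24

end
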