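import Mathlib
import Fermat.Agent.S24.BDefs
import Fermat.Agent.S24.BH3

/-!
# T-RH (S24) Layer B, slices BE1 + BE2 (helper11): (H2) at the elliptic points

If `g ∈ SL(2,ℤ)` fixes `z₀` and `a/b` is `g`-invariant (`a(gz) b(z) = a(z) b(gz)`), then comparing
trailing coefficients at `z₀` gives `ζ ^ ord a = ζ ^ ord b` with `ζ = g'(z₀) = (c z₀ + d)⁻²`.
For `g = ST` (resp. `S`) `ζ` is a primitive 3rd (resp. 2nd) root of unity.
-/

set_option autoImplicit false
set_option linter.style.longLine false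
set_option linter.unusedVariables false

noncomputable section

open UpperHalfPlane ModularForm MatrixGroups CongruenceSubgroup Filter Topology
open scoped Manifold

namespace RH24

/-- the germ of a holomorphic function on `ℍ` is analytic -/
theorem h11b_analyticAt (a : ℍ → ℂ) (ha : MDiff a) (z₀ : ℍ) :
    AnalyticAt ℂ (fun w : ℂ => a (ofComplex w)) (z₀ : ℂ) := by
  have h := UpperHalfPlane.mdifferentiable_iff.mp ha
  exact h.analyticAt (isOpen_upperHalfPlaneSet.mem_nhds z₀.im_pos)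

/-- a nonzero holomorphic function on `ℍ` has finite order everywhere -/
theorem h11b_ordAt_ne_top (a : ℍ → ℂ) (ha : MDiff a) (ha0 : ∃ z, a z ≠ 0) (z₀ : ℍ) :
    ordAt z₀ a ≠ ⊤ := by
  intro htop
  unfold ordAt at htop
  rw [analyticOrderAt_eq_top] at htop
  obtain ⟨z, hz⟩ := ha0
  have h := UpperHalfPlane.mdifferentiable_iff.mp ha
  have han := h.analyticOnNhd isOpen_upperHalfPlaneSet
  have hpre : IsPreconnected {z : ℂ | 0 < z.im} :=
    (Complex.isConnected_of_upperHalfPlane subset_rfl (by grind)).isPreconnected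
  have := han.eqOn_zero_of_preconnected_of_eventuallyEq_zero hpre z₀.im_pos htop z.im_pos
  apply hz
  simpa using this

/-- the trailing coefficient of an analytic function with a simple zero is its derivative -/
theorem h11b_trailingCoeff_eq_deriv {f : ℂ → ℂ} {x : ℂ} (hf : AnalyticAt ℂ f x) (h0 : f x = 0)
    (hd : deriv f x ≠ 0) : meromorphicTrailingCoeffAt f x = deriv f x := by
  have hord : analyticOrderAt f x = 1 := by
    have := hf.analyticOrderAt_sub_eq_one_of_deriv_ne_zero hd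
    simpa [h0] using this
  have hmord : meromorphicOrderAt f x = 1 := by
    rw [hf.meromorphicOrderAt_eq, hord]
    rfl
  have h1 := hf.meromorphicAt.tendsto_nhds_meromorphicTrailingCoeffAt
  rw [hmord] at h1
  have h2 : Tendsto (slope f x) (𝓝[≠] x) (𝓝 (deriv f x)) :=
    hasDerivAt_iff_tendsto_slope.mp hf.differentiableAt.hasDerivAt
  have h3 : ((· - x) ^ (-(1 : WithTop ℤ).untop₀) • f) = slope f x := by
    ext w
    simp only [Pi.smul_apply', Pi.pow_apply, slope, h0, sub_zero, vsub_eq_sub, smul_eq_mul]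
    simp
  rw [h3] at h1
  exact tendsto_nhds_unique h1 h2

/-- **Key lemma**: comparison of trailing coefficients at a fixed point. -/
theorem h11b_zpow_eq_of_fixed (g : SL(2, ℤ)) (z₀ : ℍ) (hz₀ : g • z₀ = z₀)
    (a b : ℍ → ℂ) (ha : MDiff a) (hb : MDiff b) (ha0 : ∃ z, a z ≠ 0) (hb0 : ∃ z, b z ≠ 0)
    (h : ∀ z : ℍ, a (g • z) * b z = a z * b (g • z)) :
    ((1 : ℂ) / denom (h11b_gl g) z₀ ^ 2) ^ ((ordAt z₀ a).toNat)
      = ((1 : ℂ) / denom (h11b_gl g) z₀ ^ 2) ^ ((ordAt z₀ b).toNat) := by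
  set A : ℂ → ℂ := fun w => a (ofComplex w) with hA
  set B : ℂ → ℂ := fun w => b (ofComplex w) with hB
  set G : ℂ → ℂ := fun w => ↑(h11b_gl g • ofComplex w) with hG
  set ζ : ℂ := (1 : ℂ) / denom (h11b_gl g) z₀ ^ 2 with hζ
  have hAan : AnalyticAt ℂ A z₀ := h11b_analyticAt a ha z₀
  have hBan : AnalyticAt ℂ B z₀ := h11b_analyticAt b hb z₀
  have hGan : AnalyticAt ℂ G z₀ := z₀.analyticAt_smul (h11b_det_pos g)
  have hGz : G z₀ = z₀ := by
    change ((h11b_gl g • ofComplex (z₀ : ℂ) : ℍ) : ℂ) = z₀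
    rw [ofComplex_apply, ← h11b_smul_eq, hz₀]
  have hGd : deriv G z₀ = ζ := by
    rw [hG, z₀.deriv_smul (h11b_det_pos g), hζ]
    congr 1
    have h2 : ((h11b_gl g).det : ℝ) = 1 := by
      unfold h11b_gl
      rw [Matrix.SpecialLinearGroup.det_mapGL]
      rfl
    have : (h11b_gl g).val.det = 1 := h2
    rw [this]; simp
  have hζ0 : ζ ≠ 0 := by
    rw [hζ]
    exact div_ne_zero one_ne_zero (pow_ne_zero _ (denom_ne_zero _ z₀))
  have hGd0 : deriv G z₀ ≠ 0 := by rw [hGd]; exact hζ0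
  have hnc : ¬ EventuallyConst G (𝓝 (z₀ : ℂ)) := by
    rw [eventuallyConst_iff_analyticOrderAt_sub_eq_top,
      hGan.analyticOrderAt_sub_eq_one_of_deriv_ne_zero hGd0]
    exact ENat.one_ne_top
  have htcG : meromorphicTrailingCoeffAt (G · - G z₀) z₀ = ζ := by
    have han : AnalyticAt ℂ (G · - G z₀) z₀ := hGan.sub analyticAt_const
    have hd : deriv (G · - G z₀) z₀ = deriv G z₀ := by
      simp
    rw [h11b_trailingCoeff_eq_deriv han (by simp) (by rw [hd]; exact hGd0), hd, hGd]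
  -- orders
  have hmA : meromorphicOrderAt A z₀ = ((ordAt z₀ a).toNat : ℤ) := by
    rw [hAan.meromorphicOrderAt_eq]
    obtain ⟨n, hn⟩ := ENat.ne_top_iff_exists.mp (h11b_ordAt_ne_top a ha ha0 z₀)
    have hn' : analyticOrderAt A z₀ = n := hn.symm
    have hn2 : (ordAt z₀ a).toNat = n := by rw [← hn]; simp
    rw [hn', hn2]
    rfl
  have hmB : meromorphicOrderAt B z₀ = ((ordAt z₀ b).toNat : ℤ) := by
    rw [hBan.meromorphicOrderAt_eq]
    obtain ⟨n, hn⟩ := ENat.ne_top_iff_exists.mp (h11b_ordAt_ne_top b hb hb0 z₀)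
    have hn' : analyticOrderAt B z₀ = n := hn.symm
    have hn2 : (ordAt z₀ b).toNat = n := by rw [← hn]; simp
    rw [hn', hn2]
    rfl
  have hAne : meromorphicTrailingCoeffAt A z₀ ≠ 0 :=
    hAan.meromorphicAt.meromorphicTrailingCoeffAt_ne_zero (by rw [hmA]; exact WithTop.coe_ne_top)
  have hBne : meromorphicTrailingCoeffAt B z₀ ≠ 0 :=
    hBan.meromorphicAt.meromorphicTrailingCoeffAt_ne_zero (by rw [hmB]; exact WithTop.coe_ne_top)
  -- trailing coefficients of the composites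
  have hAG : meromorphicTrailingCoeffAt (A ∘ G) z₀
      = ζ ^ ((ordAt z₀ a).toNat) * meromorphicTrailingCoeffAt A z₀ := by
    have hAm : MeromorphicAt A (G z₀) := by rw [hGz]; exact hAan.meromorphicAt
    rw [hAm.meromorphicTrailingCoeffAt_comp hGan hnc, htcG, hGz, hmA]
    simp
  have hBG : meromorphicTrailingCoeffAt (B ∘ G) z₀
      = ζ ^ ((ordAt z₀ b).toNat) * meromorphicTrailingCoeffAt B z₀ := by
    have hBm : MeromorphicAt B (G z₀) := by rw [hGz]; exact hBan.meromorphicAt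
    rw [hBm.meromorphicTrailingCoeffAt_comp hGan hnc, htcG, hGz, hmB]
    simp
  have hAGm : MeromorphicAt (A ∘ G) z₀ := by
    have : AnalyticAt ℂ A (G z₀) := by rw [hGz]; exact hAan
    exact (this.comp hGan).meromorphicAt
  have hBGm : MeromorphicAt (B ∘ G) z₀ := by
    have : AnalyticAt ℂ B (G z₀) := by rw [hGz]; exact hBan
    exact (this.comp hGan).meromorphicAt
  -- the functional equation
  have hfe : ((A ∘ G) * B) =ᶠ[𝓝[≠] (z₀ : ℂ)] (A * (B ∘ G)) := by
    have hmem : {w : ℂ | 0 < w.im} ∈ 𝓝 (z₀ : ℂ) := isOpen_upperHalfPlaneSet.mem_nhds z₀.im_pos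
    refine Filter.Eventually.filter_mono nhdsWithin_le_nhds ?_
    filter_upwards [hmem] with w hw
    have e1 : ofComplex (G w) = g • ofComplex w := by
      change ofComplex ((h11b_gl g • ofComplex w : ℍ) : ℂ) = _
      rw [ofComplex_apply, ← h11b_smul_eq]
    simp only [Pi.mul_apply, Function.comp_apply, hA, hB, e1]
    exact h (ofComplex w)
  have key := meromorphicTrailingCoeffAt_congr_nhdsNE hfe
  rw [hAGm.meromorphicTrailingCoeffAt_mul hBan.meromorphicAt,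
    hAan.meromorphicAt.meromorphicTrailingCoeffAt_mul hBGm, hAG, hBG] at key
  have key2 : ζ ^ (ordAt z₀ a).toNat * (meromorphicTrailingCoeffAt A z₀ * meromorphicTrailingCoeffAt B z₀)
      = ζ ^ (ordAt z₀ b).toNat * (meromorphicTrailingCoeffAt A z₀ * meromorphicTrailingCoeffAt B z₀) := by
    linear_combination key
  exact mul_right_cancel₀ (mul_ne_zero hAne hBne) key2

/-- from `ζ ^ m = ζ ^ n` for a primitive `k`-th root of unity to divisibility -/
theorem h11b_dvd_of_pow_eq {ζ : ℂ} {k : ℕ} (hζ : IsPrimitiveRoot ζ k) (hk : k ≠ 0) {m n : ℕ}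
    (h : ζ ^ m = ζ ^ n) : (k : ℤ) ∣ (m : ℤ) - (n : ℤ) := by
  have hζ0 : ζ ≠ 0 := hζ.ne_zero hk
  rw [← hζ.zpow_eq_one_iff_dvd, zpow_sub₀ hζ0, zpow_natCast, zpow_natCast, h,
    div_self (pow_ne_zero _ hζ0)]

theorem h11b_denom_ST (z : ℍ) :
    denom (h11b_gl (ModularGroup.S * ModularGroup.T)) z = (z : ℂ) + 1 := by
  unfold denom h11b_gl
  simp [ModularGroup.S, ModularGroup.T, Matrix.SpecialLinearGroup.mapGL_coe_matrix,
    Matrix.mul_apply, Fin.sum_univ_two]

theorem h11b_denom_S (z : ℍ) : denom (h11b_gl ModularGroup.S) z = (z : ℂ) := by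
  unfold denom h11b_gl
  simp [ModularGroup.S, Matrix.SpecialLinearGroup.mapGL_coe_matrix]

theorem h11b_fixed_ST (z₀ : ℍ) (hz₀ : (ModularGroup.S * ModularGroup.T) • z₀ = z₀) :
    (z₀ : ℂ) * ((z₀ : ℂ) + 1) = -1 := by
  have h1 := congrArg (fun z : ℍ => (z : ℂ)) hz₀
  simp only [coe_specialLinearGroup_apply] at h1
  have h2 : ((z₀ : ℂ) + 1) ≠ 0 := by
    intro h
    have := congrArg Complex.im h
    simp at this
    exact z₀.im_pos.ne' this
  have h3 : (-1 : ℂ) / ((z₀ : ℂ) + 1) = z₀ := by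
    simpa [ModularGroup.S, ModularGroup.T] using h1
  rw [div_eq_iff h2] at h3
  rw [← h3]

theorem h11b_fixed_S (z₀ : ℍ) (hz₀ : ModularGroup.S • z₀ = z₀) : (z₀ : ℂ) * (z₀ : ℂ) = -1 := by
  have h1 := congrArg (fun z : ℍ => (z : ℂ)) hz₀
  simp only [coe_specialLinearGroup_apply] at h1
  have h2 : (z₀ : ℂ) ≠ 0 := z₀.ne_zero
  have h3 : (-1 : ℂ) / (z₀ : ℂ) = z₀ := by
    simpa [ModularGroup.S] using h1
  rw [div_eq_iff h2] at h3
  rw [← h3]

theorem h11b_primitive_ST (z₀ : ℍ) (hz₀ : (ModularGroup.S * ModularGroup.T) • z₀ = z₀) :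
    IsPrimitiveRoot ((1 : ℂ) / denom (h11b_gl (ModularGroup.S * ModularGroup.T)) z₀ ^ 2) 3 := by
  rw [h11b_denom_ST]
  have hq := h11b_fixed_ST z₀ hz₀
  have hz0 : (z₀ : ℂ) ≠ 0 := z₀.ne_zero
  have hsq : ((z₀ : ℂ) + 1) ^ 2 = z₀ := by linear_combination hq
  have hcube : (z₀ : ℂ) ^ 3 = 1 := by linear_combination ((z₀ : ℂ) - 1) * hq
  have hne1 : (z₀ : ℂ) ≠ 1 := by
    intro h
    have := congrArg Complex.im h
    simp at this
    exact z₀.im_pos.ne' this
  rw [hsq]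
  have h3 : ((1 : ℂ) / z₀) ^ 3 = 1 := by rw [div_pow, one_pow, hcube, div_one]
  refine IsPrimitiveRoot.mk_of_lt _ (by norm_num) h3 ?_
  intro l hl0 hl3
  interval_cases l
  · intro h
    apply hne1
    rw [pow_one, div_eq_iff hz0, one_mul] at h
    exact h.symm
  · intro h
    apply hne1
    have h4 : ((1 : ℂ) / z₀) = 1 := by
      calc ((1 : ℂ) / z₀) = ((1 : ℂ) / z₀) ^ 3 / ((1 : ℂ) / z₀) ^ 2 := by
            field_simp
        _ = 1 := by rw [h3, h, div_one]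
    rw [div_eq_iff hz0, one_mul] at h4
    exact h4.symm

theorem h11b_primitive_S (z₀ : ℍ) (hz₀ : ModularGroup.S • z₀ = z₀) :
    IsPrimitiveRoot ((1 : ℂ) / denom (h11b_gl ModularGroup.S) z₀ ^ 2) 2 := by
  rw [h11b_denom_S]
  have hq := h11b_fixed_S z₀ hz₀
  have hsq : (z₀ : ℂ) ^ 2 = -1 := by rw [sq]; exact hq
  rw [hsq]
  have : (1 : ℂ) / -1 = -1 := by norm_num
  rw [this]
  exact IsPrimitiveRoot.neg_one 0 (by norm_num)

/-- BE1 -/
theorem three_dvd_ordAt_of_fixed (z₀ : ℍ) (hz₀ : (ModularGroup.S * ModularGroup.T) • z₀ = z₀)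
    (a b : ℍ → ℂ) (ha : MDiff a) (hb : MDiff b) (ha0 : ∃ z, a z ≠ 0) (hb0 : ∃ z, b z ≠ 0)
    (h : ∀ z : ℍ, a ((ModularGroup.S * ModularGroup.T) • z) * b z
      = a z * b ((ModularGroup.S * ModularGroup.T) • z)) :
    (3 : ℤ) ∣ ((ordAt z₀ a).toNat : ℤ) - ((ordAt z₀ b).toNat : ℤ) := by
  have key := h11b_zpow_eq_of_fixed _ z₀ hz₀ a b ha hb ha0 hb0 h
  exact_mod_cast h11b_dvd_of_pow_eq (h11b_primitive_ST z₀ hz₀) (by norm_num) key

/-- BE2 -/
theorem two_dvd_ordAt_of_fixed (z₀ : ℍ) (hz₀ : ModularGroup.S • z₀ = z₀)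
    (a b : ℍ → ℂ) (ha : MDiff a) (hb : MDiff b) (ha0 : ∃ z, a z ≠ 0) (hb0 : ∃ z, b z ≠ 0)
    (h : ∀ z : ℍ, a (ModularGroup.S • z) * b z = a z * b (ModularGroup.S • z)) :
    (2 : ℤ) ∣ ((ordAt z₀ a).toNat : ℤ) - ((ordAt z₀ b).toNat : ℤ) := by
  have key := h11b_zpow_eq_of_fixed _ z₀ hz₀ a b ha hb ha0 hb0 h
  exact_mod_cast h11b_dvd_of_pow_eq (h11b_primitive_S z₀ hz₀) (by norm_num) key

end RH24

end
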