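import Mathlib
import Fermat.Agent.S24.BH1

set_option autoImplicit false
set_option linter.style.haveILetI false

noncomputable section

open UpperHalfPlane ModularForm MatrixGroups CongruenceSubgroup Filter Topology
open scoped Manifold WithZero

namespace RH24

section BH2

/-- BH2: orders at a point -/
theorem ordAt_ne_top (z₀ : ℍ) (f : ℍ → ℂ) (hf : MDiff f) (h : ∃ z, f z ≠ 0) : ordAt z₀ f ≠ ⊤ := by
  intro htop
  obtain ⟨z, hz⟩ := h
  apply hz
  rw [ordAt, analyticOrderAt_eq_top] at htop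
  exact h5b_eq_zero_of_eventually f hf z₀ htop z

theorem ordAt_mul (z₀ : ℍ) (f g : ℍ → ℂ) (hf : MDiff f) (hg : MDiff g) :
    ordAt z₀ (fun z => f z * g z) = ordAt z₀ f + ordAt z₀ g := by
  have := analyticOrderAt_mul (h5b_analyticAt f hf z₀) (h5b_analyticAt g hg z₀)
  exact this

theorem ordAt_add (z₀ : ℍ) (f g : ℍ → ℂ) (_hf : MDiff f) (_hg : MDiff g) :
    min (ordAt z₀ f) (ordAt z₀ g) ≤ ordAt z₀ (fun z => f z + g z) := by
  have := le_analyticOrderAt_add (f := fun w : ℂ => f (ofComplex w))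
    (g := fun w : ℂ => g (ofComplex w)) (z₀ := (z₀ : ℂ))
  exact this

theorem ordAt_eq_zero_iff (z₀ : ℍ) (f : ℍ → ℂ) (hf : MDiff f) : ordAt z₀ f = 0 ↔ f z₀ ≠ 0 := by
  rw [ordAt, (h5b_analyticAt f hf z₀).analyticOrderAt_eq_zero]
  simp [ofComplex_apply]

end BH2

end RH24
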