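/-
T-RH (S24), helper20: generic assembly of the local data `RH24.HasLocalData` from a ring of
holomorphic functions with an order function.
-/
import Mathlib
import Fermat.Agent.S24.BDefs
import Fermat.Agent.S24.BA12
import Fermat.Agent.S24.BA3
import Fermat.Agent.S24.BH1
import Fermat.Agent.S24.BH3
import Fermat.Agent.S24.BJ12
import Fermat.Agent.S24.BJ3

set_option autoImplicit false

noncomputable section

open UpperHalfPlane ModularForm MatrixGroups CongruenceSubgroup AlgebraicCurve IntermediateField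
open scoped Manifold WithZero

namespace RH24

/-- a ring of holomorphic functions containing the translates of the generators, with an
order function -/
structure h20_Ring (N : ℕ) [NeZero N] where
  A : Subalgebra ℂ (ℍ → ℂ)
  le : A ≤ Hol
  mem : ∀ (d : Dv N) (δ : SL(2, ℤ)), jdt d.1 δ ∈ A
  o : (ℍ → ℂ) → ℤ
  o_const : ∀ c : ℂ, c ≠ 0 → o (fun _ => c) = 0
  o_mul : ∀ a b : ℍ → ℂ, a ∈ A → b ∈ A → (∃ z, a z ≠ 0) → (∃ z, b z ≠ 0) →
    o (fun z => a z * b z) = o a + o b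
  o_add : ∀ a b : ℍ → ℂ, a ∈ A → b ∈ A → (∃ z, a z ≠ 0) → (∃ z, b z ≠ 0) →
    (∃ z, a z + b z ≠ 0) → min (o a) (o b) ≤ o (fun z => a z + b z)

namespace h20_Ring

variable {N : ℕ} [NeZero N] (R : h20_Ring N)

theorem ne_zero_iff (a : R.A) : a ≠ 0 ↔ ∃ z, (a : ℍ → ℂ) z ≠ 0 := by
  constructor
  · intro h
    by_contra hc
    push Not at hc
    exact h (Subtype.ext (funext hc))
  · rintro ⟨z, hz⟩ h
    apply hz
    rw [h]
    rfl

instance isDomain : IsDomain R.A := by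
  have : Nontrivial R.A := ⟨⟨0, 1, by
    intro h
    have := congrArg (fun f : R.A => (f : ℍ → ℂ) UpperHalfPlane.I) h
    simp at this⟩⟩
  have : NoZeroDivisors R.A := ⟨by
    intro a b hab
    have h := Hol_noZeroDivisors a b (R.le a.2) (R.le b.2) (fun z => by
      have := congrArg (fun f : R.A => (f : ℍ → ℂ) z) hab
      simpa using this)
    rcases h with h | h
    · left; exact Subtype.ext (funext h)
    · right; exact Subtype.ext (funext h)⟩
  exact NoZeroDivisors.to_isDomain _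

/-- the field of fractions -/
abbrev E : Type := FractionRing R.A

/-- the translates of the generators -/
def aH (δ : SL(2, ℤ)) (d : Dv N) : R.A := ⟨jdt d.1 δ, R.mem d δ⟩

/-- the function `P(j(d δ⁻¹ z))` -/
def polyHol (δ : SL(2, ℤ)) (P : MvPolynomial (Dv N) ℂ) : R.A :=
  MvPolynomial.aeval (R.aH δ) P

/-- evaluation at a point as an algebra hom -/
def evz (z : ℍ) : R.A →ₐ[ℂ] ℂ :=
  (Pi.evalAlgHom ℂ (fun _ : ℍ => ℂ) z).comp R.A.val

theorem polyHol_apply (δ : SL(2, ℤ)) (P : MvPolynomial (Dv N) ℂ) (z : ℍ) :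
    (R.polyHol δ P : ℍ → ℂ) z = MvPolynomial.eval (fun d : Dv N => jdt d.1 δ z) P := by
  have h := MvPolynomial.comp_aeval_apply (σ := Dv N) (R := ℂ) (f := R.aH δ) (R.evz z) P
  simp only [polyHol]
  have h2 : (R.evz z) (MvPolynomial.aeval (R.aH δ) P)
      = ((MvPolynomial.aeval (R.aH δ) P : R.A) : ℍ → ℂ) z := rfl
  rw [← h2, h, MvPolynomial.aeval_def, MvPolynomial.eval₂_eq_eval_map]
  simp only [Algebra.algebraMap_self, MvPolynomial.map_id]
  rfl

theorem polyHol_eq_zero_iff (δ : SL(2, ℤ)) (P : MvPolynomial (Dv N) ℂ) :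
    R.polyHol δ P = 0 ↔ formalEval N P = 0 := by
  rw [qexp_principle]
  constructor
  · intro h z
    have h1 := congrArg (fun f : R.A => (f : ℍ → ℂ) (δ • z)) h
    simp only [polyHol_apply] at h1
    simpa [jdt] using h1
  · intro h
    apply Subtype.ext
    funext z
    rw [polyHol_apply]
    exact h (δ⁻¹ • z)

theorem polyHol_mul_left (h δ : SL(2, ℤ)) (P : MvPolynomial (Dv N) ℂ) (z : ℍ) :
    (R.polyHol (h * δ) P : ℍ → ℂ) z = (R.polyHol δ P : ℍ → ℂ) (h⁻¹ • z) := by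
  rw [polyHol_apply, polyHol_apply]
  have : (fun d : Dv N => jdt d.1 (h * δ) z) = (fun d : Dv N => jdt d.1 δ (h⁻¹ • z)) := by
    funext d
    simp only [jdt]
    rw [mul_inv_rev, mul_smul]
  rw [this]

theorem aH_mul_right (δ γ : SL(2, ℤ)) (hγ : γ ∈ Gamma0 N) (d : Dv N) :
    R.aH (δ * γ) d = R.aH δ d := by
  apply Subtype.ext
  funext z
  show jdt d.1 (δ * γ) z = jdt d.1 δ z
  simp only [jdt]
  rw [mul_inv_rev, mul_smul]
  exact jd_smul_of_mem_Gamma0 N d γ⁻¹ (inv_mem hγ) _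

/-- the generators in `E` -/
def aE (δ : SL(2, ℤ)) (d : Dv N) : R.E := algebraMap R.A R.E (R.aH δ d)

theorem eval₂_aE (δ : SL(2, ℤ)) (P : MvPolynomial (Dv N) ℂ) :
    MvPolynomial.eval₂ (algebraMap ℂ R.E) (R.aE δ) P
      = algebraMap R.A R.E (R.polyHol δ P) := by
  have := MvPolynomial.aeval_algebraMap_apply (A := R.A) (B := R.E) (R.aH δ) P
  rw [polyHol, ← this, MvPolynomial.aeval_def]
  rfl

theorem rel (δ : SL(2, ℤ)) (P : MvPolynomial (Dv N) ℂ) :
    formalEval N P = 0 ↔ MvPolynomial.eval₂ (algebraMap ℂ R.E) (R.aE δ) P = 0 := by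
  rw [eval₂_aE, ← R.polyHol_eq_zero_iff δ]
  constructor
  · intro h; rw [h, map_zero]
  · intro h
    exact (IsFractionRing.injective R.A R.E) (by rw [h, map_zero])

/-- the embedding attached to `δ` -/
def phi (δ : SL(2, ℤ)) : ModularCurve.modularFunctionFieldBar N →+* R.E :=
  (exists_real N (algebraMap ℂ R.E) (R.aE δ) (R.rel δ)).choose

theorem phi_Jgen (δ : SL(2, ℤ)) (d : Dv N) : R.phi δ (Jgen d) = R.aE δ d :=
  (exists_real N (algebraMap ℂ R.E) (R.aE δ) (R.rel δ)).choose_spec.1 d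

theorem phi_const (δ : SL(2, ℤ)) (c : Kbar) :
    R.phi δ (algebraMap Kbar _ c) = algebraMap ℂ R.E (iota c) :=
  (exists_real N (algebraMap ℂ R.E) (R.aE δ) (R.rel δ)).choose_spec.2 c

theorem phi_mul_right (δ γ : SL(2, ℤ)) (hγ : γ ∈ Gamma0 N) :
    R.phi (δ * γ) = R.phi δ := by
  apply ringHom_ext_F
  · intro c; rw [phi_const, phi_const]
  · intro d; rw [phi_Jgen, phi_Jgen, aE, aE, R.aH_mul_right δ γ hγ]

/-- the embedding attached to a coset -/
def sigma (q : SL(2, ℤ) ⧸ Gamma0 N) : ModularCurve.modularFunctionFieldBar N →+* R.E :=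
  R.phi q.out

theorem sigma_mk (δ : SL(2, ℤ)) : R.sigma (δ : SL(2, ℤ) ⧸ Gamma0 N) = R.phi δ := by
  have h : ((δ : SL(2, ℤ) ⧸ Gamma0 N)).out = δ * (δ⁻¹ * ((δ : SL(2, ℤ) ⧸ Gamma0 N)).out) := by
    group
  have hmem : δ⁻¹ * ((δ : SL(2, ℤ) ⧸ Gamma0 N)).out ∈ Gamma0 N := by
    rw [← QuotientGroup.eq]
    exact (QuotientGroup.out_eq' _).symm
  rw [sigma, h, R.phi_mul_right δ _ hmem]

theorem phi_aeval (δ : SL(2, ℤ)) (P : MvPolynomial (Dv N) Kbar) :
    R.phi δ (MvPolynomial.aeval (fun d : Dv N => Jgen d) P)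
      = algebraMap R.A R.E (R.polyHol δ (MvPolynomial.map iota P)) := by
  rw [MvPolynomial.aeval_def, MvPolynomial.eval₂_comp_left, ← eval₂_aE, MvPolynomial.eval₂_map]
  have h1 : (R.phi δ).comp (algebraMap Kbar (ModularCurve.modularFunctionFieldBar N))
      = (algebraMap ℂ R.E).comp iota := by
    ext c
    exact R.phi_const δ c
  have h2 : (⇑(R.phi δ) ∘ fun d : Dv N => Jgen d) = R.aE δ := by
    funext d
    exact R.phi_Jgen δ d
  rw [h1, h2]

/-- the order function on `A` -/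
def oA (a : R.A) : ℤ := R.o (a : ℍ → ℂ)

theorem oA_one : R.oA 1 = 0 := R.o_const 1 one_ne_zero

theorem oA_mul (a b : R.A) (ha : a ≠ 0) (hb : b ≠ 0) : R.oA (a * b) = R.oA a + R.oA b :=
  R.o_mul a b a.2 b.2 ((R.ne_zero_iff a).1 ha) ((R.ne_zero_iff b).1 hb)

theorem oA_add (a b : R.A) (ha : a ≠ 0) (hb : b ≠ 0) (hab : a + b ≠ 0) :
    min (R.oA a) (R.oA b) ≤ R.oA (a + b) :=
  R.o_add a b a.2 b.2 ((R.ne_zero_iff a).1 ha) ((R.ne_zero_iff b).1 hb)
    ((R.ne_zero_iff (a + b)).1 hab)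

/-- the valuation on `E` -/
def w : Valuation R.E ℤᵐ⁰ :=
  (exists_valuation_of_order R.oA R.oA_one R.oA_mul R.oA_add).choose

theorem w_div (a b : R.A) (ha : a ≠ 0) (hb : b ≠ 0) :
    R.w (algebraMap R.A R.E a / algebraMap R.A R.E b) = WithZero.exp (-(R.oA a - R.oA b)) :=
  (exists_valuation_of_order R.oA R.oA_one R.oA_mul R.oA_add).choose_spec a b ha hb

theorem w_alg (a : R.A) (ha : a ≠ 0) :
    R.w (algebraMap R.A R.E a) = WithZero.exp (-(R.oA a)) := by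
  have h := R.w_div a 1 ha one_ne_zero
  rwa [map_one, div_one, oA_one, sub_zero] at h

theorem w_const (c : ℂ) : R.w (algebraMap ℂ R.E c) ≤ 1 := by
  by_cases hc : c = 0
  · rw [hc, map_zero, map_zero]
    exact zero_le_one
  · have h1 : algebraMap ℂ R.E c = algebraMap R.A R.E (algebraMap ℂ R.A c) :=
      IsScalarTower.algebraMap_apply ℂ R.A R.E c
    have h2 : algebraMap ℂ R.A c ≠ 0 := by
      intro h
      apply hc
      exact (algebraMap ℂ R.A).injective (by rw [h, map_zero])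
    rw [h1, R.w_alg _ h2]
    have h3 : R.oA (algebraMap ℂ R.A c) = 0 := R.o_const c hc
    rw [h3, neg_zero, WithZero.exp_zero]

theorem polyHol_ne_zero (δ : SL(2, ℤ)) (P : MvPolynomial (Dv N) Kbar)
    (h : MvPolynomial.aeval (fun d : Dv N => Jgen d) P ≠ 0) :
    R.polyHol δ (MvPolynomial.map iota P) ≠ 0 := by
  intro h0
  apply h
  have h1 := R.phi_aeval δ P
  rw [h0, map_zero] at h1
  exact (R.phi δ).injective (by rw [h1, map_zero])

theorem phi_frac (δ : SL(2, ℤ)) (P Q : MvPolynomial (Dv N) Kbar) :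
    R.phi δ (MvPolynomial.aeval (fun d : Dv N => Jgen d) P /
        MvPolynomial.aeval (fun d : Dv N => Jgen d) Q)
      = algebraMap R.A R.E (R.polyHol δ (MvPolynomial.map iota P)) /
        algebraMap R.A R.E (R.polyHol δ (MvPolynomial.map iota Q)) := by
  rw [map_div₀, phi_aeval, phi_aeval]

theorem w_phi_frac (δ : SL(2, ℤ)) (P Q : MvPolynomial (Dv N) Kbar)
    (hP : MvPolynomial.aeval (fun d : Dv N => Jgen d) P ≠ 0)
    (hQ : MvPolynomial.aeval (fun d : Dv N => Jgen d) Q ≠ 0) :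
    R.w (R.phi δ (MvPolynomial.aeval (fun d : Dv N => Jgen d) P /
        MvPolynomial.aeval (fun d : Dv N => Jgen d) Q))
      = WithZero.exp (-(R.oA (R.polyHol δ (MvPolynomial.map iota P))
          - R.oA (R.polyHol δ (MvPolynomial.map iota Q)))) := by
  rw [phi_frac]
  exact R.w_div _ _ (R.polyHol_ne_zero δ P hP) (R.polyHol_ne_zero δ Q hQ)

theorem polyHol_comp (h δ : SL(2, ℤ)) (P : MvPolynomial (Dv N) ℂ) :
    (fun z => (R.polyHol δ P : ℍ → ℂ) (h⁻¹ • z)) = (R.polyHol (h * δ) P : ℍ → ℂ) := by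
  funext z
  exact (R.polyHol_mul_left h δ P z).symm

omit [NeZero N] in
theorem smul_mk_eq (h δ : SL(2, ℤ)) :
    h • (δ : SL(2, ℤ) ⧸ Gamma0 N) = ((h * δ : SL(2, ℤ)) : SL(2, ℤ) ⧸ Gamma0 N) := rfl

theorem sigma_injective : Function.Injective R.sigma := by
  intro x x' hxx
  obtain ⟨δ, rfl⟩ := QuotientGroup.mk_surjective x
  obtain ⟨δ', rfl⟩ := QuotientGroup.mk_surjective x'
  rw [sigma_mk, sigma_mk] at hxx
  have h1 : R.phi δ (Jgen ⟨N, dvd_rfl⟩) = R.phi δ' (Jgen ⟨N, dvd_rfl⟩) := by rw [hxx]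
  rw [phi_Jgen, phi_Jgen] at h1
  have h2 : R.aH δ ⟨N, dvd_rfl⟩ = R.aH δ' ⟨N, dvd_rfl⟩ := IsFractionRing.injective R.A R.E h1
  have h3 : ∀ z, jdt N δ z = jdt N δ' z := fun z => congrFun (congrArg Subtype.val h2) z
  rw [QuotientGroup.eq]
  apply mem_Gamma0_of_jd_invariant
  intro z
  have h4 := h3 (δ' • z)
  simp only [jdt, inv_smul_smul] at h4
  rw [mul_smul]
  exact h4

omit [NeZero N] in
theorem heckeDiag_one_smul (z : ℍ) : ModularForm.heckeDiagMatrix 1 • z = z := by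
  apply UpperHalfPlane.ext
  rw [ModularForm.coe_heckeDiagMatrix_smul one_ne_zero]
  simp

omit [NeZero N] in
theorem jdt_one (δ : SL(2, ℤ)) : jdt 1 δ = jf := by
  funext z
  show jf (ModularForm.heckeDiagMatrix 1 • (δ⁻¹ • z)) = jf z
  rw [heckeDiag_one_smul, jf_smul]

theorem jf_mem : jf ∈ R.A := by
  have h := R.mem ⟨1, one_dvd N⟩ 1
  rwa [jdt_one] at h

theorem Jbar_eq : Jbar N = Jgen (⟨1, one_dvd N⟩ : Dv N) := by
  apply Subtype.ext
  show ModularCurve.coeffEmb (AlgebraicClosure ℚ) ModularCurve.jq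
    = ModularCurve.coeffEmb (AlgebraicClosure ℚ) (ModularCurve.qExpand ℚ 1 ModularCurve.jq)
  rw [ModularCurve.qExpand_one_apply]

theorem phi_Jbar (δ : SL(2, ℤ)) :
    R.phi δ (Jbar N) = algebraMap R.A R.E ⟨jf, R.jf_mem⟩ := by
  have h : R.aH δ ⟨1, one_dvd N⟩ = ⟨jf, R.jf_mem⟩ := Subtype.ext (jdt_one δ)
  rw [Jbar_eq, phi_Jgen, aE, h]

/-- **The generic assembly.** -/
theorem hasLocalData (r : Setoid (SL(2, ℤ) ⧸ Gamma0 N))
    (hr : ∀ x x', r x x' → ∃ h : SL(2, ℤ), x = h • x' ∧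
      ∀ a : ℍ → ℂ, a ∈ R.A → (fun z => a (h⁻¹ • z)) ∈ R.A →
        R.o (fun z => a (h⁻¹ • z)) = R.o a)
    (zF : ModularCurve.modularFunctionFieldBar N) (u v : R.A) (hu0 : u ≠ 0) (hv0 : v ≠ 0)
    (hz : ∀ δ, R.phi δ zF = algebraMap R.A R.E u / algebraMap R.A R.E v)
    (t : ℤ) (ht : 0 < t) (huv : R.oA u - R.oA v = t)
    (hH2 : ∀ x : SL(2, ℤ) ⧸ Gamma0 N, ∃ (h : SL(2, ℤ)) (m : ℤ), h • x = x ∧
       t ∣ (Nat.card {x' // r x' x} : ℤ) * m ∧
       ∀ a b : ℍ → ℂ, a ∈ R.A → b ∈ R.A → (∃ z, a z ≠ 0) → (∃ z, b z ≠ 0) →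
         (∀ z, a (h⁻¹ • z) * b z = a z * b (h⁻¹ • z)) → m ∣ R.o a - R.o b) :
    HasLocalData Kbar zF r := by
  refine ⟨R.E, inferInstance, R.w, R.sigma, R.sigma_injective, ?_, ?_, ?_, ?_, ?_, ?_⟩
  · intro x x' c
    obtain ⟨δ, rfl⟩ := QuotientGroup.mk_surjective x
    obtain ⟨δ', rfl⟩ := QuotientGroup.mk_surjective x'
    rw [sigma_mk, sigma_mk, phi_const, phi_const]
  · intro x c
    obtain ⟨δ, rfl⟩ := QuotientGroup.mk_surjective x
    rw [sigma_mk, phi_const]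
    exact R.w_const _
  · intro x x'
    obtain ⟨δ, rfl⟩ := QuotientGroup.mk_surjective x
    obtain ⟨δ', rfl⟩ := QuotientGroup.mk_surjective x'
    rw [sigma_mk, sigma_mk, hz, hz]
  · intro x
    obtain ⟨δ, rfl⟩ := QuotientGroup.mk_surjective x
    rw [sigma_mk, hz, R.w_div u v hu0 hv0, huv, ← WithZero.exp_zero, WithZero.exp_lt_exp]
    omega
  · intro x x' hxx' f
    obtain ⟨h, hx, ho⟩ := hr x x' hxx'
    obtain ⟨δ', rfl⟩ := QuotientGroup.mk_surjective x'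
    rw [hx, smul_mk_eq, sigma_mk, sigma_mk]
    obtain ⟨P, Q, hQ, rfl⟩ := exists_frac N f
    by_cases hP : MvPolynomial.aeval (fun d : Dv N => Jgen d) P = 0
    · simp only [hP, zero_div, map_zero]
    · rw [R.w_phi_frac _ P Q hP hQ, R.w_phi_frac _ P Q hP hQ]
      have e1 : R.oA (R.polyHol (h * δ') (MvPolynomial.map iota P))
          = R.oA (R.polyHol δ' (MvPolynomial.map iota P)) := by
        have := ho (R.polyHol δ' (MvPolynomial.map iota P) : ℍ → ℂ) (Subtype.property _)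
          (by rw [polyHol_comp]; exact Subtype.property _)
        rw [polyHol_comp] at this
        exact this
      have e2 : R.oA (R.polyHol (h * δ') (MvPolynomial.map iota Q))
          = R.oA (R.polyHol δ' (MvPolynomial.map iota Q)) := by
        have := ho (R.polyHol δ' (MvPolynomial.map iota Q) : ℍ → ℂ) (Subtype.property _)
          (by rw [polyHol_comp]; exact Subtype.property _)
        rw [polyHol_comp] at this
        exact this
      rw [e1, e2]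
  · intro x f hf
    obtain ⟨h, m, hx, hdvd, hm⟩ := hH2 x
    obtain ⟨δ, rfl⟩ := QuotientGroup.mk_surjective x
    obtain ⟨P, Q, hQ, rfl⟩ := exists_frac N f
    have hP : MvPolynomial.aeval (fun d : Dv N => Jgen d) P ≠ 0 := by
      intro h0
      apply hf
      rw [h0, zero_div]
    have hphi : R.phi (h * δ) = R.phi δ := by
      rw [← sigma_mk, ← sigma_mk, ← smul_mk_eq, hx]
    have hfr := congrArg (fun φ => φ (MvPolynomial.aeval (fun d : Dv N => Jgen d) P /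
        MvPolynomial.aeval (fun d : Dv N => Jgen d) Q)) hphi
    simp only [phi_frac] at hfr
    have ha := R.polyHol_ne_zero δ P hP
    have hb := R.polyHol_ne_zero δ Q hQ
    have ha' := R.polyHol_ne_zero (h * δ) P hP
    have hb' := R.polyHol_ne_zero (h * δ) Q hQ
    have hinj := IsFractionRing.injective R.A R.E
    have hne : ∀ a : R.A, a ≠ 0 → algebraMap R.A R.E a ≠ 0 := fun a ha h0 =>
      ha (hinj (by rw [h0, map_zero]))
    rw [div_eq_div_iff (hne _ hb') (hne _ hb), ← map_mul, ← map_mul] at hfr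
    have hcross := hinj hfr
    have hmd : m ∣ R.oA (R.polyHol δ (MvPolynomial.map iota P))
        - R.oA (R.polyHol δ (MvPolynomial.map iota Q)) := by
      apply hm _ _ (Subtype.property _) (Subtype.property _) ((R.ne_zero_iff _).1 ha)
        ((R.ne_zero_iff _).1 hb)
      intro z
      have h5 := congrFun (congrArg Subtype.val hcross) z
      have h6 : (R.polyHol (h * δ) (MvPolynomial.map iota P) : ℍ → ℂ) z
            * (R.polyHol δ (MvPolynomial.map iota Q) : ℍ → ℂ) z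
          = (R.polyHol δ (MvPolynomial.map iota P) : ℍ → ℂ) z
            * (R.polyHol (h * δ) (MvPolynomial.map iota Q) : ℍ → ℂ) z := h5
      rw [R.polyHol_mul_left, R.polyHol_mul_left] at h6
      exact h6
    obtain ⟨k, hk⟩ : t ∣ (Nat.card {x' // r x' (δ : SL(2, ℤ) ⧸ Gamma0 N)} : ℤ) *
        (R.oA (R.polyHol δ (MvPolynomial.map iota P))
          - R.oA (R.polyHol δ (MvPolynomial.map iota Q))) :=
      dvd_trans hdvd (mul_dvd_mul_left _ hmd)
    refine ⟨k, ?_⟩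
    rw [sigma_mk, R.w_phi_frac δ P Q hP hQ, hz, R.w_div u v hu0 hv0, huv, ← WithZero.exp_nsmul,
      ← WithZero.exp_zsmul]
    congr 1
    rw [nsmul_eq_mul, smul_eq_mul, mul_neg, mul_neg, hk]
    ring

theorem sub_const_mem (c : ℂ) : (fun z => jf z - c) ∈ R.A :=
  R.A.sub_mem R.jf_mem (R.A.algebraMap_mem c)

/-- the assembly at a finite point: `z = J - a` -/
theorem hasLocalData_sub (r : Setoid (SL(2, ℤ) ⧸ Gamma0 N))
    (hr : ∀ x x', r x x' → ∃ h : SL(2, ℤ), x = h • x' ∧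
      ∀ a : ℍ → ℂ, a ∈ R.A → (fun z => a (h⁻¹ • z)) ∈ R.A →
        R.o (fun z => a (h⁻¹ • z)) = R.o a)
    (c : Kbar) (t : ℤ) (ht : 0 < t) (h0 : ∃ z, jf z - iota c ≠ 0)
    (hord : R.o (fun z => jf z - iota c) = t)
    (hH2 : ∀ x : SL(2, ℤ) ⧸ Gamma0 N, ∃ (h : SL(2, ℤ)) (m : ℤ), h • x = x ∧
       t ∣ (Nat.card {x' // r x' x} : ℤ) * m ∧
       ∀ a b : ℍ → ℂ, a ∈ R.A → b ∈ R.A → (∃ z, a z ≠ 0) → (∃ z, b z ≠ 0) →
         (∀ z, a (h⁻¹ • z) * b z = a z * b (h⁻¹ • z)) → m ∣ R.o a - R.o b) :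
    HasLocalData Kbar (Jbar N - algebraMap Kbar _ c) r := by
  refine R.hasLocalData r hr _ ⟨fun z => jf z - iota c, R.sub_const_mem _⟩ 1
    ((R.ne_zero_iff _).2 h0) one_ne_zero ?_ t ht ?_ hH2
  · intro δ
    rw [RingHom.map_sub, phi_Jbar, phi_const, RingHom.map_one, div_one,
      IsScalarTower.algebraMap_apply ℂ R.A R.E, ← RingHom.map_sub]
    rfl
  · rw [oA_one, sub_zero]
    exact hord

/-- the assembly at the cusp: `z = J⁻¹` -/
theorem hasLocalData_inv (r : Setoid (SL(2, ℤ) ⧸ Gamma0 N))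
    (hr : ∀ x x', r x x' → ∃ h : SL(2, ℤ), x = h • x' ∧
      ∀ a : ℍ → ℂ, a ∈ R.A → (fun z => a (h⁻¹ • z)) ∈ R.A →
        R.o (fun z => a (h⁻¹ • z)) = R.o a)
    (t : ℤ) (ht : 0 < t) (h0 : ∃ z, jf z ≠ 0) (hord : R.o jf = -t)
    (hH2 : ∀ x : SL(2, ℤ) ⧸ Gamma0 N, ∃ (h : SL(2, ℤ)) (m : ℤ), h • x = x ∧
       t ∣ (Nat.card {x' // r x' x} : ℤ) * m ∧
       ∀ a b : ℍ → ℂ, a ∈ R.A → b ∈ R.A → (∃ z, a z ≠ 0) → (∃ z, b z ≠ 0) →
         (∀ z, a (h⁻¹ • z) * b z = a z * b (h⁻¹ • z)) → m ∣ R.o a - R.o b) :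
    HasLocalData Kbar (Jbar N)⁻¹ r := by
  refine R.hasLocalData r hr _ 1 ⟨jf, R.jf_mem⟩ one_ne_zero
    ((R.ne_zero_iff _).2 h0) ?_ t ht ?_ hH2
  · intro δ
    rw [map_inv₀ (R.phi δ), phi_Jbar, RingHom.map_one, one_div]
  · rw [oA_one]
    show 0 - R.o jf = t
    rw [hord]
    ring

end h20_Ring

end RH24

end
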