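/-
T-RH (S24), helper20: the ring of holomorphic functions with the order at a point `z₀`, and the
local data at a finite point.
-/
import Mathlib
import Fermat.Agent.S24.BLocalCore
import Fermat.Agent.S24.BH2
import Fermat.Agent.S24.BL

set_option autoImplicit false

noncomputable section

open UpperHalfPlane ModularForm MatrixGroups CongruenceSubgroup AlgebraicCurve IntermediateField
open scoped Manifold WithZero

namespace RH24

theorem h20_mdiff_jdt (N : ℕ) [NeZero N] (d : Dv N) (δ : SL(2, ℤ)) : MDiff (jdt d.1 δ) := by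
  have : NeZero d.1 := ⟨Dv_ne_zero d⟩
  exact mdiff_comp_smul δ⁻¹ (jd d.1) (mdiff_jd d.1)

/-- the order at `z₀` as an integer -/
def h20_oAt (z₀ : ℍ) (f : ℍ → ℂ) : ℤ := ((ordAt z₀ f).toNat : ℤ)

theorem h20_oAt_const (z₀ : ℍ) (c : ℂ) (hc : c ≠ 0) : h20_oAt z₀ (fun _ => c) = 0 := by
  have h : ordAt z₀ (fun _ : ℍ => c) = 0 :=
    (ordAt_eq_zero_iff z₀ _ mdifferentiable_const).2 hc
  simp [h20_oAt, h]

theorem h20_oAt_mul (z₀ : ℍ) (a b : ℍ → ℂ) (ha : MDiff a) (hb : MDiff b)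
    (ha0 : ∃ z, a z ≠ 0) (hb0 : ∃ z, b z ≠ 0) :
    h20_oAt z₀ (fun z => a z * b z) = h20_oAt z₀ a + h20_oAt z₀ b := by
  simp only [h20_oAt]
  rw [ordAt_mul z₀ a b ha hb,
    ENat.toNat_add (ordAt_ne_top z₀ a ha ha0) (ordAt_ne_top z₀ b hb hb0)]
  push_cast
  rfl

theorem h20_oAt_add (z₀ : ℍ) (a b : ℍ → ℂ) (ha : MDiff a) (hb : MDiff b)
    (_ha0 : ∃ z, a z ≠ 0) (_hb0 : ∃ z, b z ≠ 0) (hab : ∃ z, a z + b z ≠ 0) :
    min (h20_oAt z₀ a) (h20_oAt z₀ b) ≤ h20_oAt z₀ (fun z => a z + b z) := by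
  simp only [h20_oAt]
  have h := ordAt_add z₀ a b ha hb
  have hab' : ordAt z₀ (fun z => a z + b z) ≠ ⊤ :=
    ordAt_ne_top z₀ _ (MDifferentiable.add ha hb) hab
  have h2 := ENat.toNat_le_toNat h hab'
  rcases min_cases (ordAt z₀ a) (ordAt z₀ b) with ⟨h3, _⟩ | ⟨h3, _⟩
  · rw [h3] at h2
    exact le_trans (min_le_left _ _) (by exact_mod_cast h2)
  · rw [h3] at h2
    exact le_trans (min_le_right _ _) (by exact_mod_cast h2)

theorem h20_oAt_comp (z₀ : ℍ) (h : SL(2, ℤ)) (hz : h • z₀ = z₀) (a : ℍ → ℂ) (ha : MDiff a) :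
    h20_oAt z₀ (fun z => a (h⁻¹ • z)) = h20_oAt z₀ a := by
  simp only [h20_oAt]
  rw [ordAt_comp_smul h⁻¹ z₀ a ha]
  have : h⁻¹ • z₀ = z₀ := by
    conv_lhs => rw [← hz]
    rw [inv_smul_smul]
  rw [this]

/-- the ring of holomorphic functions with the order at `z₀` -/
def h20_ringAt (N : ℕ) [NeZero N] (z₀ : ℍ) : h20_Ring N where
  A := Hol
  le := le_refl _
  mem := h20_mdiff_jdt N
  o := h20_oAt z₀
  o_const := h20_oAt_const z₀
  o_mul := h20_oAt_mul z₀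
  o_add := h20_oAt_add z₀

/-- **Local data at a finite point** `z₀` with `j(z₀) = ι(c)`, `ord_{z₀}(j - j(z₀)) = t`. -/
theorem h20_local_point (N : ℕ) [NeZero N] (c : Kbar) (z₀ : ℍ) (t : ℕ) (ht : 0 < t)
    (hord : ordAt z₀ (fun z => jf z - iota c) = t)
    (r : Setoid (SL(2, ℤ) ⧸ Gamma0 N))
    (hr : ∀ x x', r x x' → ∃ h : SL(2, ℤ), x = h • x' ∧ h • z₀ = z₀)
    (hH2 : ∀ x : SL(2, ℤ) ⧸ Gamma0 N, ∃ (h : SL(2, ℤ)) (m : ℤ), h • x = x ∧
       (t : ℤ) ∣ (Nat.card {x' // r x' x} : ℤ) * m ∧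
       ∀ a b : ℍ → ℂ, MDiff a → MDiff b → (∃ z, a z ≠ 0) → (∃ z, b z ≠ 0) →
         (∀ z, a (h⁻¹ • z) * b z = a z * b (h⁻¹ • z)) →
          m ∣ ((ordAt z₀ a).toNat : ℤ) - ((ordAt z₀ b).toNat : ℤ)) :
    HasLocalData Kbar (Jbar N - algebraMap Kbar _ c) r := by
  refine (h20_ringAt N z₀).hasLocalData_sub r ?_ c (t : ℤ) (by exact_mod_cast ht) ?_ ?_ hH2
  · intro x x' hxx'
    obtain ⟨h, hx, hz⟩ := hr x x' hxx'
    exact ⟨h, hx, fun a ha _ => h20_oAt_comp z₀ h hz a ha⟩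
  · obtain ⟨z, hz⟩ := exists_jf_eq (iota c + 1)
    exact ⟨z, by rw [hz]; simp⟩
  · show ((ordAt z₀ (fun z => jf z - iota c)).toNat : ℤ) = t
    rw [hord]
    simp

end RH24

end
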