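import Mathlib
import Fermat.Agent.S24.C2

/-!
# T-RH (S24), slice BO (helper8): sizes of the orbit classes of a cyclic group

For `g` acting on `X`, the class of `x` under `MulAction.orbitRel (Subgroup.zpowers g) X` has
`Function.minimalPeriod (g • ·) x` elements; in particular it divides every `n > 0` with
`g ^ n • x = x`.  Also `T ^ N` acts trivially on `SL(2, ℤ) ⧸ Γ₀(N)`.
-/

set_option autoImplicit false

noncomputable section

open MatrixGroups CongruenceSubgroup

namespace RH24

/-- the class of `x` has `minimalPeriod` elements -/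
theorem h8o_card_class {G X : Type*} [Group G] [MulAction G X] (g : G) (x : X) :
    Nat.card {x' : X // (MulAction.orbitRel (Subgroup.zpowers g) X) x' x}
      = Function.minimalPeriod (fun y => g • y) x := by
  have e1 : {x' : X // (MulAction.orbitRel (Subgroup.zpowers g) X) x' x}
      ≃ ↥(MulAction.orbit (↥(Subgroup.zpowers g)) x) :=
    Equiv.subtypeEquivRight (fun _ => MulAction.orbitRel_apply)
  rw [Nat.card_congr (e1.trans (MulAction.orbitZPowersEquiv g x)), Nat.card_zmod]

/-- class size = minimal period -/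
theorem class_card_spec {G X : Type*} [Group G] [MulAction G X] (g : G) (n : ℕ) (hn : 0 < n)
    (x : X) (h : g ^ n • x = x) :
    g ^ (Nat.card {x' : X // (MulAction.orbitRel (Subgroup.zpowers g) X) x' x}) • x = x ∧
    Nat.card {x' : X // (MulAction.orbitRel (Subgroup.zpowers g) X) x' x} ∣ n ∧
    0 < Nat.card {x' : X // (MulAction.orbitRel (Subgroup.zpowers g) X) x' x} := by
  rw [h8o_card_class]
  have hdvd : Function.minimalPeriod (fun y => g • y) x ∣ n :=
    MulAction.pow_smul_eq_iff_minimalPeriod_dvd.mp h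
  exact ⟨MulAction.pow_smul_eq_iff_minimalPeriod_dvd.mpr dvd_rfl, hdvd,
    Nat.pos_of_dvd_of_pos hdvd hn⟩

theorem class_card_prime {G X : Type*} [Group G] [MulAction G X] (g : G) (n : ℕ) (hn : n.Prime)
    (x : X) (h : g ^ n • x = x) (hx : g • x ≠ x) :
    Nat.card {x' : X // (MulAction.orbitRel (Subgroup.zpowers g) X) x' x} = n := by
  rw [h8o_card_class]
  have hdvd : Function.minimalPeriod (fun y => g • y) x ∣ n :=
    MulAction.pow_smul_eq_iff_minimalPeriod_dvd.mp h
  rcases (Nat.dvd_prime hn).mp hdvd with h1 | h1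
  · exfalso
    apply hx
    have h2 : g ^ 1 • x = x := MulAction.pow_smul_eq_iff_minimalPeriod_dvd.mpr (by rw [h1])
    rwa [pow_one] at h2
  · exact h1

theorem class_card_one {G X : Type*} [Group G] [MulAction G X] (g : G)
    (x : X) (hx : g • x = x) :
    Nat.card {x' : X // (MulAction.orbitRel (Subgroup.zpowers g) X) x' x} = 1 := by
  rw [h8o_card_class]
  have h1 : g ^ 1 • x = x := by rwa [pow_one]
  exact Nat.dvd_one.mp (MulAction.pow_smul_eq_iff_minimalPeriod_dvd.mp h1)

theorem h8o_T_pow_coe (n : ℕ) :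
    ((ModularGroup.T ^ n : SL(2, ℤ)) : Matrix (Fin 2) (Fin 2) ℤ) = !![1, (n : ℤ); 0, 1] := by
  rw [← zpow_natCast, ModularGroup.coe_T_zpow]

/-- `T ^ N` acts trivially on `SL(2, ℤ) ⧸ Γ₀(N)`. -/
theorem T_pow_smul (N : ℕ) [NeZero N] (q : SL(2, ℤ) ⧸ Gamma0 N) : ModularGroup.T ^ N • q = q := by
  induction q using QuotientGroup.induction_on with
  | H g =>
    rw [h8_smul_mk_eq_iff, h8o_T_pow_coe]
    simp only [Matrix.of_apply, Matrix.cons_val', Matrix.cons_val_zero, Matrix.cons_val_one,
      Matrix.cons_val_fin_one]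
    push_cast
    rw [ZMod.natCast_self]
    ring

end RH24

end
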