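/-
T-RH (S24), helper20: local data at the elliptic points: `B_local_zero`, `B_local_1728`.
-/
import Mathlib
import Fermat.Agent.S24.BLocalAt
import Fermat.Agent.S24.BE
import Fermat.Agent.S24.BOrbit

set_option autoImplicit false

noncomputable section

open UpperHalfPlane ModularForm MatrixGroups CongruenceSubgroup AlgebraicCurve IntermediateField
open scoped Manifold WithZero

namespace RH24

theorem h20_fixed_zpowers (g : SL(2, ℤ)) (z₀ : ℍ) (hz : g • z₀ = z₀)
    (k : SL(2, ℤ)) (hk : k ∈ Subgroup.zpowers g) : k • z₀ = z₀ := by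
  obtain ⟨n, rfl⟩ := Subgroup.mem_zpowers_iff.1 hk
  have h1 : g ∈ MulAction.stabilizer SL(2, ℤ) z₀ := hz
  exact (MulAction.stabilizer SL(2, ℤ) z₀).zpow_mem h1 n

/-- local data at an elliptic point of prime order `p` -/
theorem h20_local_elliptic (N : ℕ) [NeZero N] (g : SL(2, ℤ)) (p : ℕ) (hp : p.Prime)
    (hgp : ∀ q : SL(2, ℤ) ⧸ Gamma0 N, g ^ p • q = q)
    (c : Kbar) (z₀ : ℍ) (hz : g • z₀ = z₀)
    (hord : ordAt z₀ (fun z => jf z - iota c) = p)
    (hE : ∀ a b : ℍ → ℂ, MDiff a → MDiff b → (∃ z, a z ≠ 0) → (∃ z, b z ≠ 0) →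
      (∀ z : ℍ, a (g • z) * b z = a z * b (g • z)) →
        (p : ℤ) ∣ ((ordAt z₀ a).toNat : ℤ) - ((ordAt z₀ b).toNat : ℤ)) :
    HasLocalData Kbar (Jbar N - algebraMap Kbar _ c)
      (MulAction.orbitRel (Subgroup.zpowers g) (SL(2, ℤ) ⧸ Gamma0 N)) := by
  refine h20_local_point N c z₀ p hp.pos hord _ ?_ ?_
  · intro x x' hxx'
    have h1 : x ∈ MulAction.orbit (Subgroup.zpowers g) x' := hxx'
    obtain ⟨k, hk⟩ := h1
    exact ⟨k, hk.symm, h20_fixed_zpowers g z₀ hz k k.2⟩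
  · intro x
    by_cases hx : g • x = x
    · refine ⟨g⁻¹, p, ?_, ?_, ?_⟩
      · rw [inv_smul_eq_iff, hx]
      · exact dvd_mul_left _ _
      · intro a b ha hb ha0 hb0 h
        simp only [inv_inv] at h
        exact hE a b ha hb ha0 hb0 h
    · refine ⟨1, 1, one_smul _ _, ?_, ?_⟩
      · have hc := class_card_prime g p hp x (hgp x) hx
        rw [mul_one]
        exact Dvd.intro 1 (by rw [mul_one]; exact (congrArg Nat.cast hc).symm)
      · intros
        exact one_dvd _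

/-- **B_local_zero** -/
theorem B_local_zero (N : ℕ) [NeZero N] :
    HasLocalData Kbar (Jbar N - algebraMap Kbar _ 0)
      (MulAction.orbitRel (Subgroup.zpowers (ModularGroup.S * ModularGroup.T))
        (SL(2, ℤ) ⧸ Gamma0 N)) := by
  obtain ⟨z₀, hz, hj⟩ := exists_fixed_ST
  refine h20_local_elliptic N (ModularGroup.S * ModularGroup.T) 3 Nat.prime_three
    (h8_ST_cube_smul N) 0 z₀ hz ?_
    (fun a b ha hb ha0 hb0 h => by
      exact_mod_cast three_dvd_ordAt_of_fixed z₀ hz a b ha hb ha0 hb0 h)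
  have h1 : (fun z => jf z - iota 0) = jf := by
    funext z
    simp
  rw [h1, ordAt_jf_of_zero z₀ hj]
  rfl

/-- **B_local_1728** -/
theorem B_local_1728 (N : ℕ) [NeZero N] :
    HasLocalData Kbar (Jbar N - algebraMap Kbar _ 1728)
      (MulAction.orbitRel (Subgroup.zpowers ModularGroup.S) (SL(2, ℤ) ⧸ Gamma0 N)) := by
  obtain ⟨z₀, hz, hj⟩ := exists_fixed_S
  refine h20_local_elliptic N ModularGroup.S 2 Nat.prime_two
    (h8_S_sq_smul N) 1728 z₀ hz ?_
    (fun a b ha hb ha0 hb0 h => by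
      exact_mod_cast two_dvd_ordAt_of_fixed z₀ hz a b ha hb ha0 hb0 h)
  have h1 : (fun z => jf z - iota 1728) = (fun z => jf z - 1728) := by
    funext z
    rw [map_ofNat]
  rw [h1, ordAt_jf_sub_1728 z₀ hj]
  rfl

end RH24

end
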