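/-
T-RH (S24), helper5: `B_local_generic` -- the local data at a generic point `j = a`
(`a ≠ 0, 1728`), from helper20's local data at a finite point (`S24/BLocalAt.lean`).
Exact contract statement (NOTES/S24_contract.md).
-/
import Mathlib
import Fermat.Agent.S24.BLocalAt

set_option autoImplicit false

noncomputable section

open UpperHalfPlane ModularForm MatrixGroups CongruenceSubgroup AlgebraicCurve
open scoped Manifold WithZero

namespace RH24

theorem h5_iota_ne_zero (a : Kbar) (h0 : a ≠ 0) : iota a ≠ 0 := by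
  intro h
  exact h0 (iota.injective (by rw [h, map_zero]))

theorem h5_iota_ne_1728 (a : Kbar) (h1 : a ≠ 1728) : iota a ≠ 1728 := by
  intro h
  apply h1
  apply iota.injective
  rw [h, map_ofNat]

/-- **B_local_generic** -/
theorem B_local_generic (N : ℕ) [NeZero N] (a : Kbar) (h0 : a ≠ 0) (h1 : a ≠ 1728) :
    HasLocalData Kbar (Jbar N - algebraMap Kbar _ a) (⊥ : Setoid (SL(2, ℤ) ⧸ Gamma0 N)) := by
  obtain ⟨z₀, hz₀⟩ := exists_jf_eq (iota a)
  have hord : ordAt z₀ (fun z => jf z - iota a) = ((1 : ℕ) : ℕ∞) := by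
    have h := ordAt_jf_sub_generic z₀ (by rw [hz₀]; exact h5_iota_ne_zero a h0)
      (by rw [hz₀]; exact h5_iota_ne_1728 a h1)
    rw [hz₀] at h
    rw [h]
    rfl
  refine h20_local_point N a z₀ 1 one_pos hord ⊥ ?_ ?_
  · intro x x' hxx'
    have hx : x = x' := hxx'
    exact ⟨1, by rw [hx, one_smul], one_smul _ _⟩
  · intro x
    exact ⟨1, 1, one_smul _ _, by simp, fun _ _ _ _ _ _ _ => one_dvd _⟩

end RH24

end
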