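import Mathlib
import Fermat.Agent.S24.BDefs
import Fermat.Agent.S24.BC2
import Fermat.Agent.S24.BE

/-!
# T-RH (S24) Layer B, slice BC3 (helper11): translation invariance of `ordInf` and (H2) at the cusp

With `G = h23c_G N f` (the function of `q_N`), translation by `k` on `ℍ` is multiplication by
`c = q_N(k)` on the `q`-disc.  Orders are invariant, and trailing coefficients are multiplied by
`c ^ ord`; for `k = r ∣ N`, `c` is a primitive `N/r`-th root of unity.
-/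

set_option autoImplicit false
set_option linter.style.longLine false
set_option linter.unusedVariables false

noncomputable section

open UpperHalfPlane ModularForm MatrixGroups CongruenceSubgroup Filter Topology Function
open scoped Manifold

namespace RH24

local notation "𝕢" => Function.Periodic.qParam

/-- `q_N (k + z) = q_N k * q_N z` -/
theorem h11b_qParam_add (h : ℝ) (a b : ℂ) : 𝕢 h (a + b) = 𝕢 h a * 𝕢 h b := by
  unfold Function.Periodic.qParam
  rw [← Complex.exp_add]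
  congr 1
  ring

/-- on the punctured unit disc, translation by `k` is multiplication by `q_N k` -/
theorem h11b_G_vadd (N : ℕ) [NeZero N] {f : ℍ → ℂ} (hp : ∀ z : ℍ, f ((N : ℝ) +ᵥ z) = f z)
    (k : ℝ) {q : ℂ} (hq0 : q ≠ 0) (hq1 : ‖q‖ < 1) :
    h23c_G N (fun z => f (k +ᵥ z)) q = h23c_G N f (𝕢 (N : ℝ) (k : ℂ) * q) := by
  have hN : (0 : ℝ) < N := h23c_pos N
  have him : 0 < (Function.Periodic.invQParam (N : ℝ) q).im :=
    Function.Periodic.im_invQParam_pos_of_norm_lt_one hN hq1 hq0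
  set z : ℍ := ⟨Function.Periodic.invQParam (N : ℝ) q, him⟩ with hz
  have hzq : 𝕢 (N : ℝ) (z : ℂ) = q := Function.Periodic.qParam_right_inv hN.ne' hq0
  have h1 : h23c_G N (fun z => f (k +ᵥ z)) q = f (k +ᵥ z) := by
    unfold h23c_G
    simp only
    rw [ofComplex_apply_of_im_pos him]
  have h2 : 𝕢 (N : ℝ) (k : ℂ) * q = 𝕢 (N : ℝ) ((k +ᵥ z : ℍ) : ℂ) := by
    rw [UpperHalfPlane.coe_vadd, h11b_qParam_add, hzq]
  rw [h1, h2, h23c_G_qParam N hp]

theorem h11b_G_vadd_eventuallyEq (N : ℕ) [NeZero N] {f : ℍ → ℂ}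
    (hp : ∀ z : ℍ, f ((N : ℝ) +ᵥ z) = f z) (k : ℝ) :
    h23c_G N (fun z => f (k +ᵥ z)) =ᶠ[𝓝[≠] 0] (h23c_G N f) ∘ (fun q => 𝕢 (N : ℝ) (k : ℂ) * q) := by
  have hball : Metric.ball (0 : ℂ) 1 ∈ 𝓝 (0 : ℂ) := Metric.ball_mem_nhds 0 one_pos
  rw [Filter.EventuallyEq, eventually_nhdsWithin_iff]
  filter_upwards [hball] with q hq hq0
  have hq1 : ‖q‖ < 1 := by simpa using hq
  exact h11b_G_vadd N hp k hq0 hq1

theorem h11b_mulLeft_analyticAt (c : ℂ) : AnalyticAt ℂ (fun q : ℂ => c * q) 0 := by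
  fun_prop

theorem h11b_mulLeft_deriv (c : ℂ) : deriv (fun q : ℂ => c * q) 0 = c := by
  simp

/-- BC3 -/
theorem ordInf_comp_vadd (N : ℕ) [NeZero N] (f : ℍ → ℂ) (hf : MDiff f)
    (hp : ∀ z : ℍ, f ((N : ℝ) +ᵥ z) = f z) (hg : ModerateGrowth f) (k : ℤ) :
    ordInf N (fun z => f ((k : ℝ) +ᵥ z)) = ordInf N f := by
  rw [h23c_ordInf_eq, h23c_ordInf_eq,
    meromorphicOrderAt_congr (h11b_G_vadd_eventuallyEq N hp (k : ℝ))]
  have hc : 𝕢 (N : ℝ) ((k : ℝ) : ℂ) ≠ 0 := Function.Periodic.qParam_ne_zero _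
  rw [meromorphicOrderAt_comp_of_deriv_ne_zero (h11b_mulLeft_analyticAt _)
    (by rw [h11b_mulLeft_deriv]; exact hc)]
  simp

/-- `q_N r` is a primitive `N/r`-th root of unity for `r ∣ N` -/
theorem h11b_isPrimitiveRoot_qParam (N : ℕ) [NeZero N] (r : ℕ) (hr : r ∣ N) (hr0 : r ≠ 0) :
    IsPrimitiveRoot (𝕢 (N : ℝ) ((r : ℝ) : ℂ)) (N / r) := by
  obtain ⟨t, ht⟩ := hr
  have hN0 : N ≠ 0 := NeZero.ne N
  have ht0 : t ≠ 0 := by
    rintro rfl
    exact hN0 (by simpa using ht)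
  have hdiv : N / r = t := by
    rw [ht]
    exact Nat.mul_div_cancel_left t (Nat.pos_of_ne_zero hr0)
  rw [hdiv]
  have key := Complex.isPrimitiveRoot_exp t ht0
  have heq : 𝕢 (N : ℝ) ((r : ℝ) : ℂ) = Complex.exp (2 * Real.pi * Complex.I / t) := by
    unfold Function.Periodic.qParam
    congr 1
    have hr' : (r : ℂ) ≠ 0 := by exact_mod_cast hr0
    have ht' : (t : ℂ) ≠ 0 := by exact_mod_cast ht0
    rw [ht]
    push_cast
    field_simp
  rw [heq]
  exact key

/-- BC3: (H2) at the cusp -/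
theorem dvd_ordInf_of_periodic (N : ℕ) [NeZero N] (r : ℕ) (hr : r ∣ N) (hr0 : r ≠ 0)
    (a b : ℍ → ℂ) (ha : MDiff a) (hb : MDiff b)
    (hap : ∀ z : ℍ, a ((N : ℝ) +ᵥ z) = a z) (hbp : ∀ z : ℍ, b ((N : ℝ) +ᵥ z) = b z)
    (hag : ModerateGrowth a) (hbg : ModerateGrowth b)
    (ha0 : ∃ z, a z ≠ 0) (hb0 : ∃ z, b z ≠ 0)
    (h : ∀ z : ℍ, a ((r : ℝ) +ᵥ z) * b z = a z * b ((r : ℝ) +ᵥ z)) :
    ((N / r : ℕ) : ℤ) ∣ (ordInf N a).untop₀ - (ordInf N b).untop₀ := by
  set A : ℂ → ℂ := h23c_G N a with hA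
  set B : ℂ → ℂ := h23c_G N b with hB
  set c : ℂ := 𝕢 (N : ℝ) ((r : ℝ) : ℂ) with hc
  set mul : ℂ → ℂ := fun q => c * q with hmul
  have hc0 : c ≠ 0 := Function.Periodic.qParam_ne_zero _
  have hAm : MeromorphicAt A 0 := h23c_meromorphicAt N ha hap hag
  have hBm : MeromorphicAt B 0 := h23c_meromorphicAt N hb hbp hbg
  have hAtop : meromorphicOrderAt A 0 ≠ ⊤ := ordInf_ne_top N a ha hap hag ha0
  have hBtop : meromorphicOrderAt B 0 ≠ ⊤ := ordInf_ne_top N b hb hbp hbg hb0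
  have hmul_an : AnalyticAt ℂ mul 0 := h11b_mulLeft_analyticAt c
  have hmul0 : mul 0 = 0 := by simp [hmul]
  have hmul_d : deriv mul 0 = c := h11b_mulLeft_deriv c
  have hnc : ¬ EventuallyConst mul (𝓝 (0 : ℂ)) := by
    rw [eventuallyConst_iff_analyticOrderAt_sub_eq_top,
      hmul_an.analyticOrderAt_sub_eq_one_of_deriv_ne_zero (by rw [hmul_d]; exact hc0)]
    exact ENat.one_ne_top
  have htc : meromorphicTrailingCoeffAt (mul · - mul 0) 0 = c := by
    have han : AnalyticAt ℂ (mul · - mul 0) 0 := hmul_an.sub analyticAt_const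
    have hd : deriv (mul · - mul 0) 0 = deriv mul 0 := by simp
    rw [h11b_trailingCoeff_eq_deriv han (by simp) (by rw [hd, hmul_d]; exact hc0), hd, hmul_d]
  have hAmul : MeromorphicAt (A ∘ mul) 0 := by
    have h1 : MeromorphicAt A (mul 0) := by rw [hmul0]; exact hAm
    exact h1.comp_analyticAt hmul_an
  have hBmul : MeromorphicAt (B ∘ mul) 0 := by
    have h1 : MeromorphicAt B (mul 0) := by rw [hmul0]; exact hBm
    exact h1.comp_analyticAt hmul_an
  have hAG : meromorphicTrailingCoeffAt (A ∘ mul) 0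
      = c ^ (meromorphicOrderAt A 0).untop₀ * meromorphicTrailingCoeffAt A 0 := by
    have hAm' : MeromorphicAt A (mul 0) := by rw [hmul0]; exact hAm
    rw [hAm'.meromorphicTrailingCoeffAt_comp hmul_an hnc, htc, hmul0, smul_eq_mul]
  have hBG : meromorphicTrailingCoeffAt (B ∘ mul) 0
      = c ^ (meromorphicOrderAt B 0).untop₀ * meromorphicTrailingCoeffAt B 0 := by
    have hBm' : MeromorphicAt B (mul 0) := by rw [hmul0]; exact hBm
    rw [hBm'.meromorphicTrailingCoeffAt_comp hmul_an hnc, htc, hmul0, smul_eq_mul]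
  have hAne : meromorphicTrailingCoeffAt A 0 ≠ 0 := hAm.meromorphicTrailingCoeffAt_ne_zero hAtop
  have hBne : meromorphicTrailingCoeffAt B 0 ≠ 0 := hBm.meromorphicTrailingCoeffAt_ne_zero hBtop
  -- the functional equation on the punctured disc
  have hfe : ((A ∘ mul) * B) =ᶠ[𝓝[≠] (0 : ℂ)] (A * (B ∘ mul)) := by
    have e1 := h11b_G_vadd_eventuallyEq N hap (r : ℝ)
    have e2 := h11b_G_vadd_eventuallyEq N hbp (r : ℝ)
    filter_upwards [e1, e2] with q hq1 hq2
    simp only [Pi.mul_apply]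
    rw [← hq1, ← hq2]
    exact h _
  have key := meromorphicTrailingCoeffAt_congr_nhdsNE hfe
  rw [hAmul.meromorphicTrailingCoeffAt_mul hBm, hAm.meromorphicTrailingCoeffAt_mul hBmul,
    hAG, hBG] at key
  have key2 : c ^ (meromorphicOrderAt A 0).untop₀
        * (meromorphicTrailingCoeffAt A 0 * meromorphicTrailingCoeffAt B 0)
      = c ^ (meromorphicOrderAt B 0).untop₀
        * (meromorphicTrailingCoeffAt A 0 * meromorphicTrailingCoeffAt B 0) := by
    linear_combination key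
  have key3 := mul_right_cancel₀ (mul_ne_zero hAne hBne) key2
  have hprim := h11b_isPrimitiveRoot_qParam N r hr hr0
  rw [h23c_ordInf_eq, h23c_ordInf_eq, ← hprim.zpow_eq_one_iff_dvd, zpow_sub₀ hc0, key3,
    div_self (zpow_ne_zero _ hc0)]

end RH24

end
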