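/-
T-RH (S24), helper8: the local data at the cusp, `RH24.B_local_infty`, by instantiating
helper20's generic assembly `RH24.h20_Ring.hasLocalData_inv` with the ring `HolInf N` of
`N`-periodic holomorphic functions of moderate growth and the order `ordInf N`.
-/
import Mathlib
import Fermat.Agent.S24.BLocalCore
import Fermat.Agent.S24.BI
import Fermat.Agent.S24.BC1
import Fermat.Agent.S24.BC2
import Fermat.Agent.S24.BC2J
import Fermat.Agent.S24.BC3
import Fermat.Agent.S24.BL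
import Fermat.Agent.S24.BOrbit

set_option autoImplicit false
set_option linter.style.haveILetI false

noncomputable section

open UpperHalfPlane ModularForm MatrixGroups CongruenceSubgroup
open scoped Manifold

namespace RH24

theorem h8i_mdiff_jdt (N : ℕ) [NeZero N] (d : Dv N) (δ : SL(2, ℤ)) : MDiff (jdt d.1 δ) := by
  haveI : NeZero d.1 := ⟨Dv_ne_zero d⟩
  exact mdiff_comp_smul δ⁻¹ (jd d.1) (mdiff_jd d.1)

/-- the ring at the cusp: `N`-periodic holomorphic functions of moderate growth, with the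
order in the parameter `q_N` -/
def h8_ringInf (N : ℕ) [NeZero N] : h20_Ring N where
  A := HolInf N
  le := HolInf_le_Hol N
  mem := fun d δ => ⟨h8i_mdiff_jdt N d δ, jdt_periodic N d δ, jdt_moderateGrowth N d δ⟩
  o := fun f => (ordInf N f).untop₀
  o_const := fun c hc => by
    rw [ordInf_const N c hc]
    rfl
  o_mul := by
    rintro a b ⟨ha1, ha2, ha3⟩ ⟨hb1, hb2, hb3⟩ ha0 hb0
    show (ordInf N (fun z => a z * b z)).untop₀ = (ordInf N a).untop₀ + (ordInf N b).untop₀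
    rw [ordInf_mul N a b ha1 hb1 ha2 hb2 ha3 hb3,
      WithTop.untop₀_add (ordInf_ne_top N a ha1 ha2 ha3 ha0) (ordInf_ne_top N b hb1 hb2 hb3 hb0)]
  o_add := by
    rintro a b ⟨ha1, ha2, ha3⟩ ⟨hb1, hb2, hb3⟩ ha0 hb0 hab0
    show min (ordInf N a).untop₀ (ordInf N b).untop₀ ≤ (ordInf N (fun z => a z + b z)).untop₀
    have hab : (fun z => a z + b z) ∈ HolInf N :=
      (HolInf N).add_mem ⟨ha1, ha2, ha3⟩ ⟨hb1, hb2, hb3⟩
    have hta := ordInf_ne_top N a ha1 ha2 ha3 ha0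
    have htb := ordInf_ne_top N b hb1 hb2 hb3 hb0
    have htab := ordInf_ne_top N (fun z => a z + b z) hab.1 hab.2.1 hab.2.2 hab0
    have h := ordInf_add N a b ha1 hb1 ha2 hb2 ha3 hb3
    rw [← WithTop.coe_untop₀_of_ne_top hta, ← WithTop.coe_untop₀_of_ne_top htb,
      ← WithTop.coe_untop₀_of_ne_top htab, ← WithTop.coe_min, WithTop.coe_le_coe] at h
    exact h

theorem h8i_o_apply (N : ℕ) [NeZero N] (f : ℍ → ℂ) :
    (h8_ringInf N).o f = (ordInf N f).untop₀ := rfl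

theorem h8i_mem_A (N : ℕ) [NeZero N] (f : ℍ → ℂ) :
    f ∈ (h8_ringInf N).A ↔ MDiff f ∧ (∀ z : ℍ, f ((N : ℝ) +ᵥ z) = f z) ∧ ModerateGrowth f :=
  Iff.rfl

/-- `(T ^ k)⁻¹` acts by the translation by `-k` -/
theorem h8i_T_zpow_inv_smul (k : ℤ) (z : ℍ) :
    (ModularGroup.T ^ k)⁻¹ • z = (((-k : ℤ) : ℝ) +ᵥ z : ℍ) := by
  rw [← zpow_neg, T_zpow_smul_eq_vadd]

/-- **Layer B at the cusp.** -/
theorem B_local_infty (N : ℕ) [NeZero N] :
    HasLocalData Kbar (Jbar N)⁻¹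
      (MulAction.orbitRel (Subgroup.zpowers ModularGroup.T) (SL(2, ℤ) ⧸ Gamma0 N)) := by
  have hN : 0 < N := Nat.pos_of_ne_zero (NeZero.ne N)
  refine (h8_ringInf N).hasLocalData_inv _ ?_ (N : ℤ) (by exact_mod_cast hN) ?_ ?_ ?_
  · -- (H1)
    intro x x' hxx'
    rw [MulAction.orbitRel_apply] at hxx'
    obtain ⟨⟨g, hg⟩, hgx⟩ := hxx'
    obtain ⟨k, rfl⟩ := Subgroup.mem_zpowers_iff.mp hg
    refine ⟨ModularGroup.T ^ k, hgx.symm, ?_⟩
    intro a ha _
    rw [h8i_mem_A] at ha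
    rw [h8i_o_apply, h8i_o_apply]
    have h1 : (fun z : ℍ => a ((ModularGroup.T ^ k)⁻¹ • z))
        = fun z : ℍ => a ((((-k : ℤ) : ℝ)) +ᵥ z) := by
      funext z
      rw [h8i_T_zpow_inv_smul]
    rw [h1, ordInf_comp_vadd N a ha.1 ha.2.1 ha.2.2 (-k)]
  · -- `j ≠ 0`
    obtain ⟨z, hz⟩ := exists_jf_eq 1
    exact ⟨z, by rw [hz]; exact one_ne_zero⟩
  · -- the order of `j`
    rw [h8i_o_apply, ordInf_jf]
    rfl
  · -- (H2)
    intro x
    obtain ⟨h1, h2, h3⟩ := class_card_spec ModularGroup.T N hN x (T_pow_smul N x)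
    set c : ℕ := Nat.card {x' : SL(2, ℤ) ⧸ Gamma0 N //
      (MulAction.orbitRel (Subgroup.zpowers ModularGroup.T) (SL(2, ℤ) ⧸ Gamma0 N)) x' x} with hc
    refine ⟨(ModularGroup.T ^ c)⁻¹, ((N / c : ℕ) : ℤ), ?_, ?_, ?_⟩
    · rw [inv_smul_eq_iff]
      exact h1.symm
    · have h6 : c * (N / c) = N := Nat.mul_div_cancel' h2
      rw [← Nat.cast_mul, h6]
    · intro a b ha hb ha0 hb0 hab
      rw [h8i_mem_A] at ha hb
      rw [h8i_o_apply, h8i_o_apply]
      refine dvd_ordInf_of_periodic N c h2 (Nat.pos_iff_ne_zero.mp h3) a b ha.1 hb.1 ha.2.1 hb.2.1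
        ha.2.2 hb.2.2 ha0 hb0 ?_
      intro z
      have h4 := hab z
      rw [inv_inv] at h4
      have h5 : (ModularGroup.T ^ c) • z = ((c : ℝ) +ᵥ z : ℍ) := by
        rw [← zpow_natCast, T_zpow_smul_eq_vadd]
        norm_cast
      rw [h5] at h4
      exact h4

end RH24

end
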