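import Mathlib
import Fermat.Prelude.Def_ModularCurve_ArithmeticGalois
import Fermat.Prelude.Def_ModularCurve_GenusNumerics
import Fermat.Prelude.Def_AlgebraicCurve_CanonicalDivisor
import Fermat.Agent.S24.Contract
import Fermat.Agent.S24.C1
import Fermat.Agent.S24.C2
import Fermat.Agent.S24.C3
import Fermat.Agent.S24.C4

/-!
# T-RH (S24), final assembly, part 1 (helper8)

From the Riemann–Hurwitz degree formula for `div ω` (Layer A4 applied to the Layer B contract)
and the combinatorics of Layer C, the genus of `modularFunctionFieldBar N` is `genusFormula N`.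
-/

set_option autoImplicit false

noncomputable section

open MatrixGroups CongruenceSubgroup AlgebraicCurve KaehlerDifferential

namespace RH24

/-- the pure arithmetic of the genus formula -/
theorem h8_genus_arith (n r0 r1 rinf nu2 nu3 c : ℕ) (d : ℤ)
    (hd : d = ((n : ℤ) - r0) + ((n : ℤ) - r1) - ((n : ℤ) + rinf))
    (h0 : 3 * r0 = n + 2 * nu3) (h1 : 2 * r1 = n + nu2) (hinf : rinf = c)
    (hpar : Even (n + r1 + rinf + r0)) (hle : r1 + rinf + r0 ≤ n + 2) :
    (((d + 2).toNat / 2 : ℕ) : ℚ)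
      = 1 + (n : ℚ) / 12 - (nu2 : ℚ) / 4 - (nu3 : ℚ) / 3 - (c : ℚ) / 2 := by
  obtain ⟨k, hk⟩ := hpar
  obtain ⟨q, hq1, hq2⟩ : ∃ q : ℕ, (d + 2).toNat / 2 = q ∧ 2 * q + (r1 + rinf + r0) = n + 2 := by
    refine ⟨(d + 2).toNat / 2, rfl, ?_⟩
    omega
  rw [hq1]
  have e1 : (2 * (q : ℚ) + ((r1 : ℚ) + rinf + r0)) = n + 2 := by exact_mod_cast hq2
  have e2 : (3 * (r0 : ℚ)) = n + 2 * nu3 := by exact_mod_cast h0
  have e3 : (2 * (r1 : ℚ)) = n + nu2 := by exact_mod_cast h1
  have e4 : (rinf : ℚ) = c := by exact_mod_cast hinf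
  linarith

/-- **S24 from the degree formula.** If `Ω[F⁄K] ≠ 0` and every nonzero differential has a
canonical divisor of the Riemann–Hurwitz degree, then the genus is `genusFormula N`. -/
theorem h8_genus_eq_of_degree (N : ℕ) [NeZero N]
    [AlgebraicCurve.HasCanonicalDivisor (K := AlgebraicClosure ℚ)
      (F := ↥(ModularCurve.modularFunctionFieldBar N))]
    (hne : ∃ ω : Ω[↥(ModularCurve.modularFunctionFieldBar N)⁄AlgebraicClosure ℚ], ω ≠ 0)
    (hdeg : ∀ (ω : Ω[↥(ModularCurve.modularFunctionFieldBar N)⁄AlgebraicClosure ℚ])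
      (hω : ω ≠ 0), Divisor.degree (canonicalDivisorOf hω) =
        ((Nat.card (SL(2, ℤ) ⧸ Gamma0 N) : ℤ)
            - Nat.card (Quotient (MulAction.orbitRel
                (Subgroup.zpowers (ModularGroup.S * ModularGroup.T)) (SL(2, ℤ) ⧸ Gamma0 N))))
          + ((Nat.card (SL(2, ℤ) ⧸ Gamma0 N) : ℤ)
            - Nat.card (Quotient (MulAction.orbitRel
                (Subgroup.zpowers ModularGroup.S) (SL(2, ℤ) ⧸ Gamma0 N))))
          - ((Nat.card (SL(2, ℤ) ⧸ Gamma0 N) : ℤ)
            + Nat.card (Quotient (MulAction.orbitRel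
                (Subgroup.zpowers ModularGroup.T) (SL(2, ℤ) ⧸ Gamma0 N))))) :
    (AlgebraicCurve.genus (AlgebraicClosure ℚ) ↥(ModularCurve.modularFunctionFieldBar N) : ℚ)
      = ModularCurve.genusFormula N := by
  classical
  have hg : AlgebraicCurve.genus (AlgebraicClosure ℚ) ↥(ModularCurve.modularFunctionFieldBar N)
      = (Divisor.degree (canonicalDivisorOf hne.choose_spec) + 2).toNat / 2 := by
    unfold AlgebraicCurve.genus
    exact dif_pos hne
  rw [hg, ModularCurve.genusFormula, ← card_cosets N]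
  have hgenST : Subgroup.closure {ModularGroup.S, ModularGroup.T} = (⊤ : Subgroup SL(2, ℤ)) :=
    SpecialLinearGroup.SL2Z_generators
  have hpar := orbits_parity (X := SL(2, ℤ) ⧸ Gamma0 N) ModularGroup.S ModularGroup.T
  have hle := orbits_le (X := SL(2, ℤ) ⧸ Gamma0 N) ModularGroup.S ModularGroup.T hgenST
  have h3 := three_mul_card_orbits_ST N
  have h2 := two_mul_card_orbits_S N
  have hT := card_orbits_T N
  rw [← card_cosets N] at h3 h2
  exact h8_genus_arith (Nat.card (SL(2, ℤ) ⧸ Gamma0 N)) _ _ _ _ _ _ _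
    (hdeg _ hne.choose_spec) h3 h2 hT hpar hle

end RH24

end
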